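/-
Project S36, cell [M2] (the three-component model at level `N' q²`), leaf **[CF2]** (helper23):
CUSP FACTS AT LEVEL `M q` WITH `q ∣ M` (twin of `SS/Model/CuspsFinal.lean`).  Prefix `s36mc_`.

`E₂ = lg_E L (M q) ⊆ L((X))`, `q ∣ M` an odd prime, `l₀ = λ`, `l₁ = λ(X^q)`, `l₂ = λ(X^(q²))`.
For every place `c` of `E₂ / L` and `u ∈ {λ, λ - 1, λ⁻¹}` the zeros of `u(l₀)`, `u(l₁)`, `u(l₂)`
are the same places, with order ratios in `[1/q, q]` for neighbours and `[1/q², q²]` for
`(l₀, l₂)`.

Proof: `(l₀, l₁)` is `ssm_cf_final` at level `M q` (stated for every level divisible by `q`);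
`(l₁, l₂)` is `ssm_cf_final` at level `M` transported along `β : lg_E L M → lg_E L (M q)`,
`f(X) ↦ f(X^q)` (restriction of places; ratios of orders do not see the ramification index).
No analysis of the `q - 1` middle cusps (which are not `L`-rational) is needed.

* `s36mc_zeroPair_map`   : transport of `ssm_cf_ZeroPair` along an integral field extension;
* `s36mc_zeroPair_trans` : composition `q, q' ↦ q q'`;
* `s36mc_beta`           : `β : lg_E L M →ₐ[L] lg_E L (M q)`;
* `s36mc_cuspFacts01`, `s36mc_cuspFacts12`, `s36mc_cuspFacts02`.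
-/
import Mathlib
import Fermat.Agent.SS.Model.CuspsFinal
import Fermat.Agent.JT3.Inst.Statements
import Fermat.Agent.JT3.Inst.FunFieldFacts
import Fermat.Agent.S24.Hurwitz.Places

set_option autoImplicit false
set_option linter.unusedSectionVars false
set_option linter.style.haveILetI false

noncomputable section

open AlgebraicCurve IntermediateField ModularCurve
open Fermat.Agent.SS Fermat.Agent.JT3 Fermat.Agent.S24

namespace Fermat.Agent.S36

section Abstract

variable {L : Type*} {E : Type*} {K1 : Type*} [Field L] [Field E] [Field K1] [Algebra L E]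
  [Algebra L K1] [Algebra K1 E] [IsScalarTower L K1 E] [Algebra.IsIntegral K1 E]

/-- Zero pairings go up along an integral extension of function fields. -/
theorem s36mc_zeroPair_map (q : ℕ) {a b : K1} (h : ssm_cf_ZeroPair L q a b) :
    ssm_cf_ZeroPair L q (algebraMap K1 E a) (algebraMap K1 E b) := by
  intro c hc
  have he : (0 : ℤ) < (Place.ramificationIndex (F := K1) c : ℤ) := by
    exact_mod_cast c.ramificationIndex_pos (F := K1)
  rw [c.ord_restrict (F := K1)] at hc ⊢
  rw [c.ord_restrict (F := K1)]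
  have hc' : 0 < (c.restrict K1).ord a := by
    by_contra hneg
    push Not at hneg
    have := mul_nonpos_of_nonneg_of_nonpos he.le hneg
    omega
  obtain ⟨h1, h2, h3⟩ := h (c.restrict K1) hc'
  refine ⟨mul_pos he h1, ?_, ?_⟩
  · calc (Place.ramificationIndex (F := K1) c : ℤ) * (c.restrict K1).ord b
        ≤ (Place.ramificationIndex (F := K1) c : ℤ) * ((q : ℤ) * (c.restrict K1).ord a) :=
          mul_le_mul_of_nonneg_left h2 he.le
      _ = _ := by ring
  · calc (Place.ramificationIndex (F := K1) c : ℤ) * (c.restrict K1).ord a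
        ≤ (Place.ramificationIndex (F := K1) c : ℤ) * ((q : ℤ) * (c.restrict K1).ord b) :=
          mul_le_mul_of_nonneg_left h3 he.le
      _ = _ := by ring

omit [Field K1] [Algebra L K1] [Algebra K1 E] [IsScalarTower L K1 E] [Algebra.IsIntegral K1 E] in
/-- Composition of zero pairings. -/
theorem s36mc_zeroPair_trans (q q' : ℕ) {a b d : E} (h : ssm_cf_ZeroPair L q a b)
    (h' : ssm_cf_ZeroPair L q' b d) : ssm_cf_ZeroPair L (q * q') a d := by
  intro c hc
  obtain ⟨h1, h2, h3⟩ := h c hc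
  obtain ⟨h1', h2', h3'⟩ := h' c h1
  refine ⟨h1', ?_, ?_⟩
  · push_cast
    calc c.ord d ≤ (q' : ℤ) * c.ord b := h2'
      _ ≤ (q' : ℤ) * ((q : ℤ) * c.ord a) := mul_le_mul_of_nonneg_left h2 (by positivity)
      _ = _ := by ring
  · push_cast
    calc c.ord a ≤ (q : ℤ) * c.ord b := h3
      _ ≤ (q : ℤ) * ((q' : ℤ) * c.ord d) := mul_le_mul_of_nonneg_left h3' (by positivity)
      _ = _ := by ring

/-- Transport of the whole package along an integral extension. -/
theorem s36mc_cuspFacts_map (q : ℕ) {lam lamq : K1} (h : ssm_cf_CuspFacts L q lam lamq) :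
    ssm_cf_CuspFacts L q (algebraMap K1 E lam) (algebraMap K1 E lamq) where
  zero := s36mc_zeroPair_map q h.zero
  zero' := s36mc_zeroPair_map q h.zero'
  one := by
    have := s36mc_zeroPair_map (E := E) q h.one
    rwa [map_sub, map_sub, map_one] at this
  one' := by
    have := s36mc_zeroPair_map (E := E) q h.one'
    rwa [map_sub, map_sub, map_one] at this
  inf := by
    have := s36mc_zeroPair_map (E := E) q h.inf
    rwa [map_inv₀, map_inv₀] at this
  inf' := by
    have := s36mc_zeroPair_map (E := E) q h.inf'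
    rwa [map_inv₀, map_inv₀] at this

omit [Field K1] [Algebra L K1] [Algebra K1 E] [IsScalarTower L K1 E] [Algebra.IsIntegral K1 E] in
/-- Composition of the packages. -/
theorem s36mc_cuspFacts_trans (q q' : ℕ) {l0 l1 l2 : E} (h : ssm_cf_CuspFacts L q l0 l1)
    (h' : ssm_cf_CuspFacts L q' l1 l2) : ssm_cf_CuspFacts L (q * q') l0 l2 where
  zero := s36mc_zeroPair_trans q q' h.zero h'.zero
  zero' := by
    have := s36mc_zeroPair_trans q' q h'.zero' h.zero'
    rwa [mul_comm] at this
  one := s36mc_zeroPair_trans q q' h.one h'.one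
  one' := by
    have := s36mc_zeroPair_trans q' q h'.one' h.one'
    rwa [mul_comm] at this
  inf := s36mc_zeroPair_trans q q' h.inf h'.inf
  inf' := by
    have := s36mc_zeroPair_trans q' q h'.inf' h.inf'
    rwa [mul_comm] at this

end Abstract

section Integral

variable {L : Type*} {E : Type*} {K1 : Type*} [Field L] [Field E] [Field K1] [Algebra L E]
  [Algebra L K1] [Algebra K1 E] [IsScalarTower L K1 E]

/-- A function field of one variable `E / L` is integral over every subfield `K1` containing a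
transcendental element. -/
theorem s36mc_isIntegral_of_transcendental (x : E) [Algebra.IsAlgebraic L⟮x⟯ E] (t : K1)
    (ht : Transcendental L t) : Algebra.IsIntegral K1 E := by
  set β : K1 →ₐ[L] E := IsScalarTower.toAlgHom L K1 E with hβ
  have htr : Transcendental L (β t) := fun h => ht ((isAlgebraic_algHom_iff β β.injective).1 h)
  have halg : Algebra.IsAlgebraic L⟮β t⟯ E := hw_isAlgebraic_adjoin_of_transcendental x htr
  set T : IntermediateField L E := β.fieldRange with hT
  have hle : L⟮β t⟯ ≤ T := by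
    rw [IntermediateField.adjoin_simple_le_iff]
    exact ⟨t, rfl⟩
  letI : Algebra L⟮β t⟯ T := (IntermediateField.inclusion hle).toRingHom.toAlgebra
  haveI : IsScalarTower L⟮β t⟯ T E := IsScalarTower.of_algebraMap_eq fun _ => rfl
  have halgT : ∀ y : E, IsAlgebraic T y := fun y => (halg.isAlgebraic y).tower_top T
  refine ⟨fun y => IsAlgebraic.isIntegral ?_⟩
  let e : K1 ≃ₐ[L] T := AlgEquiv.ofInjectiveField β
  have hcomp : (algebraMap T E).comp (e : K1 →+* T) =
      (RingHom.id E).comp (algebraMap K1 E) := by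
    ext t'
    rfl
  exact IsAlgebraic.of_ringHom_of_comp_eq (e : K1 →+* T) (RingHom.id E) (halgT y) e.surjective
    Function.injective_id hcomp

end Integral

section Inst

variable (L : Type*) [Field L] [CharZero L] [Algebra L (AlgebraicClosure ℚ)]
  (M q : ℕ) [NeZero M] [NeZero q]

/-- `β : lg_E L M → lg_E L (M q)`, `f(X) ↦ f(X^q)` (`q` odd). -/
def s36mc_beta (hq2 : ¬ 2 ∣ q) : ↥(lg_E L M) →ₐ[L] ↥(lg_E L (M * q)) where
  toFun x := ⟨qExpand L q (x : LaurentSeries L),
    ssm_f4_E_map_le L (M * q) dvd_rfl hq2 ⟨(x : LaurentSeries L), x.2, rfl⟩⟩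
  map_one' := Subtype.ext (by simp)
  map_mul' x y := Subtype.ext (by simp)
  map_zero' := Subtype.ext (by simp)
  map_add' x y := Subtype.ext (by simp)
  commutes' c := Subtype.ext ((qExpandAlgHomC L q).commutes c)

theorem s36mc_coe_beta (hq2 : ¬ 2 ∣ q) (x : ↥(lg_E L M)) :
    ((s36mc_beta L M q hq2 x : ↥(lg_E L (M * q))) : LaurentSeries L) =
      qExpand L q (x : LaurentSeries L) := rfl

/-- `lg_E L (M q)` is integral over `β (lg_E L M)` (`q` odd): the algebra structure is `β`. -/
theorem s36mc_beta_isIntegral (hq2 : ¬ 2 ∣ q) :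
    letI := (s36mc_beta L M q hq2).toRingHom.toAlgebra
    Algebra.IsIntegral ↥(lg_E L M) ↥(lg_E L (M * q)) := by
  have h2 : (2 : L) ≠ 0 := two_ne_zero
  haveI : FiniteDimensional L⟮(lg_lamE (M * q) : lg_E L (M * q))⟯ ↥(lg_E L (M * q)) :=
    lgf_finite L (M * q)
  have halgx : Algebra.IsAlgebraic L⟮(lg_lamE (M * q) : lg_E L (M * q))⟯ ↥(lg_E L (M * q)) :=
    Algebra.IsAlgebraic.of_finite _ _
  letI : Algebra ↥(lg_E L M) ↥(lg_E L (M * q)) := (s36mc_beta L M q hq2).toRingHom.toAlgebra
  haveI : IsScalarTower L ↥(lg_E L M) ↥(lg_E L (M * q)) :=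
    IsScalarTower.of_algebraMap_eq fun c => ((s36mc_beta L M q hq2).commutes c).symm
  exact @s36mc_isIntegral_of_transcendental L _ _ _ _ _ _ _ _ _
    (lg_lamE (M * q) : lg_E L (M * q)) halgx (lg_lamE M : lg_E L M) (lgf_lam_transcendental L M h2)

/-- the three cusp functions at level `M q`, `q ∣ M` odd -/
theorem s36mc_lam1_mem (hq : q.Prime) (hq2 : q ≠ 2) :
    qExpand L q (lg_lam L) ∈ lg_E L (M * q) :=
  ssm_cf_lamq_mem L (M * q) q hq hq2 (dvd_mul_left q M)

theorem s36mc_lam2_mem (hq : q.Prime) (hq2 : q ≠ 2) (hqM : q ∣ M) :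
    qExpand L q (qExpand L q (lg_lam L)) ∈ lg_E L (M * q) := by
  have h2q : ¬ 2 ∣ q := fun h => hq2 ((Nat.prime_dvd_prime_iff_eq Nat.prime_two hq).1 h).symm
  exact (s36mc_beta L M q h2q ⟨qExpand L q (lg_lam L), ssm_cf_lamq_mem L M q hq hq2 hqM⟩).2

/-- **[CF2] (0,1)**: the pair `(λ, λ(X^q))` at level `M q`. -/
theorem s36mc_cuspFacts01 (hq : q.Prime) (hq2 : q ≠ 2) :
    ssm_cf_CuspFacts L q (lg_lamE (M * q) : lg_E L (M * q))
      ⟨qExpand L q (lg_lam L), s36mc_lam1_mem L M q hq hq2⟩ :=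
  ssm_cf_final L (M * q) q hq hq2 (dvd_mul_left q M) (lg_lam_mem_E L (M * q))
    (s36mc_lam1_mem L M q hq hq2)

/-- **[CF2] (1,2)**: the pair `(λ(X^q), λ(X^(q²)))` at level `M q`, `q ∣ M`. -/
theorem s36mc_cuspFacts12 (hq : q.Prime) (hq2 : q ≠ 2) (hqM : q ∣ M) :
    ssm_cf_CuspFacts L q
      (⟨qExpand L q (lg_lam L), s36mc_lam1_mem L M q hq hq2⟩ : lg_E L (M * q))
      ⟨qExpand L q (qExpand L q (lg_lam L)), s36mc_lam2_mem L M q hq hq2 hqM⟩ := by
  have h2q : ¬ 2 ∣ q := fun h => hq2 ((Nat.prime_dvd_prime_iff_eq Nat.prime_two hq).1 h).symm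
  letI := (s36mc_beta L M q h2q).toRingHom.toAlgebra
  haveI : IsScalarTower L ↥(lg_E L M) ↥(lg_E L (M * q)) :=
    IsScalarTower.of_algebraMap_eq fun c => ((s36mc_beta L M q h2q).commutes c).symm
  haveI := s36mc_beta_isIntegral L M q h2q
  have h := ssm_cf_final L M q hq hq2 hqM (lg_lam_mem_E L M) (ssm_cf_lamq_mem L M q hq hq2 hqM)
  exact s36mc_cuspFacts_map (E := ↥(lg_E L (M * q))) q h

/-- **[CF2] (0,2)**: the pair `(λ, λ(X^(q²)))` at level `M q`, `q ∣ M`, with ratio `q²`. -/
theorem s36mc_cuspFacts02 (hq : q.Prime) (hq2 : q ≠ 2) (hqM : q ∣ M) :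
    ssm_cf_CuspFacts L (q * q) (lg_lamE (M * q) : lg_E L (M * q))
      ⟨qExpand L q (qExpand L q (lg_lam L)), s36mc_lam2_mem L M q hq hq2 hqM⟩ :=
  s36mc_cuspFacts_trans q q (s36mc_cuspFacts01 L M q hq hq2) (s36mc_cuspFacts12 L M q hq hq2 hqM)

end Inst

end Fermat.Agent.S36
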