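/-
Project S36 (Carayol), cell [M2] (three-component model), leaf [CP3] (helper17), ABSTRACT half:
COMPONENTS, SMOOTH CLAUSES AND THE CLASSIFICATION OF THE CLOSED POINTS.  Three-component twin of
`SS/Model/Components.lean` (Mathlib + that file + `JT3/Model/TameQuotient` only).

`φ : B' →+* B` the (integral) map from the chart of level `N'` to the chart of level `N' q²`,
`ψ : B1 →+* B` the one from the chart of level `N' q`; `PA PB PC` the three vertical primes of `B`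
(`A` = Gauss = `(F, F)`, `B` = its `W₂`-mirror `(V, V)`, `C` = the component `(F, V)` of
multiplicity `q - 1`); `PF PV` the two vertical primes of `B1`; `W : B ≃+* B` the Atkin–Lehner
mirror (`W PA = PB`, `W PC = PC`).  The special fibre is NOT reduced, so the hypothesis
`span {φ π'} = P1 ⊓ P2` of `ssm_cp_smooth` is replaced by its LOCAL form
`∃ s ∉ 𝔫, ∀ z ∈ P1, s * z ∈ span {ϖ}`.

* `s36cp_loc_of_cap`, `s36cp_not_le_of_pow` : the local form from `P1 ⊓ P2 ⊓ 𝔠 ≤ (ϖ)` (`𝔠` = the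
  contraction of `ϖ V_C`, which contains `PC ^ (q - 1)`) at a prime containing neither `P2` nor `PC`;
* `s36cp_dom`, `s36cp_smooth`, `s36cp_smooth_of_regAt`, `s36cp_smooth_of_regAt_W` : the smooth
  clauses (`tq_GenBy / tq_Dom`, the shape of `jt_RegAt`) at the points lying on `A` only, resp. (by
  `W`-transport) on `B` only, inherited from `B'`;
* `s36cp_add_W`, `s36cp_pow_W` : transport of `B = φ B' + P` along `W`;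
* `s36cp_unique_of_add`, `s36cp_point_unique` : one point of a component over each point below;
* `s36cp_third_of_node`, `s36cp_all_of_two`, `s36cp_cases` : THE CLASSIFICATION: if the point over
  a node of `B1` is unique (the conclusion "`S` is local" of [TRI]), every prime `𝔫 ∋ ϖ` of `B`
  containing two of `PA PB PC` contains all three; hence `𝔫` lies on exactly one component or on
  all three.  In particular `A` and `C` do not meet outside the triple points.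
Prefix `s36cp_`.
-/
import Mathlib
import Fermat.Agent.SS.Model.Components

set_option autoImplicit false
set_option linter.unusedSectionVars false
set_option linter.unusedVariables false
set_option linter.style.haveILetI false

namespace Fermat.Agent.S36

open Ideal Fermat.Agent.JT3 Fermat.Agent.SS

section Local

variable {B : Type*} [CommRing B]

/-- The LOCAL form of "`ϖ` generates `P1` at `𝔫`" from a (non radical) decomposition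
`P1 ⊓ P2 ⊓ 𝔠 ≤ (ϖ)` at a prime `𝔫` containing neither `P2` nor `𝔠`. -/
theorem s36cp_loc_of_cap (ϖ : B) (P1 P2 𝔠 : Ideal B) (hcap : P1 ⊓ P2 ⊓ 𝔠 ≤ Ideal.span {ϖ})
    (𝔫 : Ideal B) [𝔫.IsPrime] (h2 : ¬ P2 ≤ 𝔫) (hc : ¬ 𝔠 ≤ 𝔫) :
    ∃ s : B, s ∉ 𝔫 ∧ ∀ z ∈ P1, s * z ∈ Ideal.span {ϖ} := by
  obtain ⟨p2, hp2, hp2n⟩ := SetLike.not_le_iff_exists.mp h2
  obtain ⟨c, hc', hcn⟩ := SetLike.not_le_iff_exists.mp hc
  refine ⟨p2 * c, ?_, fun z hz => hcap ⟨⟨?_, ?_⟩, ?_⟩⟩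
  · intro h
    rcases Ideal.IsPrime.mem_or_mem ‹𝔫.IsPrime› h with h | h
    · exact hp2n h
    · exact hcn h
  · exact P1.mul_mem_left _ hz
  · rw [mul_assoc]
    exact P2.mul_mem_right _ hp2
  · rw [mul_comm p2 c, mul_assoc]
    exact 𝔠.mul_mem_right _ hc'

/-- two-ideal version (`ϖ B = P1 ⊓ 𝔠` locally: a point of `A` or `B` off the other reduced
component, `𝔠` collecting everything else). -/
theorem s36cp_loc_of_cap₂ (ϖ : B) (P1 𝔠 : Ideal B) (hcap : P1 ⊓ 𝔠 ≤ Ideal.span {ϖ})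
    (𝔫 : Ideal B) (hc : ¬ 𝔠 ≤ 𝔫) :
    ∃ s : B, s ∉ 𝔫 ∧ ∀ z ∈ P1, s * z ∈ Ideal.span {ϖ} := by
  obtain ⟨c, hc', hcn⟩ := SetLike.not_le_iff_exists.mp hc
  exact ⟨c, hcn, fun z hz => hcap ⟨P1.mul_mem_left _ hz, 𝔠.mul_mem_right _ hc'⟩⟩

/-- If `PC ^ e ≤ 𝔠` and the prime `𝔫` does not contain `PC`, it does not contain `𝔠`. -/
theorem s36cp_not_le_of_pow (PC 𝔠 : Ideal B) (e : ℕ) (hpow : PC ^ e ≤ 𝔠)
    (𝔫 : Ideal B) [𝔫.IsPrime] (hC : ¬ PC ≤ 𝔫) : ¬ 𝔠 ≤ 𝔫 := by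
  intro h
  exact hC (Ideal.IsPrime.le_of_pow_le (hpow.trans h))

/-- elementwise version: if `c ^ e ∈ 𝔠` for every `c ∈ PC`. -/
theorem s36cp_not_le_of_pow_mem (PC 𝔠 : Ideal B) (e : ℕ) (hpow : ∀ c ∈ PC, c ^ e ∈ 𝔠)
    (𝔫 : Ideal B) [𝔫.IsPrime] (hC : ¬ PC ≤ 𝔫) : ¬ 𝔠 ≤ 𝔫 := by
  intro h
  obtain ⟨c, hc, hcn⟩ := SetLike.not_le_iff_exists.mp hC
  exact hcn (Ideal.IsPrime.mem_of_pow_mem ‹𝔫.IsPrime› e (h (hpow c hc)))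

/-- (`tq_Dom` half) where `ϖ` generates the prime `P1` locally, `ϖ` is locally prime. -/
theorem s36cp_dom (ϖ : B) (P1 : Ideal B) [P1.IsPrime] (hϖ : ϖ ∈ P1) (𝔫 : Ideal B)
    (hloc : ∃ s : B, s ∉ 𝔫 ∧ ∀ z ∈ P1, s * z ∈ Ideal.span {ϖ}) : tq_Dom ϖ 𝔫 := by
  obtain ⟨s, hs, hsz⟩ := hloc
  intro a b hab
  have hab1 : a * b ∈ P1 := (Ideal.span_singleton_le_iff_mem P1).2 hϖ hab
  rcases Ideal.IsPrime.mem_or_mem ‹P1.IsPrime› hab1 with ha | hb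
  · exact ⟨s, hs, Or.inl (hsz a ha)⟩
  · exact ⟨s, hs, Or.inr (hsz b hb)⟩

end Local

section Smooth

variable {B' B : Type*} [CommRing B'] [CommRing B]

/-- (CP3-b) SMOOTH POINTS of the component `P1` where `φ π'` generates `P1` locally (no hypothesis
on the other components): the `tq_GenBy / tq_Dom` clause is inherited from `B'`, with `t` ANY lift
modulo `P1` of a local generator `t'` downstairs.  (`ssm_cp_smooth` with `span {φ π'} = P1 ⊓ P2`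
replaced by its local form.) -/
theorem s36cp_smooth (φ : B' →+* B) (π' : B') (P1 : Ideal B) [P1.IsPrime] (hπ1 : φ π' ∈ P1)
    (hadd : ∀ b : B, ∃ b' : B', b - φ b' ∈ P1)
    (𝔫 : Ideal B) [𝔫.IsPrime] (hP1n : P1 ≤ 𝔫)
    (hloc : ∃ s : B, s ∉ 𝔫 ∧ ∀ z ∈ P1, s * z ∈ Ideal.span {φ π'})
    (t' : B') (ht' : tq_GenBy π' t' (𝔫.comap φ)) (t : B) (htt : t - φ t' ∈ P1) :
    tq_GenBy (φ π') t 𝔫 ∧ tq_Dom (φ π') 𝔫 := by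
  have hdom := s36cp_dom (φ π') P1 hπ1 𝔫 hloc
  obtain ⟨p2, hp2n, hp2⟩ := hloc
  have hspan : ∀ z ∈ P1, p2 * z ∈ Ideal.span {φ π', t} := fun z hz =>
    Ideal.span_mono (by intro w hw; rw [Set.mem_singleton_iff] at hw; subst hw; simp) (hp2 z hz)
  refine ⟨⟨hP1n hπ1, ?_, ?_⟩, hdom⟩
  · have h1 : φ t' ∈ 𝔫 := ht'.2.1
    have : t = φ t' + (t - φ t') := by ring
    rw [this]
    exact 𝔫.add_mem h1 (hP1n htt)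
  · intro x hx
    obtain ⟨x', hx'⟩ := hadd x
    have hx'n : x' ∈ 𝔫.comap φ := by
      rw [Ideal.mem_comap]
      have : φ x' = x - (x - φ x') := by ring
      rw [this]
      exact 𝔫.sub_mem hx (hP1n hx')
    obtain ⟨s', hs', hs'x⟩ := ht'.2.2 x' hx'n
    obtain ⟨a, r, har⟩ := Ideal.mem_span_pair.mp hs'x
    refine ⟨φ s' * p2, ?_, ?_⟩
    · intro h
      rcases Ideal.IsPrime.mem_or_mem ‹𝔫.IsPrime› h with h | h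
      · exact hs' h
      · exact hp2n h
    · have e : φ s' * p2 * x = (p2 * φ a) * φ π' + (p2 * φ r) * t
          - φ r * (p2 * (t - φ t')) + φ s' * (p2 * (x - φ x')) := by
        have : φ s' * φ x' = φ a * φ π' + φ r * φ t' := by
          rw [← map_mul, ← map_mul, ← map_mul, ← map_add, har]
        linear_combination p2 * this
      rw [e]
      refine Ideal.add_mem _ (Ideal.sub_mem _ (Ideal.add_mem _ ?_ ?_) ?_) ?_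
      · exact Ideal.mul_mem_left _ _ (Ideal.subset_span (by simp))
      · exact Ideal.mul_mem_left _ _ (Ideal.subset_span (by simp))
      · exact Ideal.mul_mem_left _ _ (hspan _ htt)
      · exact Ideal.mul_mem_left _ _ (hspan _ hx')

/-- (CP3-b, `jt_RegAt` form) the SMOOTH clause at every maximal ideal `𝔫 ⊇ P1` of `B` where `φ π'`
generates `P1` locally, from the regularity clause of `B'`. -/
theorem s36cp_smooth_of_regAt (φ : B' →+* B) (hint : φ.IsIntegral) (π' : B')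
    (P1 : Ideal B) [P1.IsPrime] (hπ1 : φ π' ∈ P1)
    (hadd : ∀ b : B, ∃ b' : B', b - φ b' ∈ P1)
    (hreg : ∀ y : Ideal B', y.IsMaximal → π' ∈ y → (∃ u : B', tq_GenBy π' u y) ∧ tq_Dom π' y)
    (𝔫 : Ideal B) (h𝔫 : 𝔫.IsMaximal) (hP1n : P1 ≤ 𝔫)
    (hloc : ∃ s : B, s ∉ 𝔫 ∧ ∀ z ∈ P1, s * z ∈ Ideal.span {φ π'}) :
    ∃ t ∈ 𝔫, tq_GenBy (φ π') t 𝔫 ∧ tq_Dom (φ π') 𝔫 := by
  haveI := h𝔫.isPrime
  obtain ⟨⟨t', ht'⟩, -⟩ := hreg (𝔫.comap φ) (ssm_cp_comap_isMaximal φ hint 𝔫 h𝔫) (hP1n hπ1)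
  have h := s36cp_smooth φ π' P1 hπ1 hadd 𝔫 hP1n hloc t' ht' (φ t') (by simp)
  exact ⟨φ t', h.1.2.1, h⟩

/-- (CP3-b, mirrored component) the same through `W ∘ φ` (`W` an automorphism of `B` fixing the
uniformiser, `B = W φ B' + P2`). -/
theorem s36cp_smooth_of_regAt_W (φ : B' →+* B) (hint : φ.IsIntegral) (π' : B')
    (P2 : Ideal B) [P2.IsPrime] (hπ2 : φ π' ∈ P2)
    (W : B ≃+* B) (hWπ : W (φ π') = φ π')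
    (hadd : ∀ b : B, ∃ b' : B', b - W (φ b') ∈ P2)
    (hreg : ∀ y : Ideal B', y.IsMaximal → π' ∈ y → (∃ u : B', tq_GenBy π' u y) ∧ tq_Dom π' y)
    (𝔫 : Ideal B) (h𝔫 : 𝔫.IsMaximal) (hP2n : P2 ≤ 𝔫)
    (hloc : ∃ s : B, s ∉ 𝔫 ∧ ∀ z ∈ P2, s * z ∈ Ideal.span {φ π'}) :
    ∃ t ∈ 𝔫, tq_GenBy (φ π') t 𝔫 ∧ tq_Dom (φ π') 𝔫 := by
  have h := s36cp_smooth_of_regAt ((W : B →+* B).comp φ)
    (ssm_cp_isIntegral_transport φ hint W) π' P2 (by simpa [hWπ] using hπ2)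
    (fun b => by simpa using hadd b) hreg 𝔫 h𝔫 hP2n (by simpa [hWπ] using hloc)
  simpa [hWπ] using h

/-- transport of `B = φ B' + P1` along an automorphism `W` with `W P1 ⊆ P2`. -/
theorem s36cp_add_W (φ : B' →+* B) (W : B ≃+* B) (P1 P2 : Ideal B)
    (hW : ∀ x ∈ P1, W x ∈ P2) (hadd : ∀ b : B, ∃ b' : B', b - φ b' ∈ P1) :
    ∀ b : B, ∃ b' : B', b - W (φ b') ∈ P2 := by
  intro b
  obtain ⟨b', hb'⟩ := hadd (W.symm b)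
  refine ⟨b', ?_⟩
  have := hW _ hb'
  rwa [map_sub, W.apply_symm_apply] at this

/-- transport of `b ^ n ∈ φ B' + P1` along an automorphism `W` with `W P1 ⊆ P2`. -/
theorem s36cp_pow_W (φ : B' →+* B) (W : B ≃+* B) (P1 P2 : Ideal B)
    (hW : ∀ x ∈ P1, W x ∈ P2) (n : ℕ) (hpow : ∀ b : B, ∃ b' : B', b ^ n - φ b' ∈ P1) :
    ∀ b : B, ∃ b' : B', b ^ n - W (φ b') ∈ P2 := by
  intro b
  obtain ⟨b', hb'⟩ := hpow (W.symm b)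
  refine ⟨b', ?_⟩
  have := hW _ hb'
  rwa [map_sub, map_pow, W.apply_symm_apply] at this

/-- two purely inseparable steps: `b ^ q ∈ ψ B1 + P` and `b1 ^ q ∈ φ₁ B' + P1` with
`ψ P1 ⊆ P` give `b ^ (q * q) ∈ (ψ ∘ φ₁) B' + P`. -/
theorem s36cp_pow_pow {B1 : Type*} [CommRing B1] (φ₁ : B' →+* B1) (ψ : B1 →+* B)
    (P1 : Ideal B1) (P : Ideal B) (hP1 : ∀ x ∈ P1, ψ x ∈ P) (q : ℕ)
    (h1 : ∀ b1 : B1, ∃ b' : B', b1 ^ q - φ₁ b' ∈ P1)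
    (h2 : ∀ b : B, ∃ b1 : B1, b ^ q - ψ b1 ∈ P) :
    ∀ b : B, ∃ b' : B', b ^ (q * q) - ψ (φ₁ b') ∈ P := by
  intro b
  obtain ⟨b1, hb1⟩ := h2 b
  obtain ⟨b', hb'⟩ := h1 b1
  refine ⟨b', ?_⟩
  -- `(b^q)^q ≡ (ψ b1)^q` modulo `P`
  have hfrob : (b ^ q) ^ q - (ψ b1) ^ q ∈ P := by
    have h := Ideal.Quotient.eq_zero_iff_mem.2 hb1
    rw [map_sub, sub_eq_zero] at h
    rw [← Ideal.Quotient.eq_zero_iff_mem, map_sub, map_pow _ (b ^ q), map_pow _ (ψ b1), h,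
      sub_self]
  have h3 : ψ (b1 ^ q - φ₁ b') ∈ P := hP1 _ hb'
  rw [map_sub, map_pow] at h3
  have : b ^ (q * q) - ψ (φ₁ b') = ((b ^ q) ^ q - (ψ b1) ^ q) + ((ψ b1) ^ q - ψ (φ₁ b')) := by
    rw [pow_mul]; ring
  rw [this]
  exact P.add_mem hfrob h3

end Smooth

section Points

variable {B1 B : Type*} [CommRing B1] [CommRing B]

/-- (CP3-c) the point of a component `P` over a point of `B1` is unique, when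
`b ^ n ∈ ψ B1 + P` (`n = 1`: `A`, `C` over the chart of level `N'` or `N' q`; `n = q`, `q²`: `B`). -/
theorem s36cp_point_unique (ψ : B1 →+* B) (P : Ideal B) (n : ℕ) (hn : 0 < n)
    (hpow : ∀ b : B, ∃ b1 : B1, b ^ n - ψ b1 ∈ P)
    (𝔫₁ 𝔫₂ : Ideal B) [𝔫₁.IsPrime] [𝔫₂.IsPrime] (h1 : P ≤ 𝔫₁) (h2 : P ≤ 𝔫₂)
    (h : 𝔫₁.comap ψ = 𝔫₂.comap ψ) : 𝔫₁ = 𝔫₂ :=
  ssm_cp_unique ψ P n hn hpow 𝔫₁ 𝔫₂ h1 h2 h

/-- (CP3-c) `n = 1`. -/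
theorem s36cp_unique_of_add (ψ : B1 →+* B) (P : Ideal B)
    (hadd : ∀ b : B, ∃ b1 : B1, b - ψ b1 ∈ P)
    (𝔫₁ 𝔫₂ : Ideal B) [𝔫₁.IsPrime] [𝔫₂.IsPrime] (h1 : P ≤ 𝔫₁) (h2 : P ≤ 𝔫₂)
    (h : 𝔫₁.comap ψ = 𝔫₂.comap ψ) : 𝔫₁ = 𝔫₂ :=
  ssm_cp_unique ψ P 1 one_pos (fun b => by simpa using hadd b) 𝔫₁ 𝔫₂ h1 h2 h

/-- **(CP3-d), one step.**  Let `𝔫` be a prime of `B` whose contraction to `B1` is a "node"
(contains `PF` and `PV`), and assume that the prime of `B` over a node is unique ([TRI]: the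
semilocal ring over a node is local).  Then `𝔫` contains every prime `P` of `B` whose contraction
is contained in `𝔫 ∩ B1` — in particular each of `PA PB PC`. -/
theorem s36cp_third_of_node (ψ : B1 →+* B) (hint : ψ.IsIntegral)
    (Node : Ideal B1 → Prop)
    (huniq : ∀ 𝔫 𝔫' : Ideal B, 𝔫.IsPrime → 𝔫'.IsPrime → Node (𝔫.comap ψ) →
      𝔫'.comap ψ = 𝔫.comap ψ → 𝔫' = 𝔫)
    (𝔫 : Ideal B) [𝔫.IsPrime] (hnode : Node (𝔫.comap ψ))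
    (P : Ideal B) (hP : P.comap ψ ≤ 𝔫.comap ψ) : P ≤ 𝔫 := by
  haveI : (𝔫.comap ψ).IsPrime := Ideal.comap_isPrime ψ 𝔫
  obtain ⟨𝔫', hP', h𝔫', hc⟩ := ssm_cp_exists ψ hint P (𝔫.comap ψ) hP
  rw [← huniq 𝔫 𝔫' ‹_› h𝔫' hnode hc]
  exact hP'

/-- **(CP3-d) TWO OF THE THREE COMPONENTS THROUGH A POINT ⟹ ALL THREE.**
`ψ : B1 → B` the chart map from level `N' q`, `PA ∩ B1 = PF = PC ∩ B1`, `PB ∩ B1 = PV`, `W` the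
`W₂`-mirror (`W x ∈ PB ↔ x ∈ PA`, `W x ∈ PA ↔ x ∈ PB`, `W x ∈ PC ↔ x ∈ PC`), `huniq` : the
prime of `B` over a node (`PF, PV ≤ 𝔫 ∩ B1`) of `B1` is unique.  The case `PA, PC ≤ 𝔫` uses the
mirror `W ∘ ψ`, for which `PA` lies over `PV` and `PB`, `PC` over `PF`. -/
theorem s36cp_all_of_two (ψ : B1 →+* B) (hint : ψ.IsIntegral) (PF PV : Ideal B1)
    (PA PB PC : Ideal B) (hA : PA.comap ψ = PF) (hB : PB.comap ψ = PV) (hC : PC.comap ψ = PF)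
    (W : B ≃+* B) (hWA : ∀ x, W x ∈ PB ↔ x ∈ PA) (hWB : ∀ x, W x ∈ PA ↔ x ∈ PB)
    (hWC : ∀ x, W x ∈ PC ↔ x ∈ PC)
    (huniq : ∀ 𝔫 𝔫' : Ideal B, 𝔫.IsPrime → 𝔫'.IsPrime → PF ≤ 𝔫.comap ψ → PV ≤ 𝔫.comap ψ →
      𝔫'.comap ψ = 𝔫.comap ψ → 𝔫' = 𝔫)
    (𝔫 : Ideal B) [𝔫.IsPrime]
    (h2 : (PA ≤ 𝔫 ∧ PB ≤ 𝔫) ∨ (PA ≤ 𝔫 ∧ PC ≤ 𝔫) ∨ (PB ≤ 𝔫 ∧ PC ≤ 𝔫)) :
    PA ≤ 𝔫 ∧ PB ≤ 𝔫 ∧ PC ≤ 𝔫 := by
  -- the direct case: `𝔞 ∩ B1` is a node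
  have key : ∀ (𝔞 : Ideal B) [𝔞.IsPrime], PF ≤ 𝔞.comap ψ → PV ≤ 𝔞.comap ψ →
      PA ≤ 𝔞 ∧ PB ≤ 𝔞 ∧ PC ≤ 𝔞 := by
    intro 𝔞 _ hF hV
    have h3 := s36cp_third_of_node ψ hint (fun y => PF ≤ y ∧ PV ≤ y)
      (fun 𝔟 𝔟' h𝔟 h𝔟' hn hc => huniq 𝔟 𝔟' h𝔟 h𝔟' hn.1 hn.2 hc) 𝔞 ⟨hF, hV⟩
    exact ⟨h3 PA (hA ▸ hF), h3 PB (hB ▸ hV), h3 PC (hC ▸ hF)⟩
  have hFA : ∀ 𝔞 : Ideal B, PA ≤ 𝔞 → PF ≤ 𝔞.comap ψ := fun 𝔞 h => hA ▸ Ideal.comap_mono h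
  have hFC : ∀ 𝔞 : Ideal B, PC ≤ 𝔞 → PF ≤ 𝔞.comap ψ := fun 𝔞 h => hC ▸ Ideal.comap_mono h
  have hVB : ∀ 𝔞 : Ideal B, PB ≤ 𝔞 → PV ≤ 𝔞.comap ψ := fun 𝔞 h => hB ▸ Ideal.comap_mono h
  rcases h2 with ⟨h1, h2⟩ | ⟨h1, h2⟩ | ⟨h1, h2⟩
  · exact key 𝔫 (hFA 𝔫 h1) (hVB 𝔫 h2)
  · -- the mirrored case: work with `𝔪 := W 𝔫`
    let 𝔪 : Ideal B := 𝔫.comap (W.symm : B →+* B)
    haveI : 𝔪.IsPrime := Ideal.comap_isPrime _ 𝔫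
    have hm : ∀ x, x ∈ 𝔪 ↔ W.symm x ∈ 𝔫 := fun x => Iff.rfl
    -- `PB ≤ 𝔪` (from `PA ≤ 𝔫`) and `PC ≤ 𝔪` (from `PC ≤ 𝔫`)
    have hPB𝔪 : PB ≤ 𝔪 := by
      intro x hx
      rw [hm]
      apply h1
      rw [← hWA, W.apply_symm_apply]
      exact hx
    have hPC𝔪 : PC ≤ 𝔪 := by
      intro x hx
      rw [hm]
      apply h2
      rw [← hWC, W.apply_symm_apply]
      exact hx
    obtain ⟨hA𝔪, -, -⟩ := key 𝔪 (hFC 𝔪 hPC𝔪) (hVB 𝔪 hPB𝔪)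
    refine ⟨h1, ?_, h2⟩
    intro x hx
    have : W x ∈ 𝔪 := hA𝔪 ((hWB x).2 hx)
    rw [hm, W.symm_apply_apply] at this
    exact this
  · exact key 𝔫 (hFC 𝔫 h2) (hVB 𝔫 h1)

/-- `s36cp_third_of_node` for MAXIMAL ideals (uniqueness over a node only asked among the maximal
ideals: the form [TRI] delivers). -/
theorem s36cp_third_of_node_max (ψ : B1 →+* B) (hint : ψ.IsIntegral)
    (Node : Ideal B1 → Prop)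
    (huniq : ∀ 𝔫 𝔫' : Ideal B, 𝔫.IsMaximal → 𝔫'.IsMaximal → Node (𝔫.comap ψ) →
      𝔫'.comap ψ = 𝔫.comap ψ → 𝔫' = 𝔫)
    (𝔫 : Ideal B) (h𝔫 : 𝔫.IsMaximal) (hnode : Node (𝔫.comap ψ))
    (P : Ideal B) (hP : P.comap ψ ≤ 𝔫.comap ψ) : P ≤ 𝔫 := by
  haveI := h𝔫.isPrime
  have hmax : (𝔫.comap ψ).IsMaximal := ssm_cp_comap_isMaximal ψ hint 𝔫 h𝔫
  haveI : (𝔫.comap ψ).IsPrime := hmax.isPrime
  obtain ⟨𝔫', hP', h𝔫', hc⟩ := ssm_cp_exists ψ hint P (𝔫.comap ψ) hP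
  haveI := h𝔫'
  have h𝔫'max : 𝔫'.IsMaximal := ssm_cp_isMaximal_of_comap ψ hint 𝔫' (hc ▸ hmax)
  rw [← huniq 𝔫 𝔫' h𝔫 h𝔫'max hnode hc]
  exact hP'

/-- `s36cp_all_of_two` for MAXIMAL ideals. -/
theorem s36cp_all_of_two_max (ψ : B1 →+* B) (hint : ψ.IsIntegral) (PF PV : Ideal B1)
    (PA PB PC : Ideal B) (hA : PA.comap ψ = PF) (hB : PB.comap ψ = PV) (hC : PC.comap ψ = PF)
    (W : B ≃+* B) (hWA : ∀ x, W x ∈ PB ↔ x ∈ PA) (hWB : ∀ x, W x ∈ PA ↔ x ∈ PB)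
    (hWC : ∀ x, W x ∈ PC ↔ x ∈ PC)
    (huniq : ∀ 𝔫 𝔫' : Ideal B, 𝔫.IsMaximal → 𝔫'.IsMaximal → PF ≤ 𝔫.comap ψ → PV ≤ 𝔫.comap ψ →
      𝔫'.comap ψ = 𝔫.comap ψ → 𝔫' = 𝔫)
    (𝔫 : Ideal B) (h𝔫 : 𝔫.IsMaximal)
    (h2 : (PA ≤ 𝔫 ∧ PB ≤ 𝔫) ∨ (PA ≤ 𝔫 ∧ PC ≤ 𝔫) ∨ (PB ≤ 𝔫 ∧ PC ≤ 𝔫)) :
    PA ≤ 𝔫 ∧ PB ≤ 𝔫 ∧ PC ≤ 𝔫 := by
  have key : ∀ (𝔞 : Ideal B), 𝔞.IsMaximal → PF ≤ 𝔞.comap ψ → PV ≤ 𝔞.comap ψ →
      PA ≤ 𝔞 ∧ PB ≤ 𝔞 ∧ PC ≤ 𝔞 := by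
    intro 𝔞 h𝔞 hF hV
    have h3 := s36cp_third_of_node_max ψ hint (fun y => PF ≤ y ∧ PV ≤ y)
      (fun 𝔟 𝔟' h𝔟 h𝔟' hn hc => huniq 𝔟 𝔟' h𝔟 h𝔟' hn.1 hn.2 hc) 𝔞 h𝔞 ⟨hF, hV⟩
    exact ⟨h3 PA (hA ▸ hF), h3 PB (hB ▸ hV), h3 PC (hC ▸ hF)⟩
  have hFA : ∀ 𝔞 : Ideal B, PA ≤ 𝔞 → PF ≤ 𝔞.comap ψ := fun 𝔞 h => hA ▸ Ideal.comap_mono h
  have hFC : ∀ 𝔞 : Ideal B, PC ≤ 𝔞 → PF ≤ 𝔞.comap ψ := fun 𝔞 h => hC ▸ Ideal.comap_mono h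
  have hVB : ∀ 𝔞 : Ideal B, PB ≤ 𝔞 → PV ≤ 𝔞.comap ψ := fun 𝔞 h => hB ▸ Ideal.comap_mono h
  rcases h2 with ⟨h1, h2⟩ | ⟨h1, h2⟩ | ⟨h1, h2⟩
  · exact key 𝔫 h𝔫 (hFA 𝔫 h1) (hVB 𝔫 h2)
  · let 𝔪 : Ideal B := 𝔫.comap (W.symm : B →+* B)
    have h𝔪 : 𝔪.IsMaximal :=
      Ideal.comap_isMaximal_of_surjective (W.symm : B →+* B) W.symm.surjective (K := 𝔫)
    have hm : ∀ x, x ∈ 𝔪 ↔ W.symm x ∈ 𝔫 := fun x => Iff.rfl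
    have hPB𝔪 : PB ≤ 𝔪 := by
      intro x hx
      rw [hm]
      apply h1
      rw [← hWA, W.apply_symm_apply]
      exact hx
    have hPC𝔪 : PC ≤ 𝔪 := by
      intro x hx
      rw [hm]
      apply h2
      rw [← hWC, W.apply_symm_apply]
      exact hx
    obtain ⟨hA𝔪, -, -⟩ := key 𝔪 h𝔪 (hFC 𝔪 hPC𝔪) (hVB 𝔪 hPB𝔪)
    refine ⟨h1, ?_, h2⟩
    intro x hx
    have : W x ∈ 𝔪 := hA𝔪 ((hWB x).2 hx)
    rw [hm, W.symm_apply_apply] at this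
    exact this
  · exact key 𝔫 h𝔫 (hFC 𝔫 h2) (hVB 𝔫 h1)

/-- **(CP3-d) THE CLASSIFICATION OF THE POINTS OF THE SPECIAL FIBRE**: a prime `𝔫` containing one
of the three vertical primes lies on exactly one component or on all three, as soon as two
components through `𝔫` force the third one (`s36cp_all_of_two`). -/
theorem s36cp_cases (PA PB PC 𝔫 : Ideal B)
    (hvert : PA ≤ 𝔫 ∨ PB ≤ 𝔫 ∨ PC ≤ 𝔫)
    (hall : (PA ≤ 𝔫 ∧ PB ≤ 𝔫) ∨ (PA ≤ 𝔫 ∧ PC ≤ 𝔫) ∨ (PB ≤ 𝔫 ∧ PC ≤ 𝔫) →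
      PA ≤ 𝔫 ∧ PB ≤ 𝔫 ∧ PC ≤ 𝔫) :
    (PA ≤ 𝔫 ∧ ¬ PB ≤ 𝔫 ∧ ¬ PC ≤ 𝔫) ∨ (¬ PA ≤ 𝔫 ∧ PB ≤ 𝔫 ∧ ¬ PC ≤ 𝔫) ∨
      (¬ PA ≤ 𝔫 ∧ ¬ PB ≤ 𝔫 ∧ PC ≤ 𝔫) ∨ (PA ≤ 𝔫 ∧ PB ≤ 𝔫 ∧ PC ≤ 𝔫) := by
  by_cases hA : PA ≤ 𝔫 <;> by_cases hB : PB ≤ 𝔫 <;> by_cases hC : PC ≤ 𝔫
  · exact Or.inr (Or.inr (Or.inr ⟨hA, hB, hC⟩))
  · exact absurd (hall (Or.inl ⟨hA, hB⟩)).2.2 hC
  · exact absurd (hall (Or.inr (Or.inl ⟨hA, hC⟩))).2.1 hB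
  · exact Or.inl ⟨hA, hB, hC⟩
  · exact absurd (hall (Or.inr (Or.inr ⟨hB, hC⟩))).1 hA
  · exact Or.inr (Or.inl ⟨hA, hB, hC⟩)
  · exact Or.inr (Or.inr (Or.inl ⟨hA, hB, hC⟩))
  · rcases hvert with h | h | h
    · exact absurd h hA
    · exact absurd h hB
    · exact absurd h hC

end Points

end Fermat.Agent.S36
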