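/-
Project S36 (Carayol), cell [M2], leaf [CP3] (helper17), VALUATION / CHART half: the components of
the special fibre of a chart of level `N' q²` from the three valuations `VA VB VC`.  Twin of
`SS/Model/ComponentsInst.lean`, ONE VALUATION AT A TIME (so that it serves `A`, `C` — residue field
that of the Gauss ring `R'` of `K = E'` — and `B` — residue field purely inseparable of exponent
`q²` over it).

`K ⊆ E` (`K = lg_E L N'`, `E = lg_E L (N' q q)`), `R'` the Gauss DVR of `K`, `B' ⊆ K`, `B ⊆ E`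
charts, `φ : B' →+* B` induced by `K → E`, `π' ∈ B'` the uniformiser, `P_X := ssm_tp_P B V_X`.

* `s36cp_Link V R' B' B φ π'` : the link hypotheses for ONE valuation `V` of `E` over `R'`
  (`B ⊆ V`, the centre of `V` on `B'` is `π' B'`, `R' = B'_(π')`); `s36cp_link_ff` : in the
  function-field case from `V ∩ K = R'` and `ssm_tp_Over π V`;
* `s36cp_comap` : `P_V ∩ B' = π' B'`; `s36cp_hk`, `s36cp_hk_pow` : the residue hypotheses of
  `ssm_cp_add` / `ssm_cp_pow`; `s36cp_add` : `B = φ B' + P_V` (`κ(V) = κ(R')`: `A`, `C`);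
  `s36cp_pow` : `B ^ n ⊆ φ B' + P_V` (`κ(V) ^ n ⊆ κ(R')`: `B`, `n = q * q`);
* `s36cp_hloc_val` : the local form "`ϖ` generates `P_A` at `𝔫`" at a prime on `A` only, from the
  exact form `ϖ ∣ b ↔ ϖ⁻¹ b ∈ VA ⊓ VB ⊓ VC` of [TP3] and the ramification data
  (`ϖ` a uniformiser of `VA`, `VB`; `ϖ⁻¹ c ^ e ∈ VC` for `c ∈ 𝔪(VC)`, `e = q - 1`);
* `s36cp_smooth_val`, `s36cp_smooth_val_W` : THE SMOOTH CLAUSES at the closed points lying on `A`
  only, resp. (mirror by `W₂`) on `B` only: `(∃ t, tq_GenBy ϖ t 𝔫) ∧ tq_Dom ϖ 𝔫`.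
Prefix `s36cp_`.
-/
import Mathlib
import Fermat.Agent.S36.Model.Comp3
import Fermat.Agent.SS.Model.ComponentsInst

set_option autoImplicit false
set_option linter.unusedSectionVars false
set_option linter.unusedVariables false
set_option linter.style.haveILetI false

namespace Fermat.Agent.S36

open Fermat.Agent.JT3 Fermat.Agent.SS IsLocalRing

section Abs

variable {K E : Type*} [Field K] [Field E] [Algebra K E]
  {R' : Type*} [CommRing R'] [Algebra R' K] [Algebra R' E] [IsScalarTower R' K E]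
  {A0 : Type*} [CommRing A0] [Algebra A0 K] [Algebra A0 E]
  {B' : Subalgebra A0 K} {B : Subalgebra A0 E}

/-- **link hypotheses** between the chart `B'` of `K`, the chart `B` of `E` and ONE valuation
subring `V` of `E` lying over `R'`. -/
structure s36cp_Link (V : ValuationSubring E) (R' : Type*) [CommRing R'] [Algebra R' K]
    (B' : Subalgebra A0 K) (B : Subalgebra A0 E) (φ : B' →+* B) (π' : B') : Prop where
  hφ : ∀ b' : B', (φ b' : E) = algebraMap K E (b' : K)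
  le : ∀ b : B, (b : E) ∈ V
  pi : algebraMap K E (π' : K) ∈ V.nonunits
  cen : ∀ b' : B', algebraMap K E (b' : K) ∈ V.nonunits → π' ∣ b'
  loc : ∀ r : R', ∃ x y : B', algebraMap K E (y : K) ∉ V.nonunits ∧
    algebraMap R' K r * (y : K) = (x : K)

variable {V : ValuationSubring E} {φ : B' →+* B} {π' : B'}

theorem s36cp_Link.le' (Lk : s36cp_Link V R' B' B φ π') : ∀ b ∈ B, b ∈ V :=
  fun b hb => Lk.le ⟨b, hb⟩

theorem s36cp_Link.P_isPrime (Lk : s36cp_Link V R' B' B φ π') : (ssm_tp_P B V).IsPrime :=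
  ssm_tp_P_isPrime Lk.le'

theorem s36cp_Link.mem_P (Lk : s36cp_Link V R' B' B φ π') {b : B} :
    b ∈ ssm_tp_P B V ↔ (b : E) ∈ V.nonunits := ssm_tp_mem_P Lk.le'

/-- `P_V ∩ B' = π' B'` -/
theorem s36cp_comap (Lk : s36cp_Link V R' B' B φ π') :
    (ssm_tp_P B V).comap φ = Ideal.span {π'} := by
  apply le_antisymm
  · intro b' hb'
    rw [Ideal.mem_comap, Lk.mem_P, Lk.hφ] at hb'
    exact Ideal.mem_span_singleton.2 (Lk.cen b' hb')
  · rw [Ideal.span_singleton_le_iff_mem, Ideal.mem_comap, Lk.mem_P, Lk.hφ]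
    exact Lk.pi

/-- `φ π' ∈ P_V`. -/
theorem s36cp_pi_mem (Lk : s36cp_Link V R' B' B φ π') : φ π' ∈ ssm_tp_P B V := by
  rw [Lk.mem_P, Lk.hφ]
  exact Lk.pi

/-- the residue hypothesis `hκ` of `ssm_cp_pow` for the exponent `n` (`κ(V) ^ n ⊆ κ(R')`). -/
theorem s36cp_hk_pow (Lk : s36cp_Link V R' B' B φ π') (n : ℕ)
    (hpow : ∀ a ∈ V, ∃ r : R', a ^ n - algebraMap R' E r ∈ V.nonunits) (b : B) :
    ∃ x y : B', φ y ∉ ssm_tp_P B V ∧ φ y * b ^ n - φ x ∈ ssm_tp_P B V := by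
  obtain ⟨r, hr⟩ := hpow (b : E) (Lk.le b)
  obtain ⟨x, y, hy, hxy⟩ := Lk.loc r
  refine ⟨x, y, ?_, ?_⟩
  · rw [Lk.mem_P, Lk.hφ]
    exact hy
  · rw [Lk.mem_P]
    have h1 : ((φ y * b ^ n - φ x : B) : E) =
        ((b : E) ^ n - algebraMap R' E r) * algebraMap K E (y : K) := by
      rw [AddSubgroupClass.coe_sub, MulMemClass.coe_mul, SubmonoidClass.coe_pow, Lk.hφ, Lk.hφ,
        ← hxy, map_mul, ← IsScalarTower.algebraMap_apply R' K E]
      ring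
    rw [h1]
    have hyV : algebraMap K E (y : K) ∈ V := by
      rw [← Lk.hφ]; exact Lk.le _
    exact ssm_tp_nonunits_mul _ hr hyV

/-- the residue hypothesis `hκ` of `ssm_cp_add` (`κ(V) = κ(R')`). -/
theorem s36cp_hk (Lk : s36cp_Link V R' B' B φ π')
    (hres : ∀ a ∈ V, ∃ r : R', a - algebraMap R' E r ∈ V.nonunits) (b : B) :
    ∃ x y : B', φ y ∉ ssm_tp_P B V ∧ φ y * b - φ x ∈ ssm_tp_P B V := by
  obtain ⟨x, y, hy, h⟩ := s36cp_hk_pow Lk 1 (fun a ha => by simpa using hres a ha) b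
  exact ⟨x, y, hy, by simpa using h⟩

/-- **`B = φ B' + P_V`** when `κ(V) = κ(R')` (components `A`, `C`). -/
theorem s36cp_add (Lk : s36cp_Link V R' B' B φ π')
    (hres : ∀ a ∈ V, ∃ r : R', a - algebraMap R' E r ∈ V.nonunits)
    (hint : φ.IsIntegral) (hπ' : (Ideal.span {π'} : Ideal B').IsPrime)
    (hic : IsIntegrallyClosed (B' ⧸ (Ideal.span {π'} : Ideal B'))) :
    ∀ b : B, ∃ b' : B', b - φ b' ∈ ssm_tp_P B V := by
  haveI := Lk.P_isPrime
  exact ssm_cp_add φ hint π' _ hπ' hic (s36cp_comap Lk) (s36cp_hk Lk hres)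

/-- **`B ^ n ⊆ φ B' + P_V`** when `κ(V) ^ n ⊆ κ(R')` (component `B`, `n = q * q`). -/
theorem s36cp_pow (Lk : s36cp_Link V R' B' B φ π') (n : ℕ)
    (hpow : ∀ a ∈ V, ∃ r : R', a ^ n - algebraMap R' E r ∈ V.nonunits)
    (hint : φ.IsIntegral) (hπ' : (Ideal.span {π'} : Ideal B').IsPrime)
    (hic : IsIntegrallyClosed (B' ⧸ (Ideal.span {π'} : Ideal B'))) :
    ∀ b : B, ∃ b' : B', b ^ n - φ b' ∈ ssm_tp_P B V := by
  haveI := Lk.P_isPrime
  exact ssm_cp_pow φ hint π' _ hπ' hic (s36cp_comap Lk) n (s36cp_hk_pow Lk n hpow)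

end Abs

section Loc

variable {E : Type*} [Field E] {A0 : Type*} [CommRing A0] [Algebra A0 E] {B : Subalgebra A0 E}

/-- **the local form "`ϖ` generates `P_A` at `𝔫`"** at a prime `𝔫` containing neither `P_B` nor
`P_C`, from the exact description `ϖ ∣ b ⟸ ϖ⁻¹ b ∈ VA, VB, VC` of `ϖ B` ([TP3]) and the
ramification data: `ϖ` a uniformiser of `VA` and `VB`, `ϖ⁻¹ c ^ e ∈ VC` for `c ∈ 𝔪(VC)`. -/
theorem s36cp_hloc_val (ϖ : B) (VA VB VC : ValuationSubring E)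
    (leA : ∀ b ∈ B, b ∈ VA) (leB : ∀ b ∈ B, b ∈ VB) (leC : ∀ b ∈ B, b ∈ VC)
    (hdiv : ∀ b : B, (ϖ : E)⁻¹ * (b : E) ∈ VA → (ϖ : E)⁻¹ * (b : E) ∈ VB →
      (ϖ : E)⁻¹ * (b : E) ∈ VC → ϖ ∣ b)
    (unifA : ∀ a ∈ VA.nonunits, (ϖ : E)⁻¹ * a ∈ VA)
    (unifB : ∀ a ∈ VB.nonunits, (ϖ : E)⁻¹ * a ∈ VB)
    (e : ℕ) (ramC : ∀ a ∈ VC.nonunits, (ϖ : E)⁻¹ * a ^ e ∈ VC)
    (𝔫 : Ideal B) [𝔫.IsPrime] (hB : ¬ ssm_tp_P B VB ≤ 𝔫) (hC : ¬ ssm_tp_P B VC ≤ 𝔫) :
    ∃ s : B, s ∉ 𝔫 ∧ ∀ z ∈ ssm_tp_P B VA, s * z ∈ Ideal.span {ϖ} := by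
  obtain ⟨p, hp, hpn⟩ := SetLike.not_le_iff_exists.mp hB
  obtain ⟨c, hc, hcn⟩ := SetLike.not_le_iff_exists.mp hC
  rw [ssm_tp_mem_P leB] at hp
  rw [ssm_tp_mem_P leC] at hc
  refine ⟨p * c ^ e, ?_, ?_⟩
  · intro h
    rcases Ideal.IsPrime.mem_or_mem ‹𝔫.IsPrime› h with h | h
    · exact hpn h
    · exact hcn (Ideal.IsPrime.mem_of_pow_mem ‹𝔫.IsPrime› e h)
  · intro z hz
    rw [ssm_tp_mem_P leA] at hz
    rw [Ideal.mem_span_singleton]
    apply hdiv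
    · have : (ϖ : E)⁻¹ * ((p * c ^ e * z : B) : E) =
          ((ϖ : E)⁻¹ * (z : E)) * ((p : E) * (c : E) ^ e) := by
        push_cast; ring
      rw [this]
      exact VA.mul_mem _ _ (unifA _ hz)
        (VA.mul_mem _ _ (leA _ p.2) (VA.pow_mem (leA _ c.2) e))
    · have : (ϖ : E)⁻¹ * ((p * c ^ e * z : B) : E) =
          ((ϖ : E)⁻¹ * (p : E)) * ((c : E) ^ e * (z : E)) := by
        push_cast; ring
      rw [this]
      exact VB.mul_mem _ _ (unifB _ hp)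
        (VB.mul_mem _ _ (VB.pow_mem (leB _ c.2) e) (leB _ z.2))
    · have : (ϖ : E)⁻¹ * ((p * c ^ e * z : B) : E) =
          ((ϖ : E)⁻¹ * (c : E) ^ e) * ((p : E) * (z : E)) := by
        push_cast; ring
      rw [this]
      exact VC.mul_mem _ _ (ramC _ hc) (VC.mul_mem _ _ (leC _ p.2) (leC _ z.2))

end Loc

section SmoothVal

variable {K E : Type*} [Field K] [Field E] [Algebra K E]
  {R' : Type*} [CommRing R'] [Algebra R' K] [Algebra R' E] [IsScalarTower R' K E]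
  {A0 : Type*} [CommRing A0] [Algebra A0 K] [Algebra A0 E]
  {B' : Subalgebra A0 K} {B : Subalgebra A0 E} {φ : B' →+* B} {π' : B'}

/-- **SMOOTH clause at the closed points lying on the component `A` only**
(`P_B ⊄ 𝔫`, `P_C ⊄ 𝔫`), inherited from the regularity clause of the chart `B'` of level `N'`. -/
theorem s36cp_smooth_val (VA VB VC : ValuationSubring E)
    (Lk : s36cp_Link VA R' B' B φ π')
    (hres : ∀ a ∈ VA, ∃ r : R', a - algebraMap R' E r ∈ VA.nonunits)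
    (hint : φ.IsIntegral) (hπ' : (Ideal.span {π'} : Ideal B').IsPrime)
    (hic : IsIntegrallyClosed (B' ⧸ (Ideal.span {π'} : Ideal B')))
    (hreg : ∀ y : Ideal B', y.IsMaximal → π' ∈ y → (∃ u : B', tq_GenBy π' u y) ∧ tq_Dom π' y)
    (leB : ∀ b ∈ B, b ∈ VB) (leC : ∀ b ∈ B, b ∈ VC)
    (hdiv : ∀ b : B, ((φ π' : B) : E)⁻¹ * (b : E) ∈ VA → ((φ π' : B) : E)⁻¹ * (b : E) ∈ VB →
      ((φ π' : B) : E)⁻¹ * (b : E) ∈ VC → φ π' ∣ b)
    (unifA : ∀ a ∈ VA.nonunits, ((φ π' : B) : E)⁻¹ * a ∈ VA)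
    (unifB : ∀ a ∈ VB.nonunits, ((φ π' : B) : E)⁻¹ * a ∈ VB)
    (e : ℕ) (ramC : ∀ a ∈ VC.nonunits, ((φ π' : B) : E)⁻¹ * a ^ e ∈ VC)
    (𝔫 : Ideal B) (h𝔫 : 𝔫.IsMaximal) (hA : ssm_tp_P B VA ≤ 𝔫)
    (hB : ¬ ssm_tp_P B VB ≤ 𝔫) (hC : ¬ ssm_tp_P B VC ≤ 𝔫) :
    (∃ t : B, tq_GenBy (φ π') t 𝔫) ∧ tq_Dom (φ π') 𝔫 := by
  haveI := Lk.P_isPrime
  haveI := h𝔫.isPrime
  have hloc := s36cp_hloc_val (φ π') VA VB VC Lk.le' leB leC hdiv unifA unifB e ramC 𝔫 hB hC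
  obtain ⟨t, -, h1, h2⟩ := s36cp_smooth_of_regAt φ hint π' (ssm_tp_P B VA) (s36cp_pi_mem Lk)
    (s36cp_add Lk hres hint hπ' hic) hreg 𝔫 h𝔫 hA hloc
  exact ⟨⟨t, h1⟩, h2⟩

/-- **SMOOTH clause at the closed points lying on the component `B` only** (`P_A ⊄ 𝔫`,
`P_C ⊄ 𝔫`), by transport along the mirror `W` (`W₂`), which has to preserve the chart `B`
([I2]: `s36ig_W_charts`), to fix `φ π'` and to exchange `𝔪(VA)` and `𝔪(VB)`. -/
theorem s36cp_smooth_val_W (VA VB VC : ValuationSubring E)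
    (Lk : s36cp_Link VA R' B' B φ π')
    (hres : ∀ a ∈ VA, ∃ r : R', a - algebraMap R' E r ∈ VA.nonunits)
    (hint : φ.IsIntegral) (hπ' : (Ideal.span {π'} : Ideal B').IsPrime)
    (hic : IsIntegrallyClosed (B' ⧸ (Ideal.span {π'} : Ideal B')))
    (hreg : ∀ y : Ideal B', y.IsMaximal → π' ∈ y → (∃ u : B', tq_GenBy π' u y) ∧ tq_Dom π' y)
    (leB : ∀ b ∈ B, b ∈ VB) (leC : ∀ b ∈ B, b ∈ VC)
    (hdiv : ∀ b : B, ((φ π' : B) : E)⁻¹ * (b : E) ∈ VA → ((φ π' : B) : E)⁻¹ * (b : E) ∈ VB →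
      ((φ π' : B) : E)⁻¹ * (b : E) ∈ VC → φ π' ∣ b)
    (unifA : ∀ a ∈ VA.nonunits, ((φ π' : B) : E)⁻¹ * a ∈ VA)
    (unifB : ∀ a ∈ VB.nonunits, ((φ π' : B) : E)⁻¹ * a ∈ VB)
    (e : ℕ) (ramC : ∀ a ∈ VC.nonunits, ((φ π' : B) : E)⁻¹ * a ^ e ∈ VC)
    (W : E ≃+* E) (WB : B ≃+* B) (hWB : ∀ b : B, (WB b : E) = W (b : E))
    (hWπ : WB (φ π') = φ π')
    (hWAB : ∀ x : E, x ∈ VA.nonunits → W x ∈ VB.nonunits)
    (𝔫 : Ideal B) (h𝔫 : 𝔫.IsMaximal) (hB : ssm_tp_P B VB ≤ 𝔫)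
    (hA : ¬ ssm_tp_P B VA ≤ 𝔫) (hC : ¬ ssm_tp_P B VC ≤ 𝔫) :
    (∃ t : B, tq_GenBy (φ π') t 𝔫) ∧ tq_Dom (φ π') 𝔫 := by
  haveI := Lk.P_isPrime
  haveI : (ssm_tp_P B VB).IsPrime := ssm_tp_P_isPrime leB
  haveI := h𝔫.isPrime
  have hloc := s36cp_hloc_val (φ π') VB VA VC leB Lk.le' leC
    (fun b h1 h2 h3 => hdiv b h2 h1 h3) unifB unifA e ramC 𝔫 hA hC
  have hadd := s36cp_add Lk hres hint hπ' hic
  have hW : ∀ x ∈ ssm_tp_P B VA, WB x ∈ ssm_tp_P B VB := by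
    intro x hx
    rw [Lk.mem_P] at hx
    rw [ssm_tp_mem_P leB, hWB]
    exact hWAB _ hx
  have hadd2 := s36cp_add_W φ WB _ _ hW hadd
  have hπB : φ π' ∈ ssm_tp_P B VB := by
    rw [← hWπ]
    exact hW _ (s36cp_pi_mem Lk)
  obtain ⟨t, -, h1, h2⟩ := s36cp_smooth_of_regAt_W φ hint π' (ssm_tp_P B VB) hπB WB hWπ hadd2
    hreg 𝔫 h𝔫 hB hloc
  exact ⟨⟨t, h1⟩, h2⟩

end SmoothVal

/-! ### the link hypotheses in the function-field case -/

section FF

open IntermediateField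

universe u v

variable {K : Type u} {E : Type v} [Field K] [Field E] [Algebra K E]
  {R' : Type*} [CommRing R'] [Algebra R' K] [Algebra R' E] [IsScalarTower R' K E]
  {A0 L : Type*} [CommRing A0] [IsDomain A0] [IsDiscreteValuationRing A0]
  [Field L] [Algebra A0 L] [IsFractionRing A0 L] [Algebra L E] [Algebra A0 E]
  [IsScalarTower A0 L E] [Algebra A0 K] [IsScalarTower A0 K E] [Algebra L K] [IsScalarTower A0 L K]

/-- **the link hypotheses for the charts `fc_chart A0 {y} ⊆ K`, `fc_chart A0 {ι y} ⊆ E`**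
(`y = x'` or `x'⁻¹`) and ONE valuation subring `V` of `E` with `V ∩ K = R'` lying over the Gauss
ring of `A0[ι y]`, from `π` prime on the chart of `K` and the Gauss valuation `VK` of `K`
(`= R'`). -/
theorem s36cp_link_ff {π : A0} (hπ : Irreducible π) {y : K}
    (hy : Transcendental L y) [FiniteDimensional L⟮y⟯ K]
    (hyE : Transcendental L (algebraMap K E y))
    (hprime : Prime (algebraMap A0 (fc_chart A0 ({y} : Set K)) π))
    (VK : ValuationSubring K) (hVK : ∀ z : K, z ∈ VK ↔ z ∈ (algebraMap R' K).range)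
    (hover : ssm_tp_Over (algebraMap A0 (Algebra.adjoin A0 ({y} : Set K)) π) VK)
    (V : ValuationSubring E)
    (hVover : ∀ z : K, algebraMap K E z ∈ V ↔ z ∈ (algebraMap R' K).range)
    (hV : ssm_tp_Over (algebraMap A0 (Algebra.adjoin A0 ({algebraMap K E y} : Set E)) π) V) :
    s36cp_Link V R' (fc_chart A0 ({y} : Set K)) (fc_chart A0 ({algebraMap K E y} : Set E))
      (ssm_cpi_phi A0 E y) (algebraMap A0 (fc_chart A0 ({y} : Set K)) π) := by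
  have hyA : Transcendental A0 y := fc_ff_transcendental (L := L) hy
  have hyEA : Transcendental A0 (algebraMap K E y) := fc_ff_transcendental (L := L) hyE
  haveI : IsIntegrallyClosed (Algebra.adjoin A0 ({y} : Set K)) := fc_ff_isIntegrallyClosed hyA
  haveI : FaithfulSMul (Algebra.adjoin A0 ({y} : Set K)) K :=
    (faithfulSMul_iff_algebraMap_injective _ _).2 Subtype.val_injective
  haveI : IsIntegrallyClosed (Algebra.adjoin A0 ({algebraMap K E y} : Set E)) :=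
    fc_ff_isIntegrallyClosed hyEA
  haveI : FaithfulSMul (Algebra.adjoin A0 ({algebraMap K E y} : Set E)) E :=
    (faithfulSMul_iff_algebraMap_injective _ _).2 Subtype.val_injective
  have hp := (sfc_ff_prime_pi hπ hyA).1
  have hFT : Algebra.FiniteType A0 (Algebra.adjoin A0 ({y} : Set K)) := by
    rw [← Subalgebra.fg_iff_finiteType]
    exact ⟨{y}, by rw [Finset.coe_singleton]⟩
  haveI : IsNoetherianRing (Algebra.adjoin A0 ({y} : Set K)) :=
    Algebra.FiniteType.isNoetherianRing A0 _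
  haveI : Algebra.IsAlgebraic (Algebra.adjoin A0 ({y} : Set K)) K := fc_ff_isAlgebraic (L := L) y
  have hfin : ∀ a : Algebra.adjoin A0 ({y} : Set K), a ≠ 0 → ∃ (k : ℕ)
      (s : Algebra.adjoin A0 ({y} : Set K)),
      ¬ algebraMap A0 (Algebra.adjoin A0 ({y} : Set K)) π ∣ s ∧
        a = algebraMap A0 (Algebra.adjoin A0 ({y} : Set K)) π ^ k * s :=
    fun a ha => WfDvdMonoid.max_power_factor ha hp.irreducible
  have halg : ∀ z : K, IsAlgebraic (Algebra.adjoin A0 ({y} : Set K)) z :=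
    fun z => Algebra.IsAlgebraic.isAlgebraic z
  have hpi : ssm_tpw_PrimeInt (Algebra.adjoin A0 ({y} : Set K)) K
      (algebraMap A0 (Algebra.adjoin A0 ({y} : Set K)) π) :=
    ssm_tpw_primeInt_of_prime (R := Algebra.adjoin A0 ({y} : Set K))
      (π := algebraMap A0 (Algebra.adjoin A0 ({y} : Set K)) π)
      (fc_chart A0 ({y} : Set K)) (fun _ => Iff.rfl) _ rfl hprime
  have hC := ssm_tp_ff_chart (L := L) hπ hyE
  -- `VK = V ∩ K`
  have hVKnon : ∀ z : K, algebraMap K E z ∈ V.nonunits ↔ z ∈ VK.nonunits := by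
    intro z
    rw [ssm_tw_nonunits_iff, ssm_tw_nonunits_iff, ← map_inv₀, hVover z, hVover z⁻¹, hVK z,
      hVK z⁻¹, map_eq_zero]
  refine ⟨fun _ => rfl, fun b => hC.le hV b.2, ?_, ?_, ?_⟩
  · have : algebraMap K E ((algebraMap A0 (fc_chart A0 ({y} : Set K)) π :
        fc_chart A0 ({y} : Set K)) : K) = algebraMap A0 E π := by
      change algebraMap K E (algebraMap A0 K π) = algebraMap A0 E π
      rw [← IsScalarTower.algebraMap_apply]
    rw [this]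
    exact hV.pi_mem
  · intro b' hb'
    obtain ⟨d, hd, hbd⟩ := ssm_tpw_centre hover hp.ne_zero hpi b'.2 ((hVKnon _).1 hb')
    exact ⟨⟨d, hd⟩, Subtype.ext hbd⟩
  · intro r
    have hz : algebraMap R' K r ∈ VK := (hVK _).2 ⟨r, rfl⟩
    obtain ⟨b, s, hb, hs, hns, hzs⟩ := (ssm_tpw_mem_iff hover hp hfin halg hpi).1 hz
    refine ⟨⟨b, hb⟩, ⟨s, hs⟩, ?_, hzs⟩
    intro hsV
    exact hns (ssm_tpw_centre hover hp.ne_zero hpi hs ((hVKnon _).1 hsV))

end FF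

end Fermat.Agent.S36
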