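/-
Project S36 (Carayol), cell [M2] (model), leaf [TP3] (helper24), part 1 (Mathlib only): finitely many
valuation subrings `V i` of a field `E` and their intersection `D = ⨅ i, V i`
(Matsumura, Commutative ring theory, Theorem 12.2).

* `s36tp_exists_geom` : for every `z : E` there is `s ≥ 2` such that `u = 1 + z + ⋯ + z^(s-1)`
  satisfies `u ≠ 0`, `u⁻¹ ∈ V i` and `z u⁻¹ ∈ V i` for ALL `i`;
* `s36tp_exists_frac` : every `z ∈ V i` is a fraction `a / b` with `a, b ∈ D` and `b` a unit of `V i`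
  (`D_{𝔪(V i) ∩ D} = V i`);
* `s36tp_exists_sep`  : if the `V i` are pairwise incomparable, for every `i` there is `t ∈ D` which
  is a unit of `V i` and lies in `𝔪(V j)` for every `j ≠ i`.
Prefix `s36tp_`.
-/
import Mathlib

set_option autoImplicit false
set_option linter.unusedSectionVars false

namespace Fermat.Agent.S36

open Finset

section VS

variable {E : Type*} [Field E]

/-- `u_s = 1 + z + ⋯ + z^(s-1)` -/
def s36tp_geom (z : E) (s : ℕ) : E := ∑ i ∈ range s, z ^ i

theorem s36tp_geom_zero (z : E) : s36tp_geom z 0 = 0 := by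
  rw [s36tp_geom, range_zero, sum_empty]

theorem s36tp_geom_one (z : E) : s36tp_geom z 1 = 1 := by
  rw [s36tp_geom, range_one, sum_singleton, pow_zero]

theorem s36tp_geom_add (z : E) (s t : ℕ) :
    s36tp_geom z (s + t) = s36tp_geom z s + z ^ s * s36tp_geom z t := by
  rw [s36tp_geom, s36tp_geom, s36tp_geom, sum_range_add, mul_sum]
  congr 1
  exact sum_congr rfl fun i _ => pow_add z s i

theorem s36tp_geom_succ' (z : E) (s : ℕ) :
    s36tp_geom z (s + 1) = 1 + z * s36tp_geom z s := by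
  rw [add_comm s 1, s36tp_geom_add, s36tp_geom_one, pow_one]

variable (V : ValuationSubring E)

theorem s36tp_nonunits_add {a b : E} (ha : a ∈ V.nonunits) (hb : b ∈ V.nonunits) :
    a + b ∈ V.nonunits := by
  rw [ValuationSubring.mem_nonunits_iff] at ha hb ⊢
  exact Valuation.map_add_lt _ ha hb

theorem s36tp_nonunits_mul {a b : E} (ha : a ∈ V.nonunits) (hb : b ∈ V) :
    a * b ∈ V.nonunits := by
  rw [ValuationSubring.mem_nonunits_iff] at ha ⊢
  rw [map_mul]
  have hb' : V.valuation b ≤ 1 := (V.valuation_le_one_iff b).mpr hb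
  calc V.valuation a * V.valuation b ≤ V.valuation a * 1 := mul_le_mul_right hb' _
    _ = V.valuation a := mul_one _
    _ < 1 := ha

theorem s36tp_one_not_mem : (1 : E) ∉ V.nonunits := by
  rw [ValuationSubring.mem_nonunits_iff, map_one]
  exact lt_irrefl 1

theorem s36tp_zero_mem : (0 : E) ∈ V.nonunits := by
  rw [ValuationSubring.mem_nonunits_iff, map_zero]
  exact zero_lt_one

theorem s36tp_inv_mem {a : E} (hn : a ∉ V.nonunits) : a⁻¹ ∈ V := by
  rw [ValuationSubring.mem_nonunits_iff_or] at hn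
  push Not at hn
  exact hn.2

theorem s36tp_ne_zero {a : E} (hn : a ∉ V.nonunits) : a ≠ 0 := by
  rintro rfl
  exact hn (s36tp_zero_mem V)

theorem s36tp_mul_not_mem {a b : E} (ha' : a ∉ V.nonunits) (hb' : b ∉ V.nonunits) :
    a * b ∉ V.nonunits := by
  intro h
  have h1 := s36tp_nonunits_mul V h (V.mul_mem _ _ (s36tp_inv_mem V hb') (s36tp_inv_mem V ha'))
  have ha0 := s36tp_ne_zero V ha'
  have hb0 := s36tp_ne_zero V hb'
  have : a * b * (b⁻¹ * a⁻¹) = 1 := by field_simp
  rw [this] at h1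
  exact s36tp_one_not_mem V h1

theorem s36tp_pow_not_mem {a : E} (ha' : a ∉ V.nonunits) (k : ℕ) : a ^ k ∉ V.nonunits := by
  induction k with
  | zero => rw [pow_zero]; exact s36tp_one_not_mem V
  | succ k ih => rw [pow_succ]; exact s36tp_mul_not_mem V ih ha'

theorem s36tp_prod_not_mem {ι : Type*} (S : Finset ι) (t : ι → E)
    (h : ∀ j ∈ S, t j ∉ V.nonunits) : ∏ j ∈ S, t j ∉ V.nonunits := by
  classical
  induction S using Finset.induction_on with
  | empty => rw [prod_empty]; exact s36tp_one_not_mem V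
  | insert a S ha ih =>
    rw [prod_insert ha]
    exact s36tp_mul_not_mem V (h a (mem_insert_self a S))
      (ih fun j hj => h j (mem_insert_of_mem hj))

theorem s36tp_geom_mem {z : E} (hz : z ∈ V) (s : ℕ) : s36tp_geom z s ∈ V :=
  V.toSubring.sum_mem fun i _ => V.pow_mem hz i

/-- `1 + (non-unit)` is a unit -/
theorem s36tp_one_add_not_mem {a : E} (ha : a ∈ V.nonunits) : 1 + a ∉ V.nonunits := by
  intro h
  have hneg : -a ∈ V.nonunits := by
    rw [ValuationSubring.mem_nonunits_iff] at ha ⊢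
    rwa [Valuation.map_neg]
  have := s36tp_nonunits_add V h hneg
  rw [add_neg_cancel_right] at this
  exact s36tp_one_not_mem V this

/-- if `z ∈ 𝔪(V)` then `u_{s+1}` is a unit of `V` -/
theorem s36tp_geom_unit_of_nonunit {z : E} (hz : z ∈ V.nonunits) (s : ℕ) :
    s36tp_geom z (s + 1) ∉ V.nonunits := by
  rw [s36tp_geom_succ']
  exact s36tp_one_add_not_mem V
    (s36tp_nonunits_mul V hz (s36tp_geom_mem V (V.nonunits_subset hz) s))

/-- the property wanted of `u = u_s` at `V` -/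
def s36tp_Good (z : E) (s : ℕ) : Prop :=
  s36tp_geom z s ≠ 0 ∧ (s36tp_geom z s)⁻¹ ∈ V ∧ z * (s36tp_geom z s)⁻¹ ∈ V

/-- (A) `z ∉ V`: every `s ≥ 2` is good -/
theorem s36tp_good_of_not_mem {z : E} (hz : z ∉ V) {s : ℕ} (hs : 2 ≤ s) : s36tp_Good V z s := by
  have hz0 : z ≠ 0 := fun h => hz (h ▸ V.zero_mem)
  have hzi : z⁻¹ ∈ V.nonunits := by
    rw [ValuationSubring.inv_mem_nonunits_iff]
    exact Or.inr hz
  obtain ⟨k, rfl⟩ : ∃ k, s = k + 2 := ⟨s - 2, by omega⟩
  -- `u_s = z^(k+1) * w`, `w = u_s(z⁻¹)` a unit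
  have hw := s36tp_geom_unit_of_nonunit V hzi (k + 1)
  have hw0 := s36tp_ne_zero V hw
  have key : s36tp_geom z (k + 2) = z ^ (k + 1) * s36tp_geom z⁻¹ (k + 2) := by
    rw [s36tp_geom, s36tp_geom, mul_sum]
    rw [← Finset.sum_range_reflect]
    refine sum_congr rfl fun i hi => ?_
    have hi' : i < k + 2 := mem_range.mp hi
    have e1 : k + 2 - 1 - i = k + 1 - i := by omega
    rw [e1, inv_pow]
    have e2 : k + 1 = (k + 1 - i) + i := by omega
    conv_rhs => rw [e2, pow_add]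
    field_simp
  have hu0 : s36tp_geom z (k + 2) ≠ 0 := by
    rw [key]
    exact mul_ne_zero (pow_ne_zero _ hz0) hw0
  refine ⟨hu0, ?_, ?_⟩
  · rw [key, mul_inv, ← inv_pow]
    exact V.mul_mem _ _ (V.pow_mem (V.nonunits_subset hzi) _) (s36tp_inv_mem V hw)
  · rw [key, mul_inv, ← mul_assoc]
    refine V.mul_mem _ _ ?_ (s36tp_inv_mem V hw)
    have : z * (z ^ (k + 1))⁻¹ = z⁻¹ ^ k := by
      rw [pow_succ, inv_pow]
      field_simp
    rw [this]
    exact V.pow_mem (V.nonunits_subset hzi) _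

/-- (B) `z ∈ V` and `u_s` a unit of `V`: `s` is good -/
theorem s36tp_good_of_unit {z : E} (hz : z ∈ V) {s : ℕ} (hu : s36tp_geom z s ∉ V.nonunits) :
    s36tp_Good V z s :=
  ⟨s36tp_ne_zero V hu, s36tp_inv_mem V hu, V.mul_mem _ _ hz (s36tp_inv_mem V hu)⟩

/-- (C) the bad `s` are the multiples of one `d ≥ 2` -/
theorem s36tp_exists_period {z : E} (hz : z ∈ V) :
    ∃ d : ℕ, 2 ≤ d ∧ ∀ s : ℕ, s36tp_geom z s ∈ V.nonunits → d ∣ s := by
  classical
  by_cases hzn : z ∈ V.nonunits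
  · refine ⟨2, le_rfl, fun s hs => ?_⟩
    rcases Nat.eq_zero_or_pos s with rfl | hpos
    · exact dvd_zero _
    · obtain ⟨k, rfl⟩ : ∃ k, s = k + 1 := ⟨s - 1, by omega⟩
      exact absurd hs (s36tp_geom_unit_of_nonunit V hzn k)
  · by_cases hex : ∃ s : ℕ, 0 < s ∧ s36tp_geom z s ∈ V.nonunits
    · obtain ⟨d, ⟨hdpos, hdmem⟩, hmin0⟩ : ∃ d : ℕ, (0 < d ∧ s36tp_geom z d ∈ V.nonunits) ∧
          ∀ r : ℕ, r < d → ¬ (0 < r ∧ s36tp_geom z r ∈ V.nonunits) :=
        ⟨Nat.find hex, Nat.find_spec hex, fun r hr => Nat.find_min hex hr⟩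
      have hmin : ∀ r : ℕ, r < d → 0 < r → s36tp_geom z r ∉ V.nonunits :=
        fun r hr hpos hmem => hmin0 r hr ⟨hpos, hmem⟩
      have hd2 : 2 ≤ d := by
        by_contra hlt
        have hd1 : d = 1 := by omega
        rw [hd1, s36tp_geom_one] at hdmem
        exact s36tp_one_not_mem V hdmem
      have hmul : ∀ a : ℕ, s36tp_geom z (d * a) ∈ V.nonunits := by
        intro a
        induction a with
        | zero => rw [mul_zero, s36tp_geom_zero]; exact s36tp_zero_mem V
        | succ a ih =>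
          rw [mul_add, mul_one, s36tp_geom_add]
          refine s36tp_nonunits_add V ih ?_
          rw [mul_comm]
          exact s36tp_nonunits_mul V hdmem (V.pow_mem hz _)
      refine ⟨d, hd2, fun s hs => ?_⟩
      rw [← Nat.div_add_mod s d, s36tp_geom_add] at hs
      -- `z^(d a) * u_r ∈ 𝔪`
      have h1 : z ^ (d * (s / d)) * s36tp_geom z (s % d) ∈ V.nonunits := by
        have hneg : -s36tp_geom z (d * (s / d)) ∈ V.nonunits := by
          have := hmul (s / d)
          rw [ValuationSubring.mem_nonunits_iff] at this ⊢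
          rwa [Valuation.map_neg]
        have := s36tp_nonunits_add V hs hneg
        rwa [add_comm (s36tp_geom z (d * (s / d))), add_neg_cancel_right] at this
      have h2 : s36tp_geom z (s % d) ∈ V.nonunits := by
        by_contra hnot
        exact s36tp_mul_not_mem V (s36tp_pow_not_mem V hzn _) hnot h1
      have hr0 : s % d = 0 := by
        by_contra hne
        exact hmin (s % d) (Nat.mod_lt _ hdpos) (Nat.pos_of_ne_zero hne) h2
      exact Nat.dvd_of_mod_eq_zero hr0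
    · refine ⟨2, le_rfl, fun s hs => ?_⟩
      rcases Nat.eq_zero_or_pos s with rfl | hpos
      · exact dvd_zero _
      · exact absurd ⟨s, hpos, hs⟩ hex

end VS

section Family

variable {E : Type*} [Field E] {ι : Type*} [Fintype ι] (V : ι → ValuationSubring E)

/-- **(D)** one `s ≥ 2` which is good at every `V i` -/
theorem s36tp_exists_geom (z : E) : ∃ s : ℕ, 2 ≤ s ∧ ∀ i, s36tp_Good (V i) z s := by
  classical
  have hd : ∀ i, ∃ d : ℕ, 2 ≤ d ∧ (z ∈ V i → ∀ s : ℕ, s36tp_geom z s ∈ (V i).nonunits → d ∣ s) := by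
    intro i
    by_cases hz : z ∈ V i
    · obtain ⟨d, hd2, hd⟩ := s36tp_exists_period (V i) hz
      exact ⟨d, hd2, fun _ => hd⟩
    · exact ⟨2, le_rfl, fun h => absurd h hz⟩
  choose d hd2 hd using hd
  have hprod : 1 ≤ ∏ i, d i := Nat.one_le_iff_ne_zero.mpr
    (Finset.prod_ne_zero_iff.mpr fun i _ => by have := hd2 i; omega)
  refine ⟨1 + ∏ i, d i, by omega, fun i => ?_⟩
  by_cases hz : z ∈ V i
  · refine s36tp_good_of_unit (V i) hz fun hmem => ?_
    have h1 : d i ∣ 1 + ∏ i, d i := hd i hz _ hmem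
    have h2 : d i ∣ ∏ i, d i := Finset.dvd_prod_of_mem d (Finset.mem_univ i)
    have h3 : d i ∣ 1 := (Nat.dvd_add_left h2).mp h1
    have := Nat.le_of_dvd one_pos h3
    have := hd2 i
    omega
  · exact s36tp_good_of_not_mem (V i) hz (by omega)

/-- **`D_{𝔪(V i) ∩ D} = V i`**: every element of `V i` is a fraction of elements of
`D = ⨅ j, V j` whose denominator is a unit of `V i`. -/
theorem s36tp_exists_frac (i : ι) {z : E} (hz : z ∈ V i) :
    ∃ a b : E, (∀ j, a ∈ V j) ∧ (∀ j, b ∈ V j) ∧ b ∉ (V i).nonunits ∧ z * b = a := by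
  obtain ⟨s, -, hs⟩ := s36tp_exists_geom V z
  refine ⟨z * (s36tp_geom z s)⁻¹, (s36tp_geom z s)⁻¹, fun j => (hs j).2.2, fun j => (hs j).2.1,
    ?_, rfl⟩
  intro hmem
  have h1 := s36tp_nonunits_mul (V i) hmem (s36tp_geom_mem (V i) hz s)
  rw [inv_mul_cancel₀ (hs i).1] at h1
  exact s36tp_one_not_mem (V i) h1

/-- for `V i ⊄ V j` there is `t ∈ D` which is a unit of `V i` and a non-unit of `V j` -/
theorem s36tp_exists_sep_pair {i j : ι} (hnle : ¬ V i ≤ V j) :
    ∃ t : E, (∀ k, t ∈ V k) ∧ t ∉ (V i).nonunits ∧ t ∈ (V j).nonunits := by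
  obtain ⟨z, hzi, hzj⟩ := Set.not_subset.1 hnle
  obtain ⟨a, b, ha, hb, hbi, hzb⟩ := s36tp_exists_frac V i hzi
  -- `b ∈ 𝔪(V j)`: otherwise `z = a / b ∈ V j`
  refine ⟨b, hb, hbi, ?_⟩
  by_contra hbj
  apply hzj
  have hb0 : b ≠ 0 := s36tp_ne_zero (V j) hbj
  have : z = a * b⁻¹ := by
    rw [← hzb, mul_assoc, mul_inv_cancel₀ hb0, mul_one]
  rw [this]
  exact (V j).mul_mem _ _ (ha j) (s36tp_inv_mem (V j) hbj)

/-- **separation**: if the `V i` are pairwise incomparable, for every `i` there is `t ∈ D` which is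
a unit of `V i` and lies in `𝔪(V j)` for all `j ≠ i`. -/
theorem s36tp_exists_sep (hinc : ∀ i j, V i ≤ V j → i = j) (i : ι) :
    ∃ t : E, (∀ k, t ∈ V k) ∧ t ∉ (V i).nonunits ∧ ∀ j, j ≠ i → t ∈ (V j).nonunits := by
  classical
  have h : ∀ j, ∃ t : E, (∀ k, t ∈ V k) ∧ t ∉ (V i).nonunits ∧ (j ≠ i → t ∈ (V j).nonunits) := by
    intro j
    by_cases hji : j = i
    · exact ⟨1, fun k => (V k).one_mem, s36tp_one_not_mem (V i), fun h => absurd hji h⟩
    · obtain ⟨t, h1, h2, h3⟩ := s36tp_exists_sep_pair V (i := i) (j := j)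
        (fun hle => hji (hinc i j hle).symm)
      exact ⟨t, h1, h2, fun _ => h3⟩
  choose t ht1 ht2 ht3 using h
  refine ⟨∏ j, t j, fun k => (V k).toSubring.prod_mem fun j _ => ht1 j k,
    s36tp_prod_not_mem (V i) _ _ fun j _ => ht2 j, fun j hj => ?_⟩
  rw [← Finset.mul_prod_erase _ _ (Finset.mem_univ j)]
  exact s36tp_nonunits_mul (V j) (ht3 j hj)
    ((V j).toSubring.prod_mem fun k _ => ht1 k j)

end Family

end Fermat.Agent.S36
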