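/-
Project S36 (Carayol), cell [M2] (model), leaf [TP3] (helper24), part 2: THE VERTICAL PRIMES OF A
CHART FROM A FINITE FAMILY OF VALUATIONS, RAMIFICATION ALLOWED = the `n`-ary twin of
`SS/Model/TwoPrimes.lean` (whose vocabulary `ssm_tp_Over`, `ssm_tp_Chart`, `ssm_tp_P` is reused).

`R` an integrally closed domain (`R = O[x]`), `π ∈ R` a prime element, `E` a field algebraic over
`R`; `V i` (`i : ι`, `ι` finite) pairwise distinct valuation subrings of `E` lying over the Gauss ring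
`R_(π)`, and the only such; `e i ≥ 1` with `z ^ e i ∈ π V i` for every `z ∈ 𝔪(V i)` (`e i = 1`: `π` is
a uniformiser of `V i`; at level `N' q²`: `e = 1, 1, q - 1` for `VA, VB, VC`).  With
`P i := 𝔪(V i) ∩ B = ssm_tp_P B (V i)` on a chart `B`:

* `s36tp_Hyp.semilocal` : `⨅ i, V i` is the integral closure of `R_(π)`;
* `s36tp_Hyp.not_le`, `.sep`, `.loc` : the `V i` are pairwise incomparable; separating elements;
  `B_{P i} = V i`;
* `s36tp_Hyp.inter`, `.chart_inter`, `.mem_span_iff` : `b ∈ π B ↔ ∀ i, π⁻¹ b ∈ V i`;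
* `s36tp_Hyp.radical` : `rad (π B) = ⨅ i, P i`;  `.P_not_le`, `.P_le_of_mem`, `.P_minimalPrimes`:
  the primes of `B` minimal over `π` are exactly the `P i`;
* for the semistable F-core: `.mem_S_iff` (`sfc_S B π = B ∖ ⋃ P i`), `.mem_O_iff`
  (`sfc_O B π = ⨅ V i`), `.mem_piO_iff` (`z ∈ sfc_piO B π ↔ ∀ i, π⁻¹ z ∈ V i`).
* `s36tp_hyp_of_two` : the binary `ssm_tp_Hyp` is the case `ι = Fin 2`, `e = 1`.
Prefix `s36tp_`.
-/
import Mathlib
import Fermat.Agent.SS.Model.TwoPrimes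
import Fermat.Agent.S36.Model.Approx

set_option autoImplicit false
set_option linter.unusedSectionVars false
set_option linter.style.haveILetI false

namespace Fermat.Agent.S36

open Polynomial Fermat.Agent.SS

section Main

variable {R : Type*} [CommRing R] [IsDomain R] [IsIntegrallyClosed R]
  {E : Type*} [Field E] [Algebra R E] [FaithfulSMul R E]

/-- an element lying in EVERY valuation subring over the Gauss ring `R_(π)` becomes integral over
`R` after multiplication by some `s ∈ R ∖ πR`. -/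
theorem s36tp_semilocal_of_forall {π : R} (hprime : Prime π)
    (hfin : ∀ a : R, a ≠ 0 → ∃ (k : ℕ) (s : R), ¬ π ∣ s ∧ a = π ^ k * s)
    (halg : ∀ z : E, IsAlgebraic R z) {z : E}
    (hzall : ∀ W : ValuationSubring E, ssm_tp_Over π W → z ∈ W) :
    ∃ s : R, ¬ π ∣ s ∧ IsIntegral R (algebraMap R E s * z) := by
  haveI hP : (Ideal.span {π} : Ideal R).IsPrime :=
    (Ideal.span_singleton_prime hprime.ne_zero).2 hprime
  have hinj : Function.Injective (algebraMap R E) := FaithfulSMul.algebraMap_injective R E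
  have hunit : ∀ y : (Ideal.span {π} : Ideal R).primeCompl, IsUnit (algebraMap R E y) := by
    intro y
    refine IsUnit.mk0 _ ((map_ne_zero_iff _ hinj).2 ?_)
    intro h0
    exact y.2 (h0 ▸ Ideal.zero_mem _)
  letI : Algebra (Localization.AtPrime (Ideal.span {π} : Ideal R)) E :=
    (IsLocalization.lift hunit).toAlgebra
  haveI : IsScalarTower R (Localization.AtPrime (Ideal.span {π} : Ideal R)) E :=
    IsScalarTower.of_algebraMap_eq (fun x => (IsLocalization.lift_eq hunit x).symm)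
  have hz : IsIntegral (Localization.AtPrime (Ideal.span {π} : Ideal R)) z := by
    by_contra hni
    have hzT : z ∉ (integralClosure (Localization.AtPrime (Ideal.span {π} : Ideal R)) E).toSubring :=
      hni
    obtain ⟨W, hW, hzW⟩ := Subring.exists_le_valuationSubring_of_isIntegrallyClosedIn hzT
    have hWRp : ∀ c : Localization.AtPrime (Ideal.span {π} : Ideal R),
        algebraMap (Localization.AtPrime (Ideal.span {π} : Ideal R)) E c ∈ W :=
      fun c => hW isIntegral_algebraMap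
    have hWR : ∀ a : R, algebraMap R E a ∈ W := fun a => by
      rw [IsScalarTower.algebraMap_apply R (Localization.AtPrime (Ideal.span {π} : Ideal R)) E]
      exact hWRp _
    have hWinv : ∀ s : R, ¬ π ∣ s → (algebraMap R E s)⁻¹ ∈ W := by
      intro s hs
      have hsM : s ∈ (Ideal.span {π} : Ideal R).primeCompl :=
        fun hm => hs (Ideal.mem_span_singleton.1 hm)
      have h3 := hWRp (IsLocalization.mk' (Localization.AtPrime (Ideal.span {π} : Ideal R)) (1 : R)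
        (⟨s, hsM⟩ : (Ideal.span {π} : Ideal R).primeCompl))
      have h4 : algebraMap (Localization.AtPrime (Ideal.span {π} : Ideal R)) E
          (IsLocalization.mk' (Localization.AtPrime (Ideal.span {π} : Ideal R)) (1 : R)
            (⟨s, hsM⟩ : (Ideal.span {π} : Ideal R).primeCompl)) = (algebraMap R E s)⁻¹ := by
        have hs0 : algebraMap R E s ≠ 0 := (hunit ⟨s, hsM⟩).ne_zero
        apply eq_inv_of_mul_eq_one_left
        rw [IsScalarTower.algebraMap_apply R (Localization.AtPrime (Ideal.span {π} : Ideal R)) E s,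
          ← map_mul]
        have : IsLocalization.mk' (Localization.AtPrime (Ideal.span {π} : Ideal R)) (1 : R)
            (⟨s, hsM⟩ : (Ideal.span {π} : Ideal R).primeCompl) *
            algebraMap R (Localization.AtPrime (Ideal.span {π} : Ideal R)) s = 1 := by
          rw [IsLocalization.mk'_spec_mk, map_one]
        rw [this, map_one]
      rwa [h4] at h3
    by_cases hπW : algebraMap R E π ∈ W.nonunits
    · have hover : ssm_tp_Over π W := by
        refine ⟨hWR, fun a => ⟨fun ha => ?_, ?_⟩⟩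
        · by_contra hna
          have h5 := ssm_tp_nonunits_mul W ha (hWinv a hna)
          have ha0 : algebraMap R E a ≠ 0 := by
            intro h0
            apply hna
            rw [(map_eq_zero_iff _ hinj).1 h0]
            exact dvd_zero _
          rw [mul_inv_cancel₀ ha0] at h5
          exact ssm_tp_one_not_mem_nonunits W h5
        · rintro ⟨c, rfl⟩
          rw [map_mul]
          exact ssm_tp_nonunits_mul W hπW (hWR c)
      exact hzW (hzall W hover)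
    · -- `π` is a unit of `W`: then `Frac R ⊆ W`
      obtain ⟨y, hy0, hy⟩ := (halg z).exists_integral_multiple
      obtain ⟨k, s, hs, rfl⟩ := hfin y hy0
      have h6 : algebraMap R E (π ^ k * s) * z ∈ W := by
        rw [← Algebra.smul_def]
        exact hW (hy.tower_top)
      have hπ0 : algebraMap R E π ≠ 0 := (map_ne_zero_iff _ hinj).2 hprime.ne_zero
      have hs0 : algebraMap R E s ≠ 0 := by
        intro h0
        apply hs
        rw [(map_eq_zero_iff _ hinj).1 h0]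
        exact dvd_zero _
      have h7 : z = ((algebraMap R E π)⁻¹) ^ k * ((algebraMap R E s)⁻¹ *
          (algebraMap R E (π ^ k * s) * z)) := by
        rw [map_mul, map_pow, inv_pow]
        field_simp
      apply hzW
      rw [h7]
      exact W.mul_mem _ _ (W.pow_mem (ssm_tp_inv_mem W hπW) k) (W.mul_mem _ _ (hWinv s hs) h6)
  obtain ⟨m, hm⟩ := IsIntegral.exists_multiple_integral_of_isLocalization
    (Ideal.span {π} : Ideal R).primeCompl z hz
  refine ⟨m, fun hd => m.2 (Ideal.mem_span_singleton.2 hd), ?_⟩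
  rwa [Submonoid.smul_def, Algebra.smul_def] at hm

variable {ι : Type*} [Fintype ι]

/-- **Hypotheses of [TP3].** -/
structure s36tp_Hyp (π : R) (V : ι → ValuationSubring E) (e : ι → ℕ) : Prop where
  prime : Prime π
  fin : ∀ a : R, a ≠ 0 → ∃ (k : ℕ) (s : R), ¬ π ∣ s ∧ a = π ^ k * s
  alg : ∀ z : E, IsAlgebraic R z
  ovr : ∀ i, ssm_tp_Over π (V i)
  epos : ∀ i, 0 < e i
  ram : ∀ i, ∀ z ∈ (V i).nonunits, (algebraMap R E π)⁻¹ * z ^ e i ∈ V i
  inj : Function.Injective V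
  only : ∀ W : ValuationSubring E, ssm_tp_Over π W → ∃ i, W = V i

variable {π : R} {V : ι → ValuationSubring E} {e : ι → ℕ}

theorem s36tp_Hyp.algebraMap_ne_zero (H : s36tp_Hyp π V e) : algebraMap R E π ≠ 0 :=
  (map_ne_zero_iff _ (FaithfulSMul.algebraMap_injective R E)).2 H.prime.ne_zero

/-- **`⨅ i, V i` is the integral closure of `R_(π)`.** -/
theorem s36tp_Hyp.semilocal (H : s36tp_Hyp π V e) {z : E} (hz : ∀ i, z ∈ V i) :
    ∃ s : R, ¬ π ∣ s ∧ IsIntegral R (algebraMap R E s * z) :=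
  s36tp_semilocal_of_forall H.prime H.fin H.alg fun W hW => by
    obtain ⟨i, rfl⟩ := H.only W hW
    exact hz i

/-- higher powers: `z ^ k ∈ π V i` for `z ∈ 𝔪(V i)`, `k ≥ e i` -/
theorem s36tp_Hyp.ram_le (H : s36tp_Hyp π V e) (i : ι) {z : E} (hz : z ∈ (V i).nonunits) {k : ℕ}
    (hk : e i ≤ k) : (algebraMap R E π)⁻¹ * z ^ k ∈ V i := by
  obtain ⟨d, rfl⟩ := Nat.exists_eq_add_of_le hk
  rw [pow_add, ← mul_assoc]
  exact (V i).mul_mem _ _ (H.ram i z hz) ((V i).pow_mem ((V i).nonunits_subset hz) d)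

/-- **the `V i` are pairwise incomparable** (they have rank one). -/
theorem s36tp_Hyp.not_le (H : s36tp_Hyp π V e) {i j : ι} (hle : V i ≤ V j) : i = j := by
  apply H.inj
  apply le_antisymm hle
  intro z hzj
  by_contra hzi
  have hz0 : z ≠ 0 := fun h0 => hzi (h0 ▸ (V i).zero_mem)
  have h3 : z⁻¹ ∈ (V i).nonunits := by
    rw [ValuationSubring.inv_mem_nonunits_iff]
    exact Or.inr hzi
  have h4 : (algebraMap R E π)⁻¹ * z⁻¹ ^ e i ∈ V j := hle (H.ram i _ h3)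
  have hϖ := H.algebraMap_ne_zero
  have h5 : z⁻¹ ^ e i ∈ (V j).nonunits := by
    have : z⁻¹ ^ e i = algebraMap R E π * ((algebraMap R E π)⁻¹ * z⁻¹ ^ e i) := by
      rw [← mul_assoc, mul_inv_cancel₀ hϖ, one_mul]
    rw [this]
    exact ssm_tp_nonunits_mul (V j) (H.ovr j).pi_mem h4
  have h6 := ssm_tp_nonunits_mul (V j) h5 ((V j).pow_mem hzj (e i))
  rw [← mul_pow, inv_mul_cancel₀ hz0, one_pow] at h6
  exact ssm_tp_one_not_mem_nonunits (V j) h6

/-- an element of `R ∖ πR` is a unit of every `V i` -/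
theorem s36tp_Hyp.unit_of_not_dvd (H : s36tp_Hyp π V e) {s : R} (hs : ¬ π ∣ s) (i : ι) :
    algebraMap R E s ∉ (V i).nonunits := (H.ovr i).not_mem_nonunits hs

/-- **separation**: an element of `B₁` which is a unit of `V i` and lies in `𝔪(V j)`, `j ≠ i`. -/
theorem s36tp_Hyp.sep (H : s36tp_Hyp π V e) (i : ι) :
    ∃ t : E, IsIntegral R t ∧ t ∉ (V i).nonunits ∧ ∀ j, j ≠ i → t ∈ (V j).nonunits := by
  obtain ⟨t, ht, hti, htj⟩ := s36tp_exists_sep V (fun i j h => H.not_le h) i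
  obtain ⟨s, hs, hint⟩ := H.semilocal ht
  refine ⟨algebraMap R E s * t, hint, ?_, fun j hj => ?_⟩
  · exact ssm_tp_mul_not_mem (V i) (H.unit_of_not_dvd hs i) hti
  · rw [mul_comm]
    exact ssm_tp_nonunits_mul (V j) (htj j hj) ((H.ovr j).le s)

/-- **`B_{P i} = V i`**: every element of `V i` has a denominator in `B₁ ∖ P i`. -/
theorem s36tp_Hyp.loc (H : s36tp_Hyp π V e) (i : ι) {z : E} (hz : z ∈ V i) :
    ∃ t : E, IsIntegral R t ∧ t ∉ (V i).nonunits ∧ IsIntegral R (t * z) := by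
  obtain ⟨a, b, ha, hb, hbi, hzb⟩ := s36tp_exists_frac V i hz
  obtain ⟨sa, hsa, hinta⟩ := H.semilocal ha
  obtain ⟨sb, hsb, hintb⟩ := H.semilocal hb
  refine ⟨algebraMap R E sa * (algebraMap R E sb * b), isIntegral_algebraMap.mul hintb, ?_, ?_⟩
  · exact ssm_tp_mul_not_mem (V i) (H.unit_of_not_dvd hsa i)
      (ssm_tp_mul_not_mem (V i) (H.unit_of_not_dvd hsb i) hbi)
  · have : algebraMap R E sa * (algebraMap R E sb * b) * z
        = algebraMap R E sb * (algebraMap R E sa * a) := by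
      rw [← hzb]; ring
    rw [this]
    exact isIntegral_algebraMap.mul hinta

/-- **`b ∈ π B₁` as soon as `π⁻¹ b ∈ V i` for all `i`.** -/
theorem s36tp_Hyp.inter (H : s36tp_Hyp π V e) {b : E} (hb : IsIntegral R b)
    (h : ∀ i, (algebraMap R E π)⁻¹ * b ∈ V i) :
    ∃ c : E, IsIntegral R c ∧ b = algebraMap R E π * c := by
  have hϖ := H.algebraMap_ne_zero
  obtain ⟨s, hs, hint⟩ := H.semilocal h
  refine sfc_ff_nzd H.prime hs hb hint ?_
  field_simp

/-- the exponent `∑ i, e i` -/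
def s36tp_exp (e : ι → ℕ) : ℕ := ∑ i, e i

theorem s36tp_le_exp (e : ι → ℕ) (i : ι) : e i ≤ s36tp_exp e :=
  Finset.single_le_sum (f := e) (fun _ _ => Nat.zero_le _) (Finset.mem_univ i)

/-- an element of `B₁` in all the `𝔪(V i)` has a power in `π B₁` -/
theorem s36tp_Hyp.inter_pow (H : s36tp_Hyp π V e) {b : E} (hb : IsIntegral R b)
    (h : ∀ i, b ∈ (V i).nonunits) :
    ∃ c : E, IsIntegral R c ∧ b ^ s36tp_exp e = algebraMap R E π * c :=
  H.inter (hb.pow _) fun i => H.ram_le i (h i) (s36tp_le_exp e i)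

end Main

section Chart

variable {R : Type*} [CommRing R] [IsDomain R] [IsIntegrallyClosed R]
  {E : Type*} [Field E] [Algebra R E] [FaithfulSMul R E]
  {A : Type*} [CommRing A] [Algebra A E] {ι : Type*} [Fintype ι]
  {π : R} {V : ι → ValuationSubring E} {e : ι → ℕ} {B : Subalgebra A E}

theorem s36tp_Hyp.chart_le (H : s36tp_Hyp π V e) (hC : ssm_tp_Chart π B) (i : ι) {b : E}
    (hb : b ∈ B) : b ∈ V i := hC.le (H.ovr i) hb

/-- **`b ∈ π B ↔ ∀ i, π⁻¹ b ∈ V i`** on a chart. -/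
theorem s36tp_Hyp.chart_inter (H : s36tp_Hyp π V e) (hC : ssm_tp_Chart π B) {b : E}
    (hb : b ∈ B) (h : ∀ i, (algebraMap R E π)⁻¹ * b ∈ V i) :
    ∃ c ∈ B, b = algebraMap R E π * c := by
  obtain ⟨r, hr, hrB, hint⟩ := hC.clear b hb
  have hϖ := H.algebraMap_ne_zero
  have hinj : Function.Injective (algebraMap R E) := FaithfulSMul.algebraMap_injective R E
  have hr0 : algebraMap R E r ≠ 0 := by
    intro h0
    apply hr
    rw [(map_eq_zero_iff _ hinj).1 h0]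
    exact dvd_zero _
  have h' : ∀ i, (algebraMap R E π)⁻¹ * (algebraMap R E r * b) ∈ V i := fun i => by
    rw [mul_left_comm]
    exact (V i).mul_mem _ _ ((H.ovr i).le r) (h i)
  obtain ⟨c, hc, hbc⟩ := H.inter hint h'
  refine ⟨(algebraMap R E r)⁻¹ * c, B.mul_mem hrB (hC.int_mem c hc), ?_⟩
  rw [mul_left_comm, ← hbc, ← mul_assoc, inv_mul_cancel₀ hr0, one_mul]

theorem s36tp_Hyp.chart_inter_iff (H : s36tp_Hyp π V e) (hC : ssm_tp_Chart π B) {b : E}
    (hb : b ∈ B) :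
    (∃ c ∈ B, b = algebraMap R E π * c) ↔ ∀ i, (algebraMap R E π)⁻¹ * b ∈ V i := by
  refine ⟨?_, H.chart_inter hC hb⟩
  rintro ⟨c, hc, rfl⟩ i
  rw [← mul_assoc, inv_mul_cancel₀ H.algebraMap_ne_zero, one_mul]
  exact H.chart_le hC i hc

theorem s36tp_Hyp.chart_sep (H : s36tp_Hyp π V e) (hC : ssm_tp_Chart π B) (i : ι) :
    ∃ t ∈ B, t ∉ (V i).nonunits ∧ ∀ j, j ≠ i → t ∈ (V j).nonunits := by
  obtain ⟨t, ht, h1, h2⟩ := H.sep i
  exact ⟨t, hC.int_mem t ht, h1, h2⟩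

/-- **`B_{P i} = V i`** on a chart. -/
theorem s36tp_Hyp.chart_loc (H : s36tp_Hyp π V e) (hC : ssm_tp_Chart π B) (i : ι) {z : E} :
    z ∈ V i ↔ ∃ t ∈ B, t ∉ (V i).nonunits ∧ t * z ∈ B := by
  constructor
  · intro hz
    obtain ⟨t, ht, h1, h2⟩ := H.loc i hz
    exact ⟨t, hC.int_mem t ht, h1, hC.int_mem _ h2⟩
  · rintro ⟨t, -, h1, h2⟩
    have ht0 : t ≠ 0 := ssm_tp_ne_zero (V i) h1
    have : z = t⁻¹ * (t * z) := by rw [← mul_assoc, inv_mul_cancel₀ ht0, one_mul]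
    rw [this]
    exact (V i).mul_mem _ _ (ssm_tp_inv_mem (V i) h1) (H.chart_le hC i h2)

/-- an element of a chart which is a unit of `V i` and has a high power in `π V j`, `j ≠ i` -/
theorem s36tp_Hyp.chart_sep_pow (H : s36tp_Hyp π V e) (hC : ssm_tp_Chart π B) (i : ι) :
    ∃ t ∈ B, t ∉ (V i).nonunits ∧ ∀ j, j ≠ i → (algebraMap R E π)⁻¹ * t ∈ V j := by
  obtain ⟨t, htB, hti, htj⟩ := H.chart_sep hC i
  exact ⟨t ^ s36tp_exp e, B.pow_mem htB _, ssm_tp_pow_not_mem (V i) hti _,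
    fun j hj => H.ram_le j (htj j hj) (s36tp_le_exp e j)⟩

/-- **The multiplicative set `S` of the semistable F-core** of a chart is the set of elements of `B`
which are units at all the generic points of the special fibre. -/
theorem s36tp_Hyp.mem_S_iff [Nonempty ι] (H : s36tp_Hyp π V e) (hC : ssm_tp_Chart π B) {s : E} :
    s ∈ sfc_S B.toSubring (algebraMap R E π) ↔ s ∈ B ∧ ∀ i, s ∉ (V i).nonunits := by
  classical
  have hϖ := H.algebraMap_ne_zero
  constructor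
  · rintro ⟨hsB, -, hs⟩
    refine ⟨hsB, fun i hsi => ?_⟩
    -- the least `k` with `π⁻¹ s^k ∈ V i`
    have hex : ∃ k : ℕ, (algebraMap R E π)⁻¹ * s ^ k ∈ V i := ⟨e i, H.ram i s hsi⟩
    obtain ⟨k, hk, hkmin⟩ : ∃ k : ℕ, (algebraMap R E π)⁻¹ * s ^ k ∈ V i ∧
        ∀ r : ℕ, r < k → ¬ (algebraMap R E π)⁻¹ * s ^ r ∈ V i :=
      ⟨Nat.find hex, Nat.find_spec hex, fun r hr => Nat.find_min hex hr⟩
    have hπinv : (algebraMap R E π)⁻¹ ∉ V i := by
      intro h
      have h1 := ssm_tp_nonunits_mul (V i) (H.ovr i).pi_mem h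
      rw [mul_inv_cancel₀ hϖ] at h1
      exact ssm_tp_one_not_mem_nonunits (V i) h1
    have hk0 : k ≠ 0 := by
      rintro rfl
      rw [pow_zero, mul_one] at hk
      exact hπinv hk
    obtain ⟨k', rfl⟩ : ∃ k', k = k' + 1 := ⟨k - 1, by omega⟩
    obtain ⟨t, htB, hti, htj⟩ := H.chart_sep_pow hC i
    -- `b = t s^k'`: `s b ∈ π B` but `b ∉ π B`
    have hbB : t * s ^ k' ∈ B := B.mul_mem htB (B.pow_mem hsB _)
    have hsb : ∃ c ∈ B.toSubring, s * (t * s ^ k') = algebraMap R E π * c := by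
      refine H.chart_inter hC (B.mul_mem hsB hbB) fun j => ?_
      by_cases hj : j = i
      · subst hj
        have : (algebraMap R E π)⁻¹ * (s * (t * s ^ k')) =
            t * ((algebraMap R E π)⁻¹ * s ^ (k' + 1)) := by
          rw [pow_succ]; ring
        rw [this]
        exact (V j).mul_mem _ _ (H.chart_le hC j htB) hk
      · have : (algebraMap R E π)⁻¹ * (s * (t * s ^ k')) =
            (algebraMap R E π)⁻¹ * t * (s * s ^ k') := by ring
        rw [this]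
        exact (V j).mul_mem _ _ (htj j hj)
          ((V j).mul_mem _ _ (H.chart_le hC j hsB) ((V j).pow_mem (H.chart_le hC j hsB) _))
    obtain ⟨c, hc, hbc⟩ := hs (t * s ^ k') hbB hsb
    apply hkmin k' (Nat.lt_succ_self k')
    have ht0 : t ≠ 0 := ssm_tp_ne_zero (V i) hti
    have : (algebraMap R E π)⁻¹ * s ^ k' = t⁻¹ * c := by
      have h1 : s ^ k' = t⁻¹ * (algebraMap R E π * c) := by
        rw [← hbc, ← mul_assoc, inv_mul_cancel₀ ht0, one_mul]
      rw [h1]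
      field_simp
    rw [this]
    exact (V i).mul_mem _ _ (ssm_tp_inv_mem (V i) hti) (H.chart_le hC i hc)
  · rintro ⟨hsB, hsu⟩
    obtain ⟨i0⟩ := ‹Nonempty ι›
    have hs0 : s ≠ 0 := ssm_tp_ne_zero (V i0) (hsu i0)
    refine ⟨hsB, hs0, ?_⟩
    rintro b hb ⟨c, hc, hbc⟩
    refine H.chart_inter hC hb fun i => ?_
    have hb' : (algebraMap R E π)⁻¹ * b = s⁻¹ * c := by
      have h1 : b = s⁻¹ * (algebraMap R E π * c) := by
        rw [← hbc, ← mul_assoc, inv_mul_cancel₀ hs0, one_mul]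
      rw [h1]
      field_simp
    rw [hb']
    exact (V i).mul_mem _ _ (ssm_tp_inv_mem (V i) (hsu i)) (H.chart_le hC i hc)

/-- **The semilocal Gauss ring of the semistable F-core is `⨅ i, V i`.** -/
theorem s36tp_Hyp.mem_O_iff [Nonempty ι] (H : s36tp_Hyp π V e) (hC : ssm_tp_Chart π B) {z : E} :
    z ∈ sfc_O B.toSubring (algebraMap R E π) ↔ ∀ i, z ∈ V i := by
  constructor
  · rintro ⟨s, hs, hsz⟩ i
    obtain ⟨-, hsu⟩ := (H.mem_S_iff hC).1 hs
    have hs0 : s ≠ 0 := ssm_tp_ne_zero (V i) (hsu i)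
    have : z = s⁻¹ * (s * z) := by rw [← mul_assoc, inv_mul_cancel₀ hs0, one_mul]
    rw [this]
    exact (V i).mul_mem _ _ (ssm_tp_inv_mem (V i) (hsu i)) (H.chart_le hC i hsz)
  · intro h
    obtain ⟨s, hs, hint⟩ := H.semilocal h
    exact ⟨algebraMap R E s, (H.mem_S_iff hC).2 ⟨hC.int_mem _ isIntegral_algebraMap,
      fun i => H.unit_of_not_dvd hs i⟩, hC.int_mem _ hint⟩

/-- **`π O = {z | ∀ i, π⁻¹ z ∈ V i}`.** -/
theorem s36tp_Hyp.mem_piO_iff [Nonempty ι] (H : s36tp_Hyp π V e) (hC : ssm_tp_Chart π B) {z : E} :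
    z ∈ sfc_piO B.toSubring (algebraMap R E π) ↔ ∀ i, (algebraMap R E π)⁻¹ * z ∈ V i := by
  have hϖ := H.algebraMap_ne_zero
  constructor
  · rintro ⟨y, hy, rfl⟩ i
    rw [← mul_assoc, inv_mul_cancel₀ hϖ, one_mul]
    exact (H.mem_O_iff hC).1 hy i
  · intro h
    refine ⟨(algebraMap R E π)⁻¹ * z, (H.mem_O_iff hC).2 h, ?_⟩
    rw [← mul_assoc, mul_inv_cancel₀ hϖ, one_mul]

/-- elements of `π O` lie in all the `𝔪(V i)` -/
theorem s36tp_Hyp.nonunits_of_mem_piO [Nonempty ι] (H : s36tp_Hyp π V e)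
    (hC : ssm_tp_Chart π B) {z : E} (hz : z ∈ sfc_piO B.toSubring (algebraMap R E π)) (i : ι) :
    z ∈ (V i).nonunits := by
  have h := (H.mem_piO_iff hC).1 hz i
  have : z = algebraMap R E π * ((algebraMap R E π)⁻¹ * z) := by
    rw [← mul_assoc, mul_inv_cancel₀ H.algebraMap_ne_zero, one_mul]
  rw [this]
  exact ssm_tp_nonunits_mul (V i) (H.ovr i).pi_mem h

/-- an element of all the `𝔪(V i)` has its `∑ e i`-th power in `π O` -/
theorem s36tp_Hyp.pow_mem_piO [Nonempty ι] (H : s36tp_Hyp π V e) (hC : ssm_tp_Chart π B) {z : E}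
    (hz : ∀ i, z ∈ (V i).nonunits) :
    z ^ s36tp_exp e ∈ sfc_piO B.toSubring (algebraMap R E π) :=
  (H.mem_piO_iff hC).2 fun i => H.ram_le i (hz i) (s36tp_le_exp e i)

/-- `π` is not a unit of a chart -/
theorem s36tp_Hyp.pi_inv_not_mem [Nonempty ι] (H : s36tp_Hyp π V e) (hC : ssm_tp_Chart π B) :
    (algebraMap R E π)⁻¹ ∉ B := by
  intro h
  obtain ⟨i⟩ := ‹Nonempty ι›
  have h1 := ssm_tp_nonunits_mul (V i) (H.ovr i).pi_mem (H.chart_le hC i h)
  rw [mul_inv_cancel₀ H.algebraMap_ne_zero] at h1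
  exact ssm_tp_one_not_mem_nonunits (V i) h1

end Chart

section Ideals

variable {R : Type*} [CommRing R] [IsDomain R] [IsIntegrallyClosed R]
  {E : Type*} [Field E] [Algebra R E] [FaithfulSMul R E]
  {A : Type*} [CommRing A] [Algebra A E] {ι : Type*} [Fintype ι]
  {π : R} {V : ι → ValuationSubring E} {e : ι → ℕ} {B : Subalgebra A E}

theorem s36tp_Hyp.mem_P (H : s36tp_Hyp π V e) (hC : ssm_tp_Chart π B) (i : ι) {b : B} :
    b ∈ ssm_tp_P B (V i) ↔ (b : E) ∈ (V i).nonunits :=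
  ssm_tp_mem_P (fun _ hb => hC.le (H.ovr i) hb)

theorem s36tp_Hyp.P_isPrime (H : s36tp_Hyp π V e) (hC : ssm_tp_Chart π B) (i : ι) :
    (ssm_tp_P B (V i)).IsPrime :=
  ssm_tp_P_isPrime (fun _ hb => hC.le (H.ovr i) hb)

/-- `π ∈ P i` -/
theorem s36tp_Hyp.pi_mem_P (H : s36tp_Hyp π V e) (hC : ssm_tp_Chart π B) (ϖ : B)
    (hϖ : (ϖ : E) = algebraMap R E π) (i : ι) : ϖ ∈ ssm_tp_P B (V i) := by
  rw [H.mem_P hC i, hϖ]
  exact (H.ovr i).pi_mem

theorem s36tp_Hyp.span_le_P (H : s36tp_Hyp π V e) (hC : ssm_tp_Chart π B) (ϖ : B)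
    (hϖ : (ϖ : E) = algebraMap R E π) (i : ι) : Ideal.span {ϖ} ≤ ssm_tp_P B (V i) := by
  rw [Ideal.span_singleton_le_iff_mem]
  exact H.pi_mem_P hC ϖ hϖ i

/-- **`b ∈ π B ↔ ∀ i, π⁻¹ b ∈ V i`** (ideal form). -/
theorem s36tp_Hyp.mem_span_iff (H : s36tp_Hyp π V e) (hC : ssm_tp_Chart π B) (ϖ : B)
    (hϖ : (ϖ : E) = algebraMap R E π) {b : B} :
    b ∈ Ideal.span {ϖ} ↔ ∀ i, (algebraMap R E π)⁻¹ * (b : E) ∈ V i := by
  rw [Ideal.mem_span_singleton, ← H.chart_inter_iff hC b.2]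
  constructor
  · rintro ⟨c, rfl⟩
    exact ⟨c, c.2, by rw [MulMemClass.coe_mul, hϖ]⟩
  · rintro ⟨c, hc, hbc⟩
    exact ⟨⟨c, hc⟩, Subtype.ext (by rw [MulMemClass.coe_mul, hϖ]; exact hbc)⟩

/-- an element of `⨅ i, P i` has its `∑ e i`-th power in `π B` -/
theorem s36tp_Hyp.pow_mem_span (H : s36tp_Hyp π V e) (hC : ssm_tp_Chart π B) (ϖ : B)
    (hϖ : (ϖ : E) = algebraMap R E π) {b : B} (hb : ∀ i, b ∈ ssm_tp_P B (V i)) :
    b ^ s36tp_exp e ∈ Ideal.span {ϖ} := by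
  rw [H.mem_span_iff hC ϖ hϖ]
  intro i
  rw [SubmonoidClass.coe_pow]
  exact H.ram_le i ((H.mem_P hC i).1 (hb i)) (s36tp_le_exp e i)

/-- **`rad (π B) = ⨅ i, P i`**: the special fibre of the chart has the components `P i`
(with multiplicities `≤ e i`). -/
theorem s36tp_Hyp.radical (H : s36tp_Hyp π V e) (hC : ssm_tp_Chart π B) (ϖ : B)
    (hϖ : (ϖ : E) = algebraMap R E π) :
    (Ideal.span {ϖ}).radical = ⨅ i, ssm_tp_P B (V i) := by
  apply le_antisymm
  · rintro b ⟨n, hn⟩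
    rw [Ideal.mem_iInf]
    intro i
    have hp := H.P_isPrime hC i
    exact hp.mem_of_pow_mem n (H.span_le_P hC ϖ hϖ i hn)
  · intro b hb
    rw [Ideal.mem_iInf] at hb
    exact ⟨s36tp_exp e, H.pow_mem_span hC ϖ hϖ hb⟩

/-- **`P i ⊄ P j`** for `i ≠ j` -/
theorem s36tp_Hyp.P_not_le (H : s36tp_Hyp π V e) (hC : ssm_tp_Chart π B) {i j : ι}
    (hle : ssm_tp_P B (V i) ≤ ssm_tp_P B (V j)) : i = j := by
  by_contra hij
  obtain ⟨t, htB, htj, htk⟩ := H.chart_sep hC j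
  exact htj ((H.mem_P hC j).1 (hle ((H.mem_P hC i (b := ⟨t, htB⟩)).2 (htk i hij))))

theorem s36tp_Hyp.P_injective (H : s36tp_Hyp π V e) (hC : ssm_tp_Chart π B) :
    Function.Injective fun i => ssm_tp_P B (V i) :=
  fun _ _ h => H.P_not_le hC (le_of_eq h)

/-- **every prime of the chart containing `π` contains one of the `P i`** -/
theorem s36tp_Hyp.P_le_of_mem (H : s36tp_Hyp π V e) (hC : ssm_tp_Chart π B) (ϖ : B)
    (hϖ : (ϖ : E) = algebraMap R E π) (Q : Ideal B) [Q.IsPrime] (hQ : ϖ ∈ Q) :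
    ∃ i, ssm_tp_P B (V i) ≤ Q := by
  classical
  by_contra hcon
  push Not at hcon
  have hex : ∀ i, ∃ b : B, b ∈ ssm_tp_P B (V i) ∧ b ∉ Q := fun i =>
    SetLike.not_le_iff_exists.1 (hcon i)
  choose b hbP hbQ using hex
  have hprod : ∀ i, (∏ j, b j) ∈ ssm_tp_P B (V i) := fun i => by
    rw [← Finset.mul_prod_erase Finset.univ b (Finset.mem_univ i)]
    exact Ideal.mul_mem_right _ _ (hbP i)
  have h1 : (∏ j, b j) ^ s36tp_exp e ∈ Q :=
    ((Ideal.span_singleton_le_iff_mem Q).2 hQ) (H.pow_mem_span hC ϖ hϖ hprod)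
  have hQp : Q.IsPrime := inferInstance
  have h2 : (∏ j, b j) ∈ Q := hQp.mem_of_pow_mem _ h1
  obtain ⟨i, -, hi⟩ := (Ideal.IsPrime.prod_mem_iff).1 h2
  exact hbQ i hi

/-- **the primes of the chart minimal over `π` are exactly the `P i`** -/
theorem s36tp_Hyp.P_minimalPrimes (H : s36tp_Hyp π V e) (hC : ssm_tp_Chart π B) (ϖ : B)
    (hϖ : (ϖ : E) = algebraMap R E π) :
    (Ideal.span {ϖ}).minimalPrimes = Set.range fun i => ssm_tp_P B (V i) := by
  ext Q
  constructor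
  · intro hQ
    haveI : Q.IsPrime := hQ.1.1
    have hQϖ : ϖ ∈ Q := hQ.1.2 (Ideal.subset_span rfl)
    obtain ⟨i, hi⟩ := H.P_le_of_mem hC ϖ hϖ Q hQϖ
    exact ⟨i, le_antisymm hi (hQ.2 ⟨H.P_isPrime hC i, H.span_le_P hC ϖ hϖ i⟩ hi)⟩
  · rintro ⟨i, rfl⟩
    refine ⟨⟨H.P_isPrime hC i, H.span_le_P hC ϖ hϖ i⟩, ?_⟩
    rintro Q' ⟨hQ'p, hQ'⟩ hle
    haveI : Q'.IsPrime := hQ'p
    have hQϖ : ϖ ∈ Q' := hQ' (Ideal.subset_span rfl)
    obtain ⟨j, hj⟩ := H.P_le_of_mem hC ϖ hϖ Q' hQϖ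
    have hji : j = i := H.P_not_le hC (hj.trans hle)
    subst hji
    exact hj

/-- **`B_{P i} = V i`** (ideal form) -/
theorem s36tp_Hyp.mem_V_iff (H : s36tp_Hyp π V e) (hC : ssm_tp_Chart π B) (i : ι) {z : E} :
    z ∈ V i ↔ ∃ t : B, t ∉ ssm_tp_P B (V i) ∧ (t : E) * z ∈ B := by
  rw [H.chart_loc hC i]
  constructor
  · rintro ⟨t, htB, h1, h2⟩
    exact ⟨⟨t, htB⟩, fun h => h1 ((H.mem_P hC i).1 h), h2⟩
  · rintro ⟨t, h1, h2⟩
    exact ⟨t, t.2, fun h => h1 ((H.mem_P hC i).2 h), h2⟩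

/-- **divisibility in `B_{P i}`**: if `z⁻¹ x ∈ V i` then `z ∣ s x` for some `s ∈ B ∖ P i`
(`x/(π)`, uniformisers, `π = unit · z ^ e`: all the pointwise ramification conditions). -/
theorem s36tp_Hyp.exists_dvd (H : s36tp_Hyp π V e) (hC : ssm_tp_Chart π B) (i : ι) {z x : B}
    (hz0 : (z : E) ≠ 0) (h : (z : E)⁻¹ * (x : E) ∈ V i) :
    ∃ s : B, s ∉ ssm_tp_P B (V i) ∧ z ∣ s * x := by
  obtain ⟨t, ht, htz⟩ := (H.mem_V_iff hC i).1 h
  refine ⟨t, ht, ⟨⟨_, htz⟩, Subtype.ext ?_⟩⟩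
  rw [MulMemClass.coe_mul, MulMemClass.coe_mul]
  change (t : E) * (x : E) = (z : E) * ((t : E) * ((z : E)⁻¹ * (x : E)))
  field_simp

/-- `π ∣ s x ^ e i` for `x ∈ P i`, some `s ∉ P i` -/
theorem s36tp_Hyp.P_pow_dvd (H : s36tp_Hyp π V e) (hC : ssm_tp_Chart π B) (ϖ : B)
    (hϖ : (ϖ : E) = algebraMap R E π) (i : ι) {x : B} (hx : x ∈ ssm_tp_P B (V i)) :
    ∃ s : B, s ∉ ssm_tp_P B (V i) ∧ ϖ ∣ s * x ^ e i := by
  refine H.exists_dvd hC i (by rw [hϖ]; exact H.algebraMap_ne_zero) ?_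
  rw [hϖ, SubmonoidClass.coe_pow]
  exact H.ram i _ ((H.mem_P hC i).1 hx)

/-- `P i ∩ R = π R` -/
theorem s36tp_Hyp.P_comap (H : s36tp_Hyp π V e) (hC : ssm_tp_Chart π B) (i : ι) {a : R} {b : B}
    (hab : (b : E) = algebraMap R E a) : b ∈ ssm_tp_P B (V i) ↔ π ∣ a := by
  rw [H.mem_P hC i, hab]
  exact (H.ovr i).cen a

/-- the multiplicative set `S` of the semistable F-core is the complement of `⋃ i, P i` -/
theorem s36tp_Hyp.coe_mem_S_iff [Nonempty ι] (H : s36tp_Hyp π V e) (hC : ssm_tp_Chart π B)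
    {s : B} : (s : E) ∈ sfc_S B.toSubring (algebraMap R E π) ↔ ∀ i, s ∉ ssm_tp_P B (V i) := by
  rw [H.mem_S_iff hC]
  constructor
  · rintro ⟨-, h⟩ i hi
    exact h i ((H.mem_P hC i).1 hi)
  · intro h
    exact ⟨s.2, fun i hi => h i ((H.mem_P hC i).2 hi)⟩

end Ideals

end Fermat.Agent.S36
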