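/-
Project S36 (Carayol), cell [M2] (model), leaf [TP3] (helper24), part 3: NAMED FORMS AND THE
FUNCTION-FIELD INSTANCES of `S36/Model/Primes3.lean`.

* `s36tp_hyp_of_two` : the binary `ssm_tp_Hyp π V1 V2` of S34 is `s36tp_Hyp π ![V1, V2] ![1, 1]`;
* `s36tp_hyp_of_three` : three valuations `VA VB VC` with `e = 1, 1, eC` (level `N' q²`:
  `eC = q - 1`) give `s36tp_Hyp π ![VA, VB, VC] ![1, 1, eC]`;
* `s36tp_three_*` : the outputs of `Primes3.lean` spelled with the three names;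
* `s36tp_ff_hyp`, `s36tp_ff_hyp_inv`, `s36tp_ff_model` : `R = A0[y]`, the change of coordinate
  `x ↦ x⁻¹`, and the model facts on the overlap chart (twins of `ssm_tp_ff_*`).
Prefix `s36tp_`.
-/
import Mathlib
import Fermat.Agent.S36.Model.Primes3

set_option autoImplicit false
set_option linter.unusedSectionVars false
set_option linter.style.haveILetI false

namespace Fermat.Agent.S36

open Polynomial Fermat.Agent.SS

theorem s36tp_forall_fin2 {p : Fin 2 → Prop} : (∀ i, p i) ↔ p 0 ∧ p 1 :=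
  ⟨fun h => ⟨h 0, h 1⟩, fun h i => by fin_cases i; exacts [h.1, h.2]⟩

theorem s36tp_forall_fin3 {p : Fin 3 → Prop} : (∀ i, p i) ↔ p 0 ∧ p 1 ∧ p 2 :=
  ⟨fun h => ⟨h 0, h 1, h 2⟩, fun h i => by fin_cases i; exacts [h.1, h.2.1, h.2.2]⟩

theorem s36tp_exists_fin3 {p : Fin 3 → Prop} : (∃ i, p i) ↔ p 0 ∨ p 1 ∨ p 2 := by
  constructor
  · rintro ⟨i, hi⟩
    fin_cases i
    exacts [Or.inl hi, Or.inr (Or.inl hi), Or.inr (Or.inr hi)]
  · rintro (h | h | h)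
    exacts [⟨0, h⟩, ⟨1, h⟩, ⟨2, h⟩]

section Named

variable {R : Type*} [CommRing R] [IsDomain R] [IsIntegrallyClosed R]
  {E : Type*} [Field E] [Algebra R E] [FaithfulSMul R E]

/-- **the binary case**: S34's `ssm_tp_Hyp` is `s36tp_Hyp` for `ι = Fin 2`, `e = 1`. -/
theorem s36tp_hyp_of_two {π : R} {V1 V2 : ValuationSubring E} (H : ssm_tp_Hyp π V1 V2) :
    s36tp_Hyp π ![V1, V2] ![1, 1] where
  prime := H.prime
  fin := H.fin
  alg := H.alg
  ovr := s36tp_forall_fin2.2 ⟨H.over1, H.over2⟩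
  epos := s36tp_forall_fin2.2 ⟨Nat.one_pos, Nat.one_pos⟩
  ram := s36tp_forall_fin2.2
    ⟨fun z hz => by
      change (algebraMap R E π)⁻¹ * z ^ 1 ∈ V1
      rw [pow_one]; exact H.unif1 z hz,
    fun z hz => by
      change (algebraMap R E π)⁻¹ * z ^ 1 ∈ V2
      rw [pow_one]; exact H.unif2 z hz⟩
  inj := by
    intro i j hij
    fin_cases i <;> fin_cases j
    · rfl
    · exact absurd hij H.ne
    · exact absurd hij.symm H.ne
    · rfl
  only := fun W hW => by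
    rcases H.only W hW with h | h
    · exact ⟨0, h⟩
    · exact ⟨1, h⟩

/-- **three valuations** `VA, VB, VC` with `e = 1, 1, eC`. -/
theorem s36tp_hyp_of_three {π : R} {VA VB VC : ValuationSubring E} {eC : ℕ}
    (prime : Prime π)
    (fin : ∀ a : R, a ≠ 0 → ∃ (k : ℕ) (s : R), ¬ π ∣ s ∧ a = π ^ k * s)
    (alg : ∀ z : E, IsAlgebraic R z)
    (overA : ssm_tp_Over π VA) (overB : ssm_tp_Over π VB) (overC : ssm_tp_Over π VC)
    (unifA : ∀ z ∈ VA.nonunits, (algebraMap R E π)⁻¹ * z ∈ VA)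
    (unifB : ∀ z ∈ VB.nonunits, (algebraMap R E π)⁻¹ * z ∈ VB)
    (heC : 0 < eC)
    (ramC : ∀ z ∈ VC.nonunits, (algebraMap R E π)⁻¹ * z ^ eC ∈ VC)
    (hAB : VA ≠ VB) (hAC : VA ≠ VC) (hBC : VB ≠ VC)
    (only : ∀ W : ValuationSubring E, ssm_tp_Over π W → W = VA ∨ W = VB ∨ W = VC) :
    s36tp_Hyp π ![VA, VB, VC] ![1, 1, eC] where
  prime := prime
  fin := fin
  alg := alg
  ovr := s36tp_forall_fin3.2 ⟨overA, overB, overC⟩
  epos := s36tp_forall_fin3.2 ⟨Nat.one_pos, Nat.one_pos, heC⟩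
  ram := s36tp_forall_fin3.2
    ⟨fun z hz => by
      change (algebraMap R E π)⁻¹ * z ^ 1 ∈ VA
      rw [pow_one]; exact unifA z hz,
    fun z hz => by
      change (algebraMap R E π)⁻¹ * z ^ 1 ∈ VB
      rw [pow_one]; exact unifB z hz,
    fun z hz => ramC z hz⟩
  inj := by
    intro i j hij
    fin_cases i <;> fin_cases j
    · rfl
    · exact absurd hij hAB
    · exact absurd hij hAC
    · exact absurd hij.symm hAB
    · rfl
    · exact absurd hij hBC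
    · exact absurd hij.symm hAC
    · exact absurd hij.symm hBC
    · rfl
  only := fun W hW => by
    rcases only W hW with h | h | h
    · exact ⟨0, h⟩
    · exact ⟨1, h⟩
    · exact ⟨2, h⟩

variable {π : R} {VA VB VC : ValuationSubring E} {e : Fin 3 → ℕ}

theorem s36tp_three_overA (H : s36tp_Hyp π ![VA, VB, VC] e) : ssm_tp_Over π VA := H.ovr 0

theorem s36tp_three_overB (H : s36tp_Hyp π ![VA, VB, VC] e) : ssm_tp_Over π VB := H.ovr 1

theorem s36tp_three_overC (H : s36tp_Hyp π ![VA, VB, VC] e) : ssm_tp_Over π VC := H.ovr 2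

/-- **`VA ⊓ VB ⊓ VC` is the integral closure of `R_(π)`** (= `s36ig_Semi π VA VB VC`). -/
theorem s36tp_three_semilocal (H : s36tp_Hyp π ![VA, VB, VC] e) :
    ∀ z, z ∈ VA → z ∈ VB → z ∈ VC →
      ∃ s : R, ¬ π ∣ s ∧ IsIntegral R (algebraMap R E s * z) :=
  fun _ hA hB hC => H.semilocal (s36tp_forall_fin3.2 ⟨hA, hB, hC⟩)

/-- the three valuation rings are pairwise incomparable -/
theorem s36tp_three_not_le (H : s36tp_Hyp π ![VA, VB, VC] e) :
    ¬ VA ≤ VB ∧ ¬ VB ≤ VA ∧ ¬ VA ≤ VC ∧ ¬ VC ≤ VA ∧ ¬ VB ≤ VC ∧ ¬ VC ≤ VB := by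
  refine ⟨fun h => ?_, fun h => ?_, fun h => ?_, fun h => ?_, fun h => ?_, fun h => ?_⟩
  · exact absurd (H.not_le (i := 0) (j := 1) h) (by decide)
  · exact absurd (H.not_le (i := 1) (j := 0) h) (by decide)
  · exact absurd (H.not_le (i := 0) (j := 2) h) (by decide)
  · exact absurd (H.not_le (i := 2) (j := 0) h) (by decide)
  · exact absurd (H.not_le (i := 1) (j := 2) h) (by decide)
  · exact absurd (H.not_le (i := 2) (j := 1) h) (by decide)

variable {A : Type*} [CommRing A] [Algebra A E] {B : Subalgebra A E}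

/-- **`b ∈ π B ↔ π⁻¹ b ∈ VA, VB, VC`** -/
theorem s36tp_three_mem_span_iff (H : s36tp_Hyp π ![VA, VB, VC] e) (hC : ssm_tp_Chart π B)
    (ϖ : B) (hϖ : (ϖ : E) = algebraMap R E π) {b : B} :
    b ∈ Ideal.span {ϖ} ↔ (algebraMap R E π)⁻¹ * (b : E) ∈ VA ∧
      (algebraMap R E π)⁻¹ * (b : E) ∈ VB ∧ (algebraMap R E π)⁻¹ * (b : E) ∈ VC := by
  rw [H.mem_span_iff hC ϖ hϖ, s36tp_forall_fin3]
  rfl

theorem s36tp_three_P_isPrime (H : s36tp_Hyp π ![VA, VB, VC] e) (hC : ssm_tp_Chart π B) :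
    (ssm_tp_P B VA).IsPrime ∧ (ssm_tp_P B VB).IsPrime ∧ (ssm_tp_P B VC).IsPrime :=
  ⟨H.P_isPrime hC 0, H.P_isPrime hC 1, H.P_isPrime hC 2⟩

theorem s36tp_three_mem_P (H : s36tp_Hyp π ![VA, VB, VC] e) (hC : ssm_tp_Chart π B) (b : B) :
    (b ∈ ssm_tp_P B VA ↔ (b : E) ∈ VA.nonunits) ∧ (b ∈ ssm_tp_P B VB ↔ (b : E) ∈ VB.nonunits) ∧
      (b ∈ ssm_tp_P B VC ↔ (b : E) ∈ VC.nonunits) :=
  ⟨H.mem_P hC 0, H.mem_P hC 1, H.mem_P hC 2⟩

/-- **`rad (π B) = PA ⊓ PB ⊓ PC`** -/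
theorem s36tp_three_radical (H : s36tp_Hyp π ![VA, VB, VC] e) (hC : ssm_tp_Chart π B)
    (ϖ : B) (hϖ : (ϖ : E) = algebraMap R E π) :
    (Ideal.span {ϖ}).radical = ssm_tp_P B VA ⊓ ssm_tp_P B VB ⊓ ssm_tp_P B VC := by
  rw [H.radical hC ϖ hϖ]
  apply le_antisymm
  · exact le_inf (le_inf (iInf_le _ (0 : Fin 3)) (iInf_le _ (1 : Fin 3))) (iInf_le _ (2 : Fin 3))
  · refine le_iInf fun i => ?_
    fin_cases i
    · exact inf_le_left.trans inf_le_left
    · exact inf_le_left.trans inf_le_right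
    · exact inf_le_right

/-- **every prime of the chart containing `π` contains `PA`, `PB` or `PC`** (the hypothesis
`hvert` of the triple-point cell). -/
theorem s36tp_three_P_le_of_mem (H : s36tp_Hyp π ![VA, VB, VC] e) (hC : ssm_tp_Chart π B)
    (ϖ : B) (hϖ : (ϖ : E) = algebraMap R E π) (Q : Ideal B) [Q.IsPrime] (hQ : ϖ ∈ Q) :
    ssm_tp_P B VA ≤ Q ∨ ssm_tp_P B VB ≤ Q ∨ ssm_tp_P B VC ≤ Q :=
  s36tp_exists_fin3.1 (H.P_le_of_mem hC ϖ hϖ Q hQ)

/-- the three vertical primes are pairwise incomparable -/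
theorem s36tp_three_P_not_le (H : s36tp_Hyp π ![VA, VB, VC] e) (hC : ssm_tp_Chart π B) :
    ¬ ssm_tp_P B VA ≤ ssm_tp_P B VB ∧ ¬ ssm_tp_P B VB ≤ ssm_tp_P B VA ∧
    ¬ ssm_tp_P B VA ≤ ssm_tp_P B VC ∧ ¬ ssm_tp_P B VC ≤ ssm_tp_P B VA ∧
    ¬ ssm_tp_P B VB ≤ ssm_tp_P B VC ∧ ¬ ssm_tp_P B VC ≤ ssm_tp_P B VB := by
  refine ⟨fun h => ?_, fun h => ?_, fun h => ?_, fun h => ?_, fun h => ?_, fun h => ?_⟩
  · exact absurd (H.P_not_le hC (i := 0) (j := 1) h) (by decide)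
  · exact absurd (H.P_not_le hC (i := 1) (j := 0) h) (by decide)
  · exact absurd (H.P_not_le hC (i := 0) (j := 2) h) (by decide)
  · exact absurd (H.P_not_le hC (i := 2) (j := 0) h) (by decide)
  · exact absurd (H.P_not_le hC (i := 1) (j := 2) h) (by decide)
  · exact absurd (H.P_not_le hC (i := 2) (j := 1) h) (by decide)

/-- **the primes of the chart minimal over `π` are `PA, PB, PC`** -/
theorem s36tp_three_minimalPrimes (H : s36tp_Hyp π ![VA, VB, VC] e) (hC : ssm_tp_Chart π B)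
    (ϖ : B) (hϖ : (ϖ : E) = algebraMap R E π) :
    (Ideal.span {ϖ}).minimalPrimes = {ssm_tp_P B VA, ssm_tp_P B VB, ssm_tp_P B VC} := by
  rw [H.P_minimalPrimes hC ϖ hϖ]
  ext Q
  simp only [Set.mem_range, Set.mem_insert_iff, Set.mem_singleton_iff]
  rw [s36tp_exists_fin3]
  constructor
  · rintro (h | h | h)
    exacts [Or.inl h.symm, Or.inr (Or.inl h.symm), Or.inr (Or.inr h.symm)]
  · rintro (h | h | h)
    exacts [Or.inl h.symm, Or.inr (Or.inl h.symm), Or.inr (Or.inr h.symm)]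

/-- the multiplicative set of the semistable F-core: units at `VA, VB, VC` -/
theorem s36tp_three_mem_S_iff (H : s36tp_Hyp π ![VA, VB, VC] e) (hC : ssm_tp_Chart π B) {s : E} :
    s ∈ sfc_S B.toSubring (algebraMap R E π) ↔
      s ∈ B ∧ s ∉ VA.nonunits ∧ s ∉ VB.nonunits ∧ s ∉ VC.nonunits := by
  rw [H.mem_S_iff hC, s36tp_forall_fin3]
  rfl

/-- **the semilocal Gauss ring of the semistable F-core is `VA ⊓ VB ⊓ VC`** -/
theorem s36tp_three_mem_O_iff (H : s36tp_Hyp π ![VA, VB, VC] e) (hC : ssm_tp_Chart π B) {z : E} :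
    z ∈ sfc_O B.toSubring (algebraMap R E π) ↔ z ∈ VA ∧ z ∈ VB ∧ z ∈ VC := by
  rw [H.mem_O_iff hC, s36tp_forall_fin3]
  rfl

/-- **`π O = π VA ⊓ π VB ⊓ π VC`** -/
theorem s36tp_three_mem_piO_iff (H : s36tp_Hyp π ![VA, VB, VC] e) (hC : ssm_tp_Chart π B)
    {z : E} :
    z ∈ sfc_piO B.toSubring (algebraMap R E π) ↔ (algebraMap R E π)⁻¹ * z ∈ VA ∧
      (algebraMap R E π)⁻¹ * z ∈ VB ∧ (algebraMap R E π)⁻¹ * z ∈ VC := by
  rw [H.mem_piO_iff hC, s36tp_forall_fin3]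
  rfl

end Named

section FunFieldInst

open IntermediateField Fermat.Agent.JT3

universe v

variable {A0 L : Type*} {F0 : Type v} [CommRing A0] [IsDomain A0] [IsDiscreteValuationRing A0]
  [Field L] [Field F0] [Algebra A0 L] [IsFractionRing A0 L] [Algebra L F0] [Algebra A0 F0]
  [IsScalarTower A0 L F0] {ι : Type*} [Fintype ι]

/-- **The hypotheses of [TP3] in the function-field case** `R = A0[y]`: `prime`, `fin`, `alg` are
automatic. -/
theorem s36tp_ff_hyp {π : A0} (hπ : Irreducible π) {y : F0} (hy : Transcendental L y)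
    [FiniteDimensional L⟮y⟯ F0] {V : ι → ValuationSubring F0} {e : ι → ℕ}
    (ovr : ∀ i, ssm_tp_Over (algebraMap A0 (Algebra.adjoin A0 ({y} : Set F0)) π) (V i))
    (epos : ∀ i, 0 < e i)
    (ram : ∀ i, ∀ z ∈ (V i).nonunits, (algebraMap A0 F0 π)⁻¹ * z ^ e i ∈ V i)
    (inj : Function.Injective V)
    (only : ∀ W : ValuationSubring F0,
      ssm_tp_Over (algebraMap A0 (Algebra.adjoin A0 ({y} : Set F0)) π) W → ∃ i, W = V i) :
    s36tp_Hyp (algebraMap A0 (Algebra.adjoin A0 ({y} : Set F0)) π) V e := by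
  have hyA : Transcendental A0 y := fc_ff_transcendental (L := L) hy
  have hp := (sfc_ff_prime_pi hπ hyA).1
  have hFT : Algebra.FiniteType A0 (Algebra.adjoin A0 ({y} : Set F0)) := by
    rw [← Subalgebra.fg_iff_finiteType]
    exact ⟨{y}, by rw [Finset.coe_singleton]⟩
  haveI : IsNoetherianRing (Algebra.adjoin A0 ({y} : Set F0)) :=
    Algebra.FiniteType.isNoetherianRing A0 _
  haveI : Algebra.IsAlgebraic (Algebra.adjoin A0 ({y} : Set F0)) F0 := fc_ff_isAlgebraic (L := L) y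
  exact ⟨hp, fun a ha => WfDvdMonoid.max_power_factor ha hp.irreducible,
    fun z => Algebra.IsAlgebraic.isAlgebraic z, ovr, epos, ram, inj, only⟩

/-- **from the coordinate `x` to the coordinate `x⁻¹`**. -/
theorem s36tp_ff_hyp_inv {π : A0} (hπ : Irreducible π) {x : F0} (hx : Transcendental L x)
    [FiniteDimensional L⟮x⟯ F0] {V : ι → ValuationSubring F0} {e : ι → ℕ}
    (H : s36tp_Hyp (algebraMap A0 (Algebra.adjoin A0 ({x} : Set F0)) π) V e) :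
    s36tp_Hyp (algebraMap A0 (Algebra.adjoin A0 ({x⁻¹} : Set F0)) π) V e := by
  have hxi : Transcendental L x⁻¹ := fun h => hx (IsAlgebraic.inv_iff.mp h)
  have hxA : Transcendental A0 x := fc_ff_transcendental (L := L) hx
  have hxiA : Transcendental A0 x⁻¹ := fc_ff_transcendental (L := L) hxi
  haveI hfd2 : FiniteDimensional L⟮x⁻¹⟯ F0 := by
    rw [rt_adjoin_inv]; infer_instance
  refine s36tp_ff_hyp (L := L) hπ hxi
    (fun i => ssm_tp_over_inv hxA hxiA hπ.not_isUnit (H.ovr i)) H.epos H.ram H.inj ?_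
  intro W hW
  apply H.only W
  have h1 := ssm_tp_over_inv hxiA (by rwa [inv_inv]) hπ.not_isUnit hW
  rwa [inv_inv] at h1

/-- **[TP3], model form** on a chart `B` over `A0[x]` (`B = fc_chart A0 {x}` or the overlap chart
`fc_chart A0 {x, x⁻¹}`): with `P i := ssm_tp_P B (V i) = 𝔪(V i) ∩ B`. -/
theorem s36tp_ff_model_of_chart [Nonempty ι] {π : A0} {x : F0}
    (hx : Transcendental L x) {V : ι → ValuationSubring F0} {e : ι → ℕ}
    (H : s36tp_Hyp (algebraMap A0 (Algebra.adjoin A0 ({x} : Set F0)) π) V e)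
    {B : Subalgebra A0 F0}
    (hC : ssm_tp_Chart (algebraMap A0 (Algebra.adjoin A0 ({x} : Set F0)) π) B) :
    (∀ i, (ssm_tp_P B (V i)).IsPrime) ∧
    (Ideal.span {algebraMap A0 B π}).radical = ⨅ i, ssm_tp_P B (V i) ∧
    (Ideal.span {algebraMap A0 B π}).minimalPrimes = Set.range (fun i => ssm_tp_P B (V i)) ∧
    (∀ i j, ssm_tp_P B (V i) ≤ ssm_tp_P B (V j) → i = j) ∧
    (∀ (Q : Ideal B) [Q.IsPrime], algebraMap A0 B π ∈ Q → ∃ i, ssm_tp_P B (V i) ≤ Q) ∧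
    (∀ i (b : B), b ∈ ssm_tp_P B (V i) ↔ (b : F0) ∈ (V i).nonunits) ∧
    (∀ b : B, b ∈ Ideal.span {algebraMap A0 B π} ↔
      ∀ i, (algebraMap A0 F0 π)⁻¹ * (b : F0) ∈ V i) ∧
    (∀ z : F0, z ∈ sfc_O B.toSubring (algebraMap A0 F0 π) ↔ ∀ i, z ∈ V i) ∧
    (∀ z : F0, z ∈ sfc_piO B.toSubring (algebraMap A0 F0 π) ↔
      ∀ i, (algebraMap A0 F0 π)⁻¹ * z ∈ V i) := by
  have hxA : Transcendental A0 x := fc_ff_transcendental (L := L) hx
  haveI : IsIntegrallyClosed (Algebra.adjoin A0 ({x} : Set F0)) := fc_ff_isIntegrallyClosed hxA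
  haveI : FaithfulSMul (Algebra.adjoin A0 ({x} : Set F0)) F0 :=
    (faithfulSMul_iff_algebraMap_injective _ _).2 Subtype.val_injective
  exact ⟨fun i => H.P_isPrime hC i, H.radical hC _ rfl, H.P_minimalPrimes hC _ rfl,
    fun i j h => H.P_not_le hC h, fun Q _ hQ => H.P_le_of_mem hC _ rfl Q hQ,
    fun i b => H.mem_P hC i, fun b => H.mem_span_iff hC _ rfl, fun z => H.mem_O_iff hC,
    fun z => H.mem_piO_iff hC⟩

/-- **[TP3], model form on the overlap chart `B₁₂`**. -/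
theorem s36tp_ff_model [Nonempty ι] {π : A0} (hπ : Irreducible π) {x : F0}
    (hx : Transcendental L x) {V : ι → ValuationSubring F0} {e : ι → ℕ}
    (H : s36tp_Hyp (algebraMap A0 (Algebra.adjoin A0 ({x} : Set F0)) π) V e) :
    (∀ i, (ssm_tp_P (fc_chart A0 ({x, x⁻¹} : Set F0)) (V i)).IsPrime) ∧
    (Ideal.span {algebraMap A0 (fc_chart A0 ({x, x⁻¹} : Set F0)) π}).radical =
      ⨅ i, ssm_tp_P (fc_chart A0 ({x, x⁻¹} : Set F0)) (V i) ∧
    (Ideal.span {algebraMap A0 (fc_chart A0 ({x, x⁻¹} : Set F0)) π}).minimalPrimes =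
      Set.range (fun i => ssm_tp_P (fc_chart A0 ({x, x⁻¹} : Set F0)) (V i)) ∧
    (∀ i j, ssm_tp_P (fc_chart A0 ({x, x⁻¹} : Set F0)) (V i) ≤
      ssm_tp_P (fc_chart A0 ({x, x⁻¹} : Set F0)) (V j) → i = j) ∧
    (∀ (Q : Ideal (fc_chart A0 ({x, x⁻¹} : Set F0))) [Q.IsPrime],
      algebraMap A0 (fc_chart A0 ({x, x⁻¹} : Set F0)) π ∈ Q →
        ∃ i, ssm_tp_P (fc_chart A0 ({x, x⁻¹} : Set F0)) (V i) ≤ Q) ∧
    (∀ i (b : fc_chart A0 ({x, x⁻¹} : Set F0)),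
      b ∈ ssm_tp_P (fc_chart A0 ({x, x⁻¹} : Set F0)) (V i) ↔ (b : F0) ∈ (V i).nonunits) ∧
    (∀ b : fc_chart A0 ({x, x⁻¹} : Set F0),
      b ∈ Ideal.span {algebraMap A0 (fc_chart A0 ({x, x⁻¹} : Set F0)) π} ↔
        ∀ i, (algebraMap A0 F0 π)⁻¹ * (b : F0) ∈ V i) ∧
    (∀ z : F0, z ∈ sfc_O (fc_chart A0 ({x, x⁻¹} : Set F0)).toSubring (algebraMap A0 F0 π) ↔
      ∀ i, z ∈ V i) ∧
    (∀ z : F0, z ∈ sfc_piO (fc_chart A0 ({x, x⁻¹} : Set F0)).toSubring (algebraMap A0 F0 π) ↔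
      ∀ i, (algebraMap A0 F0 π)⁻¹ * z ∈ V i) :=
  s36tp_ff_model_of_chart (L := L) hx H (ssm_tp_ff_chart12 (L := L) hπ hx)

end FunFieldInst

end Fermat.Agent.S36
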