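/-
Project S36 (Carayol), cell [M2], leaf [CP3] (helper17), FUNCTION-FIELD form: the components and the
smooth clauses of the charts `fc_chart A0 {ι y}` of level `N' q²` (`y = x'` or `x'⁻¹` a chart
coordinate of `K = E'`), from helper24's `H : s36tp_Hyp π ![VA, VB, VC] e` ([TP3], `e 0 = e 1 = 1`)
and the residue data of the valuations.  Twin of `ssm_cpi_ff` / `ssm_cpi_ff_smooth2`.

* `s36cp_ff_add`  : `B = φ B' + P_V` for `V = VA` or `VC` (any `V` over the Gauss ring with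
  `V ∩ K = R'`, `κ(V) = κ(R')`);  `s36cp_ff_pow` : `B ^ n ⊆ φ B' + P_V` (`V = VB`, `n = q * q`);
* `s36cp_ff_smoothA` : `jt_RegAt` of the chart of level `N'` ⟹ the SMOOTH clause
  (`(∃ t, tq_GenBy π t 𝔫) ∧ tq_Dom π 𝔫`, i.e. `ss_SmoothAt π B 𝔫`) at every maximal `𝔫 ∋ π` of `B`
  with `P_B ⊄ 𝔫`, `P_C ⊄ 𝔫`;
* `s36cp_ff_smoothB` : the same at the maximal `𝔫 ∋ π` with `P_A ⊄ 𝔫`, `P_C ⊄ 𝔫`, through the
  mirror `W` (`W₂`: an involution of `E` fixing `A0`, preserving the chart, `VB = W⁻¹ VA`).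
Prefix `s36cp_`.
-/
import Mathlib
import Fermat.Agent.S36.Model.Comp3Inst
import Fermat.Agent.S36.Model.Primes3Inst
import Fermat.Agent.SS.Model.PointsInf

set_option autoImplicit false
set_option linter.unusedSectionVars false
set_option linter.unusedVariables false
set_option linter.style.haveILetI false

namespace Fermat.Agent.S36

open Fermat.Agent.JT3 Fermat.Agent.SS IsLocalRing IntermediateField

section FF

universe u v

variable {K : Type u} {E : Type v} [Field K] [Field E] [Algebra K E]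
  {R' : Type*} [CommRing R'] [Algebra R' K] [Algebra R' E] [IsScalarTower R' K E]
  {A0 L : Type*} [CommRing A0] [IsDomain A0] [IsDiscreteValuationRing A0]
  [Field L] [Algebra A0 L] [IsFractionRing A0 L] [Algebra L E] [Algebra A0 E]
  [IsScalarTower A0 L E] [Algebra A0 K] [IsScalarTower A0 K E] [Algebra L K] [IsScalarTower A0 L K]

/-- **`B = φ B' + P_V`** on the chart `fc_chart A0 {ι y}` for a valuation subring `V` over the
Gauss ring with `V ∩ K = R'` and `κ(V) = κ(R')` (`V = VA`, `VC`). -/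
theorem s36cp_ff_add {π : A0} (hπ : Irreducible π) {y : K}
    (hy : Transcendental L y) [FiniteDimensional L⟮y⟯ K]
    (hyE : Transcendental L (algebraMap K E y))
    (hprime : Prime (algebraMap A0 (fc_chart A0 ({y} : Set K)) π))
    (hic : IsIntegrallyClosed (fc_chart A0 ({y} : Set K) ⧸
      (Ideal.span {algebraMap A0 (fc_chart A0 ({y} : Set K)) π} :
        Ideal (fc_chart A0 ({y} : Set K)))))
    (VK : ValuationSubring K) (hVK : ∀ z : K, z ∈ VK ↔ z ∈ (algebraMap R' K).range)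
    (hover : ssm_tp_Over (algebraMap A0 (Algebra.adjoin A0 ({y} : Set K)) π) VK)
    (V : ValuationSubring E)
    (hVover : ∀ z : K, algebraMap K E z ∈ V ↔ z ∈ (algebraMap R' K).range)
    (hV : ssm_tp_Over (algebraMap A0 (Algebra.adjoin A0 ({algebraMap K E y} : Set E)) π) V)
    (hres : ∀ a ∈ V, ∃ r : R', a - algebraMap R' E r ∈ V.nonunits) :
    ∀ b : fc_chart A0 ({algebraMap K E y} : Set E), ∃ b' : fc_chart A0 ({y} : Set K),
      b - ssm_cpi_phi A0 E y b' ∈ ssm_tp_P (fc_chart A0 ({algebraMap K E y} : Set E)) V := by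
  have Lk := s36cp_link_ff (L := L) (R' := R') hπ hy hyE hprime VK hVK hover V hVover hV
  have hπ' : (Ideal.span {algebraMap A0 (fc_chart A0 ({y} : Set K)) π} :
      Ideal (fc_chart A0 ({y} : Set K))).IsPrime :=
    (Ideal.span_singleton_prime hprime.ne_zero).2 hprime
  exact s36cp_add Lk hres (ssm_cpi_phi_isIntegral (A0 := A0) (E := E) y) hπ' hic

/-- **`B ^ n ⊆ φ B' + P_V`** on the chart `fc_chart A0 {ι y}` for a valuation subring `V` over
the Gauss ring with `V ∩ K = R'` and `κ(V) ^ n ⊆ κ(R')` (`V = VB`, `n = q * q`). -/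
theorem s36cp_ff_pow {π : A0} (hπ : Irreducible π) {y : K}
    (hy : Transcendental L y) [FiniteDimensional L⟮y⟯ K]
    (hyE : Transcendental L (algebraMap K E y))
    (hprime : Prime (algebraMap A0 (fc_chart A0 ({y} : Set K)) π))
    (hic : IsIntegrallyClosed (fc_chart A0 ({y} : Set K) ⧸
      (Ideal.span {algebraMap A0 (fc_chart A0 ({y} : Set K)) π} :
        Ideal (fc_chart A0 ({y} : Set K)))))
    (VK : ValuationSubring K) (hVK : ∀ z : K, z ∈ VK ↔ z ∈ (algebraMap R' K).range)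
    (hover : ssm_tp_Over (algebraMap A0 (Algebra.adjoin A0 ({y} : Set K)) π) VK)
    (V : ValuationSubring E)
    (hVover : ∀ z : K, algebraMap K E z ∈ V ↔ z ∈ (algebraMap R' K).range)
    (hV : ssm_tp_Over (algebraMap A0 (Algebra.adjoin A0 ({algebraMap K E y} : Set E)) π) V)
    (n : ℕ) (hpow : ∀ a ∈ V, ∃ r : R', a ^ n - algebraMap R' E r ∈ V.nonunits) :
    ∀ b : fc_chart A0 ({algebraMap K E y} : Set E), ∃ b' : fc_chart A0 ({y} : Set K),
      b ^ n - ssm_cpi_phi A0 E y b' ∈ ssm_tp_P (fc_chart A0 ({algebraMap K E y} : Set E)) V := by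
  have Lk := s36cp_link_ff (L := L) (R' := R') hπ hy hyE hprime VK hVK hover V hVover hV
  have hπ' : (Ideal.span {algebraMap A0 (fc_chart A0 ({y} : Set K)) π} :
      Ideal (fc_chart A0 ({y} : Set K))).IsPrime :=
    (Ideal.span_singleton_prime hprime.ne_zero).2 hprime
  exact s36cp_pow Lk n hpow (ssm_cpi_phi_isIntegral (A0 := A0) (E := E) y) hπ' hic

variable {VA VB VC : ValuationSubring E} {e : Fin 3 → ℕ}

/-- the common part of the two smooth clauses: the valuation-level inputs of `s36cp_smooth_val`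
from `H : s36tp_Hyp π ![VA, VB, VC] e`, `e 0 = e 1 = 1`. -/
theorem s36cp_ff_inputs {π : A0} (hπ : Irreducible π) {y : K}
    (hyE : Transcendental L (algebraMap K E y))
    (H : s36tp_Hyp (algebraMap A0 (Algebra.adjoin A0 ({algebraMap K E y} : Set E)) π)
      ![VA, VB, VC] e) (he0 : e 0 = 1) (he1 : e 1 = 1) :
    (∀ b ∈ fc_chart A0 ({algebraMap K E y} : Set E), b ∈ VA) ∧
    (∀ b ∈ fc_chart A0 ({algebraMap K E y} : Set E), b ∈ VB) ∧
    (∀ b ∈ fc_chart A0 ({algebraMap K E y} : Set E), b ∈ VC) ∧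
    (∀ b : fc_chart A0 ({algebraMap K E y} : Set E),
      (algebraMap A0 E π)⁻¹ * (b : E) ∈ VA → (algebraMap A0 E π)⁻¹ * (b : E) ∈ VB →
      (algebraMap A0 E π)⁻¹ * (b : E) ∈ VC →
        algebraMap A0 (fc_chart A0 ({algebraMap K E y} : Set E)) π ∣ b) ∧
    (∀ a ∈ VA.nonunits, (algebraMap A0 E π)⁻¹ * a ∈ VA) ∧
    (∀ a ∈ VB.nonunits, (algebraMap A0 E π)⁻¹ * a ∈ VB) ∧
    (∀ a ∈ VC.nonunits, (algebraMap A0 E π)⁻¹ * a ^ e 2 ∈ VC) := by
  have hyEA : Transcendental A0 (algebraMap K E y) := fc_ff_transcendental (L := L) hyE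
  haveI : IsIntegrallyClosed (Algebra.adjoin A0 ({algebraMap K E y} : Set E)) :=
    fc_ff_isIntegrallyClosed hyEA
  haveI : FaithfulSMul (Algebra.adjoin A0 ({algebraMap K E y} : Set E)) E :=
    (faithfulSMul_iff_algebraMap_injective _ _).2 Subtype.val_injective
  have hC := ssm_tp_ff_chart (L := L) hπ hyE
  refine ⟨fun b hb => H.chart_le hC 0 hb, fun b hb => H.chart_le hC 1 hb,
    fun b hb => H.chart_le hC 2 hb, ?_, ?_, ?_, ?_⟩
  · intro b hA hB hC'
    rw [← Ideal.mem_span_singleton,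
      s36tp_three_mem_span_iff H hC (algebraMap A0 (fc_chart A0 ({algebraMap K E y} : Set E)) π) rfl]
    exact ⟨hA, hB, hC'⟩
  · intro a ha
    have := H.ram 0 a ha
    rw [he0, pow_one] at this
    exact this
  · intro a ha
    have := H.ram 1 a ha
    rw [he1, pow_one] at this
    exact this
  · intro a ha
    exact H.ram 2 a ha

/-- **[CP3], SMOOTH clause on `A`**: on the chart `B = fc_chart A0 {ι y}` of level `N' q²`, at
every maximal ideal `𝔫 ∋ π` lying neither on `B` nor on `C`, from the regularity clause of the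
chart `B' = fc_chart A0 {y}` of level `N'`. -/
theorem s36cp_ff_smoothA {π : A0} (hπ : Irreducible π) {y : K}
    (hy : Transcendental L y) [FiniteDimensional L⟮y⟯ K]
    (hyE : Transcendental L (algebraMap K E y))
    (hprime : Prime (algebraMap A0 (fc_chart A0 ({y} : Set K)) π))
    (hic : IsIntegrallyClosed (fc_chart A0 ({y} : Set K) ⧸
      (Ideal.span {algebraMap A0 (fc_chart A0 ({y} : Set K)) π} :
        Ideal (fc_chart A0 ({y} : Set K)))))
    (VK : ValuationSubring K) (hVK : ∀ z : K, z ∈ VK ↔ z ∈ (algebraMap R' K).range)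
    (hover : ssm_tp_Over (algebraMap A0 (Algebra.adjoin A0 ({y} : Set K)) π) VK)
    (H : s36tp_Hyp (algebraMap A0 (Algebra.adjoin A0 ({algebraMap K E y} : Set E)) π)
      ![VA, VB, VC] e) (he0 : e 0 = 1) (he1 : e 1 = 1)
    (hVAover : ∀ z : K, algebraMap K E z ∈ VA ↔ z ∈ (algebraMap R' K).range)
    (hresA : ∀ a ∈ VA, ∃ r : R', a - algebraMap R' E r ∈ VA.nonunits)
    (hreg : jt_RegAt (fc_chart A0 ({y} : Set K)) (algebraMap A0 (fc_chart A0 ({y} : Set K)) π))
    (𝔫 : Ideal (fc_chart A0 ({algebraMap K E y} : Set E))) (h𝔫 : 𝔫.IsMaximal)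
    (hπ𝔫 : algebraMap A0 (fc_chart A0 ({algebraMap K E y} : Set E)) π ∈ 𝔫)
    (hB : ¬ ssm_tp_P (fc_chart A0 ({algebraMap K E y} : Set E)) VB ≤ 𝔫)
    (hC : ¬ ssm_tp_P (fc_chart A0 ({algebraMap K E y} : Set E)) VC ≤ 𝔫) :
    (∃ t, tq_GenBy (algebraMap A0 (fc_chart A0 ({algebraMap K E y} : Set E)) π) t 𝔫) ∧
      tq_Dom (algebraMap A0 (fc_chart A0 ({algebraMap K E y} : Set E)) π) 𝔫 := by
  have hyEA : Transcendental A0 (algebraMap K E y) := fc_ff_transcendental (L := L) hyE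
  haveI : IsIntegrallyClosed (Algebra.adjoin A0 ({algebraMap K E y} : Set E)) :=
    fc_ff_isIntegrallyClosed hyEA
  haveI : FaithfulSMul (Algebra.adjoin A0 ({algebraMap K E y} : Set E)) E :=
    (faithfulSMul_iff_algebraMap_injective _ _).2 Subtype.val_injective
  haveI := h𝔫.isPrime
  have hCh := ssm_tp_ff_chart (L := L) hπ hyE
  have Lk := s36cp_link_ff (L := L) (R' := R') hπ hy hyE hprime VK hVK hover VA hVAover (H.ovr 0)
  have hπ' : (Ideal.span {algebraMap A0 (fc_chart A0 ({y} : Set K)) π} :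
      Ideal (fc_chart A0 ({y} : Set K))).IsPrime :=
    (Ideal.span_singleton_prime hprime.ne_zero).2 hprime
  obtain ⟨-, leB, leC, hdiv, unifA, unifB, ramC⟩ := s36cp_ff_inputs (L := L) hπ hyE H he0 he1
  have hA : ssm_tp_P (fc_chart A0 ({algebraMap K E y} : Set E)) VA ≤ 𝔫 := by
    rcases s36tp_three_P_le_of_mem H hCh _ rfl 𝔫 hπ𝔫 with h | h | h
    · exact h
    · exact absurd h hB
    · exact absurd h hC
  have hφπ := ssm_cpi_phi_algebraMap (A0 := A0) (E := E) y π
  have h := s36cp_smooth_val VA VB VC Lk hresA (ssm_cpi_phi_isIntegral (A0 := A0) (E := E) y) hπ'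
    hic hreg leB leC (by rw [hφπ]; exact hdiv) (by rw [hφπ]; exact unifA)
    (by rw [hφπ]; exact unifB) (e 2) (by rw [hφπ]; exact ramC) 𝔫 h𝔫 hA hB hC
  rw [hφπ] at h
  exact h

/-- **[CP3], SMOOTH clause on `B`**: at every maximal ideal `𝔫 ∋ π` of the chart lying neither on
`A` nor on `C`, through the mirror `W` (an involution of `E` fixing `A0`, preserving the chart, with
`VB = W⁻¹ VA`). -/
theorem s36cp_ff_smoothB {π : A0} (hπ : Irreducible π) {y : K}
    (hy : Transcendental L y) [FiniteDimensional L⟮y⟯ K]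
    (hyE : Transcendental L (algebraMap K E y))
    (hprime : Prime (algebraMap A0 (fc_chart A0 ({y} : Set K)) π))
    (hic : IsIntegrallyClosed (fc_chart A0 ({y} : Set K) ⧸
      (Ideal.span {algebraMap A0 (fc_chart A0 ({y} : Set K)) π} :
        Ideal (fc_chart A0 ({y} : Set K)))))
    (VK : ValuationSubring K) (hVK : ∀ z : K, z ∈ VK ↔ z ∈ (algebraMap R' K).range)
    (hover : ssm_tp_Over (algebraMap A0 (Algebra.adjoin A0 ({y} : Set K)) π) VK)
    (H : s36tp_Hyp (algebraMap A0 (Algebra.adjoin A0 ({algebraMap K E y} : Set E)) π)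
      ![VA, VB, VC] e) (he0 : e 0 = 1) (he1 : e 1 = 1)
    (hVAover : ∀ z : K, algebraMap K E z ∈ VA ↔ z ∈ (algebraMap R' K).range)
    (hresA : ∀ a ∈ VA, ∃ r : R', a - algebraMap R' E r ∈ VA.nonunits)
    (hreg : jt_RegAt (fc_chart A0 ({y} : Set K)) (algebraMap A0 (fc_chart A0 ({y} : Set K)) π))
    (W : E ≃+* E) (hWW : ∀ x, W (W x) = x)
    (hWB : ∀ b ∈ fc_chart A0 ({algebraMap K E y} : Set E),
      W b ∈ fc_chart A0 ({algebraMap K E y} : Set E))
    (hWO : ∀ a : A0, W (algebraMap A0 E a) = algebraMap A0 E a)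
    (hVB : ∀ z : E, z ∈ VB ↔ W z ∈ VA)
    (𝔫 : Ideal (fc_chart A0 ({algebraMap K E y} : Set E))) (h𝔫 : 𝔫.IsMaximal)
    (hπ𝔫 : algebraMap A0 (fc_chart A0 ({algebraMap K E y} : Set E)) π ∈ 𝔫)
    (hA : ¬ ssm_tp_P (fc_chart A0 ({algebraMap K E y} : Set E)) VA ≤ 𝔫)
    (hC : ¬ ssm_tp_P (fc_chart A0 ({algebraMap K E y} : Set E)) VC ≤ 𝔫) :
    (∃ t, tq_GenBy (algebraMap A0 (fc_chart A0 ({algebraMap K E y} : Set E)) π) t 𝔫) ∧
      tq_Dom (algebraMap A0 (fc_chart A0 ({algebraMap K E y} : Set E)) π) 𝔫 := by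
  have hyEA : Transcendental A0 (algebraMap K E y) := fc_ff_transcendental (L := L) hyE
  haveI : IsIntegrallyClosed (Algebra.adjoin A0 ({algebraMap K E y} : Set E)) :=
    fc_ff_isIntegrallyClosed hyEA
  haveI : FaithfulSMul (Algebra.adjoin A0 ({algebraMap K E y} : Set E)) E :=
    (faithfulSMul_iff_algebraMap_injective _ _).2 Subtype.val_injective
  haveI := h𝔫.isPrime
  have hCh := ssm_tp_ff_chart (L := L) hπ hyE
  have Lk := s36cp_link_ff (L := L) (R' := R') hπ hy hyE hprime VK hVK hover VA hVAover (H.ovr 0)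
  have hπ' : (Ideal.span {algebraMap A0 (fc_chart A0 ({y} : Set K)) π} :
      Ideal (fc_chart A0 ({y} : Set K))).IsPrime :=
    (Ideal.span_singleton_prime hprime.ne_zero).2 hprime
  obtain ⟨-, leB, leC, hdiv, unifA, unifB, ramC⟩ := s36cp_ff_inputs (L := L) hπ hyE H he0 he1
  have hBn : ssm_tp_P (fc_chart A0 ({algebraMap K E y} : Set E)) VB ≤ 𝔫 := by
    rcases s36tp_three_P_le_of_mem H hCh _ rfl 𝔫 hπ𝔫 with h | h | h
    · exact absurd h hA
    · exact h
    · exact absurd h hC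
  have hφπ := ssm_cpi_phi_algebraMap (A0 := A0) (E := E) y π
  -- `W` exchanges the maximal ideals of `VA` and `VB`
  have hWAB : ∀ x : E, x ∈ VA.nonunits → W x ∈ VB.nonunits := by
    intro x hx
    rw [ssm_i1_nonunits_comap W hVB, hWW]
    exact hx
  have hWπ : ssm_inf_equiv W hWW _ hWB
      (ssm_cpi_phi A0 E y (algebraMap A0 (fc_chart A0 ({y} : Set K)) π)) =
      ssm_cpi_phi A0 E y (algebraMap A0 (fc_chart A0 ({y} : Set K)) π) := by
    rw [hφπ]
    apply Subtype.ext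
    rw [ssm_inf_equiv_coe]
    exact hWO π
  have h := s36cp_smooth_val_W VA VB VC Lk hresA (ssm_cpi_phi_isIntegral (A0 := A0) (E := E) y) hπ'
    hic hreg leB leC (by rw [hφπ]; exact hdiv) (by rw [hφπ]; exact unifA)
    (by rw [hφπ]; exact unifB) (e 2) (by rw [hφπ]; exact ramC) W
    (ssm_inf_equiv W hWW _ hWB) (fun _ => rfl) hWπ hWAB 𝔫 h𝔫 hBn hA hC
  rw [hφπ] at h
  exact h

end FF

end Fermat.Agent.S36
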