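/-
Project S36 (Carayol), cell [M2], leaf [L3a] (helper17): THE REDUCED COMPONENTS `A`, `B` ARE SMOOTH
AT EVERY CLOSED POINT (triple points included) — the input `hsmB` of helper10's `s36tr_ChartHyp`
([TRI-INST]) and its `A`-mirror:

  `∀ 𝔫 maximal of B, ∃ t ∈ 𝔫, ∀ x ∈ 𝔫, ∃ s ∉ 𝔫, s * x ∈ P ⊔ span {t}`     (`P = P_A` or `P_B`),

i.e. `(B ⧸ P)_𝔫` has a principal maximal ideal.  Proof: `B = φ B' + P` (resp. `W φ B' + P`), so
`B ⧸ P` is a quotient of the chart `B'` of level `N'`, whose regularity clause `jt_RegAt` gives a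
local generator `u` of `𝔫 ∩ B'` modulo `π'`; `t := φ u` (resp. `W φ u`).  No hypothesis on the
other components is needed.

* `s36cp_comp_gen`, `s36cp_comp_gen_W` : abstract;
* `s36cp_comp_val`, `s36cp_comp_val_W` : valuation form (`s36cp_Link`);
* `s36cp_ff_compA`, `s36cp_ff_compB` : function-field form on `fc_chart A0 {ι y}`.
Prefix `s36cp_`.
-/
import Mathlib
import Fermat.Agent.S36.Model.Comp3FF

set_option autoImplicit false
set_option linter.unusedSectionVars false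
set_option linter.unusedVariables false
set_option linter.style.haveILetI false

namespace Fermat.Agent.S36

open Fermat.Agent.JT3 Fermat.Agent.SS IsLocalRing IntermediateField

section Abstract

variable {B' B : Type*} [CommRing B'] [CommRing B]

/-- **the component `P1` is smooth at every closed point**: if `B = φ B' + P1` and `B'` satisfies
the regularity clause at every maximal ideal containing `π'` (`φ π' ∈ P1`), then at every maximal
ideal `𝔫` of `B` the ideal `𝔫` is generated by `P1` and ONE element, locally. -/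
theorem s36cp_comp_gen (φ : B' →+* B) (hint : φ.IsIntegral) (π' : B')
    (P1 : Ideal B) (hπ1 : φ π' ∈ P1)
    (hadd : ∀ b : B, ∃ b' : B', b - φ b' ∈ P1)
    (hreg : ∀ y : Ideal B', y.IsMaximal → π' ∈ y → ∃ u : B', tq_GenBy π' u y)
    (𝔫 : Ideal B) (h𝔫 : 𝔫.IsMaximal) :
    ∃ t ∈ 𝔫, ∀ x ∈ 𝔫, ∃ s : B, s ∉ 𝔫 ∧ s * x ∈ P1 ⊔ Ideal.span {t} := by
  haveI := h𝔫.isPrime
  by_cases hP : P1 ≤ 𝔫
  · obtain ⟨u, -, hu𝔫, hgen⟩ :=
      hreg (𝔫.comap φ) (ssm_cp_comap_isMaximal φ hint 𝔫 h𝔫) (hP hπ1)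
    refine ⟨φ u, hu𝔫, fun x hx => ?_⟩
    obtain ⟨x', hx'⟩ := hadd x
    have hx'n : x' ∈ 𝔫.comap φ := by
      rw [Ideal.mem_comap]
      have : φ x' = x - (x - φ x') := by ring
      rw [this]
      exact 𝔫.sub_mem hx (hP hx')
    obtain ⟨s', hs', hs'x⟩ := hgen x' hx'n
    obtain ⟨a, r, har⟩ := Ideal.mem_span_pair.mp hs'x
    refine ⟨φ s', hs', ?_⟩
    have e : φ s' * x = (φ s' * (x - φ x') + φ a * φ π') + φ r * φ u := by
      have : φ s' * φ x' = φ a * φ π' + φ r * φ u := by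
        rw [← map_mul, ← map_mul, ← map_mul, ← map_add, har]
      linear_combination this
    rw [e]
    refine Ideal.add_mem _ (Ideal.mem_sup_left ?_) (Ideal.mem_sup_right ?_)
    · exact P1.add_mem (P1.mul_mem_left _ hx') (P1.mul_mem_left _ hπ1)
    · exact Ideal.mul_mem_left _ _ (Ideal.subset_span (by simp))
  · obtain ⟨p, hp, hpn⟩ := SetLike.not_le_iff_exists.mp hP
    exact ⟨0, 𝔫.zero_mem, fun x _ => ⟨p, hpn, Ideal.mem_sup_left (P1.mul_mem_right _ hp)⟩⟩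

/-- the mirrored component: `B = W φ B' + P2`. -/
theorem s36cp_comp_gen_W (φ : B' →+* B) (hint : φ.IsIntegral) (π' : B')
    (P2 : Ideal B) (W : B ≃+* B) (hπ2 : W (φ π') ∈ P2)
    (hadd : ∀ b : B, ∃ b' : B', b - W (φ b') ∈ P2)
    (hreg : ∀ y : Ideal B', y.IsMaximal → π' ∈ y → ∃ u : B', tq_GenBy π' u y)
    (𝔫 : Ideal B) (h𝔫 : 𝔫.IsMaximal) :
    ∃ t ∈ 𝔫, ∀ x ∈ 𝔫, ∃ s : B, s ∉ 𝔫 ∧ s * x ∈ P2 ⊔ Ideal.span {t} :=
  s36cp_comp_gen ((W : B →+* B).comp φ) (ssm_cp_isIntegral_transport φ hint W) π' P2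
    (by simpa using hπ2) (fun b => by simpa using hadd b) hreg 𝔫 h𝔫

end Abstract

section Val

variable {K E : Type*} [Field K] [Field E] [Algebra K E]
  {R' : Type*} [CommRing R'] [Algebra R' K] [Algebra R' E] [IsScalarTower R' K E]
  {A0 : Type*} [CommRing A0] [Algebra A0 K] [Algebra A0 E]
  {B' : Subalgebra A0 K} {B : Subalgebra A0 E} {φ : B' →+* B} {π' : B'}

/-- **the component `A` is smooth at every closed point** (valuation form). -/
theorem s36cp_comp_val (VA : ValuationSubring E)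
    (Lk : s36cp_Link VA R' B' B φ π')
    (hres : ∀ a ∈ VA, ∃ r : R', a - algebraMap R' E r ∈ VA.nonunits)
    (hint : φ.IsIntegral) (hπ' : (Ideal.span {π'} : Ideal B').IsPrime)
    (hic : IsIntegrallyClosed (B' ⧸ (Ideal.span {π'} : Ideal B')))
    (hreg : ∀ y : Ideal B', y.IsMaximal → π' ∈ y → (∃ u : B', tq_GenBy π' u y) ∧ tq_Dom π' y)
    (𝔫 : Ideal B) (h𝔫 : 𝔫.IsMaximal) :
    ∃ t ∈ 𝔫, ∀ x ∈ 𝔫, ∃ s : B, s ∉ 𝔫 ∧ s * x ∈ ssm_tp_P B VA ⊔ Ideal.span {t} :=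
  s36cp_comp_gen φ hint π' (ssm_tp_P B VA) (s36cp_pi_mem Lk) (s36cp_add Lk hres hint hπ' hic)
    (fun y hy hπy => (hreg y hy hπy).1) 𝔫 h𝔫

/-- **the component `B` is smooth at every closed point** (valuation form), through the mirror
`W` exchanging `𝔪(VA)` and `𝔪(VB)`. -/
theorem s36cp_comp_val_W (VA VB : ValuationSubring E)
    (Lk : s36cp_Link VA R' B' B φ π')
    (hres : ∀ a ∈ VA, ∃ r : R', a - algebraMap R' E r ∈ VA.nonunits)
    (hint : φ.IsIntegral) (hπ' : (Ideal.span {π'} : Ideal B').IsPrime)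
    (hic : IsIntegrallyClosed (B' ⧸ (Ideal.span {π'} : Ideal B')))
    (hreg : ∀ y : Ideal B', y.IsMaximal → π' ∈ y → (∃ u : B', tq_GenBy π' u y) ∧ tq_Dom π' y)
    (leB : ∀ b ∈ B, b ∈ VB)
    (W : E ≃+* E) (WB : B ≃+* B) (hWB : ∀ b : B, (WB b : E) = W (b : E))
    (hWAB : ∀ x : E, x ∈ VA.nonunits → W x ∈ VB.nonunits)
    (𝔫 : Ideal B) (h𝔫 : 𝔫.IsMaximal) :
    ∃ t ∈ 𝔫, ∀ x ∈ 𝔫, ∃ s : B, s ∉ 𝔫 ∧ s * x ∈ ssm_tp_P B VB ⊔ Ideal.span {t} := by
  have hadd := s36cp_add Lk hres hint hπ' hic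
  have hW : ∀ x ∈ ssm_tp_P B VA, WB x ∈ ssm_tp_P B VB := by
    intro x hx
    rw [Lk.mem_P] at hx
    rw [ssm_tp_mem_P leB, hWB]
    exact hWAB _ hx
  exact s36cp_comp_gen_W φ hint π' (ssm_tp_P B VB) WB (hW _ (s36cp_pi_mem Lk))
    (s36cp_add_W φ WB _ _ hW hadd) (fun y hy hπy => (hreg y hy hπy).1) 𝔫 h𝔫

end Val

section FF

universe u v

variable {K : Type u} {E : Type v} [Field K] [Field E] [Algebra K E]
  {R' : Type*} [CommRing R'] [Algebra R' K] [Algebra R' E] [IsScalarTower R' K E]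
  {A0 L : Type*} [CommRing A0] [IsDomain A0] [IsDiscreteValuationRing A0]
  [Field L] [Algebra A0 L] [IsFractionRing A0 L] [Algebra L E] [Algebra A0 E]
  [IsScalarTower A0 L E] [Algebra A0 K] [IsScalarTower A0 K E] [Algebra L K] [IsScalarTower A0 L K]

variable {VA VB : ValuationSubring E}

/-- **[L3a]/[TRI-INST] `hsmA`**: on the chart `B = fc_chart A0 {ι y}`, at EVERY maximal ideal `𝔫`
the component `A` is smooth: `𝔫 = P_A + (t)` locally. -/
theorem s36cp_ff_compA {π : A0} (hπ : Irreducible π) {y : K}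
    (hy : Transcendental L y) [FiniteDimensional L⟮y⟯ K]
    (hyE : Transcendental L (algebraMap K E y))
    (hprime : Prime (algebraMap A0 (fc_chart A0 ({y} : Set K)) π))
    (hic : IsIntegrallyClosed (fc_chart A0 ({y} : Set K) ⧸
      (Ideal.span {algebraMap A0 (fc_chart A0 ({y} : Set K)) π} :
        Ideal (fc_chart A0 ({y} : Set K)))))
    (VK : ValuationSubring K) (hVK : ∀ z : K, z ∈ VK ↔ z ∈ (algebraMap R' K).range)
    (hover : ssm_tp_Over (algebraMap A0 (Algebra.adjoin A0 ({y} : Set K)) π) VK)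
    (hVA : ssm_tp_Over (algebraMap A0 (Algebra.adjoin A0 ({algebraMap K E y} : Set E)) π) VA)
    (hVAover : ∀ z : K, algebraMap K E z ∈ VA ↔ z ∈ (algebraMap R' K).range)
    (hresA : ∀ a ∈ VA, ∃ r : R', a - algebraMap R' E r ∈ VA.nonunits)
    (hreg : jt_RegAt (fc_chart A0 ({y} : Set K)) (algebraMap A0 (fc_chart A0 ({y} : Set K)) π))
    (𝔫 : Ideal (fc_chart A0 ({algebraMap K E y} : Set E))) (h𝔫 : 𝔫.IsMaximal) :
    ∃ t ∈ 𝔫, ∀ x ∈ 𝔫, ∃ s : fc_chart A0 ({algebraMap K E y} : Set E), s ∉ 𝔫 ∧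
      s * x ∈ ssm_tp_P (fc_chart A0 ({algebraMap K E y} : Set E)) VA ⊔ Ideal.span {t} := by
  have Lk := s36cp_link_ff (L := L) (R' := R') hπ hy hyE hprime VK hVK hover VA hVAover hVA
  have hπ' : (Ideal.span {algebraMap A0 (fc_chart A0 ({y} : Set K)) π} :
      Ideal (fc_chart A0 ({y} : Set K))).IsPrime :=
    (Ideal.span_singleton_prime hprime.ne_zero).2 hprime
  exact s36cp_comp_val VA Lk hresA (ssm_cpi_phi_isIntegral (A0 := A0) (E := E) y) hπ' hic hreg 𝔫 h𝔫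

/-- **[L3a]/[TRI-INST] `hsmB`**: on the chart `B = fc_chart A0 {ι y}`, at EVERY maximal ideal `𝔫`
the component `B` (`VB = W⁻¹ VA`, `W` an involution of `E` preserving the chart) is smooth:
`𝔫 = P_B + (t)` locally. -/
theorem s36cp_ff_compB {π : A0} (hπ : Irreducible π) {y : K}
    (hy : Transcendental L y) [FiniteDimensional L⟮y⟯ K]
    (hyE : Transcendental L (algebraMap K E y))
    (hprime : Prime (algebraMap A0 (fc_chart A0 ({y} : Set K)) π))
    (hic : IsIntegrallyClosed (fc_chart A0 ({y} : Set K) ⧸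
      (Ideal.span {algebraMap A0 (fc_chart A0 ({y} : Set K)) π} :
        Ideal (fc_chart A0 ({y} : Set K)))))
    (VK : ValuationSubring K) (hVK : ∀ z : K, z ∈ VK ↔ z ∈ (algebraMap R' K).range)
    (hover : ssm_tp_Over (algebraMap A0 (Algebra.adjoin A0 ({y} : Set K)) π) VK)
    (hVA : ssm_tp_Over (algebraMap A0 (Algebra.adjoin A0 ({algebraMap K E y} : Set E)) π) VA)
    (hVAover : ∀ z : K, algebraMap K E z ∈ VA ↔ z ∈ (algebraMap R' K).range)
    (hresA : ∀ a ∈ VA, ∃ r : R', a - algebraMap R' E r ∈ VA.nonunits)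
    (hreg : jt_RegAt (fc_chart A0 ({y} : Set K)) (algebraMap A0 (fc_chart A0 ({y} : Set K)) π))
    (W : E ≃+* E) (hWW : ∀ x, W (W x) = x)
    (hWB : ∀ b ∈ fc_chart A0 ({algebraMap K E y} : Set E),
      W b ∈ fc_chart A0 ({algebraMap K E y} : Set E))
    (hVB : ∀ z : E, z ∈ VB ↔ W z ∈ VA)
    (𝔫 : Ideal (fc_chart A0 ({algebraMap K E y} : Set E))) (h𝔫 : 𝔫.IsMaximal) :
    ∃ t ∈ 𝔫, ∀ x ∈ 𝔫, ∃ s : fc_chart A0 ({algebraMap K E y} : Set E), s ∉ 𝔫 ∧
      s * x ∈ ssm_tp_P (fc_chart A0 ({algebraMap K E y} : Set E)) VB ⊔ Ideal.span {t} := by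
  have Lk := s36cp_link_ff (L := L) (R' := R') hπ hy hyE hprime VK hVK hover VA hVAover hVA
  have hπ' : (Ideal.span {algebraMap A0 (fc_chart A0 ({y} : Set K)) π} :
      Ideal (fc_chart A0 ({y} : Set K))).IsPrime :=
    (Ideal.span_singleton_prime hprime.ne_zero).2 hprime
  have leB : ∀ b ∈ fc_chart A0 ({algebraMap K E y} : Set E), b ∈ VB := fun b hb =>
    (hVB b).2 (Lk.le' _ (hWB b hb))
  have hWAB : ∀ x : E, x ∈ VA.nonunits → W x ∈ VB.nonunits := by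
    intro x hx
    rw [ssm_i1_nonunits_comap W hVB, hWW]
    exact hx
  exact s36cp_comp_val_W VA VB Lk hresA (ssm_cpi_phi_isIntegral (A0 := A0) (E := E) y) hπ' hic hreg
    leB W (ssm_inf_equiv W hWW _ hWB) (fun _ => rfl) hWAB 𝔫 h𝔫

end FF

end Fermat.Agent.S36
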