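/-
Project S36 (Carayol), cell [M2], instance leaf [L3a] (helper17): THE SMOOTH CLAUSES AT THE POINTS
LYING ON `A` ONLY OR ON `B` ONLY, for a tower `E' ≤ E ≤ Quot(O((X)))` (generic context of
`SS/Model/SmoothInst.lean`) with THREE valuations `VA = Gauss(E)`, `VB = W⁻¹ VA`, `VC`, and for the
Legendre tower `E' = lg_E L N' ≤ E = lg_E L (N' q q)`, `W = W₂` (`s36w_WE`).  Twin of
`ssm_si_chart` / `ssm_si_smooth_gen` / `ssm_si_smooth`.

* `s36cp_si_chart` : the two clauses on one chart `fc_chart O {yE}`;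
* `s36cp_si_smooth_gen` : both charts `y = lam'`, `lam'⁻¹`;
* `s36cp_leg_smooth` : the Legendre instance: `x = lg_lamE (N' q q)`, `VA = s36i_VA`,
  `VB = VA.comap W₂`; inputs: the level package at `N'` (`ssm_ll_prime`, `ssm_ll_ic1/2`,
  `ssm_ll_reg1/2`), helper24's `H : s36tp_Hyp π ![VA, VB, VC] e` (`e 0 = e 1 = 1`), the residue
  statement `κ(VA) = κ(Gauss E')` and the `W₂`-stability of the two charts ([I2]).
Prefix `s36cp_`.
-/
import Mathlib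
import Fermat.Agent.S36.Model.Comp3FF
import Fermat.Agent.SS.Model.TwoPrimesInst
import Fermat.Agent.S36.AL2.Cover
import Fermat.Agent.S36.Ins1.Leg

set_option autoImplicit false
set_option linter.unusedSectionVars false
set_option linter.unusedVariables false
set_option linter.style.haveILetI false

noncomputable section

open ModularCurve IntermediateField IsLocalRing
open Fermat.Agent.JT3 Fermat.Agent.SS

namespace Fermat.Agent.S36

section Generic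

variable {L : Type*} [Field L] [CharZero L] (O : ValuationSubring L)
  [IsDiscreteValuationRing O] {π : O} (hπ : Irreducible π)
variable (E' E : IntermediateField L (LaurentSeries L)) (hle : E' ≤ E)
  (hE : E ≤ gq_quotField O L)

set_option synthInstance.maxHeartbeats 200000 in
set_option maxHeartbeats 400000 in
/-- **the two smooth clauses on one chart** `fc_chart O {yE}`, `yE` the image in `E` of a chart
coordinate `y` of `E'`: at the maximal ideals `𝔫 ∋ π` lying on `A` only, resp. on `B` only. -/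
theorem s36cp_si_chart {VB VC : ValuationSubring ↥E} {e : Fin 3 → ℕ}
    (y : ↥E') (yE : ↥E) (hyE : IntermediateField.inclusion hle y = yE)
    (hy : Transcendental L y) [FiniteDimensional L⟮y⟯ ↥E'] (hyEt : Transcendental L yE)
    (hover : ssm_tp_Over (algebraMap ↥O (Algebra.adjoin ↥O ({y} : Set ↥E')) π)
      (gq_valSubOf π hπ.ne_zero hπ.maximalIdeal_eq E' (hle.trans hE)))
    (H : s36tp_Hyp (algebraMap ↥O (Algebra.adjoin ↥O ({yE} : Set ↥E)) π)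
      ![gq_valSubOf π hπ.ne_zero hπ.maximalIdeal_eq E hE, VB, VC] e)
    (he0 : e 0 = 1) (he1 : e 1 = 1)
    (hresA : ∀ a ∈ gq_valSubOf π hπ.ne_zero hπ.maximalIdeal_eq E hE,
      ∃ r : ↥(gq_valSubOf π hπ.ne_zero hπ.maximalIdeal_eq E' (hle.trans hE)),
        a - IntermediateField.inclusion hle (r : ↥E') ∈
          (gq_valSubOf π hπ.ne_zero hπ.maximalIdeal_eq E hE).nonunits)
    (hprime : Prime (algebraMap ↥O (fc_chart ↥O ({y} : Set ↥E')) π))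
    (hic : IsIntegrallyClosed (fc_chart ↥O ({y} : Set ↥E') ⧸
      (Ideal.span {algebraMap ↥O (fc_chart ↥O ({y} : Set ↥E')) π} :
        Ideal (fc_chart ↥O ({y} : Set ↥E')))))
    (hreg : jt_RegAt (fc_chart ↥O ({y} : Set ↥E'))
      (algebraMap ↥O (fc_chart ↥O ({y} : Set ↥E')) π))
    (W : ↥E ≃+* ↥E) (hWW : ∀ x, W (W x) = x)
    (hWB : ∀ b ∈ fc_chart ↥O ({yE} : Set ↥E), W b ∈ fc_chart ↥O ({yE} : Set ↥E))
    (hWO : ∀ a : ↥O, W (algebraMap ↥O ↥E a) = algebraMap ↥O ↥E a)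
    (hVB : ∀ z : ↥E, z ∈ VB ↔ W z ∈ gq_valSubOf π hπ.ne_zero hπ.maximalIdeal_eq E hE) :
    (∀ 𝔫 : Ideal (fc_chart ↥O ({yE} : Set ↥E)), 𝔫.IsMaximal →
      algebraMap ↥O (fc_chart ↥O ({yE} : Set ↥E)) π ∈ 𝔫 →
      ¬ ssm_tp_P (fc_chart ↥O ({yE} : Set ↥E)) VB ≤ 𝔫 →
      ¬ ssm_tp_P (fc_chart ↥O ({yE} : Set ↥E)) VC ≤ 𝔫 →
      ss_SmoothAt π (fc_chart ↥O ({yE} : Set ↥E)) 𝔫) ∧
    (∀ 𝔫 : Ideal (fc_chart ↥O ({yE} : Set ↥E)), 𝔫.IsMaximal →
      algebraMap ↥O (fc_chart ↥O ({yE} : Set ↥E)) π ∈ 𝔫 →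
      ¬ ssm_tp_P (fc_chart ↥O ({yE} : Set ↥E))
        (gq_valSubOf π hπ.ne_zero hπ.maximalIdeal_eq E hE) ≤ 𝔫 →
      ¬ ssm_tp_P (fc_chart ↥O ({yE} : Set ↥E)) VC ≤ 𝔫 →
      ss_SmoothAt π (fc_chart ↥O ({yE} : Set ↥E)) 𝔫) := by
  subst hyE
  letI := ssm_gi_algebra hle
  letI := ssm_gi_algebraV hle (gq_valSubOf π hπ.ne_zero hπ.maximalIdeal_eq E' (hle.trans hE))
  haveI := ssm_gi_isScalarTower hle
    (gq_valSubOf π hπ.ne_zero hπ.maximalIdeal_eq E' (hle.trans hE))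
  haveI := ssm_go_isScalarTower O E
  haveI := ssm_go_isScalarTower O E'
  haveI := ssm_gt_isScalarTower O hle
  have hVK : ∀ z : ↥E', z ∈ gq_valSubOf π hπ.ne_zero hπ.maximalIdeal_eq E' (hle.trans hE) ↔
      z ∈ (algebraMap ↥(gq_valSubOf π hπ.ne_zero hπ.maximalIdeal_eq E' (hle.trans hE)) ↥E').range :=
    fun z => (ssm_gi_mem_range _ z).symm
  have hVAover : ∀ z : ↥E', algebraMap ↥E' ↥E z ∈ gq_valSubOf π hπ.ne_zero hπ.maximalIdeal_eq E hE ↔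
      z ∈ (algebraMap ↥(gq_valSubOf π hπ.ne_zero hπ.maximalIdeal_eq E' (hle.trans hE)) ↥E').range := by
    intro z
    rw [ssm_gi_mem_range, gq_mem_valSubOf, gq_mem_valSubOf]
    rfl
  have hresA' : ∀ a ∈ gq_valSubOf π hπ.ne_zero hπ.maximalIdeal_eq E hE,
      ∃ r : ↥(gq_valSubOf π hπ.ne_zero hπ.maximalIdeal_eq E' (hle.trans hE)),
        a - algebraMap ↥(gq_valSubOf π hπ.ne_zero hπ.maximalIdeal_eq E' (hle.trans hE)) ↥E r ∈
          (gq_valSubOf π hπ.ne_zero hπ.maximalIdeal_eq E hE).nonunits := hresA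
  refine ⟨fun 𝔫 h𝔫 hπ𝔫 hB hC => ?_, fun 𝔫 h𝔫 hπ𝔫 hA hC => ?_⟩
  · exact s36cp_ff_smoothA (L := L)
      (R' := ↥(gq_valSubOf π hπ.ne_zero hπ.maximalIdeal_eq E' (hle.trans hE)))
      hπ hy hyEt hprime hic
      (gq_valSubOf π hπ.ne_zero hπ.maximalIdeal_eq E' (hle.trans hE)) hVK hover H he0 he1
      hVAover hresA' hreg 𝔫 h𝔫 hπ𝔫 hB hC
  · exact s36cp_ff_smoothB (L := L)
      (R' := ↥(gq_valSubOf π hπ.ne_zero hπ.maximalIdeal_eq E' (hle.trans hE)))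
      hπ hy hyEt hprime hic
      (gq_valSubOf π hπ.ne_zero hπ.maximalIdeal_eq E' (hle.trans hE)) hVK hover H he0 he1
      hVAover hresA' hreg W hWW hWB hWO hVB 𝔫 h𝔫 hπ𝔫 hA hC

set_option synthInstance.maxHeartbeats 200000 in
set_option maxHeartbeats 800000 in
/-- **the four smooth clauses** for the two charts `lam`, `lam⁻¹` of `E`
(`lam := inclusion hle lam'`, `lam'` the image in `E'` of a series `ys` over `O` with non-constant
reduction). -/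
theorem s36cp_si_smooth_gen {VB VC : ValuationSubring ↥E} {e : Fin 3 → ℕ}
    (ys : LaurentSeries O) (n : ℤ) (hn0 : n ≠ 0) (hyn : residue O (ys.coeff n) ≠ 0) (lam' : ↥E')
    (hlam : (lam' : LaurentSeries L) = coeffMap (algebraMap O L) ys)
    [FiniteDimensional L⟮lam'⟯ ↥E']
    [FiniteDimensional L⟮IntermediateField.inclusion hle lam'⟯ ↥E]
    (H : s36tp_Hyp
      (algebraMap ↥O (Algebra.adjoin ↥O ({IntermediateField.inclusion hle lam'} : Set ↥E)) π)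
      ![gq_valSubOf π hπ.ne_zero hπ.maximalIdeal_eq E hE, VB, VC] e)
    (he0 : e 0 = 1) (he1 : e 1 = 1)
    (hresA : ∀ a ∈ gq_valSubOf π hπ.ne_zero hπ.maximalIdeal_eq E hE,
      ∃ r : ↥(gq_valSubOf π hπ.ne_zero hπ.maximalIdeal_eq E' (hle.trans hE)),
        a - IntermediateField.inclusion hle (r : ↥E') ∈
          (gq_valSubOf π hπ.ne_zero hπ.maximalIdeal_eq E hE).nonunits)
    (hprime1 : Prime (algebraMap ↥O (fc_chart ↥O ({lam'} : Set ↥E')) π))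
    (hprime2 : Prime (algebraMap ↥O (fc_chart ↥O ({lam'⁻¹} : Set ↥E')) π))
    (hic1 : IsIntegrallyClosed (fc_chart ↥O ({lam'} : Set ↥E') ⧸
      (Ideal.span {algebraMap ↥O (fc_chart ↥O ({lam'} : Set ↥E')) π} :
        Ideal (fc_chart ↥O ({lam'} : Set ↥E')))))
    (hic2 : IsIntegrallyClosed (fc_chart ↥O ({lam'⁻¹} : Set ↥E') ⧸
      (Ideal.span {algebraMap ↥O (fc_chart ↥O ({lam'⁻¹} : Set ↥E')) π} :
        Ideal (fc_chart ↥O ({lam'⁻¹} : Set ↥E')))))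
    (hreg1 : jt_RegAt (fc_chart ↥O ({lam'} : Set ↥E'))
      (algebraMap ↥O (fc_chart ↥O ({lam'} : Set ↥E')) π))
    (hreg2 : jt_RegAt (fc_chart ↥O ({lam'⁻¹} : Set ↥E'))
      (algebraMap ↥O (fc_chart ↥O ({lam'⁻¹} : Set ↥E')) π))
    (W : ↥E ≃+* ↥E) (hWW : ∀ x, W (W x) = x)
    (hWB1 : ∀ b ∈ fc_chart ↥O ({IntermediateField.inclusion hle lam'} : Set ↥E),
      W b ∈ fc_chart ↥O ({IntermediateField.inclusion hle lam'} : Set ↥E))
    (hWB2 : ∀ b ∈ fc_chart ↥O ({(IntermediateField.inclusion hle lam')⁻¹} : Set ↥E),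
      W b ∈ fc_chart ↥O ({(IntermediateField.inclusion hle lam')⁻¹} : Set ↥E))
    (hWO : ∀ a : ↥O, W (algebraMap ↥O ↥E a) = algebraMap ↥O ↥E a)
    (hVB : ∀ z : ↥E, z ∈ VB ↔ W z ∈ gq_valSubOf π hπ.ne_zero hπ.maximalIdeal_eq E hE) :
    (∀ 𝔫 : Ideal (fc_chart ↥O ({IntermediateField.inclusion hle lam'} : Set ↥E)), 𝔫.IsMaximal →
      algebraMap ↥O (fc_chart ↥O ({IntermediateField.inclusion hle lam'} : Set ↥E)) π ∈ 𝔫 →
      ¬ ssm_tp_P (fc_chart ↥O ({IntermediateField.inclusion hle lam'} : Set ↥E)) VB ≤ 𝔫 →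
      ¬ ssm_tp_P (fc_chart ↥O ({IntermediateField.inclusion hle lam'} : Set ↥E)) VC ≤ 𝔫 →
      ss_SmoothAt π (fc_chart ↥O ({IntermediateField.inclusion hle lam'} : Set ↥E)) 𝔫) ∧
    (∀ 𝔫 : Ideal (fc_chart ↥O ({IntermediateField.inclusion hle lam'} : Set ↥E)), 𝔫.IsMaximal →
      algebraMap ↥O (fc_chart ↥O ({IntermediateField.inclusion hle lam'} : Set ↥E)) π ∈ 𝔫 →
      ¬ ssm_tp_P (fc_chart ↥O ({IntermediateField.inclusion hle lam'} : Set ↥E))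
        (gq_valSubOf π hπ.ne_zero hπ.maximalIdeal_eq E hE) ≤ 𝔫 →
      ¬ ssm_tp_P (fc_chart ↥O ({IntermediateField.inclusion hle lam'} : Set ↥E)) VC ≤ 𝔫 →
      ss_SmoothAt π (fc_chart ↥O ({IntermediateField.inclusion hle lam'} : Set ↥E)) 𝔫) ∧
    (∀ 𝔫 : Ideal (fc_chart ↥O ({(IntermediateField.inclusion hle lam')⁻¹} : Set ↥E)),
      𝔫.IsMaximal →
      algebraMap ↥O (fc_chart ↥O ({(IntermediateField.inclusion hle lam')⁻¹} : Set ↥E)) π ∈ 𝔫 →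
      ¬ ssm_tp_P (fc_chart ↥O ({(IntermediateField.inclusion hle lam')⁻¹} : Set ↥E)) VB ≤ 𝔫 →
      ¬ ssm_tp_P (fc_chart ↥O ({(IntermediateField.inclusion hle lam')⁻¹} : Set ↥E)) VC ≤ 𝔫 →
      ss_SmoothAt π (fc_chart ↥O ({(IntermediateField.inclusion hle lam')⁻¹} : Set ↥E)) 𝔫) ∧
    (∀ 𝔫 : Ideal (fc_chart ↥O ({(IntermediateField.inclusion hle lam')⁻¹} : Set ↥E)),
      𝔫.IsMaximal →
      algebraMap ↥O (fc_chart ↥O ({(IntermediateField.inclusion hle lam')⁻¹} : Set ↥E)) π ∈ 𝔫 →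
      ¬ ssm_tp_P (fc_chart ↥O ({(IntermediateField.inclusion hle lam')⁻¹} : Set ↥E))
        (gq_valSubOf π hπ.ne_zero hπ.maximalIdeal_eq E hE) ≤ 𝔫 →
      ¬ ssm_tp_P (fc_chart ↥O ({(IntermediateField.inclusion hle lam')⁻¹} : Set ↥E)) VC ≤ 𝔫 →
      ss_SmoothAt π (fc_chart ↥O ({(IntermediateField.inclusion hle lam')⁻¹} : Set ↥E)) 𝔫) := by
  haveI := ssm_go_isScalarTower O E
  haveI := ssm_go_isScalarTower O E'
  have hx : Transcendental L lam' := ssm_go_transcendental O E' ys lam' hlam hn0 hyn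
  have hxE : Transcendental L (IntermediateField.inclusion hle lam') :=
    ssm_go_transcendental O E ys (IntermediateField.inclusion hle lam') hlam hn0 hyn
  have hxi : Transcendental L lam'⁻¹ := fun h => hx (IsAlgebraic.inv_iff.mp h)
  have hxEi : Transcendental L (IntermediateField.inclusion hle lam')⁻¹ :=
    fun h => hxE (IsAlgebraic.inv_iff.mp h)
  have hover := ssm_go_over O E' ys lam' hlam hπ (hle.trans hE) hn0 hyn
  have hover' := ssm_tp_over_inv (fc_ff_transcendental (L := L) hx)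
    (fc_ff_transcendental (L := L) hxi) hπ.not_isUnit hover
  have H' := s36tp_ff_hyp_inv (L := L) hπ hxE H
  haveI : FiniteDimensional L⟮lam'⁻¹⟯ ↥E' := by
    rw [rt_adjoin_inv]; infer_instance
  have c1 := s36cp_si_chart O hπ E' E hle hE lam' (IntermediateField.inclusion hle lam') rfl hx hxE
    hover H he0 he1 hresA hprime1 hic1 hreg1 W hWW hWB1 hWO hVB
  have c2 := s36cp_si_chart O hπ E' E hle hE lam'⁻¹ (IntermediateField.inclusion hle lam')⁻¹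
    (map_inv₀ (IntermediateField.inclusion hle) lam') hxi hxEi hover' H' he0 he1 hresA hprime2 hic2
    hreg2 W hWW hWB2 hWO hVB
  exact ⟨c1.1, c1.2, c2.1, c2.2⟩

end Generic

section Legendre

variable {L : Type*} [Field L] [CharZero L] [Algebra L (AlgebraicClosure ℚ)]
  (O : ValuationSubring L) [IsDiscreteValuationRing O] {π : O} (hπ : Irreducible π)
variable (N' q : ℕ) [NeZero N'] [NeZero q] [hq : Fact q.Prime] [CharP (ResidueField O) q]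
  (hq2 : ¬ 2 ∣ q) (hqN' : ¬ q ∣ N')

variable (L) in
/-- `E₀ = lg_E L N' ≤ E₂ = lg_E L (N' q q)`. -/
theorem s36cp_E_le2 : lg_E L N' ≤ lg_E L (N' * q * q) :=
  (ssm_al_E_le L N' q).trans (ssm_al_E_le L (N' * q) q)

variable (L) in
/-- the Atkin–Lehner involution `W₂` of `E₂ = lg_E L (N' q q)` as a ring automorphism. -/
abbrev s36cp_W2 : ↥(lg_E L (N' * q * q)) ≃+* ↥(lg_E L (N' * q * q)) :=
  (s36w_WE L N' q hq.out hq2 hqN').toRingEquiv

/-- the second vertical valuation `VB = W₂⁻¹ VA`. -/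
abbrev s36cp_VB : ValuationSubring ↥(lg_E L (N' * q * q)) :=
  (s36i_VA O hπ (N' * q) q).comap
    (s36cp_W2 L N' q hq2 hqN' : ↥(lg_E L (N' * q * q)) →+* ↥(lg_E L (N' * q * q)))

set_option synthInstance.maxHeartbeats 200000 in
/-- `W₂` fixes the constants. -/
theorem s36cp_W2_algebraMap (a : ↥O) :
    s36cp_W2 L N' q hq2 hqN' (algebraMap ↥O ↥(lg_E L (N' * q * q)) a) =
      algebraMap ↥O ↥(lg_E L (N' * q * q)) a :=
  (s36w_WE L N' q hq.out hq2 hqN').commutes (a : L)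

set_option synthInstance.maxHeartbeats 200000 in
set_option maxHeartbeats 800000 in
/-- **[L3a], Legendre tower, `ss_SmoothAt` form**: the four smooth clauses (points on `A` only,
points on `B` only; charts `x`, `x⁻¹`) at level `N' q q`, `x = lg_lamE (N' q q)`,
`VA = s36i_VA`, `VB = s36cp_VB`, for EVERY third valuation `VC` and exponents `e` with helper24's
`H : s36tp_Hyp π ![VA, VB, VC] e`, `e 0 = e 1 = 1`. -/
theorem s36cp_leg_smooth {VC : ValuationSubring ↥(lg_E L (N' * q * q))} {e : Fin 3 → ℕ}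
    (H : s36tp_Hyp
      (algebraMap ↥O (Algebra.adjoin ↥O ({lg_lamE (N' * q * q)} : Set ↥(lg_E L (N' * q * q)))) π)
      ![s36i_VA O hπ (N' * q) q, s36cp_VB O hπ N' q hq2 hqN', VC] e)
    (he0 : e 0 = 1) (he1 : e 1 = 1)
    (hresA : ∀ a ∈ s36i_VA O hπ (N' * q) q,
      ∃ r : ↥(gq_valSubOf π hπ.ne_zero hπ.maximalIdeal_eq (lg_E L N')
          ((s36cp_E_le2 L N' q).trans (ssm_ga_E_le_quotField O (N' * q * q)))),
        a - IntermediateField.inclusion (s36cp_E_le2 L N' q) (r : ↥(lg_E L N')) ∈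
          (s36i_VA O hπ (N' * q) q).nonunits)
    (hprime1 : Prime (algebraMap ↥O (fc_chart ↥O ({lg_lamE N'} : Set ↥(lg_E L N'))) π))
    (hprime2 : Prime (algebraMap ↥O (fc_chart ↥O ({(lg_lamE N')⁻¹} : Set ↥(lg_E L N'))) π))
    (hic1 : IsIntegrallyClosed (fc_chart ↥O ({lg_lamE N'} : Set ↥(lg_E L N')) ⧸
      (Ideal.span {algebraMap ↥O (fc_chart ↥O ({lg_lamE N'} : Set ↥(lg_E L N'))) π} :
        Ideal (fc_chart ↥O ({lg_lamE N'} : Set ↥(lg_E L N'))))))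
    (hic2 : IsIntegrallyClosed (fc_chart ↥O ({(lg_lamE N')⁻¹} : Set ↥(lg_E L N')) ⧸
      (Ideal.span {algebraMap ↥O (fc_chart ↥O ({(lg_lamE N')⁻¹} : Set ↥(lg_E L N'))) π} :
        Ideal (fc_chart ↥O ({(lg_lamE N')⁻¹} : Set ↥(lg_E L N'))))))
    (hreg1 : jt_RegAt (fc_chart ↥O ({lg_lamE N'} : Set ↥(lg_E L N')))
      (algebraMap ↥O (fc_chart ↥O ({lg_lamE N'} : Set ↥(lg_E L N'))) π))
    (hreg2 : jt_RegAt (fc_chart ↥O ({(lg_lamE N')⁻¹} : Set ↥(lg_E L N')))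
      (algebraMap ↥O (fc_chart ↥O ({(lg_lamE N')⁻¹} : Set ↥(lg_E L N'))) π))
    (hWB1 : ∀ b ∈ fc_chart ↥O ({lg_lamE (N' * q * q)} : Set ↥(lg_E L (N' * q * q))),
      s36cp_W2 L N' q hq2 hqN' b ∈
        fc_chart ↥O ({lg_lamE (N' * q * q)} : Set ↥(lg_E L (N' * q * q))))
    (hWB2 : ∀ b ∈ fc_chart ↥O ({(lg_lamE (N' * q * q))⁻¹} : Set ↥(lg_E L (N' * q * q))),
      s36cp_W2 L N' q hq2 hqN' b ∈
        fc_chart ↥O ({(lg_lamE (N' * q * q))⁻¹} : Set ↥(lg_E L (N' * q * q)))) :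
    (∀ 𝔫 : Ideal (fc_chart ↥O ({lg_lamE (N' * q * q)} : Set ↥(lg_E L (N' * q * q)))),
      𝔫.IsMaximal →
      algebraMap ↥O (fc_chart ↥O ({lg_lamE (N' * q * q)} : Set ↥(lg_E L (N' * q * q)))) π ∈ 𝔫 →
      ¬ ssm_tp_P (fc_chart ↥O ({lg_lamE (N' * q * q)} : Set ↥(lg_E L (N' * q * q))))
        (s36cp_VB O hπ N' q hq2 hqN') ≤ 𝔫 →
      ¬ ssm_tp_P (fc_chart ↥O ({lg_lamE (N' * q * q)} : Set ↥(lg_E L (N' * q * q)))) VC ≤ 𝔫 →
      ss_SmoothAt π (fc_chart ↥O ({lg_lamE (N' * q * q)} : Set ↥(lg_E L (N' * q * q)))) 𝔫) ∧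
    (∀ 𝔫 : Ideal (fc_chart ↥O ({lg_lamE (N' * q * q)} : Set ↥(lg_E L (N' * q * q)))),
      𝔫.IsMaximal →
      algebraMap ↥O (fc_chart ↥O ({lg_lamE (N' * q * q)} : Set ↥(lg_E L (N' * q * q)))) π ∈ 𝔫 →
      ¬ ssm_tp_P (fc_chart ↥O ({lg_lamE (N' * q * q)} : Set ↥(lg_E L (N' * q * q))))
        (s36i_VA O hπ (N' * q) q) ≤ 𝔫 →
      ¬ ssm_tp_P (fc_chart ↥O ({lg_lamE (N' * q * q)} : Set ↥(lg_E L (N' * q * q)))) VC ≤ 𝔫 →
      ss_SmoothAt π (fc_chart ↥O ({lg_lamE (N' * q * q)} : Set ↥(lg_E L (N' * q * q)))) 𝔫) ∧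
    (∀ 𝔫 : Ideal (fc_chart ↥O ({(lg_lamE (N' * q * q))⁻¹} : Set ↥(lg_E L (N' * q * q)))),
      𝔫.IsMaximal →
      algebraMap ↥O (fc_chart ↥O ({(lg_lamE (N' * q * q))⁻¹} : Set ↥(lg_E L (N' * q * q)))) π ∈ 𝔫 →
      ¬ ssm_tp_P (fc_chart ↥O ({(lg_lamE (N' * q * q))⁻¹} : Set ↥(lg_E L (N' * q * q))))
        (s36cp_VB O hπ N' q hq2 hqN') ≤ 𝔫 →
      ¬ ssm_tp_P (fc_chart ↥O ({(lg_lamE (N' * q * q))⁻¹} : Set ↥(lg_E L (N' * q * q)))) VC ≤ 𝔫 →
      ss_SmoothAt π (fc_chart ↥O ({(lg_lamE (N' * q * q))⁻¹} : Set ↥(lg_E L (N' * q * q)))) 𝔫) ∧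
    (∀ 𝔫 : Ideal (fc_chart ↥O ({(lg_lamE (N' * q * q))⁻¹} : Set ↥(lg_E L (N' * q * q)))),
      𝔫.IsMaximal →
      algebraMap ↥O (fc_chart ↥O ({(lg_lamE (N' * q * q))⁻¹} : Set ↥(lg_E L (N' * q * q)))) π ∈ 𝔫 →
      ¬ ssm_tp_P (fc_chart ↥O ({(lg_lamE (N' * q * q))⁻¹} : Set ↥(lg_E L (N' * q * q))))
        (s36i_VA O hπ (N' * q) q) ≤ 𝔫 →
      ¬ ssm_tp_P (fc_chart ↥O ({(lg_lamE (N' * q * q))⁻¹} : Set ↥(lg_E L (N' * q * q)))) VC ≤ 𝔫 →
      ss_SmoothAt π (fc_chart ↥O ({(lg_lamE (N' * q * q))⁻¹} : Set ↥(lg_E L (N' * q * q)))) 𝔫) := by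
  haveI := lgf_finite L N'
  haveI : FiniteDimensional
      L⟮IntermediateField.inclusion (s36cp_E_le2 L N' q) (lg_lamE N')⟯ ↥(lg_E L (N' * q * q)) :=
    lgf_finite L (N' * q * q)
  have hn0 : (1 : ℤ) ≠ 0 := one_ne_zero
  exact s36cp_si_smooth_gen O hπ (lg_E L N') (lg_E L (N' * q * q)) (s36cp_E_le2 L N' q)
    (ssm_ga_E_le_quotField O (N' * q * q)) (hm_lam O) 1 hn0
    (ssm_ga_lam_coeff_one O (ssm_gl_two_ne_zero O q hq2)) (lg_lamE N')
    (hm_coeffMap_lam _).symm H he0 he1 hresA hprime1 hprime2 hic1 hic2 hreg1 hreg2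
    (s36cp_W2 L N' q hq2 hqN') (s36w_WE_WE L N' q hq.out hq2 hqN') hWB1 hWB2
    (s36cp_W2_algebraMap O N' q hq2 hqN') (fun z => Iff.rfl)

end Legendre

end Fermat.Agent.S36
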