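/-
Project S36 (Carayol), cell [M2], leaf [L3a] (helper17): THE REDUCED COMPONENTS `A`, `B` ARE SMOOTH
AT EVERY CLOSED POINT — tower and Legendre instances of `S36/Model/CompSmooth.lean`
(`hsmB` of helper10's `s36tr_ChartHyp` and its `A`-mirror), in the binders of
`s36cp_si_smooth_gen` / `s36cp_leg_smooth` (`S36/Model/Smooth3Inst.lean`).  No hypothesis on the
third valuation `VC` (it does not occur).

* `s36cp_si_comp_chart` : one chart `fc_chart O {yE}` of a tower `E' ≤ E ≤ Quot(O((X)))`;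
* `s36cp_si_comp_gen` : both charts `lam`, `lam⁻¹`;
* `s36cp_leg_comp` : the Legendre tower `lg_E L N' ≤ lg_E L (N' q q)`, `VA = s36i_VA`,
  `VB = s36cp_VB = VA.comap W₂`.
Prefix `s36cp_`.
-/
import Mathlib
import Fermat.Agent.S36.Model.CompSmooth
import Fermat.Agent.S36.Model.Smooth3Inst

set_option autoImplicit false
set_option linter.unusedSectionVars false
set_option linter.unusedVariables false
set_option linter.style.haveILetI false

noncomputable section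

open ModularCurve IntermediateField IsLocalRing
open Fermat.Agent.JT3 Fermat.Agent.SS

namespace Fermat.Agent.S36

section Generic

variable {L : Type*} [Field L] [CharZero L] (O : ValuationSubring L)
  [IsDiscreteValuationRing O] {π : O} (hπ : Irreducible π)
variable (E' E : IntermediateField L (LaurentSeries L)) (hle : E' ≤ E)
  (hE : E ≤ gq_quotField O L)

set_option synthInstance.maxHeartbeats 200000 in
set_option maxHeartbeats 400000 in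
/-- **the components `A` and `B` are smooth at every closed point of one chart**
`fc_chart O {yE}`. -/
theorem s36cp_si_comp_chart {VB : ValuationSubring ↥E}
    (y : ↥E') (yE : ↥E) (hyE : IntermediateField.inclusion hle y = yE)
    (hy : Transcendental L y) [FiniteDimensional L⟮y⟯ ↥E'] (hyEt : Transcendental L yE)
    (hover : ssm_tp_Over (algebraMap ↥O (Algebra.adjoin ↥O ({y} : Set ↥E')) π)
      (gq_valSubOf π hπ.ne_zero hπ.maximalIdeal_eq E' (hle.trans hE)))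
    (hVA : ssm_tp_Over (algebraMap ↥O (Algebra.adjoin ↥O ({yE} : Set ↥E)) π)
      (gq_valSubOf π hπ.ne_zero hπ.maximalIdeal_eq E hE))
    (hresA : ∀ a ∈ gq_valSubOf π hπ.ne_zero hπ.maximalIdeal_eq E hE,
      ∃ r : ↥(gq_valSubOf π hπ.ne_zero hπ.maximalIdeal_eq E' (hle.trans hE)),
        a - IntermediateField.inclusion hle (r : ↥E') ∈
          (gq_valSubOf π hπ.ne_zero hπ.maximalIdeal_eq E hE).nonunits)
    (hprime : Prime (algebraMap ↥O (fc_chart ↥O ({y} : Set ↥E')) π))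
    (hic : IsIntegrallyClosed (fc_chart ↥O ({y} : Set ↥E') ⧸
      (Ideal.span {algebraMap ↥O (fc_chart ↥O ({y} : Set ↥E')) π} :
        Ideal (fc_chart ↥O ({y} : Set ↥E')))))
    (hreg : jt_RegAt (fc_chart ↥O ({y} : Set ↥E'))
      (algebraMap ↥O (fc_chart ↥O ({y} : Set ↥E')) π))
    (W : ↥E ≃+* ↥E) (hWW : ∀ x, W (W x) = x)
    (hWB : ∀ b ∈ fc_chart ↥O ({yE} : Set ↥E), W b ∈ fc_chart ↥O ({yE} : Set ↥E))
    (hVB : ∀ z : ↥E, z ∈ VB ↔ W z ∈ gq_valSubOf π hπ.ne_zero hπ.maximalIdeal_eq E hE) :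
    (∀ 𝔫 : Ideal (fc_chart ↥O ({yE} : Set ↥E)), 𝔫.IsMaximal →
      ∃ t ∈ 𝔫, ∀ x ∈ 𝔫, ∃ s : fc_chart ↥O ({yE} : Set ↥E), s ∉ 𝔫 ∧
        s * x ∈ ssm_tp_P (fc_chart ↥O ({yE} : Set ↥E))
          (gq_valSubOf π hπ.ne_zero hπ.maximalIdeal_eq E hE) ⊔ Ideal.span {t}) ∧
    (∀ 𝔫 : Ideal (fc_chart ↥O ({yE} : Set ↥E)), 𝔫.IsMaximal →
      ∃ t ∈ 𝔫, ∀ x ∈ 𝔫, ∃ s : fc_chart ↥O ({yE} : Set ↥E), s ∉ 𝔫 ∧
        s * x ∈ ssm_tp_P (fc_chart ↥O ({yE} : Set ↥E)) VB ⊔ Ideal.span {t}) := by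
  subst hyE
  letI := ssm_gi_algebra hle
  letI := ssm_gi_algebraV hle (gq_valSubOf π hπ.ne_zero hπ.maximalIdeal_eq E' (hle.trans hE))
  haveI := ssm_gi_isScalarTower hle
    (gq_valSubOf π hπ.ne_zero hπ.maximalIdeal_eq E' (hle.trans hE))
  haveI := ssm_go_isScalarTower O E
  haveI := ssm_go_isScalarTower O E'
  haveI := ssm_gt_isScalarTower O hle
  have hVK : ∀ z : ↥E', z ∈ gq_valSubOf π hπ.ne_zero hπ.maximalIdeal_eq E' (hle.trans hE) ↔
      z ∈ (algebraMap ↥(gq_valSubOf π hπ.ne_zero hπ.maximalIdeal_eq E' (hle.trans hE)) ↥E').range :=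
    fun z => (ssm_gi_mem_range _ z).symm
  have hVAover : ∀ z : ↥E', algebraMap ↥E' ↥E z ∈ gq_valSubOf π hπ.ne_zero hπ.maximalIdeal_eq E hE ↔
      z ∈ (algebraMap ↥(gq_valSubOf π hπ.ne_zero hπ.maximalIdeal_eq E' (hle.trans hE)) ↥E').range := by
    intro z
    rw [ssm_gi_mem_range, gq_mem_valSubOf, gq_mem_valSubOf]
    rfl
  have hresA' : ∀ a ∈ gq_valSubOf π hπ.ne_zero hπ.maximalIdeal_eq E hE,
      ∃ r : ↥(gq_valSubOf π hπ.ne_zero hπ.maximalIdeal_eq E' (hle.trans hE)),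
        a - algebraMap ↥(gq_valSubOf π hπ.ne_zero hπ.maximalIdeal_eq E' (hle.trans hE)) ↥E r ∈
          (gq_valSubOf π hπ.ne_zero hπ.maximalIdeal_eq E hE).nonunits := hresA
  refine ⟨fun 𝔫 h𝔫 => ?_, fun 𝔫 h𝔫 => ?_⟩
  · exact s36cp_ff_compA (L := L)
      (R' := ↥(gq_valSubOf π hπ.ne_zero hπ.maximalIdeal_eq E' (hle.trans hE)))
      hπ hy hyEt hprime hic
      (gq_valSubOf π hπ.ne_zero hπ.maximalIdeal_eq E' (hle.trans hE)) hVK hover hVA
      hVAover hresA' hreg 𝔫 h𝔫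
  · exact s36cp_ff_compB (L := L)
      (R' := ↥(gq_valSubOf π hπ.ne_zero hπ.maximalIdeal_eq E' (hle.trans hE)))
      hπ hy hyEt hprime hic
      (gq_valSubOf π hπ.ne_zero hπ.maximalIdeal_eq E' (hle.trans hE)) hVK hover hVA
      hVAover hresA' hreg W hWW hWB hVB 𝔫 h𝔫

set_option synthInstance.maxHeartbeats 200000 in
set_option maxHeartbeats 800000 in
/-- **the components `A` and `B` are smooth at every closed point of the two charts** `lam`,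
`lam⁻¹` of `E`. -/
theorem s36cp_si_comp_gen {VB : ValuationSubring ↥E}
    (ys : LaurentSeries O) (n : ℤ) (hn0 : n ≠ 0) (hyn : residue O (ys.coeff n) ≠ 0) (lam' : ↥E')
    (hlam : (lam' : LaurentSeries L) = coeffMap (algebraMap O L) ys)
    [FiniteDimensional L⟮lam'⟯ ↥E']
    [FiniteDimensional L⟮IntermediateField.inclusion hle lam'⟯ ↥E]
    (hresA : ∀ a ∈ gq_valSubOf π hπ.ne_zero hπ.maximalIdeal_eq E hE,
      ∃ r : ↥(gq_valSubOf π hπ.ne_zero hπ.maximalIdeal_eq E' (hle.trans hE)),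
        a - IntermediateField.inclusion hle (r : ↥E') ∈
          (gq_valSubOf π hπ.ne_zero hπ.maximalIdeal_eq E hE).nonunits)
    (hprime1 : Prime (algebraMap ↥O (fc_chart ↥O ({lam'} : Set ↥E')) π))
    (hprime2 : Prime (algebraMap ↥O (fc_chart ↥O ({lam'⁻¹} : Set ↥E')) π))
    (hic1 : IsIntegrallyClosed (fc_chart ↥O ({lam'} : Set ↥E') ⧸
      (Ideal.span {algebraMap ↥O (fc_chart ↥O ({lam'} : Set ↥E')) π} :
        Ideal (fc_chart ↥O ({lam'} : Set ↥E')))))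
    (hic2 : IsIntegrallyClosed (fc_chart ↥O ({lam'⁻¹} : Set ↥E') ⧸
      (Ideal.span {algebraMap ↥O (fc_chart ↥O ({lam'⁻¹} : Set ↥E')) π} :
        Ideal (fc_chart ↥O ({lam'⁻¹} : Set ↥E')))))
    (hreg1 : jt_RegAt (fc_chart ↥O ({lam'} : Set ↥E'))
      (algebraMap ↥O (fc_chart ↥O ({lam'} : Set ↥E')) π))
    (hreg2 : jt_RegAt (fc_chart ↥O ({lam'⁻¹} : Set ↥E'))
      (algebraMap ↥O (fc_chart ↥O ({lam'⁻¹} : Set ↥E')) π))
    (W : ↥E ≃+* ↥E) (hWW : ∀ x, W (W x) = x)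
    (hWB1 : ∀ b ∈ fc_chart ↥O ({IntermediateField.inclusion hle lam'} : Set ↥E),
      W b ∈ fc_chart ↥O ({IntermediateField.inclusion hle lam'} : Set ↥E))
    (hWB2 : ∀ b ∈ fc_chart ↥O ({(IntermediateField.inclusion hle lam')⁻¹} : Set ↥E),
      W b ∈ fc_chart ↥O ({(IntermediateField.inclusion hle lam')⁻¹} : Set ↥E))
    (hVB : ∀ z : ↥E, z ∈ VB ↔ W z ∈ gq_valSubOf π hπ.ne_zero hπ.maximalIdeal_eq E hE) :
    (∀ 𝔫 : Ideal (fc_chart ↥O ({IntermediateField.inclusion hle lam'} : Set ↥E)), 𝔫.IsMaximal →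
      ∃ t ∈ 𝔫, ∀ x ∈ 𝔫,
        ∃ s : fc_chart ↥O ({IntermediateField.inclusion hle lam'} : Set ↥E), s ∉ 𝔫 ∧
        s * x ∈ ssm_tp_P (fc_chart ↥O ({IntermediateField.inclusion hle lam'} : Set ↥E))
          (gq_valSubOf π hπ.ne_zero hπ.maximalIdeal_eq E hE) ⊔ Ideal.span {t}) ∧
    (∀ 𝔫 : Ideal (fc_chart ↥O ({IntermediateField.inclusion hle lam'} : Set ↥E)), 𝔫.IsMaximal →
      ∃ t ∈ 𝔫, ∀ x ∈ 𝔫,
        ∃ s : fc_chart ↥O ({IntermediateField.inclusion hle lam'} : Set ↥E), s ∉ 𝔫 ∧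
        s * x ∈ ssm_tp_P (fc_chart ↥O ({IntermediateField.inclusion hle lam'} : Set ↥E)) VB ⊔
          Ideal.span {t}) ∧
    (∀ 𝔫 : Ideal (fc_chart ↥O ({(IntermediateField.inclusion hle lam')⁻¹} : Set ↥E)),
      𝔫.IsMaximal → ∃ t ∈ 𝔫, ∀ x ∈ 𝔫,
        ∃ s : fc_chart ↥O ({(IntermediateField.inclusion hle lam')⁻¹} : Set ↥E), s ∉ 𝔫 ∧
        s * x ∈ ssm_tp_P (fc_chart ↥O ({(IntermediateField.inclusion hle lam')⁻¹} : Set ↥E))
          (gq_valSubOf π hπ.ne_zero hπ.maximalIdeal_eq E hE) ⊔ Ideal.span {t}) ∧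
    (∀ 𝔫 : Ideal (fc_chart ↥O ({(IntermediateField.inclusion hle lam')⁻¹} : Set ↥E)),
      𝔫.IsMaximal → ∃ t ∈ 𝔫, ∀ x ∈ 𝔫,
        ∃ s : fc_chart ↥O ({(IntermediateField.inclusion hle lam')⁻¹} : Set ↥E), s ∉ 𝔫 ∧
        s * x ∈ ssm_tp_P (fc_chart ↥O ({(IntermediateField.inclusion hle lam')⁻¹} : Set ↥E)) VB ⊔
          Ideal.span {t}) := by
  haveI := ssm_go_isScalarTower O E
  haveI := ssm_go_isScalarTower O E'
  have hx : Transcendental L lam' := ssm_go_transcendental O E' ys lam' hlam hn0 hyn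
  have hxE : Transcendental L (IntermediateField.inclusion hle lam') :=
    ssm_go_transcendental O E ys (IntermediateField.inclusion hle lam') hlam hn0 hyn
  have hxi : Transcendental L lam'⁻¹ := fun h => hx (IsAlgebraic.inv_iff.mp h)
  have hxEi : Transcendental L (IntermediateField.inclusion hle lam')⁻¹ :=
    fun h => hxE (IsAlgebraic.inv_iff.mp h)
  have hover := ssm_go_over O E' ys lam' hlam hπ (hle.trans hE) hn0 hyn
  have hover' := ssm_tp_over_inv (fc_ff_transcendental (L := L) hx)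
    (fc_ff_transcendental (L := L) hxi) hπ.not_isUnit hover
  have hVA := ssm_go_over O E ys (IntermediateField.inclusion hle lam') hlam hπ hE hn0 hyn
  have hVA' := ssm_tp_over_inv (fc_ff_transcendental (L := L) hxE)
    (fc_ff_transcendental (L := L) hxEi) hπ.not_isUnit hVA
  haveI : FiniteDimensional L⟮lam'⁻¹⟯ ↥E' := by
    rw [rt_adjoin_inv]; infer_instance
  have c1 := s36cp_si_comp_chart O hπ E' E hle hE lam' (IntermediateField.inclusion hle lam') rfl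
    hx hxE hover hVA hresA hprime1 hic1 hreg1 W hWW hWB1 hVB
  have c2 := s36cp_si_comp_chart O hπ E' E hle hE lam'⁻¹ (IntermediateField.inclusion hle lam')⁻¹
    (map_inv₀ (IntermediateField.inclusion hle) lam') hxi hxEi hover' hVA' hresA hprime2 hic2
    hreg2 W hWW hWB2 hVB
  exact ⟨c1.1, c1.2, c2.1, c2.2⟩

end Generic

section Legendre

variable {L : Type*} [Field L] [CharZero L] [Algebra L (AlgebraicClosure ℚ)]
  (O : ValuationSubring L) [IsDiscreteValuationRing O] {π : O} (hπ : Irreducible π)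
variable (N' q : ℕ) [NeZero N'] [NeZero q] [hq : Fact q.Prime] [CharP (ResidueField O) q]
  (hq2 : ¬ 2 ∣ q) (hqN' : ¬ q ∣ N')

set_option synthInstance.maxHeartbeats 200000 in
set_option maxHeartbeats 800000 in
/-- **[L3a]/[TRI-INST], Legendre tower**: the reduced components `A` (`VA = s36i_VA`) and `B`
(`VB = s36cp_VB = VA.comap W₂`) are smooth at EVERY closed point of the two charts `x`, `x⁻¹`
(`x = lg_lamE (N' q q)`) of level `N' q q`: `𝔫 = P + (t)` locally (`hsmB` of `s36tr_ChartHyp` and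
its `A`-mirror). -/
theorem s36cp_leg_comp
    (hresA : ∀ a ∈ s36i_VA O hπ (N' * q) q,
      ∃ r : ↥(gq_valSubOf π hπ.ne_zero hπ.maximalIdeal_eq (lg_E L N')
          ((s36cp_E_le2 L N' q).trans (ssm_ga_E_le_quotField O (N' * q * q)))),
        a - IntermediateField.inclusion (s36cp_E_le2 L N' q) (r : ↥(lg_E L N')) ∈
          (s36i_VA O hπ (N' * q) q).nonunits)
    (hprime1 : Prime (algebraMap ↥O (fc_chart ↥O ({lg_lamE N'} : Set ↥(lg_E L N'))) π))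
    (hprime2 : Prime (algebraMap ↥O (fc_chart ↥O ({(lg_lamE N')⁻¹} : Set ↥(lg_E L N'))) π))
    (hic1 : IsIntegrallyClosed (fc_chart ↥O ({lg_lamE N'} : Set ↥(lg_E L N')) ⧸
      (Ideal.span {algebraMap ↥O (fc_chart ↥O ({lg_lamE N'} : Set ↥(lg_E L N'))) π} :
        Ideal (fc_chart ↥O ({lg_lamE N'} : Set ↥(lg_E L N'))))))
    (hic2 : IsIntegrallyClosed (fc_chart ↥O ({(lg_lamE N')⁻¹} : Set ↥(lg_E L N')) ⧸
      (Ideal.span {algebraMap ↥O (fc_chart ↥O ({(lg_lamE N')⁻¹} : Set ↥(lg_E L N'))) π} :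
        Ideal (fc_chart ↥O ({(lg_lamE N')⁻¹} : Set ↥(lg_E L N'))))))
    (hreg1 : jt_RegAt (fc_chart ↥O ({lg_lamE N'} : Set ↥(lg_E L N')))
      (algebraMap ↥O (fc_chart ↥O ({lg_lamE N'} : Set ↥(lg_E L N'))) π))
    (hreg2 : jt_RegAt (fc_chart ↥O ({(lg_lamE N')⁻¹} : Set ↥(lg_E L N')))
      (algebraMap ↥O (fc_chart ↥O ({(lg_lamE N')⁻¹} : Set ↥(lg_E L N'))) π))
    (hWB1 : ∀ b ∈ fc_chart ↥O ({lg_lamE (N' * q * q)} : Set ↥(lg_E L (N' * q * q))),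
      s36cp_W2 L N' q hq2 hqN' b ∈
        fc_chart ↥O ({lg_lamE (N' * q * q)} : Set ↥(lg_E L (N' * q * q))))
    (hWB2 : ∀ b ∈ fc_chart ↥O ({(lg_lamE (N' * q * q))⁻¹} : Set ↥(lg_E L (N' * q * q))),
      s36cp_W2 L N' q hq2 hqN' b ∈
        fc_chart ↥O ({(lg_lamE (N' * q * q))⁻¹} : Set ↥(lg_E L (N' * q * q)))) :
    (∀ 𝔫 : Ideal (fc_chart ↥O ({lg_lamE (N' * q * q)} : Set ↥(lg_E L (N' * q * q)))),
      𝔫.IsMaximal → ∃ t ∈ 𝔫, ∀ x ∈ 𝔫,
        ∃ s : fc_chart ↥O ({lg_lamE (N' * q * q)} : Set ↥(lg_E L (N' * q * q))), s ∉ 𝔫 ∧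
        s * x ∈ ssm_tp_P (fc_chart ↥O ({lg_lamE (N' * q * q)} : Set ↥(lg_E L (N' * q * q))))
          (s36i_VA O hπ (N' * q) q) ⊔ Ideal.span {t}) ∧
    (∀ 𝔫 : Ideal (fc_chart ↥O ({lg_lamE (N' * q * q)} : Set ↥(lg_E L (N' * q * q)))),
      𝔫.IsMaximal → ∃ t ∈ 𝔫, ∀ x ∈ 𝔫,
        ∃ s : fc_chart ↥O ({lg_lamE (N' * q * q)} : Set ↥(lg_E L (N' * q * q))), s ∉ 𝔫 ∧
        s * x ∈ ssm_tp_P (fc_chart ↥O ({lg_lamE (N' * q * q)} : Set ↥(lg_E L (N' * q * q))))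
          (s36cp_VB O hπ N' q hq2 hqN') ⊔ Ideal.span {t}) ∧
    (∀ 𝔫 : Ideal (fc_chart ↥O ({(lg_lamE (N' * q * q))⁻¹} : Set ↥(lg_E L (N' * q * q)))),
      𝔫.IsMaximal → ∃ t ∈ 𝔫, ∀ x ∈ 𝔫,
        ∃ s : fc_chart ↥O ({(lg_lamE (N' * q * q))⁻¹} : Set ↥(lg_E L (N' * q * q))), s ∉ 𝔫 ∧
        s * x ∈ ssm_tp_P (fc_chart ↥O ({(lg_lamE (N' * q * q))⁻¹} : Set ↥(lg_E L (N' * q * q))))
          (s36i_VA O hπ (N' * q) q) ⊔ Ideal.span {t}) ∧
    (∀ 𝔫 : Ideal (fc_chart ↥O ({(lg_lamE (N' * q * q))⁻¹} : Set ↥(lg_E L (N' * q * q)))),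
      𝔫.IsMaximal → ∃ t ∈ 𝔫, ∀ x ∈ 𝔫,
        ∃ s : fc_chart ↥O ({(lg_lamE (N' * q * q))⁻¹} : Set ↥(lg_E L (N' * q * q))), s ∉ 𝔫 ∧
        s * x ∈ ssm_tp_P (fc_chart ↥O ({(lg_lamE (N' * q * q))⁻¹} : Set ↥(lg_E L (N' * q * q))))
          (s36cp_VB O hπ N' q hq2 hqN') ⊔ Ideal.span {t}) := by
  haveI := lgf_finite L N'
  haveI : FiniteDimensional
      L⟮IntermediateField.inclusion (s36cp_E_le2 L N' q) (lg_lamE N')⟯ ↥(lg_E L (N' * q * q)) :=
    lgf_finite L (N' * q * q)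
  have hn0 : (1 : ℤ) ≠ 0 := one_ne_zero
  exact s36cp_si_comp_gen O hπ (lg_E L N') (lg_E L (N' * q * q)) (s36cp_E_le2 L N' q)
    (ssm_ga_E_le_quotField O (N' * q * q)) (hm_lam O) 1 hn0
    (ssm_ga_lam_coeff_one O (ssm_gl_two_ne_zero O q hq2)) (lg_lamE N')
    (hm_coeffMap_lam _).symm hresA hprime1 hprime2 hic1 hic2 hreg1 hreg2
    (s36cp_W2 L N' q hq2 hqN') (s36w_WE_WE L N' q hq.out hq2 hqN') hWB1 hWB2
    (fun z => Iff.rfl)

end Legendre

end Fermat.Agent.S36
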