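/-
Project S36 (Carayol), cell [M2], instance leaf [L3a] (helper17): FROM THE SMOOTH CLAUSE
`ss_SmoothAt π B 𝔫` TO THE RING-LEVEL "ONE-BRANCH" CLAUSE consumed by helper3's `s36g_hloc_one`
(`S36/Glue/One.lean`) with `u := ϖ`, `e := 1`:

  `R := ssl_locSub F0 𝔫` is factorial, `ϖ` is a prime element of `R`, `ϖ ~ ϖ ^ 1`, and `R ⧸ (ϖ)` is
  integrally closed (it is a principal ideal domain).

Imports `SS/Local/Chart` + `JT3/FCore/LocalUFD` only.  Prefix `s36cp_`.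
-/
import Mathlib
import Fermat.Agent.SS.Local.Chart
import Fermat.Agent.JT3.FCore.LocalUFD

set_option autoImplicit false
set_option linter.unusedSectionVars false
set_option linter.unusedVariables false
set_option linter.style.haveILetI false

namespace Fermat.Agent.S36

open Fermat.Agent.JT3 Fermat.Agent.SS IsLocalRing

universe v

section OneBranch

variable {A0 : Type*} [CommRing A0] {F0 : Type v} [Field F0] [Algebra A0 F0]
variable {B : Subalgebra A0 F0} [IsFractionRing B F0] [IsNoetherianRing B] [IsIntegrallyClosed B]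
variable {π : A0} (𝔫 : Ideal B) [h𝔫 : 𝔫.IsPrime]

/-- **the ONE-BRANCH clause with `u = ϖ`, `e = 1` at a smooth point of the special fibre.** -/
theorem s36cp_oneBranch_of_smooth (hϖ0 : algebraMap A0 F0 π ≠ 0) (hπ𝔫 : algebraMap A0 B π ∈ 𝔫)
    (hsm : ss_SmoothAt π B 𝔫) :
    UniqueFactorizationMonoid (ssl_locSub F0 𝔫) ∧
    Prime (algebraMap B (ssl_locSub F0 𝔫) (algebraMap A0 B π)) ∧
    Associated (algebraMap B (ssl_locSub F0 𝔫) (algebraMap A0 B π))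
      ((algebraMap B (ssl_locSub F0 𝔫) (algebraMap A0 B π)) ^ 1) ∧
    IsIntegrallyClosed (ssl_locSub F0 𝔫 ⧸
      (Ideal.span {algebraMap B (ssl_locSub F0 𝔫) (algebraMap A0 B π)} :
        Ideal (ssl_locSub F0 𝔫))) := by
  haveI := ssl_loc_isNoetherianRing (F0 := F0) 𝔫
  haveI := ssl_loc_isLocalRing (F0 := F0) 𝔫
  obtain ⟨⟨t, ht⟩, hdom⟩ := hsm
  have hprime : Prime (algebraMap B (ssl_locSub F0 𝔫) (algebraMap A0 B π)) :=
    ssl_loc_prime_of_dom 𝔫 hϖ0 hπ𝔫 hdom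
  have hmax := ssl_loc_max_of_genBy (F0 := F0) 𝔫 ht
  refine ⟨fc_ufd hprime hmax, hprime, by rw [pow_one], ?_⟩
  haveI : (Ideal.span {algebraMap B (ssl_locSub F0 𝔫) (algebraMap A0 B π)} :
      Ideal (ssl_locSub F0 𝔫)).IsPrime := (Ideal.span_singleton_prime hprime.ne_zero).2 hprime
  haveI : IsPrincipalIdealRing (ssl_locSub F0 𝔫 ⧸
      (Ideal.span {algebraMap B (ssl_locSub F0 𝔫) (algebraMap A0 B π)} :
        Ideal (ssl_locSub F0 𝔫))) := nfr_isPrincipalIdealRing_quot hprime hmax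
  infer_instance

/-- the existential packaging `∃ u e, …` of the ONE-BRANCH clause (`e = 1 ≤ n` for every `n ≥ 1`). -/
theorem s36cp_oneBranch_exists (hϖ0 : algebraMap A0 F0 π ≠ 0) (hπ𝔫 : algebraMap A0 B π ∈ 𝔫)
    (hsm : ss_SmoothAt π B 𝔫) (n : ℕ) (hn : 1 ≤ n) :
    UniqueFactorizationMonoid (ssl_locSub F0 𝔫) ∧
    ∃ (u : ssl_locSub F0 𝔫) (e : ℕ), e ≠ 0 ∧ e ≤ n ∧ Prime u ∧
      Associated (algebraMap B (ssl_locSub F0 𝔫) (algebraMap A0 B π)) (u ^ e) ∧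
      IsIntegrallyClosed (ssl_locSub F0 𝔫 ⧸ (Ideal.span {u} : Ideal (ssl_locSub F0 𝔫))) := by
  obtain ⟨h1, h2, h3, h4⟩ := s36cp_oneBranch_of_smooth 𝔫 hϖ0 hπ𝔫 hsm
  exact ⟨h1, _, 1, one_ne_zero, hn, h2, h3, h4⟩

end OneBranch

end Fermat.Agent.S36
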