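/-
Project S36 (Carayol), cell [M2], leaf [L3a] (helper17): THE RESIDUE FIELD OF THE GAUSS VALUATION
`VA` OF `E₂` IS THAT OF THE GAUSS VALUATION OF `E₀` — the input `hresA` of `s36cp_leg_smooth`,
`s36cp_leg_comp` (and of the `(res)` clauses), as a CLOSED statement.

Generic Gauss form (context of helper26's `S36/Ins1/ThirdGauss.lean`): a tower
`E0 ≤ E1 ≤ E2 ≤ Quot(O((X)))` inside `L((X))` with `β E0 ≤ E1`, `β E1 ≤ E2` (`β = (X ↦ X^q)`),
* `D01` : S34's two-valuations data of the lower step `E0 ≤ E1` (so `κ(Gauss E1) = κ(Gauss E0)`: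
  `ssm_tw_res1`), transported by `β` to `β E0 ≤ β E1` (`s36i_gauss_twdata`),
* `DA`  : the one-valuation data of the upper step on the `β`-side (`κ(Gauss E2) = κ(Gauss β E1)[t̄]`,
  helper15's `s36vh_residue_top`), with `t ∈ E1`.
Then `κ(Gauss E2) = κ(Gauss E1) = κ(Gauss E0)`.

* `s36cp_ra_nonunits` : `𝔪(Gauss E) ∩ E' = 𝔪(Gauss E')`;
* `s36cp_ra_gauss_mid` : `∀ a ∈ Gauss E2, ∃ y ∈ Gauss E1, a - y ∈ 𝔪(Gauss E2)`  (`f(VA | VF) = 1`);
* `s36cp_ra_gauss` : `∀ a ∈ Gauss E2, ∃ r ∈ Gauss E0, a - r ∈ 𝔪(Gauss E2)`;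
* `s36cp_ra_leg_mid`, `s36cp_ra_leg` : the Legendre tower (`hresA` VERBATIM).
Prefix `s36cp_ra_`.
-/
import Mathlib
import Fermat.Agent.S36.Val3Hyp
import Fermat.Agent.S36.Ins1.ThirdLeg
import Fermat.Agent.S36.Model.Smooth3Inst

set_option autoImplicit false
set_option linter.unusedSectionVars false
set_option linter.unusedVariables false
set_option linter.style.haveILetI false

noncomputable section

open ModularCurve IntermediateField IsLocalRing
open Fermat.Agent.JT3 Fermat.Agent.SS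

namespace Fermat.Agent.S36

section Gauss

variable {L : Type*} [Field L] [CharZero L] (O : ValuationSubring L) [IsDiscreteValuationRing O]
  {π : O} (hπ : Irreducible π)

/-- `𝔪(Gauss E) ∩ E' = 𝔪(Gauss E')`. -/
theorem s36cp_ra_nonunits (E' E : IntermediateField L (LaurentSeries L)) (hle : E' ≤ E)
    (hE : E ≤ gq_quotField O L) (z : ↥E') :
    IntermediateField.inclusion hle z ∈
        (gq_valSubOf π hπ.ne_zero hπ.maximalIdeal_eq E hE).nonunits ↔
      z ∈ (gq_valSubOf π hπ.ne_zero hπ.maximalIdeal_eq E' (hle.trans hE)).nonunits := by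
  rw [ssm_tw_nonunits_iff, ssm_tw_nonunits_iff, ← map_inv₀, gq_mem_valSubOf, gq_mem_valSubOf,
    gq_mem_valSubOf, gq_mem_valSubOf, map_eq_zero]
  rfl

variable (q : ℕ) [NeZero q] [hq : Fact q.Prime] [CharP (ResidueField O) q]
variable (E0 E1 E2 : IntermediateField L (LaurentSeries L))
variable (h01 : E0 ≤ E1) (h12 : E1 ≤ E2) (hE2 : E2 ≤ gq_quotField O L)
  (hb01 : E0.map (qExpandAlgHomC L q) ≤ E1) (hb12 : E1.map (qExpandAlgHomC L q) ≤ E2)

include hb01 in
set_option synthInstance.maxHeartbeats 200000 in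
set_option maxHeartbeats 800000 in
/-- **`f(Gauss E2 | Gauss E1) = 1`**, element form. -/
theorem s36cp_ra_gauss_mid (W1 : ↥E1 ≃+* ↥E1)
    (lam0 : ↥(gq_valSubOf π hπ.ne_zero hπ.maximalIdeal_eq E0 (h01.trans (h12.trans hE2))))
    (D01 :
      letI := ssm_gi_algebra h01
      letI := ssm_gi_algebraV h01
        (gq_valSubOf π hπ.ne_zero hπ.maximalIdeal_eq E0 (h01.trans (h12.trans hE2)))
      ssm_tw_Data ↥E0 ↥(gq_valSubOf π hπ.ne_zero hπ.maximalIdeal_eq E0 (h01.trans (h12.trans hE2)))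
        q (gq_valSubOf π hπ.ne_zero hπ.maximalIdeal_eq E1 (h12.trans hE2)) W1 lam0)
    {t : ↥E2}
    {r : ↥(gq_valSubOf π hπ.ne_zero hπ.maximalIdeal_eq (E1.map (qExpandAlgHomC L q))
      (hb12.trans hE2))}
    (DA :
      letI := ssm_gi_algebra hb12
      letI := ssm_gi_algebraV hb12
        (gq_valSubOf π hπ.ne_zero hπ.maximalIdeal_eq (E1.map (qExpandAlgHomC L q))
          (hb12.trans hE2))
      s36i_Data ↥(E1.map (qExpandAlgHomC L q))
        ↥(gq_valSubOf π hπ.ne_zero hπ.maximalIdeal_eq (E1.map (qExpandAlgHomC L q))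
          (hb12.trans hE2)) q
        (gq_valSubOf π hπ.ne_zero hπ.maximalIdeal_eq E2 hE2) t r)
    (ht : ∃ y : ↥E1, IntermediateField.inclusion h12 y = t)
    (a : ↥E2) (ha : a ∈ gq_valSubOf π hπ.ne_zero hπ.maximalIdeal_eq E2 hE2) :
    ∃ y : ↥(gq_valSubOf π hπ.ne_zero hπ.maximalIdeal_eq E1 (h12.trans hE2)),
      a - IntermediateField.inclusion h12 (y : ↥E1) ∈
        (gq_valSubOf π hπ.ne_zero hπ.maximalIdeal_eq E2 hE2).nonunits := by
  letI a01 := ssm_gi_algebra h01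
  letI aV01 := ssm_gi_algebraV h01
    (gq_valSubOf π hπ.ne_zero hπ.maximalIdeal_eq E0 (h01.trans (h12.trans hE2)))
  haveI t01 := ssm_gi_isScalarTower h01
    (gq_valSubOf π hπ.ne_zero hπ.maximalIdeal_eq E0 (h01.trans (h12.trans hE2)))
  letI a12 := ssm_gi_algebra h12
  letI ab12 := ssm_gi_algebra hb12
  letI aVb12 := ssm_gi_algebraV hb12
    (gq_valSubOf π hπ.ne_zero hπ.maximalIdeal_eq (E1.map (qExpandAlgHomC L q)) (hb12.trans hE2))
  haveI tb12 := ssm_gi_isScalarTower hb12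
    (gq_valSubOf π hπ.ne_zero hπ.maximalIdeal_eq (E1.map (qExpandAlgHomC L q)) (hb12.trans hE2))
  letI ab01 := ssm_gi_algebra (IntermediateField.map_mono (qExpandAlgHomC L q) h01)
  letI aVb01 := ssm_gi_algebraV (IntermediateField.map_mono (qExpandAlgHomC L q) h01)
    (gq_valSubOf π hπ.ne_zero hπ.maximalIdeal_eq (E0.map (qExpandAlgHomC L q))
      (s36i_map_le_quot O q E0 (h01.trans (h12.trans hE2))))
  haveI tb01 := ssm_gi_isScalarTower (IntermediateField.map_mono (qExpandAlgHomC L q) h01)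
    (gq_valSubOf π hπ.ne_zero hπ.maximalIdeal_eq (E0.map (qExpandAlgHomC L q))
      (s36i_map_le_quot O q E0 (h01.trans (h12.trans hE2))))
  have Dβ := s36i_gauss_twdata O hπ q E0 E1 h01 (h12.trans hE2) W1 lam0 D01
  haveI : FiniteDimensional ↥(E0.map (qExpandAlgHomC L q)) ↥(E1.map (qExpandAlgHomC L q)) :=
    ssm_gi_finiteDimensional Dβ.finrank_eq
  haveI : Algebra.IsSeparable ↥(E0.map (qExpandAlgHomC L q)) ↥(E1.map (qExpandAlgHomC L q)) :=
    ssm_gi_isSeparable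
  haveI : FiniteDimensional ↥(E1.map (qExpandAlgHomC L q)) ↥E2 :=
    Module.finite_of_finrank_pos (by rw [DA.finrank_eq]; exact DA.q_prime.pos)
  haveI : Algebra.IsSeparable ↥(E1.map (qExpandAlgHomC L q)) ↥E2 := ssm_gi_isSeparable
  -- `hb` of `s36vh_residue_top`
  have hb : ∀ c : ↥(gq_valSubOf π hπ.ne_zero hπ.maximalIdeal_eq (E1.map (qExpandAlgHomC L q))
      (hb12.trans hE2)), ∃ y : ↥E1,
      algebraMap ↥E1 ↥E2 y ∈ gq_valSubOf π hπ.ne_zero hπ.maximalIdeal_eq E2 hE2 ∧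
      algebraMap ↥(gq_valSubOf π hπ.ne_zero hπ.maximalIdeal_eq (E1.map (qExpandAlgHomC L q))
        (hb12.trans hE2)) ↥E2 c - algebraMap ↥E1 ↥E2 y ∈
          (gq_valSubOf π hπ.ne_zero hπ.maximalIdeal_eq E2 hE2).nonunits := by
    intro c
    obtain ⟨r', hr'⟩ := ssm_tw_res1 Dβ (c : ↥(E1.map (qExpandAlgHomC L q))) c.2
    refine ⟨⟨((r' : ↥(E0.map (qExpandAlgHomC L q))) : LaurentSeries L),
      hb01 (r' : ↥(E0.map (qExpandAlgHomC L q))).2⟩, ?_, ?_⟩
    · rw [gq_mem_valSubOf]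
      exact (gq_mem_valSubOf π hπ.ne_zero hπ.maximalIdeal_eq _ _
        (r' : ↥(E0.map (qExpandAlgHomC L q)))).1 r'.2
    · have e : algebraMap ↥(gq_valSubOf π hπ.ne_zero hπ.maximalIdeal_eq
            (E1.map (qExpandAlgHomC L q)) (hb12.trans hE2)) ↥E2 c -
          algebraMap ↥E1 ↥E2 ⟨((r' : ↥(E0.map (qExpandAlgHomC L q))) : LaurentSeries L),
            hb01 (r' : ↥(E0.map (qExpandAlgHomC L q))).2⟩ =
          IntermediateField.inclusion hb12 ((c : ↥(E1.map (qExpandAlgHomC L q))) -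
            algebraMap ↥(gq_valSubOf π hπ.ne_zero hπ.maximalIdeal_eq
              (E0.map (qExpandAlgHomC L q))
              (s36i_map_le_quot O q E0 (h01.trans (h12.trans hE2))))
              ↥(E1.map (qExpandAlgHomC L q)) r') := Subtype.ext rfl
      rw [e, s36cp_ra_nonunits O hπ _ _ hb12 hE2]
      exact hr'
  obtain ⟨y, hy, hay⟩ := s36vh_residue_top DA
    (K1 := ↥E1) (by obtain ⟨y, hy⟩ := ht; exact ⟨y, hy⟩) hb a ha
  exact ⟨⟨y, by rw [gq_mem_valSubOf] at hy ⊢; exact hy⟩, hay⟩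

include hb01 in
set_option synthInstance.maxHeartbeats 200000 in
set_option maxHeartbeats 800000 in
/-- **`κ(Gauss E2) = κ(Gauss E0)`**, element form. -/
theorem s36cp_ra_gauss (W1 : ↥E1 ≃+* ↥E1)
    (lam0 : ↥(gq_valSubOf π hπ.ne_zero hπ.maximalIdeal_eq E0 (h01.trans (h12.trans hE2))))
    (D01 :
      letI := ssm_gi_algebra h01
      letI := ssm_gi_algebraV h01
        (gq_valSubOf π hπ.ne_zero hπ.maximalIdeal_eq E0 (h01.trans (h12.trans hE2)))
      ssm_tw_Data ↥E0 ↥(gq_valSubOf π hπ.ne_zero hπ.maximalIdeal_eq E0 (h01.trans (h12.trans hE2)))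
        q (gq_valSubOf π hπ.ne_zero hπ.maximalIdeal_eq E1 (h12.trans hE2)) W1 lam0)
    {t : ↥E2}
    {r : ↥(gq_valSubOf π hπ.ne_zero hπ.maximalIdeal_eq (E1.map (qExpandAlgHomC L q))
      (hb12.trans hE2))}
    (DA :
      letI := ssm_gi_algebra hb12
      letI := ssm_gi_algebraV hb12
        (gq_valSubOf π hπ.ne_zero hπ.maximalIdeal_eq (E1.map (qExpandAlgHomC L q))
          (hb12.trans hE2))
      s36i_Data ↥(E1.map (qExpandAlgHomC L q))
        ↥(gq_valSubOf π hπ.ne_zero hπ.maximalIdeal_eq (E1.map (qExpandAlgHomC L q))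
          (hb12.trans hE2)) q
        (gq_valSubOf π hπ.ne_zero hπ.maximalIdeal_eq E2 hE2) t r)
    (ht : ∃ y : ↥E1, IntermediateField.inclusion h12 y = t)
    (a : ↥E2) (ha : a ∈ gq_valSubOf π hπ.ne_zero hπ.maximalIdeal_eq E2 hE2) :
    ∃ r0 : ↥(gq_valSubOf π hπ.ne_zero hπ.maximalIdeal_eq E0 (h01.trans (h12.trans hE2))),
      a - IntermediateField.inclusion (h01.trans h12) (r0 : ↥E0) ∈
        (gq_valSubOf π hπ.ne_zero hπ.maximalIdeal_eq E2 hE2).nonunits := by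
  obtain ⟨y, hy⟩ := s36cp_ra_gauss_mid O hπ q E0 E1 E2 h01 h12 hE2 hb01 hb12 W1 lam0 D01 DA ht a ha
  letI a01 := ssm_gi_algebra h01
  letI aV01 := ssm_gi_algebraV h01
    (gq_valSubOf π hπ.ne_zero hπ.maximalIdeal_eq E0 (h01.trans (h12.trans hE2)))
  haveI t01 := ssm_gi_isScalarTower h01
    (gq_valSubOf π hπ.ne_zero hπ.maximalIdeal_eq E0 (h01.trans (h12.trans hE2)))
  haveI : FiniteDimensional ↥E0 ↥E1 := ssm_gi_finiteDimensional D01.finrank_eq
  haveI : Algebra.IsSeparable ↥E0 ↥E1 := ssm_gi_isSeparable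
  obtain ⟨r0, hr0⟩ := ssm_tw_res1 D01 (y : ↥E1) y.2
  refine ⟨r0, ?_⟩
  have e : a - IntermediateField.inclusion (h01.trans h12) (r0 : ↥E0) =
      (a - IntermediateField.inclusion h12 (y : ↥E1)) +
        IntermediateField.inclusion h12 ((y : ↥E1) -
          algebraMap ↥(gq_valSubOf π hπ.ne_zero hπ.maximalIdeal_eq E0 (h01.trans (h12.trans hE2)))
            ↥E1 r0) := by
    have e1 : IntermediateField.inclusion (h01.trans h12) (r0 : ↥E0) =
        IntermediateField.inclusion h12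
          (algebraMap ↥(gq_valSubOf π hπ.ne_zero hπ.maximalIdeal_eq E0
            (h01.trans (h12.trans hE2))) ↥E1 r0) := Subtype.ext rfl
    rw [e1, map_sub]
    ring
  rw [e]
  exact ssm_tw_nonunits_add _ hy ((s36cp_ra_nonunits O hπ _ _ h12 hE2 _).2 hr0)

end Gauss

section Legendre

variable {L : Type*} [Field L] [CharZero L] [Algebra L (AlgebraicClosure ℚ)]
  (O : ValuationSubring L) [IsDiscreteValuationRing O] {π : O} (hπ : Irreducible π)
variable (N' q : ℕ) [NeZero N'] [NeZero q] [hq : Fact q.Prime] [CharP (ResidueField O) q]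
  (hq2 : ¬ 2 ∣ q) (hqN' : ¬ q ∣ N')

include hq2 hqN' in
set_option synthInstance.maxHeartbeats 200000 in
set_option maxHeartbeats 800000 in
/-- **`f(VA | VF) = 1`, Legendre tower**: every element of the Gauss ring `VA` of
`E₂ = lg_E L (N' q q)` is congruent modulo `𝔪(VA)` to an element of the Gauss ring `VF` of
`E₁ = lg_E L (N' q)`. -/
theorem s36cp_ra_leg_mid (a : ↥(lg_E L (N' * q * q))) (ha : a ∈ s36i_VA O hπ (N' * q) q) :
    ∃ y : ↥(ssm_gl_V1 O hπ N' q),
      a - IntermediateField.inclusion (ssm_al_E_le L (N' * q) q) (y : ↥(lg_E L (N' * q))) ∈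
        (s36i_VA O hπ (N' * q) q).nonunits :=
  s36cp_ra_gauss_mid O hπ q (lg_E L N') (lg_E L (N' * q)) (lg_E L (N' * q * q))
    (ssm_al_E_le L N' q) (ssm_al_E_le L (N' * q) q) (ssm_ga_E_le_quotField O (N' * q * q))
    (ssm_al_E_beta_le L N' q hq2) (ssm_al_E_beta_le L (N' * q) q hq2)
    (ssm_gl_W L N' q hq2 hqN') (ssm_gl_lam O hπ N' q) (ssm_gl_data O hπ N' q hq2 hqN')
    (s36i_leg_dataA O hπ (N' * q) q hq2 (Dvd.intro_left N' rfl))
    ⟨lg_lamE (N' * q), rfl⟩ a ha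

include hq2 hqN' in
set_option synthInstance.maxHeartbeats 200000 in
set_option maxHeartbeats 800000 in
/-- **`hresA`, Legendre tower** (`κ(VA) = κ(Gauss E₀)`): the hypothesis `hresA` of
`s36cp_leg_smooth` / `s36cp_leg_comp` VERBATIM. -/
theorem s36cp_ra_leg :
    ∀ a ∈ s36i_VA O hπ (N' * q) q,
      ∃ r : ↥(gq_valSubOf π hπ.ne_zero hπ.maximalIdeal_eq (lg_E L N')
          ((s36cp_E_le2 L N' q).trans (ssm_ga_E_le_quotField O (N' * q * q)))),
        a - IntermediateField.inclusion (s36cp_E_le2 L N' q) (r : ↥(lg_E L N')) ∈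
          (s36i_VA O hπ (N' * q) q).nonunits := fun a ha =>
  s36cp_ra_gauss O hπ q (lg_E L N') (lg_E L (N' * q)) (lg_E L (N' * q * q))
    (ssm_al_E_le L N' q) (ssm_al_E_le L (N' * q) q) (ssm_ga_E_le_quotField O (N' * q * q))
    (ssm_al_E_beta_le L N' q hq2) (ssm_al_E_beta_le L (N' * q) q hq2)
    (ssm_gl_W L N' q hq2 hqN') (ssm_gl_lam O hπ N' q) (ssm_gl_data O hπ N' q hq2 hqN')
    (s36i_leg_dataA O hπ (N' * q) q hq2 (Dvd.intro_left N' rfl))
    ⟨lg_lamE (N' * q), rfl⟩ a ha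

end Legendre

end Fermat.Agent.S36
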