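/-
Project S36 (Carayol), cell [M2], leaf [L3a] (helper17), [NF2-CTX] PACKAGING: the points of the
charts `B_x = fc_chart O {x}`, `B_{x⁻¹}` (`x = lg_lamE (N' q q)`) of the Legendre tower lying on the
component `A` ONLY or on `B` ONLY, over a number field `L ∋ ζ_{N'}`:

* `s36cp_nf_smooth` : the four `ss_SmoothAt` clauses (`s36cp_leg_smooth` with the level-`N'`
  package `ssm_ll_*` and the residue statement `s36cp_ra_leg` discharged);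
* `s36cp_nf_one`    : the same four clauses in RING-LEVEL form = helper3's ONE-BRANCH clause
  `s36g_PtOne π q B 𝔫` (unfolded; `u = ϖ`, `e = 1`);
* `s36cp_nf_comp`   : the components `A`, `B` are smooth at EVERY closed point
  (`hsmA`/`hsmB` of [TRI-INST]; `s36cp_leg_comp` with the same inputs discharged).
Remaining inputs: helper24/29's `H : s36tp_Hyp π ![VA, VB, VC] e` (`e 0 = e 1 = 1`) and the
`W₂`-stability of the two charts (`s36ig_W_charts`).  Prefix `s36cp_`.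
-/
import Mathlib
import Fermat.Agent.S36.Model.ResAInst
import Fermat.Agent.S36.Model.CompSmoothInst
import Fermat.Agent.S36.Model.OneBranch
import Fermat.Agent.SS.Model.FinalLegNF
import Fermat.Agent.SS.Model.ThickBase

set_option autoImplicit false
set_option linter.unusedSectionVars false
set_option linter.unusedVariables false
set_option linter.style.haveILetI false

noncomputable section

open ModularCurve IntermediateField IsLocalRing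
open Fermat.Agent.JT3 Fermat.Agent.SS

namespace Fermat.Agent.S36

section Charts

variable {L : Type*} [Field L] [CharZero L] [Algebra L (AlgebraicClosure ℚ)]
  (O : ValuationSubring L) [IsDiscreteValuationRing O] (M : ℕ) [NeZero M]

/-- the chart `B_λ` of `lg_E L M` has fraction field `lg_E L M`. -/
theorem s36cp_chart_isFractionRing :
    IsFractionRing ↥(fc_chart ↥O ({lg_lamE M} : Set ↥(lg_E L M))) ↥(lg_E L M) := by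
  haveI := ssm_go_isScalarTower O (lg_E L M)
  haveI := lgf_finite L M
  exact ssm_ths_chart_isFractionRing (A0 := ↥O) (L := L) _

/-- the chart `B_{λ⁻¹}` of `lg_E L M` has fraction field `lg_E L M`. -/
theorem s36cp_chart_inv_isFractionRing :
    IsFractionRing ↥(fc_chart ↥O ({(lg_lamE M)⁻¹} : Set ↥(lg_E L M))) ↥(lg_E L M) := by
  haveI := ssm_go_isScalarTower O (lg_E L M)
  haveI := lgf_finite L M
  haveI : FiniteDimensional L⟮(lg_lamE (L := L) M)⁻¹⟯ ↥(lg_E L M) := by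
    rw [rt_adjoin_inv]; infer_instance
  exact ssm_ths_chart_isFractionRing (A0 := ↥O) (L := L) _

end Charts

section NF

variable (L : Type) [Field L] [NumberField L] [Algebra L (AlgebraicClosure ℚ)]
  (O : ValuationSubring L) [IsDiscreteValuationRing O] {π : O} (hπ : Irreducible π)
variable (N' q : ℕ) [NeZero N'] [NeZero q] [hq : Fact q.Prime] [CharP (ResidueField O) q]
  (hq2 : ¬ 2 ∣ q) (hqN' : ¬ q ∣ N') (ζ : L) (hζ : IsPrimitiveRoot ζ N')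

include hζ in
set_option synthInstance.maxHeartbeats 200000 in
set_option maxHeartbeats 800000 in
/-- **[L3a], [NF2-CTX]: the four smooth clauses** at the points of `B_x`, `B_{x⁻¹}` lying on `A`
only / on `B` only. -/
theorem s36cp_nf_smooth {VC : ValuationSubring ↥(lg_E L (N' * q * q))} {e : Fin 3 → ℕ}
    (H : s36tp_Hyp
      (algebraMap ↥O (Algebra.adjoin ↥O ({lg_lamE (N' * q * q)} : Set ↥(lg_E L (N' * q * q)))) π)
      ![s36i_VA O hπ (N' * q) q, s36cp_VB O hπ N' q hq2 hqN', VC] e)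
    (he0 : e 0 = 1) (he1 : e 1 = 1)
    (hWB1 : ∀ b ∈ fc_chart ↥O ({lg_lamE (N' * q * q)} : Set ↥(lg_E L (N' * q * q))),
      s36cp_W2 L N' q hq2 hqN' b ∈
        fc_chart ↥O ({lg_lamE (N' * q * q)} : Set ↥(lg_E L (N' * q * q))))
    (hWB2 : ∀ b ∈ fc_chart ↥O ({(lg_lamE (N' * q * q))⁻¹} : Set ↥(lg_E L (N' * q * q))),
      s36cp_W2 L N' q hq2 hqN' b ∈
        fc_chart ↥O ({(lg_lamE (N' * q * q))⁻¹} : Set ↥(lg_E L (N' * q * q)))) :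
    (∀ 𝔫 : Ideal (fc_chart ↥O ({lg_lamE (N' * q * q)} : Set ↥(lg_E L (N' * q * q)))),
      𝔫.IsMaximal →
      algebraMap ↥O (fc_chart ↥O ({lg_lamE (N' * q * q)} : Set ↥(lg_E L (N' * q * q)))) π ∈ 𝔫 →
      ¬ ssm_tp_P (fc_chart ↥O ({lg_lamE (N' * q * q)} : Set ↥(lg_E L (N' * q * q))))
        (s36cp_VB O hπ N' q hq2 hqN') ≤ 𝔫 →
      ¬ ssm_tp_P (fc_chart ↥O ({lg_lamE (N' * q * q)} : Set ↥(lg_E L (N' * q * q)))) VC ≤ 𝔫 →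
      ss_SmoothAt π (fc_chart ↥O ({lg_lamE (N' * q * q)} : Set ↥(lg_E L (N' * q * q)))) 𝔫) ∧
    (∀ 𝔫 : Ideal (fc_chart ↥O ({lg_lamE (N' * q * q)} : Set ↥(lg_E L (N' * q * q)))),
      𝔫.IsMaximal →
      algebraMap ↥O (fc_chart ↥O ({lg_lamE (N' * q * q)} : Set ↥(lg_E L (N' * q * q)))) π ∈ 𝔫 →
      ¬ ssm_tp_P (fc_chart ↥O ({lg_lamE (N' * q * q)} : Set ↥(lg_E L (N' * q * q))))
        (s36i_VA O hπ (N' * q) q) ≤ 𝔫 →
      ¬ ssm_tp_P (fc_chart ↥O ({lg_lamE (N' * q * q)} : Set ↥(lg_E L (N' * q * q)))) VC ≤ 𝔫 →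
      ss_SmoothAt π (fc_chart ↥O ({lg_lamE (N' * q * q)} : Set ↥(lg_E L (N' * q * q)))) 𝔫) ∧
    (∀ 𝔫 : Ideal (fc_chart ↥O ({(lg_lamE (N' * q * q))⁻¹} : Set ↥(lg_E L (N' * q * q)))),
      𝔫.IsMaximal →
      algebraMap ↥O (fc_chart ↥O ({(lg_lamE (N' * q * q))⁻¹} : Set ↥(lg_E L (N' * q * q)))) π ∈ 𝔫 →
      ¬ ssm_tp_P (fc_chart ↥O ({(lg_lamE (N' * q * q))⁻¹} : Set ↥(lg_E L (N' * q * q))))
        (s36cp_VB O hπ N' q hq2 hqN') ≤ 𝔫 →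
      ¬ ssm_tp_P (fc_chart ↥O ({(lg_lamE (N' * q * q))⁻¹} : Set ↥(lg_E L (N' * q * q)))) VC ≤ 𝔫 →
      ss_SmoothAt π (fc_chart ↥O ({(lg_lamE (N' * q * q))⁻¹} : Set ↥(lg_E L (N' * q * q)))) 𝔫) ∧
    (∀ 𝔫 : Ideal (fc_chart ↥O ({(lg_lamE (N' * q * q))⁻¹} : Set ↥(lg_E L (N' * q * q)))),
      𝔫.IsMaximal →
      algebraMap ↥O (fc_chart ↥O ({(lg_lamE (N' * q * q))⁻¹} : Set ↥(lg_E L (N' * q * q)))) π ∈ 𝔫 →
      ¬ ssm_tp_P (fc_chart ↥O ({(lg_lamE (N' * q * q))⁻¹} : Set ↥(lg_E L (N' * q * q))))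
        (s36i_VA O hπ (N' * q) q) ≤ 𝔫 →
      ¬ ssm_tp_P (fc_chart ↥O ({(lg_lamE (N' * q * q))⁻¹} : Set ↥(lg_E L (N' * q * q)))) VC ≤ 𝔫 →
      ss_SmoothAt π (fc_chart ↥O ({(lg_lamE (N' * q * q))⁻¹} : Set ↥(lg_E L (N' * q * q)))) 𝔫) := by
  have hqO := ssm_fln_q_mem L O q
  have hq2' : q ≠ 2 := ssm_fl_ne_two q hq2
  have hp := ssm_ll_prime L N' hπ q hqO hq2' hqN' ζ hζ
  exact s36cp_leg_smooth O hπ N' q hq2 hqN' H he0 he1 (s36cp_ra_leg O hπ N' q hq2 hqN')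
    hp.1 hp.2.1 (ssm_ll_ic1 L N' hπ q hqO hq2' hqN' ζ hζ) (ssm_ll_ic2 L N' hπ q hqO hq2' hqN' ζ hζ)
    (ssm_ll_reg1 L N' hπ q hqO hq2' hqN' ζ hζ) (ssm_ll_reg2 L N' hπ q hqO hq2' hqN' ζ hζ)
    hWB1 hWB2

include hζ in
set_option synthInstance.maxHeartbeats 200000 in
set_option maxHeartbeats 800000 in
/-- **[L3a]/[TRI-INST], [NF2-CTX]: the components `A`, `B` are smooth at every closed point** of
`B_x`, `B_{x⁻¹}` (`hsmA`, `hsmB`). -/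
theorem s36cp_nf_comp
    (hWB1 : ∀ b ∈ fc_chart ↥O ({lg_lamE (N' * q * q)} : Set ↥(lg_E L (N' * q * q))),
      s36cp_W2 L N' q hq2 hqN' b ∈
        fc_chart ↥O ({lg_lamE (N' * q * q)} : Set ↥(lg_E L (N' * q * q))))
    (hWB2 : ∀ b ∈ fc_chart ↥O ({(lg_lamE (N' * q * q))⁻¹} : Set ↥(lg_E L (N' * q * q))),
      s36cp_W2 L N' q hq2 hqN' b ∈
        fc_chart ↥O ({(lg_lamE (N' * q * q))⁻¹} : Set ↥(lg_E L (N' * q * q)))) :
    (∀ 𝔫 : Ideal (fc_chart ↥O ({lg_lamE (N' * q * q)} : Set ↥(lg_E L (N' * q * q)))),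
      𝔫.IsMaximal → ∃ t ∈ 𝔫, ∀ x ∈ 𝔫,
        ∃ s : fc_chart ↥O ({lg_lamE (N' * q * q)} : Set ↥(lg_E L (N' * q * q))), s ∉ 𝔫 ∧
        s * x ∈ ssm_tp_P (fc_chart ↥O ({lg_lamE (N' * q * q)} : Set ↥(lg_E L (N' * q * q))))
          (s36i_VA O hπ (N' * q) q) ⊔ Ideal.span {t}) ∧
    (∀ 𝔫 : Ideal (fc_chart ↥O ({lg_lamE (N' * q * q)} : Set ↥(lg_E L (N' * q * q)))),
      𝔫.IsMaximal → ∃ t ∈ 𝔫, ∀ x ∈ 𝔫,
        ∃ s : fc_chart ↥O ({lg_lamE (N' * q * q)} : Set ↥(lg_E L (N' * q * q))), s ∉ 𝔫 ∧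
        s * x ∈ ssm_tp_P (fc_chart ↥O ({lg_lamE (N' * q * q)} : Set ↥(lg_E L (N' * q * q))))
          (s36cp_VB O hπ N' q hq2 hqN') ⊔ Ideal.span {t}) ∧
    (∀ 𝔫 : Ideal (fc_chart ↥O ({(lg_lamE (N' * q * q))⁻¹} : Set ↥(lg_E L (N' * q * q)))),
      𝔫.IsMaximal → ∃ t ∈ 𝔫, ∀ x ∈ 𝔫,
        ∃ s : fc_chart ↥O ({(lg_lamE (N' * q * q))⁻¹} : Set ↥(lg_E L (N' * q * q))), s ∉ 𝔫 ∧
        s * x ∈ ssm_tp_P (fc_chart ↥O ({(lg_lamE (N' * q * q))⁻¹} : Set ↥(lg_E L (N' * q * q))))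
          (s36i_VA O hπ (N' * q) q) ⊔ Ideal.span {t}) ∧
    (∀ 𝔫 : Ideal (fc_chart ↥O ({(lg_lamE (N' * q * q))⁻¹} : Set ↥(lg_E L (N' * q * q)))),
      𝔫.IsMaximal → ∃ t ∈ 𝔫, ∀ x ∈ 𝔫,
        ∃ s : fc_chart ↥O ({(lg_lamE (N' * q * q))⁻¹} : Set ↥(lg_E L (N' * q * q))), s ∉ 𝔫 ∧
        s * x ∈ ssm_tp_P (fc_chart ↥O ({(lg_lamE (N' * q * q))⁻¹} : Set ↥(lg_E L (N' * q * q))))
          (s36cp_VB O hπ N' q hq2 hqN') ⊔ Ideal.span {t}) := by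
  have hqO := ssm_fln_q_mem L O q
  have hq2' : q ≠ 2 := ssm_fl_ne_two q hq2
  have hp := ssm_ll_prime L N' hπ q hqO hq2' hqN' ζ hζ
  exact s36cp_leg_comp O hπ N' q hq2 hqN' (s36cp_ra_leg O hπ N' q hq2 hqN')
    hp.1 hp.2.1 (ssm_ll_ic1 L N' hπ q hqO hq2' hqN' ζ hζ) (ssm_ll_ic2 L N' hπ q hqO hq2' hqN' ζ hζ)
    (ssm_ll_reg1 L N' hπ q hqO hq2' hqN' ζ hζ) (ssm_ll_reg2 L N' hπ q hqO hq2' hqN' ζ hζ)
    hWB1 hWB2

end NF

section PtOneDef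

universe v

variable {A0 : Type*} [CommRing A0] {F0 : Type v} [Field F0] [Algebra A0 F0]

/-- **the ring-level ONE-BRANCH clause** at a closed point `𝔫` of a chart `B` (= helper3's
`s36g_PtOne π q B 𝔫` with `n = q ^ 2`, = (R-M3)(P) of [M2] NOTE 1): `R := B_𝔫` is factorial and
`ϖ ~ u ^ e` with `u` prime, `1 ≤ e ≤ n`, `R ⧸ (u)` integrally closed. -/
def s36cp_PtOne (π : A0) (n : ℕ) (B : Subalgebra A0 F0) [IsFractionRing B F0] (𝔫 : Ideal B)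
    [𝔫.IsPrime] : Prop :=
  UniqueFactorizationMonoid (ssl_locSub F0 𝔫) ∧
  ∃ (u : ssl_locSub F0 𝔫) (e : ℕ), e ≠ 0 ∧ e ≤ n ∧ Prime u ∧
    Associated (algebraMap B (ssl_locSub F0 𝔫) (algebraMap A0 B π)) (u ^ e) ∧
    IsIntegrallyClosed (ssl_locSub F0 𝔫 ⧸ (Ideal.span {u} : Ideal (ssl_locSub F0 𝔫)))

/-- a smooth point of the special fibre is a ONE-BRANCH point (`u = ϖ`, `e = 1`). -/
theorem s36cp_ptOne_of_smooth {π : A0} {B : Subalgebra A0 F0} [IsFractionRing B F0]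
    [IsNoetherianRing B] [IsIntegrallyClosed B] (𝔫 : Ideal B) [𝔫.IsPrime]
    (hϖ0 : algebraMap A0 F0 π ≠ 0) (hπ𝔫 : algebraMap A0 B π ∈ 𝔫)
    (hsm : ss_SmoothAt π B 𝔫) (n : ℕ) (hn : 1 ≤ n) : s36cp_PtOne π n B 𝔫 :=
  s36cp_oneBranch_exists 𝔫 hϖ0 hπ𝔫 hsm n hn

end PtOneDef

section One

variable {L : Type*} [Field L] [CharZero L] [Algebra L (AlgebraicClosure ℚ)]
  (O : ValuationSubring L) [IsDiscreteValuationRing O] {π : O} (hπ : Irreducible π)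
  (M : ℕ) [NeZero M]

include hπ in
omit [Algebra L (AlgebraicClosure ℚ)] [NeZero M] in
theorem s36cp_pi_ne_zero : algebraMap ↥O ↥(lg_E L M) π ≠ 0 := by
  rw [IsScalarTower.algebraMap_apply ↥O L ↥(lg_E L M)]
  intro h
  have h1 := (algebraMap L ↥(lg_E L M)).injective (h.trans (map_zero _).symm)
  exact hπ.ne_zero (Subtype.ext h1)

include hπ in
set_option synthInstance.maxHeartbeats 200000 in
/-- **ONE-BRANCH clause (ring level) at a smooth point of `B_λ`**, level `M` (`u = ϖ`, `e = 1`). -/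
theorem s36cp_leg_one_of_smooth (n : ℕ) (hn : 1 ≤ n)
    (𝔫 : Ideal (fc_chart ↥O ({lg_lamE M} : Set ↥(lg_E L M)))) (h𝔫 : 𝔫.IsMaximal)
    (hπ𝔫 : algebraMap ↥O (fc_chart ↥O ({lg_lamE M} : Set ↥(lg_E L M))) π ∈ 𝔫)
    (hsm : ss_SmoothAt π (fc_chart ↥O ({lg_lamE M} : Set ↥(lg_E L M))) 𝔫) :
    haveI := s36cp_chart_isFractionRing O M
    haveI : 𝔫.IsPrime := h𝔫.isPrime
    s36cp_PtOne π n (fc_chart ↥O ({lg_lamE M} : Set ↥(lg_E L M))) 𝔫 := by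
  haveI := ssm_go_isScalarTower O (lg_E L M)
  haveI := lgf_finite L M
  have hx : Transcendental L (lg_lamE (L := L) M) := lgf_lam_transcendental L M two_ne_zero
  haveI : IsNoetherianRing ↥(fc_chart ↥O ({lg_lamE M} : Set ↥(lg_E L M))) :=
    ssm_ths_chart_isNoetherianRing (A0 := ↥O) (L := L) hx
  haveI : IsIntegrallyClosed ↥(fc_chart ↥O ({lg_lamE M} : Set ↥(lg_E L M))) :=
    ssm_ths_chart_isIntegrallyClosed (A0 := ↥O) (L := L) _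
  haveI := s36cp_chart_isFractionRing O M
  haveI : 𝔫.IsPrime := h𝔫.isPrime
  exact s36cp_ptOne_of_smooth 𝔫 (s36cp_pi_ne_zero O hπ M) hπ𝔫 hsm n hn

include hπ in
set_option synthInstance.maxHeartbeats 200000 in
/-- **ONE-BRANCH clause (ring level) at a smooth point of `B_{λ⁻¹}`**, level `M`. -/
theorem s36cp_leg_one_of_smooth_inv (n : ℕ) (hn : 1 ≤ n)
    (𝔫 : Ideal (fc_chart ↥O ({(lg_lamE M)⁻¹} : Set ↥(lg_E L M)))) (h𝔫 : 𝔫.IsMaximal)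
    (hπ𝔫 : algebraMap ↥O (fc_chart ↥O ({(lg_lamE M)⁻¹} : Set ↥(lg_E L M))) π ∈ 𝔫)
    (hsm : ss_SmoothAt π (fc_chart ↥O ({(lg_lamE M)⁻¹} : Set ↥(lg_E L M))) 𝔫) :
    haveI := s36cp_chart_inv_isFractionRing O M
    haveI : 𝔫.IsPrime := h𝔫.isPrime
    s36cp_PtOne π n (fc_chart ↥O ({(lg_lamE M)⁻¹} : Set ↥(lg_E L M))) 𝔫 := by
  haveI := ssm_go_isScalarTower O (lg_E L M)
  haveI := lgf_finite L M
  have hx : Transcendental L (lg_lamE (L := L) M) := lgf_lam_transcendental L M two_ne_zero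
  have hxi : Transcendental L (lg_lamE (L := L) M)⁻¹ := fun h => hx (IsAlgebraic.inv_iff.mp h)
  haveI : FiniteDimensional L⟮(lg_lamE (L := L) M)⁻¹⟯ ↥(lg_E L M) := by
    rw [rt_adjoin_inv]; infer_instance
  haveI : IsNoetherianRing ↥(fc_chart ↥O ({(lg_lamE M)⁻¹} : Set ↥(lg_E L M))) :=
    ssm_ths_chart_isNoetherianRing (A0 := ↥O) (L := L) hxi
  haveI : IsIntegrallyClosed ↥(fc_chart ↥O ({(lg_lamE M)⁻¹} : Set ↥(lg_E L M))) :=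
    ssm_ths_chart_isIntegrallyClosed (A0 := ↥O) (L := L) _
  haveI := s36cp_chart_inv_isFractionRing O M
  haveI : 𝔫.IsPrime := h𝔫.isPrime
  exact s36cp_ptOne_of_smooth 𝔫 (s36cp_pi_ne_zero O hπ M) hπ𝔫 hsm n hn

end One

section NFOne

variable (L : Type) [Field L] [NumberField L] [Algebra L (AlgebraicClosure ℚ)]
  (O : ValuationSubring L) [IsDiscreteValuationRing O] {π : O} (hπ : Irreducible π)
variable (N' q : ℕ) [NeZero N'] [NeZero q] [hq : Fact q.Prime] [CharP (ResidueField O) q]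
  (hq2 : ¬ 2 ∣ q) (hqN' : ¬ q ∣ N') (ζ : L) (hζ : IsPrimitiveRoot ζ N')

include hζ in
set_option synthInstance.maxHeartbeats 200000 in
set_option maxHeartbeats 800000 in
/-- **[L3a], [NF2-CTX], RING-LEVEL form**: every closed point `𝔫 ∋ π` of `B_x`, `B_{x⁻¹}` lying on
`A` only or on `B` only is a ONE-BRANCH point (`s36cp_PtOne π (q ^ 2) B 𝔫` = helper3's
`s36g_PtOne π q B 𝔫`; `u = ϖ`, `e = 1`). -/
theorem s36cp_nf_one {VC : ValuationSubring ↥(lg_E L (N' * q * q))} {e : Fin 3 → ℕ}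
    (H : s36tp_Hyp
      (algebraMap ↥O (Algebra.adjoin ↥O ({lg_lamE (N' * q * q)} : Set ↥(lg_E L (N' * q * q)))) π)
      ![s36i_VA O hπ (N' * q) q, s36cp_VB O hπ N' q hq2 hqN', VC] e)
    (he0 : e 0 = 1) (he1 : e 1 = 1)
    (hWB1 : ∀ b ∈ fc_chart ↥O ({lg_lamE (N' * q * q)} : Set ↥(lg_E L (N' * q * q))),
      s36cp_W2 L N' q hq2 hqN' b ∈
        fc_chart ↥O ({lg_lamE (N' * q * q)} : Set ↥(lg_E L (N' * q * q))))
    (hWB2 : ∀ b ∈ fc_chart ↥O ({(lg_lamE (N' * q * q))⁻¹} : Set ↥(lg_E L (N' * q * q))),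
      s36cp_W2 L N' q hq2 hqN' b ∈
        fc_chart ↥O ({(lg_lamE (N' * q * q))⁻¹} : Set ↥(lg_E L (N' * q * q)))) :
    (∀ (𝔫 : Ideal (fc_chart ↥O ({lg_lamE (N' * q * q)} : Set ↥(lg_E L (N' * q * q)))))
      (h𝔫 : 𝔫.IsMaximal),
      algebraMap ↥O (fc_chart ↥O ({lg_lamE (N' * q * q)} : Set ↥(lg_E L (N' * q * q)))) π ∈ 𝔫 →
      ¬ ssm_tp_P (fc_chart ↥O ({lg_lamE (N' * q * q)} : Set ↥(lg_E L (N' * q * q))))
        (s36cp_VB O hπ N' q hq2 hqN') ≤ 𝔫 →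
      ¬ ssm_tp_P (fc_chart ↥O ({lg_lamE (N' * q * q)} : Set ↥(lg_E L (N' * q * q)))) VC ≤ 𝔫 →
      haveI := s36cp_chart_isFractionRing O (N' * q * q)
      haveI : 𝔫.IsPrime := h𝔫.isPrime
      s36cp_PtOne π (q ^ 2)
        (fc_chart ↥O ({lg_lamE (N' * q * q)} : Set ↥(lg_E L (N' * q * q)))) 𝔫) ∧
    (∀ (𝔫 : Ideal (fc_chart ↥O ({lg_lamE (N' * q * q)} : Set ↥(lg_E L (N' * q * q)))))
      (h𝔫 : 𝔫.IsMaximal),
      algebraMap ↥O (fc_chart ↥O ({lg_lamE (N' * q * q)} : Set ↥(lg_E L (N' * q * q)))) π ∈ 𝔫 →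
      ¬ ssm_tp_P (fc_chart ↥O ({lg_lamE (N' * q * q)} : Set ↥(lg_E L (N' * q * q))))
        (s36i_VA O hπ (N' * q) q) ≤ 𝔫 →
      ¬ ssm_tp_P (fc_chart ↥O ({lg_lamE (N' * q * q)} : Set ↥(lg_E L (N' * q * q)))) VC ≤ 𝔫 →
      haveI := s36cp_chart_isFractionRing O (N' * q * q)
      haveI : 𝔫.IsPrime := h𝔫.isPrime
      s36cp_PtOne π (q ^ 2)
        (fc_chart ↥O ({lg_lamE (N' * q * q)} : Set ↥(lg_E L (N' * q * q)))) 𝔫) ∧
    (∀ (𝔫 : Ideal (fc_chart ↥O ({(lg_lamE (N' * q * q))⁻¹} : Set ↥(lg_E L (N' * q * q)))))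
      (h𝔫 : 𝔫.IsMaximal),
      algebraMap ↥O (fc_chart ↥O ({(lg_lamE (N' * q * q))⁻¹} : Set ↥(lg_E L (N' * q * q)))) π ∈ 𝔫 →
      ¬ ssm_tp_P (fc_chart ↥O ({(lg_lamE (N' * q * q))⁻¹} : Set ↥(lg_E L (N' * q * q))))
        (s36cp_VB O hπ N' q hq2 hqN') ≤ 𝔫 →
      ¬ ssm_tp_P (fc_chart ↥O ({(lg_lamE (N' * q * q))⁻¹} : Set ↥(lg_E L (N' * q * q)))) VC ≤ 𝔫 →
      haveI := s36cp_chart_inv_isFractionRing O (N' * q * q)
      haveI : 𝔫.IsPrime := h𝔫.isPrime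
      s36cp_PtOne π (q ^ 2)
        (fc_chart ↥O ({(lg_lamE (N' * q * q))⁻¹} : Set ↥(lg_E L (N' * q * q)))) 𝔫) ∧
    (∀ (𝔫 : Ideal (fc_chart ↥O ({(lg_lamE (N' * q * q))⁻¹} : Set ↥(lg_E L (N' * q * q)))))
      (h𝔫 : 𝔫.IsMaximal),
      algebraMap ↥O (fc_chart ↥O ({(lg_lamE (N' * q * q))⁻¹} : Set ↥(lg_E L (N' * q * q)))) π ∈ 𝔫 →
      ¬ ssm_tp_P (fc_chart ↥O ({(lg_lamE (N' * q * q))⁻¹} : Set ↥(lg_E L (N' * q * q))))
        (s36i_VA O hπ (N' * q) q) ≤ 𝔫 →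
      ¬ ssm_tp_P (fc_chart ↥O ({(lg_lamE (N' * q * q))⁻¹} : Set ↥(lg_E L (N' * q * q)))) VC ≤ 𝔫 →
      haveI := s36cp_chart_inv_isFractionRing O (N' * q * q)
      haveI : 𝔫.IsPrime := h𝔫.isPrime
      s36cp_PtOne π (q ^ 2)
        (fc_chart ↥O ({(lg_lamE (N' * q * q))⁻¹} : Set ↥(lg_E L (N' * q * q)))) 𝔫) := by
  obtain ⟨c1, c2, c3, c4⟩ := s36cp_nf_smooth L O hπ N' q hq2 hqN' ζ hζ H he0 he1 hWB1 hWB2
  have hn : 1 ≤ q ^ 2 := Nat.one_le_pow _ _ hq.out.pos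
  exact ⟨fun 𝔫 h𝔫 h1 h2 h3 =>
      s36cp_leg_one_of_smooth O hπ (N' * q * q) (q ^ 2) hn 𝔫 h𝔫 h1 (c1 𝔫 h𝔫 h1 h2 h3),
    fun 𝔫 h𝔫 h1 h2 h3 =>
      s36cp_leg_one_of_smooth O hπ (N' * q * q) (q ^ 2) hn 𝔫 h𝔫 h1 (c2 𝔫 h𝔫 h1 h2 h3),
    fun 𝔫 h𝔫 h1 h2 h3 =>
      s36cp_leg_one_of_smooth_inv O hπ (N' * q * q) (q ^ 2) hn 𝔫 h𝔫 h1 (c3 𝔫 h𝔫 h1 h2 h3),
    fun 𝔫 h𝔫 h1 h2 h3 =>
      s36cp_leg_one_of_smooth_inv O hπ (N' * q * q) (q ^ 2) hn 𝔫 h𝔫 h1 (c4 𝔫 h𝔫 h1 h2 h3)⟩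

end NFOne

end Fermat.Agent.S36
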