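/-
Project S36 (Carayol), cell [M2], layer [L4], LEGENDRE: THE CLOSED TERM (C) of helper1's burn-down
list `s36asm_Leaves3` (helper24, NOTE 7 (G1) of the S36 architect).  Prefix `s36asm_c`.

`s36asm_PtsC O hπ N' q hq2 hqN' VC D1` = the C-only clauses of the point dispatch `s36gd_leg` on the
two charts `{λ}`, `{λ⁻¹}` of `λ ∈ E₂`.  Here: THE CUSP / NON-CUSP SPLIT of a C-only point `𝔫`, in terms
of `𝔫` itself (`x := ⟨λ, _⟩` the coordinate of the chart):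

* chart `{λ}`:   cusp `0` := `x ∈ 𝔫`;  cusp `1` := `x - 1 ∈ 𝔫`;  non-cusp := `x ∉ 𝔫 ∧ x - 1 ∉ 𝔫`;
* chart `{λ⁻¹}`: only the points with `⟨λ⁻¹, _⟩ ∈ 𝔫` are dispatched there: always the cusp `∞`.

`s36asm_cOrd` = the shape of the [L3b] producer (non-cusp C-only points), `s36asm_cCusp0/1/Inf` = the
shapes of the [L3c] producer at the three cusps; `s36asm_cSplit` : the four ⟹ `s36asm_PtsC`.
-/
import Mathlib
import Fermat.Agent.S36.Model.AsmLegFinal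

set_option autoImplicit false
set_option linter.unusedSectionVars false
set_option linter.unusedVariables false
set_option linter.style.haveILetI false
set_option maxHeartbeats 1000000

noncomputable section

open ModularCurve AlgebraicCurve IntermediateField IsLocalRing
open Fermat.Agent.JT3 Fermat.Agent.SS Fermat.Agent.S35

namespace Fermat.Agent.S36

section Legendre

variable {L : Type*} [Field L] [CharZero L] [Algebra L (AlgebraicClosure ℚ)]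
  (O : ValuationSubring L) [IsDiscreteValuationRing O] {π : O} (hπ : Irreducible π)
variable (N' q : ℕ) [NeZero N'] [NeZero q] [hq : Fact q.Prime] [CharP (ResidueField O) q]
  (hq2 : ¬ 2 ∣ q) (hqN' : ¬ q ∣ N')

/-- **shape of the [L3b] producer**: the NON-CUSP C-only points of the chart `{λ}`. -/
def s36asm_cOrd (VC : ValuationSubring ↥(lg_E L (N' * q * q))) (D1 : ℕ) : Prop :=
  ∀ (𝔫 : Ideal (fc_chart ↥O ({lg_lamE (N' * q * q)} : Set ↥(lg_E L (N' * q * q))))) (h𝔫 : 𝔫.IsMaximal),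
    algebraMap ↥O (fc_chart ↥O ({lg_lamE (N' * q * q)} : Set ↥(lg_E L (N' * q * q)))) π ∈ 𝔫 →
    ssm_tp_P (fc_chart ↥O ({lg_lamE (N' * q * q)} : Set ↥(lg_E L (N' * q * q)))) VC ≤ 𝔫 →
    ¬ ssm_tp_P (fc_chart ↥O ({lg_lamE (N' * q * q)} : Set ↥(lg_E L (N' * q * q)))) (s36i_VA O hπ (N' * q) q) ≤ 𝔫 →
    ¬ ssm_tp_P (fc_chart ↥O ({lg_lamE (N' * q * q)} : Set ↥(lg_E L (N' * q * q)))) (s36i_VB O hπ N' q hq2 hqN') ≤ 𝔫 →
    (⟨lg_lamE (N' * q * q), fc_x_mem_chart (lg_lamE (N' * q * q))⟩ :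
      fc_chart ↥O ({lg_lamE (N' * q * q)} : Set ↥(lg_E L (N' * q * q)))) ∉ 𝔫 →
    (⟨lg_lamE (N' * q * q), fc_x_mem_chart (lg_lamE (N' * q * q))⟩ :
      fc_chart ↥O ({lg_lamE (N' * q * q)} : Set ↥(lg_E L (N' * q * q)))) - 1 ∉ 𝔫 →
    (haveI := s36cp_chart_isFractionRing O (N' * q * q)
     haveI := h𝔫.isPrime
     s36g_PtOne π q (fc_chart ↥O ({lg_lamE (N' * q * q)} : Set ↥(lg_E L (N' * q * q)))) 𝔫 ∨
     s36g_PtWeak π q D1 (fc_chart ↥O ({lg_lamE (N' * q * q)} : Set ↥(lg_E L (N' * q * q)))) 𝔫)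

/-- **shape of the [L3c] producer at the cusp `λ = 0`** of the component `C`. -/
def s36asm_cCusp0 (VC : ValuationSubring ↥(lg_E L (N' * q * q))) (D1 : ℕ) : Prop :=
  ∀ (𝔫 : Ideal (fc_chart ↥O ({lg_lamE (N' * q * q)} : Set ↥(lg_E L (N' * q * q))))) (h𝔫 : 𝔫.IsMaximal),
    algebraMap ↥O (fc_chart ↥O ({lg_lamE (N' * q * q)} : Set ↥(lg_E L (N' * q * q)))) π ∈ 𝔫 →
    ssm_tp_P (fc_chart ↥O ({lg_lamE (N' * q * q)} : Set ↥(lg_E L (N' * q * q)))) VC ≤ 𝔫 →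
    ¬ ssm_tp_P (fc_chart ↥O ({lg_lamE (N' * q * q)} : Set ↥(lg_E L (N' * q * q)))) (s36i_VA O hπ (N' * q) q) ≤ 𝔫 →
    ¬ ssm_tp_P (fc_chart ↥O ({lg_lamE (N' * q * q)} : Set ↥(lg_E L (N' * q * q)))) (s36i_VB O hπ N' q hq2 hqN') ≤ 𝔫 →
    (⟨lg_lamE (N' * q * q), fc_x_mem_chart (lg_lamE (N' * q * q))⟩ :
      fc_chart ↥O ({lg_lamE (N' * q * q)} : Set ↥(lg_E L (N' * q * q)))) ∈ 𝔫 →
    (haveI := s36cp_chart_isFractionRing O (N' * q * q)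
     haveI := h𝔫.isPrime
     s36g_PtOne π q (fc_chart ↥O ({lg_lamE (N' * q * q)} : Set ↥(lg_E L (N' * q * q)))) 𝔫 ∨
     s36g_PtWeak π q D1 (fc_chart ↥O ({lg_lamE (N' * q * q)} : Set ↥(lg_E L (N' * q * q)))) 𝔫)

/-- **shape of the [L3c] producer at the cusp `λ = 1`** of the component `C`. -/
def s36asm_cCusp1 (VC : ValuationSubring ↥(lg_E L (N' * q * q))) (D1 : ℕ) : Prop :=
  ∀ (𝔫 : Ideal (fc_chart ↥O ({lg_lamE (N' * q * q)} : Set ↥(lg_E L (N' * q * q))))) (h𝔫 : 𝔫.IsMaximal),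
    algebraMap ↥O (fc_chart ↥O ({lg_lamE (N' * q * q)} : Set ↥(lg_E L (N' * q * q)))) π ∈ 𝔫 →
    ssm_tp_P (fc_chart ↥O ({lg_lamE (N' * q * q)} : Set ↥(lg_E L (N' * q * q)))) VC ≤ 𝔫 →
    ¬ ssm_tp_P (fc_chart ↥O ({lg_lamE (N' * q * q)} : Set ↥(lg_E L (N' * q * q)))) (s36i_VA O hπ (N' * q) q) ≤ 𝔫 →
    ¬ ssm_tp_P (fc_chart ↥O ({lg_lamE (N' * q * q)} : Set ↥(lg_E L (N' * q * q)))) (s36i_VB O hπ N' q hq2 hqN') ≤ 𝔫 →
    (⟨lg_lamE (N' * q * q), fc_x_mem_chart (lg_lamE (N' * q * q))⟩ :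
      fc_chart ↥O ({lg_lamE (N' * q * q)} : Set ↥(lg_E L (N' * q * q)))) - 1 ∈ 𝔫 →
    (haveI := s36cp_chart_isFractionRing O (N' * q * q)
     haveI := h𝔫.isPrime
     s36g_PtOne π q (fc_chart ↥O ({lg_lamE (N' * q * q)} : Set ↥(lg_E L (N' * q * q)))) 𝔫 ∨
     s36g_PtWeak π q D1 (fc_chart ↥O ({lg_lamE (N' * q * q)} : Set ↥(lg_E L (N' * q * q)))) 𝔫)

/-- **shape of the [L3c] producer at the cusp `λ = ∞`** of the component `C` (= the second conjunct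
of `s36asm_PtsC` VERBATIM). -/
def s36asm_cCuspInf (VC : ValuationSubring ↥(lg_E L (N' * q * q))) (D1 : ℕ) : Prop :=
  ∀ (𝔫 : Ideal (fc_chart ↥O ({(lg_lamE (N' * q * q))⁻¹} : Set ↥(lg_E L (N' * q * q))))) (h𝔫 : 𝔫.IsMaximal),
    algebraMap ↥O (fc_chart ↥O ({(lg_lamE (N' * q * q))⁻¹} : Set ↥(lg_E L (N' * q * q)))) π ∈ 𝔫 →
    (⟨(lg_lamE (N' * q * q))⁻¹, fc_x_mem_chart (lg_lamE (N' * q * q))⁻¹⟩ :
      fc_chart ↥O ({(lg_lamE (N' * q * q))⁻¹} : Set ↥(lg_E L (N' * q * q)))) ∈ 𝔫 →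
    ssm_tp_P (fc_chart ↥O ({(lg_lamE (N' * q * q))⁻¹} : Set ↥(lg_E L (N' * q * q)))) VC ≤ 𝔫 →
    ¬ ssm_tp_P (fc_chart ↥O ({(lg_lamE (N' * q * q))⁻¹} : Set ↥(lg_E L (N' * q * q)))) (s36i_VA O hπ (N' * q) q) ≤ 𝔫 →
    ¬ ssm_tp_P (fc_chart ↥O ({(lg_lamE (N' * q * q))⁻¹} : Set ↥(lg_E L (N' * q * q)))) (s36i_VB O hπ N' q hq2 hqN') ≤ 𝔫 →
    (haveI := s36cp_chart_inv_isFractionRing O (N' * q * q)
     haveI := h𝔫.isPrime
     s36g_PtOne π q (fc_chart ↥O ({(lg_lamE (N' * q * q))⁻¹} : Set ↥(lg_E L (N' * q * q)))) 𝔫 ∨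
     s36g_PtWeak π q D1 (fc_chart ↥O ({(lg_lamE (N' * q * q))⁻¹} : Set ↥(lg_E L (N' * q * q)))) 𝔫)

/-- **THE CUSP / NON-CUSP SPLIT**: the [L3b] producer at the non-cusp points and the [L3c] producer at
the three cusps give the C-only clauses `s36asm_PtsC` of the dispatch. -/
theorem s36asm_cSplit {VC : ValuationSubring ↥(lg_E L (N' * q * q))} {D1 : ℕ}
    (hord : s36asm_cOrd O hπ N' q hq2 hqN' VC D1)
    (h0 : s36asm_cCusp0 O hπ N' q hq2 hqN' VC D1)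
    (h1 : s36asm_cCusp1 O hπ N' q hq2 hqN' VC D1)
    (hinf : s36asm_cCuspInf O hπ N' q hq2 hqN' VC D1) :
    s36asm_PtsC O hπ N' q hq2 hqN' VC D1 := by
  refine ⟨fun 𝔫 h𝔫 hπ𝔫 hC hA hB => ?_, hinf⟩
  by_cases hx0 : (⟨lg_lamE (N' * q * q), fc_x_mem_chart (lg_lamE (N' * q * q))⟩ :
      fc_chart ↥O ({lg_lamE (N' * q * q)} : Set ↥(lg_E L (N' * q * q)))) ∈ 𝔫
  · exact h0 𝔫 h𝔫 hπ𝔫 hC hA hB hx0
  by_cases hx1 : (⟨lg_lamE (N' * q * q), fc_x_mem_chart (lg_lamE (N' * q * q))⟩ :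
      fc_chart ↥O ({lg_lamE (N' * q * q)} : Set ↥(lg_E L (N' * q * q)))) - 1 ∈ 𝔫
  · exact h1 𝔫 h𝔫 hπ𝔫 hC hA hB hx1
  exact hord 𝔫 h𝔫 hπ𝔫 hC hA hB hx0 hx1

end Legendre

end Fermat.Agent.S36
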