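/-
Project S36 (Carayol), cell [M2], leaves [L3b]/[L3c]/dispatch (helper17): THE POINT BELOW.
Prefix `s36cp_bl_`.

`ι : B₁ →+* B₂` the (integral) chart map from level `N' q` to level `N' q²`, `PF`, `PV` the two
vertical primes of `B₁`, `PA`, `PB`, `PC` the three vertical primes of `B₂`
(`PA ∩ B₁ = PF = PC ∩ B₁`, `PB ∩ B₁ = PV`).

* `s36cp_bl_below`          : if the point of `B₂` over a crossing point of `B₁` is unique (`huniq`: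
  [TRI], `s36tr_ChartHyp.chart`), a maximal ideal `𝔫` of `B₂` containing `P` (over `Q`) but not
  `P'` (over `Q'`) lies over a NON-CROSSING closed point of `B₁`:
  `(𝔫 ∩ B₁)` maximal, `Q ≤ 𝔫 ∩ B₁`, `¬ Q' ≤ 𝔫 ∩ B₁`;
* `s36cp_bl_below_of_nc`    : the same from a no-crossing statement at `𝔫 ∩ B₁` (cusps);
* `s36cp_bl_hord`           : **the `hord` field of helper16's `s36oc_Hyp`** at `y₀ := 𝔫₁ ∩ B'`
  (`φ₁ : B' →+* B₁` the `β`-chart map, `B₁ ^ n ⊆ φ₁ B' + P₂`): if ONE prime `𝔫₁` of `B₁` over `y₀`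
  contains `P₂` and not `P₁`, NO prime over `y₀` contains both;
* `s36cp_bl_huniq_of_chart` : `huniq` from helper10's `s36tr_ChartHyp` at every crossing point;
* `s36cp_bl_comap3`         : `hA hB hC` from the restrictions `VA ∩ F₁ = VF = VC ∩ F₁`,
  `VB ∩ F₁ = VV`;
* `s36cp_bl_leg_rA/_rB/_rC`, `s36cp_bl_leg_comap`, `s36cp_bl_leg_below`, `s36cp_bl_leg_hall`,
  `s36cp_bl_leg_cases` : the Legendre tower, chart `B_x` (`ι := s36tn_leg_iota O N' q`).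
-/
import Mathlib
import Fermat.Agent.S36.Model.PtsAB
import Fermat.Agent.S36.Tri.Chart
import Fermat.Agent.S36.Tri.InstVal
import Fermat.Agent.S36.Tri.MapInst
import Fermat.Agent.S36.Ins1.ThirdLeg
import Fermat.Agent.S36.Ins1.LegB

set_option autoImplicit false
set_option linter.unusedSectionVars false
set_option linter.unusedVariables false
set_option linter.style.haveILetI false

noncomputable section

open ModularCurve IntermediateField IsLocalRing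
open Fermat.Agent.JT3 Fermat.Agent.SS Fermat.Agent.S35

namespace Fermat.Agent.S36

section Abstract

variable {B1 B : Type*} [CommRing B1] [CommRing B]

/-- **the point below, from uniqueness over the crossing points.** -/
theorem s36cp_bl_below (ψ : B1 →+* B) (hint : ψ.IsIntegral) (Q Q' : Ideal B1) (P P' : Ideal B)
    (hP : P.comap ψ = Q) (hP' : P'.comap ψ = Q')
    (huniq : ∀ 𝔫 𝔫' : Ideal B, 𝔫.IsMaximal → 𝔫'.IsMaximal → Q ≤ 𝔫.comap ψ → Q' ≤ 𝔫.comap ψ →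
      𝔫'.comap ψ = 𝔫.comap ψ → 𝔫' = 𝔫)
    (𝔫 : Ideal B) (h𝔫 : 𝔫.IsMaximal) (h1 : P ≤ 𝔫) (h2 : ¬ P' ≤ 𝔫) :
    (𝔫.comap ψ).IsMaximal ∧ Q ≤ 𝔫.comap ψ ∧ ¬ Q' ≤ 𝔫.comap ψ := by
  have hQ : Q ≤ 𝔫.comap ψ := hP ▸ Ideal.comap_mono h1
  refine ⟨ssm_cp_comap_isMaximal ψ hint 𝔫 h𝔫, hQ, fun hQ' => h2 ?_⟩
  exact s36cp_third_of_node_max ψ hint (fun y => Q ≤ y ∧ Q' ≤ y)
    (fun 𝔟 𝔟' h𝔟 h𝔟' hn hc => huniq 𝔟 𝔟' h𝔟 h𝔟' hn.1 hn.2 hc) 𝔫 h𝔫 ⟨hQ, hQ'⟩ P' (hP' ▸ hQ')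

/-- **the point below, from a no-crossing statement** (cusps). -/
theorem s36cp_bl_below_of_nc (ψ : B1 →+* B) (hint : ψ.IsIntegral) (Q Q' : Ideal B1) (P : Ideal B)
    (hP : P.comap ψ = Q) (𝔫 : Ideal B) (h𝔫 : 𝔫.IsMaximal) (h1 : P ≤ 𝔫)
    (hnc : ¬ (Q ≤ 𝔫.comap ψ ∧ Q' ≤ 𝔫.comap ψ)) :
    (𝔫.comap ψ).IsMaximal ∧ Q ≤ 𝔫.comap ψ ∧ ¬ Q' ≤ 𝔫.comap ψ := by
  have hQ : Q ≤ 𝔫.comap ψ := hP ▸ Ideal.comap_mono h1
  exact ⟨ssm_cp_comap_isMaximal ψ hint 𝔫 h𝔫, hQ, fun hQ' => hnc ⟨hQ, hQ'⟩⟩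

variable {B' : Type*} [CommRing B']

/-- **`hord` of `s36oc_Hyp`**: `φ₁ : B' →+* B₁`, `B₁ ^ n ⊆ φ₁ B' + P₂` (the purely inseparable
component).  If ONE prime `𝔫₁` of `B₁` contains `P₂` and not `P₁`, then no prime of `B₁` with the
same contraction to `B'` contains both `P₁` and `P₂`. -/
theorem s36cp_bl_hord (φ1 : B' →+* B1) (P1 P2 : Ideal B1) (n : ℕ) (hn : 0 < n)
    (hpow : ∀ b : B1, ∃ b' : B', b ^ n - φ1 b' ∈ P2)
    (𝔫1 : Ideal B1) [𝔫1.IsPrime] (h2 : P2 ≤ 𝔫1) (h1 : ¬ P1 ≤ 𝔫1) :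
    ∀ 𝔫' : Ideal B1, 𝔫'.IsPrime → 𝔫'.comap φ1 = 𝔫1.comap φ1 → ¬ (P1 ≤ 𝔫' ∧ P2 ≤ 𝔫') := by
  intro 𝔫' h𝔫' hc hboth
  haveI := h𝔫'
  have e : 𝔫' = 𝔫1 := s36cp_point_unique φ1 P2 n hn hpow 𝔫' 𝔫1 hboth.2 h2 hc
  exact h1 (e ▸ hboth.1)

/-- `hord` at `y₀`, the point `𝔫₁` given with `𝔫₁ ∩ B' = y₀`. -/
theorem s36cp_bl_hord' (φ1 : B' →+* B1) (P1 P2 : Ideal B1) (n : ℕ) (hn : 0 < n)
    (hpow : ∀ b : B1, ∃ b' : B', b ^ n - φ1 b' ∈ P2) (y0 : Ideal B')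
    (𝔫1 : Ideal B1) [𝔫1.IsPrime] (hy0 : 𝔫1.comap φ1 = y0) (h2 : P2 ≤ 𝔫1) (h1 : ¬ P1 ≤ 𝔫1) :
    ∀ 𝔫' : Ideal B1, 𝔫'.IsPrime → 𝔫'.comap φ1 = y0 → ¬ (P1 ≤ 𝔫' ∧ P2 ≤ 𝔫') :=
  fun 𝔫' h𝔫' hc => s36cp_bl_hord φ1 P1 P2 n hn hpow 𝔫1 h2 h1 𝔫' h𝔫' (hc.trans hy0.symm)

end Abstract

section Chart

variable {B1 : Type*} [CommRing B1] [IsDomain B1] {F1 : Type*} [Field F1] [Algebra B1 F1]
  [IsFractionRing B1 F1]
  {B2 : Type*} [CommRing B2] [IsDomain B2] {F2 : Type*} [Field F2] [Algebra B2 F2]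
  [IsFractionRing B2 F2] [IsNoetherianRing B1] [IsNoetherianRing B2] [IsIntegrallyClosed B2]

/-- **`huniq` from [TRI]**: if helper10's chart-level hypotheses hold at every crossing point of
`B₁`, the (maximal) ideal of `B₂` over a crossing point is unique. -/
theorem s36cp_bl_huniq_of_chart (ι : B1 →+* B2) (j : F1 →+* F2) (hint : ι.IsIntegral) (ϖ : B1)
    (q : ℕ) (PF PV : Ideal B1) (PA PB PC : Ideal B2)
    (hnode : ∀ (𝔫1 : Ideal B1) (h𝔫1 : 𝔫1.IsMaximal), PF ≤ 𝔫1 → PV ≤ 𝔫1 →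
      haveI : 𝔫1.IsPrime := h𝔫1.isPrime
      ∃ u v : ssl_locSub F1 𝔫1, s36tr_ChartHyp ι j 𝔫1 u v ϖ q PF PV PA PB PC) :
    ∀ 𝔫 𝔫' : Ideal B2, 𝔫.IsMaximal → 𝔫'.IsMaximal → PF ≤ 𝔫.comap ι → PV ≤ 𝔫.comap ι →
      𝔫'.comap ι = 𝔫.comap ι → 𝔫' = 𝔫 := by
  intro 𝔫 𝔫' h𝔫 h𝔫' hF hV hc
  have hmax : (𝔫.comap ι).IsMaximal := ssm_cp_comap_isMaximal ι hint 𝔫 h𝔫
  haveI : (𝔫.comap ι).IsPrime := hmax.isPrime
  obtain ⟨u, v, H⟩ := hnode (𝔫.comap ι) hmax hF hV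
  obtain ⟨𝔫P, -, -, huq, -, -⟩ := H.chart
  rw [huq 𝔫 h𝔫.isPrime rfl, huq 𝔫' h𝔫'.isPrime hc]

end Chart

section Val

variable {A0 : Type*} [CommRing A0] {F1 F2 : Type*} [Field F1] [Field F2] [Algebra A0 F1]
  [Algebra A0 F2] {B1 : Subalgebra A0 F1} {B2 : Subalgebra A0 F2}

/-- **`hA hB hC`**: the contractions of the three vertical primes of `B₂` to `B₁`. -/
theorem s36cp_bl_comap3 (ι : B1 →+* B2) (j : F1 →+* F2)
    (hcomm : ∀ b : B1, ((ι b : B2) : F2) = j (b : F1))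
    {VF VV : ValuationSubring F1} {VA VB VC : ValuationSubring F2}
    (leF : ∀ b ∈ B1, b ∈ VF) (leV : ∀ b ∈ B1, b ∈ VV)
    (leA : ∀ b ∈ B2, b ∈ VA) (leB : ∀ b ∈ B2, b ∈ VB) (leC : ∀ b ∈ B2, b ∈ VC)
    (rA : ∀ y : F1, j y ∈ VA ↔ y ∈ VF) (rB : ∀ y : F1, j y ∈ VB ↔ y ∈ VV)
    (rC : ∀ y : F1, j y ∈ VC ↔ y ∈ VF) :
    (ssm_tp_P B2 VA).comap ι = ssm_tp_P B1 VF ∧ (ssm_tp_P B2 VB).comap ι = ssm_tp_P B1 VV ∧
      (ssm_tp_P B2 VC).comap ι = ssm_tp_P B1 VF :=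
  ⟨s36tn_comap_P ι j hcomm leF leA (s36tri_nonunits_iff j rA),
    s36tn_comap_P ι j hcomm leV leB (s36tri_nonunits_iff j rB),
    s36tn_comap_P ι j hcomm leF leC (s36tri_nonunits_iff j rC)⟩

end Val

section Leg

variable {L : Type*} [Field L] [CharZero L] [Algebra L (AlgebraicClosure ℚ)]
  (O : ValuationSubring L) [IsDiscreteValuationRing O] {π : O} (hπ : Irreducible π)
variable (N' q : ℕ) [NeZero N'] [NeZero q] [hq : Fact q.Prime] [CharP (ResidueField O) q]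
  (hq2 : ¬ 2 ∣ q) (hqN' : ¬ q ∣ N')

/-- `VA ∩ E₁ = VF`. -/
theorem s36cp_bl_leg_rA (y : ↥(lg_E L (N' * q))) :
    IntermediateField.inclusion (s36w_E_le1 L N' q) y ∈ s36i_VA O hπ (N' * q) q ↔
      y ∈ ssm_gl_V1 O hπ N' q := by
  letI := ssm_gi_algebra (ssm_al_E_le L (N' * q) q)
  letI := ssm_gi_algebraV (ssm_al_E_le L (N' * q) q) (ssm_gl_V1 O hπ N' q)
  have h := s36i_leg_overA O hπ N' q y
  rw [ssm_gi_mem_range] at h
  exact h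

/-- `VB ∩ E₁ = VV`. -/
theorem s36cp_bl_leg_rB (y : ↥(lg_E L (N' * q))) :
    IntermediateField.inclusion (s36w_E_le1 L N' q) y ∈ s36cp_VB O hπ N' q hq2 hqN' ↔
      y ∈ ssm_gl_V2 O hπ N' q hq2 hqN' := by
  letI := ssm_gi_algebra (ssm_al_E_le L (N' * q) q)
  letI := ssm_gi_algebraV (ssm_al_E_le L (N' * q) q) (s36i_VV O hπ N' q hq2 hqN')
  have h := (s36i_leg_dataB O hπ N' q hq2 hqN').overR y
  rw [ssm_gi_mem_range] at h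
  exact h

/-- `VC ∩ E₁ = VF` (from `T.overC` of the third-valuation package). -/
theorem s36cp_bl_leg_rC (VC : ValuationSubring ↥(lg_E L (N' * q * q)))
    (hV :
      letI := ssm_gi_algebra (ssm_al_E_le L (N' * q) q)
      letI := ssm_gi_algebraV (ssm_al_E_le L (N' * q) q) (ssm_gl_V1 O hπ N' q)
      ssm_tw_Over ↥(lg_E L (N' * q)) ↥(ssm_gl_V1 O hπ N' q) VC)
    (y : ↥(lg_E L (N' * q))) :
    IntermediateField.inclusion (s36w_E_le1 L N' q) y ∈ VC ↔ y ∈ ssm_gl_V1 O hπ N' q := by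
  letI := ssm_gi_algebra (ssm_al_E_le L (N' * q) q)
  letI := ssm_gi_algebraV (ssm_al_E_le L (N' * q) q) (ssm_gl_V1 O hπ N' q)
  have h := hV y
  rw [ssm_gi_mem_range] at h
  exact h

end Leg

section NF

variable (L : Type) [Field L] [NumberField L] [Algebra L (AlgebraicClosure ℚ)]
  (O : ValuationSubring L) [IsDiscreteValuationRing O] {π : O} (hπ : Irreducible π)
variable (N' q : ℕ) [NeZero N'] [NeZero q] [hq : Fact q.Prime] [CharP (ResidueField O) q]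
  (hq2 : ¬ 2 ∣ q) (hqN' : ¬ q ∣ N') (ζ : L) (hζ : IsPrimitiveRoot ζ N')

include hζ in
set_option synthInstance.maxHeartbeats 200000 in
set_option maxHeartbeats 800000 in
/-- **`hA hB hC`, Legendre tower, chart `B_x`** (`ι := s36tn_leg_iota O N' q`). -/
theorem s36cp_bl_leg_comap {VC : ValuationSubring ↥(lg_E L (N' * q * q))} {e : Fin 3 → ℕ}
    (H : s36tp_Hyp
      (algebraMap ↥O (Algebra.adjoin ↥O ({lg_lamE (N' * q * q)} : Set ↥(lg_E L (N' * q * q)))) π)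
      ![s36i_VA O hπ (N' * q) q, s36cp_VB O hπ N' q hq2 hqN', VC] e)
    (hVC :
      letI := ssm_gi_algebra (ssm_al_E_le L (N' * q) q)
      letI := ssm_gi_algebraV (ssm_al_E_le L (N' * q) q) (ssm_gl_V1 O hπ N' q)
      ssm_tw_Over ↥(lg_E L (N' * q)) ↥(ssm_gl_V1 O hπ N' q) VC) :
    (ssm_tp_P (fc_chart ↥O ({lg_lamE (N' * q * q)} : Set ↥(lg_E L (N' * q * q))))
        (s36i_VA O hπ (N' * q) q)).comap (s36tn_leg_iota O N' q) =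
      ssm_tp_P (fc_chart ↥O ({lg_lamE (N' * q)} : Set ↥(lg_E L (N' * q))))
        (ssm_gl_V1 O hπ N' q) ∧
    (ssm_tp_P (fc_chart ↥O ({lg_lamE (N' * q * q)} : Set ↥(lg_E L (N' * q * q))))
        (s36cp_VB O hπ N' q hq2 hqN')).comap (s36tn_leg_iota O N' q) =
      ssm_tp_P (fc_chart ↥O ({lg_lamE (N' * q)} : Set ↥(lg_E L (N' * q))))
        (ssm_gl_V2 O hπ N' q hq2 hqN') ∧
    (ssm_tp_P (fc_chart ↥O ({lg_lamE (N' * q * q)} : Set ↥(lg_E L (N' * q * q)))) VC).comap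
        (s36tn_leg_iota O N' q) =
      ssm_tp_P (fc_chart ↥O ({lg_lamE (N' * q)} : Set ↥(lg_E L (N' * q))))
        (ssm_gl_V1 O hπ N' q) := by
  have hqO := ssm_fln_q_mem L O q
  have hq2' : q ≠ 2 := ssm_fl_ne_two q hq2
  have hp := ssm_ll_prime L N' hπ q hqO hq2' hqN' ζ hζ
  have H1 := ssm_gl_hyp O hπ N' q hq2 hqN' hp.1
  haveI := ssm_go_isScalarTower O (lg_E L (N' * q))
  haveI := ssm_go_isScalarTower O (lg_E L (N' * q * q))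
  have hx1 : Transcendental L (lg_lamE (L := L) (N' * q)) :=
    lgf_lam_transcendental L (N' * q) two_ne_zero
  have hx2 : Transcendental L (lg_lamE (L := L) (N' * q * q)) :=
    lgf_lam_transcendental L (N' * q * q) two_ne_zero
  have hC1 := ssm_tp_ff_chart (L := L) hπ hx1
  have hC2 := ssm_tp_ff_chart (L := L) hπ hx2
  haveI : IsIntegrallyClosed
      (Algebra.adjoin ↥O ({lg_lamE (N' * q)} : Set ↥(lg_E L (N' * q)))) :=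
    fc_ff_isIntegrallyClosed (fc_ff_transcendental (L := L) hx1)
  haveI : FaithfulSMul (Algebra.adjoin ↥O ({lg_lamE (N' * q)} : Set ↥(lg_E L (N' * q))))
      ↥(lg_E L (N' * q)) :=
    (faithfulSMul_iff_algebraMap_injective _ _).2 Subtype.val_injective
  haveI : IsIntegrallyClosed
      (Algebra.adjoin ↥O ({lg_lamE (N' * q * q)} : Set ↥(lg_E L (N' * q * q)))) :=
    fc_ff_isIntegrallyClosed (fc_ff_transcendental (L := L) hx2)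
  haveI : FaithfulSMul
      (Algebra.adjoin ↥O ({lg_lamE (N' * q * q)} : Set ↥(lg_E L (N' * q * q))))
      ↥(lg_E L (N' * q * q)) :=
    (faithfulSMul_iff_algebraMap_injective _ _).2 Subtype.val_injective
  exact s36cp_bl_comap3 (s36tn_leg_iota O N' q)
    (IntermediateField.inclusion (s36w_E_le1 L N' q) : ↥(lg_E L (N' * q)) →+* ↥(lg_E L (N' * q * q)))
    (s36tn_leg_iota_coe O N' q)
    (fun b hb => hC1.le H1.over1 hb) (fun b hb => hC1.le H1.over2 hb)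
    (fun b hb => H.chart_le hC2 0 hb) (fun b hb => H.chart_le hC2 1 hb)
    (fun b hb => H.chart_le hC2 2 hb)
    (s36cp_bl_leg_rA O hπ N' q) (s36cp_bl_leg_rB O hπ N' q hq2 hqN')
    (s36cp_bl_leg_rC O hπ N' q VC hVC)

include hζ in
set_option synthInstance.maxHeartbeats 200000 in
set_option maxHeartbeats 800000 in
/-- **THE POINT BELOW, Legendre tower, chart `B_x`**: a closed point of `B_x` (level `N' q²`) lying
on `A` (resp. `C`) and not on `B` lies over a closed point of the level-`N' q` chart on `VF` only;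
a closed point on `B` and not on `A` lies over a closed point on `VV` only.  `huniq` = uniqueness of
the point over a crossing point ([TRI]: `s36cp_bl_huniq_of_chart`). -/
theorem s36cp_bl_leg_below {VC : ValuationSubring ↥(lg_E L (N' * q * q))} {e : Fin 3 → ℕ}
    (H : s36tp_Hyp
      (algebraMap ↥O (Algebra.adjoin ↥O ({lg_lamE (N' * q * q)} : Set ↥(lg_E L (N' * q * q)))) π)
      ![s36i_VA O hπ (N' * q) q, s36cp_VB O hπ N' q hq2 hqN', VC] e)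
    (hVC :
      letI := ssm_gi_algebra (ssm_al_E_le L (N' * q) q)
      letI := ssm_gi_algebraV (ssm_al_E_le L (N' * q) q) (ssm_gl_V1 O hπ N' q)
      ssm_tw_Over ↥(lg_E L (N' * q)) ↥(ssm_gl_V1 O hπ N' q) VC)
    (huniq : ∀ 𝔫 𝔫' : Ideal (fc_chart ↥O ({lg_lamE (N' * q * q)} : Set ↥(lg_E L (N' * q * q)))),
      𝔫.IsMaximal → 𝔫'.IsMaximal →
      ssm_tp_P (fc_chart ↥O ({lg_lamE (N' * q)} : Set ↥(lg_E L (N' * q))))
        (ssm_gl_V1 O hπ N' q) ≤ 𝔫.comap (s36tn_leg_iota O N' q) →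
      ssm_tp_P (fc_chart ↥O ({lg_lamE (N' * q)} : Set ↥(lg_E L (N' * q))))
        (ssm_gl_V2 O hπ N' q hq2 hqN') ≤ 𝔫.comap (s36tn_leg_iota O N' q) →
      𝔫'.comap (s36tn_leg_iota O N' q) = 𝔫.comap (s36tn_leg_iota O N' q) → 𝔫' = 𝔫)
    (𝔫 : Ideal (fc_chart ↥O ({lg_lamE (N' * q * q)} : Set ↥(lg_E L (N' * q * q)))))
    (h𝔫 : 𝔫.IsMaximal) :
    (ssm_tp_P (fc_chart ↥O ({lg_lamE (N' * q * q)} : Set ↥(lg_E L (N' * q * q))))
        (s36i_VA O hπ (N' * q) q) ≤ 𝔫 →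
      ¬ ssm_tp_P (fc_chart ↥O ({lg_lamE (N' * q * q)} : Set ↥(lg_E L (N' * q * q))))
        (s36cp_VB O hπ N' q hq2 hqN') ≤ 𝔫 →
      (𝔫.comap (s36tn_leg_iota O N' q)).IsMaximal ∧
      ssm_tp_P (fc_chart ↥O ({lg_lamE (N' * q)} : Set ↥(lg_E L (N' * q))))
        (ssm_gl_V1 O hπ N' q) ≤ 𝔫.comap (s36tn_leg_iota O N' q) ∧
      ¬ ssm_tp_P (fc_chart ↥O ({lg_lamE (N' * q)} : Set ↥(lg_E L (N' * q))))
        (ssm_gl_V2 O hπ N' q hq2 hqN') ≤ 𝔫.comap (s36tn_leg_iota O N' q)) ∧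
    (ssm_tp_P (fc_chart ↥O ({lg_lamE (N' * q * q)} : Set ↥(lg_E L (N' * q * q)))) VC ≤ 𝔫 →
      ¬ ssm_tp_P (fc_chart ↥O ({lg_lamE (N' * q * q)} : Set ↥(lg_E L (N' * q * q))))
        (s36cp_VB O hπ N' q hq2 hqN') ≤ 𝔫 →
      (𝔫.comap (s36tn_leg_iota O N' q)).IsMaximal ∧
      ssm_tp_P (fc_chart ↥O ({lg_lamE (N' * q)} : Set ↥(lg_E L (N' * q))))
        (ssm_gl_V1 O hπ N' q) ≤ 𝔫.comap (s36tn_leg_iota O N' q) ∧
      ¬ ssm_tp_P (fc_chart ↥O ({lg_lamE (N' * q)} : Set ↥(lg_E L (N' * q))))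
        (ssm_gl_V2 O hπ N' q hq2 hqN') ≤ 𝔫.comap (s36tn_leg_iota O N' q)) ∧
    (ssm_tp_P (fc_chart ↥O ({lg_lamE (N' * q * q)} : Set ↥(lg_E L (N' * q * q))))
        (s36cp_VB O hπ N' q hq2 hqN') ≤ 𝔫 →
      ¬ ssm_tp_P (fc_chart ↥O ({lg_lamE (N' * q * q)} : Set ↥(lg_E L (N' * q * q))))
        (s36i_VA O hπ (N' * q) q) ≤ 𝔫 →
      (𝔫.comap (s36tn_leg_iota O N' q)).IsMaximal ∧
      ssm_tp_P (fc_chart ↥O ({lg_lamE (N' * q)} : Set ↥(lg_E L (N' * q))))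
        (ssm_gl_V2 O hπ N' q hq2 hqN') ≤ 𝔫.comap (s36tn_leg_iota O N' q) ∧
      ¬ ssm_tp_P (fc_chart ↥O ({lg_lamE (N' * q)} : Set ↥(lg_E L (N' * q))))
        (ssm_gl_V1 O hπ N' q) ≤ 𝔫.comap (s36tn_leg_iota O N' q)) := by
  obtain ⟨hA, hB, hC⟩ := s36cp_bl_leg_comap L O hπ N' q hq2 hqN' ζ hζ H hVC
  have hint := s36tn_leg_iota_isIntegral O N' q
  refine ⟨fun h1 h2 => ?_, fun h1 h2 => ?_, fun h1 h2 => ?_⟩
  · exact s36cp_bl_below (s36tn_leg_iota O N' q) hint _ _ _ _ hA hB huniq 𝔫 h𝔫 h1 h2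
  · exact s36cp_bl_below (s36tn_leg_iota O N' q) hint _ _ _ _ hC hB huniq 𝔫 h𝔫 h1 h2
  · exact s36cp_bl_below (s36tn_leg_iota O N' q) hint _ _ _ _ hB hA
      (fun 𝔟 𝔟' h𝔟 h𝔟' hV hF hc => huniq 𝔟 𝔟' h𝔟 h𝔟' hF hV hc) 𝔫 h𝔫 h1 h2

include hζ in
set_option synthInstance.maxHeartbeats 200000 in
set_option maxHeartbeats 800000 in
/-- **TWO COMPONENTS THROUGH A CLOSED POINT ⟹ ALL THREE** (`hall` of `s36cp_cases`), Legendre
tower, chart `B_x`.  Inputs beyond `H`, `hVC`, `huniq`: `W₂ VC = VC` (helper26's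
`s36i_leg_W2_VC`) and the `W₂`-stability of the chart (`s36ig_W_charts`). -/
theorem s36cp_bl_leg_hall {VC : ValuationSubring ↥(lg_E L (N' * q * q))} {e : Fin 3 → ℕ}
    (H : s36tp_Hyp
      (algebraMap ↥O (Algebra.adjoin ↥O ({lg_lamE (N' * q * q)} : Set ↥(lg_E L (N' * q * q)))) π)
      ![s36i_VA O hπ (N' * q) q, s36cp_VB O hπ N' q hq2 hqN', VC] e)
    (hVC :
      letI := ssm_gi_algebra (ssm_al_E_le L (N' * q) q)
      letI := ssm_gi_algebraV (ssm_al_E_le L (N' * q) q) (ssm_gl_V1 O hπ N' q)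
      ssm_tw_Over ↥(lg_E L (N' * q)) ↥(ssm_gl_V1 O hπ N' q) VC)
    (hWC : VC.comap (s36cp_W2 L N' q hq2 hqN' :
      ↥(lg_E L (N' * q * q)) →+* ↥(lg_E L (N' * q * q))) = VC)
    (hWB1 : ∀ b ∈ fc_chart ↥O ({lg_lamE (N' * q * q)} : Set ↥(lg_E L (N' * q * q))),
      s36cp_W2 L N' q hq2 hqN' b ∈
        fc_chart ↥O ({lg_lamE (N' * q * q)} : Set ↥(lg_E L (N' * q * q))))
    (huniq : ∀ 𝔫 𝔫' : Ideal (fc_chart ↥O ({lg_lamE (N' * q * q)} : Set ↥(lg_E L (N' * q * q)))),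
      𝔫.IsMaximal → 𝔫'.IsMaximal →
      ssm_tp_P (fc_chart ↥O ({lg_lamE (N' * q)} : Set ↥(lg_E L (N' * q))))
        (ssm_gl_V1 O hπ N' q) ≤ 𝔫.comap (s36tn_leg_iota O N' q) →
      ssm_tp_P (fc_chart ↥O ({lg_lamE (N' * q)} : Set ↥(lg_E L (N' * q))))
        (ssm_gl_V2 O hπ N' q hq2 hqN') ≤ 𝔫.comap (s36tn_leg_iota O N' q) →
      𝔫'.comap (s36tn_leg_iota O N' q) = 𝔫.comap (s36tn_leg_iota O N' q) → 𝔫' = 𝔫)
    (𝔫 : Ideal (fc_chart ↥O ({lg_lamE (N' * q * q)} : Set ↥(lg_E L (N' * q * q)))))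
    (h𝔫 : 𝔫.IsMaximal)
    (h2 : (ssm_tp_P (fc_chart ↥O ({lg_lamE (N' * q * q)} : Set ↥(lg_E L (N' * q * q))))
          (s36i_VA O hπ (N' * q) q) ≤ 𝔫 ∧
        ssm_tp_P (fc_chart ↥O ({lg_lamE (N' * q * q)} : Set ↥(lg_E L (N' * q * q))))
          (s36cp_VB O hπ N' q hq2 hqN') ≤ 𝔫) ∨
      (ssm_tp_P (fc_chart ↥O ({lg_lamE (N' * q * q)} : Set ↥(lg_E L (N' * q * q))))
          (s36i_VA O hπ (N' * q) q) ≤ 𝔫 ∧
        ssm_tp_P (fc_chart ↥O ({lg_lamE (N' * q * q)} : Set ↥(lg_E L (N' * q * q)))) VC ≤ 𝔫) ∨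
      (ssm_tp_P (fc_chart ↥O ({lg_lamE (N' * q * q)} : Set ↥(lg_E L (N' * q * q))))
          (s36cp_VB O hπ N' q hq2 hqN') ≤ 𝔫 ∧
        ssm_tp_P (fc_chart ↥O ({lg_lamE (N' * q * q)} : Set ↥(lg_E L (N' * q * q)))) VC ≤ 𝔫)) :
    ssm_tp_P (fc_chart ↥O ({lg_lamE (N' * q * q)} : Set ↥(lg_E L (N' * q * q))))
        (s36i_VA O hπ (N' * q) q) ≤ 𝔫 ∧
      ssm_tp_P (fc_chart ↥O ({lg_lamE (N' * q * q)} : Set ↥(lg_E L (N' * q * q))))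
        (s36cp_VB O hπ N' q hq2 hqN') ≤ 𝔫 ∧
      ssm_tp_P (fc_chart ↥O ({lg_lamE (N' * q * q)} : Set ↥(lg_E L (N' * q * q)))) VC ≤ 𝔫 := by
  obtain ⟨hA, hB, hC⟩ := s36cp_bl_leg_comap L O hπ N' q hq2 hqN' ζ hζ H hVC
  have hint := s36tn_leg_iota_isIntegral O N' q
  haveI := ssm_go_isScalarTower O (lg_E L (N' * q * q))
  have hx2 : Transcendental L (lg_lamE (L := L) (N' * q * q)) :=
    lgf_lam_transcendental L (N' * q * q) two_ne_zero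
  have hC2 := ssm_tp_ff_chart (L := L) hπ hx2
  haveI : IsIntegrallyClosed
      (Algebra.adjoin ↥O ({lg_lamE (N' * q * q)} : Set ↥(lg_E L (N' * q * q)))) :=
    fc_ff_isIntegrallyClosed (fc_ff_transcendental (L := L) hx2)
  haveI : FaithfulSMul
      (Algebra.adjoin ↥O ({lg_lamE (N' * q * q)} : Set ↥(lg_E L (N' * q * q))))
      ↥(lg_E L (N' * q * q)) :=
    (faithfulSMul_iff_algebraMap_injective _ _).2 Subtype.val_injective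
  have leA : ∀ b ∈ fc_chart ↥O ({lg_lamE (N' * q * q)} : Set ↥(lg_E L (N' * q * q))),
      b ∈ s36i_VA O hπ (N' * q) q := fun b hb => H.chart_le hC2 0 hb
  have leB : ∀ b ∈ fc_chart ↥O ({lg_lamE (N' * q * q)} : Set ↥(lg_E L (N' * q * q))),
      b ∈ s36cp_VB O hπ N' q hq2 hqN' := fun b hb => H.chart_le hC2 1 hb
  have leC : ∀ b ∈ fc_chart ↥O ({lg_lamE (N' * q * q)} : Set ↥(lg_E L (N' * q * q))),
      b ∈ VC := fun b hb => H.chart_le hC2 2 hb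
  have hWW : ∀ x, s36cp_W2 L N' q hq2 hqN' (s36cp_W2 L N' q hq2 hqN' x) = x :=
    s36w_WE_WE L N' q hq.out hq2 hqN'
  have hVBiff : ∀ z, z ∈ s36cp_VB O hπ N' q hq2 hqN' ↔
      s36cp_W2 L N' q hq2 hqN' z ∈ s36i_VA O hπ (N' * q) q := fun z => Iff.rfl
  have hVAiff : ∀ z, z ∈ s36i_VA O hπ (N' * q) q ↔
      s36cp_W2 L N' q hq2 hqN' z ∈ s36cp_VB O hπ N' q hq2 hqN' := by
    intro z
    rw [hVBiff, hWW]
  have hVCiff : ∀ z, z ∈ VC ↔ s36cp_W2 L N' q hq2 hqN' z ∈ VC := by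
    intro z
    conv_lhs => rw [← hWC]
    exact Iff.rfl
  exact s36cp_all_of_two_max (s36tn_leg_iota O N' q) hint _ _ _ _ _ hA hB hC
    (ssm_inf_equiv (s36cp_W2 L N' q hq2 hqN') hWW _ hWB1)
    (fun x => (ssm_inf_W_mem_iff _ leA leB (s36cp_W2 L N' q hq2 hqN') hWW hVBiff hWB1 x).symm)
    (fun x => (ssm_inf_W_mem_iff _ leB leA (s36cp_W2 L N' q hq2 hqN') hWW hVAiff hWB1 x).symm)
    (fun x => (ssm_inf_W_mem_iff _ leC leC (s36cp_W2 L N' q hq2 hqN') hWW hVCiff hWB1 x).symm)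
    huniq 𝔫 h𝔫 h2

include hζ in
set_option synthInstance.maxHeartbeats 200000 in
set_option maxHeartbeats 800000 in
/-- **THE CLASSIFICATION OF THE CLOSED POINTS OF THE SPECIAL FIBRE**, Legendre tower, chart `B_x`:
`A` only, `B` only, `C` only, or all three. -/
theorem s36cp_bl_leg_cases {VC : ValuationSubring ↥(lg_E L (N' * q * q))} {e : Fin 3 → ℕ}
    (H : s36tp_Hyp
      (algebraMap ↥O (Algebra.adjoin ↥O ({lg_lamE (N' * q * q)} : Set ↥(lg_E L (N' * q * q)))) π)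
      ![s36i_VA O hπ (N' * q) q, s36cp_VB O hπ N' q hq2 hqN', VC] e)
    (hVC :
      letI := ssm_gi_algebra (ssm_al_E_le L (N' * q) q)
      letI := ssm_gi_algebraV (ssm_al_E_le L (N' * q) q) (ssm_gl_V1 O hπ N' q)
      ssm_tw_Over ↥(lg_E L (N' * q)) ↥(ssm_gl_V1 O hπ N' q) VC)
    (hWC : VC.comap (s36cp_W2 L N' q hq2 hqN' :
      ↥(lg_E L (N' * q * q)) →+* ↥(lg_E L (N' * q * q))) = VC)
    (hWB1 : ∀ b ∈ fc_chart ↥O ({lg_lamE (N' * q * q)} : Set ↥(lg_E L (N' * q * q))),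
      s36cp_W2 L N' q hq2 hqN' b ∈
        fc_chart ↥O ({lg_lamE (N' * q * q)} : Set ↥(lg_E L (N' * q * q))))
    (huniq : ∀ 𝔫 𝔫' : Ideal (fc_chart ↥O ({lg_lamE (N' * q * q)} : Set ↥(lg_E L (N' * q * q)))),
      𝔫.IsMaximal → 𝔫'.IsMaximal →
      ssm_tp_P (fc_chart ↥O ({lg_lamE (N' * q)} : Set ↥(lg_E L (N' * q))))
        (ssm_gl_V1 O hπ N' q) ≤ 𝔫.comap (s36tn_leg_iota O N' q) →
      ssm_tp_P (fc_chart ↥O ({lg_lamE (N' * q)} : Set ↥(lg_E L (N' * q))))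
        (ssm_gl_V2 O hπ N' q hq2 hqN') ≤ 𝔫.comap (s36tn_leg_iota O N' q) →
      𝔫'.comap (s36tn_leg_iota O N' q) = 𝔫.comap (s36tn_leg_iota O N' q) → 𝔫' = 𝔫)
    (𝔫 : Ideal (fc_chart ↥O ({lg_lamE (N' * q * q)} : Set ↥(lg_E L (N' * q * q)))))
    (h𝔫 : 𝔫.IsMaximal)
    (hπ𝔫 : algebraMap ↥O (fc_chart ↥O ({lg_lamE (N' * q * q)} : Set ↥(lg_E L (N' * q * q)))) π
      ∈ 𝔫) :
    (ssm_tp_P (fc_chart ↥O ({lg_lamE (N' * q * q)} : Set ↥(lg_E L (N' * q * q))))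
        (s36i_VA O hπ (N' * q) q) ≤ 𝔫 ∧
      ¬ ssm_tp_P (fc_chart ↥O ({lg_lamE (N' * q * q)} : Set ↥(lg_E L (N' * q * q))))
        (s36cp_VB O hπ N' q hq2 hqN') ≤ 𝔫 ∧
      ¬ ssm_tp_P (fc_chart ↥O ({lg_lamE (N' * q * q)} : Set ↥(lg_E L (N' * q * q)))) VC ≤ 𝔫) ∨
    (¬ ssm_tp_P (fc_chart ↥O ({lg_lamE (N' * q * q)} : Set ↥(lg_E L (N' * q * q))))
        (s36i_VA O hπ (N' * q) q) ≤ 𝔫 ∧
      ssm_tp_P (fc_chart ↥O ({lg_lamE (N' * q * q)} : Set ↥(lg_E L (N' * q * q))))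
        (s36cp_VB O hπ N' q hq2 hqN') ≤ 𝔫 ∧
      ¬ ssm_tp_P (fc_chart ↥O ({lg_lamE (N' * q * q)} : Set ↥(lg_E L (N' * q * q)))) VC ≤ 𝔫) ∨
    (¬ ssm_tp_P (fc_chart ↥O ({lg_lamE (N' * q * q)} : Set ↥(lg_E L (N' * q * q))))
        (s36i_VA O hπ (N' * q) q) ≤ 𝔫 ∧
      ¬ ssm_tp_P (fc_chart ↥O ({lg_lamE (N' * q * q)} : Set ↥(lg_E L (N' * q * q))))
        (s36cp_VB O hπ N' q hq2 hqN') ≤ 𝔫 ∧
      ssm_tp_P (fc_chart ↥O ({lg_lamE (N' * q * q)} : Set ↥(lg_E L (N' * q * q)))) VC ≤ 𝔫) ∨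
    (ssm_tp_P (fc_chart ↥O ({lg_lamE (N' * q * q)} : Set ↥(lg_E L (N' * q * q))))
        (s36i_VA O hπ (N' * q) q) ≤ 𝔫 ∧
      ssm_tp_P (fc_chart ↥O ({lg_lamE (N' * q * q)} : Set ↥(lg_E L (N' * q * q))))
        (s36cp_VB O hπ N' q hq2 hqN') ≤ 𝔫 ∧
      ssm_tp_P (fc_chart ↥O ({lg_lamE (N' * q * q)} : Set ↥(lg_E L (N' * q * q)))) VC ≤ 𝔫) := by
  haveI := ssm_go_isScalarTower O (lg_E L (N' * q * q))
  have hx2 : Transcendental L (lg_lamE (L := L) (N' * q * q)) :=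
    lgf_lam_transcendental L (N' * q * q) two_ne_zero
  have hC2 := ssm_tp_ff_chart (L := L) hπ hx2
  haveI : IsIntegrallyClosed
      (Algebra.adjoin ↥O ({lg_lamE (N' * q * q)} : Set ↥(lg_E L (N' * q * q)))) :=
    fc_ff_isIntegrallyClosed (fc_ff_transcendental (L := L) hx2)
  haveI : FaithfulSMul
      (Algebra.adjoin ↥O ({lg_lamE (N' * q * q)} : Set ↥(lg_E L (N' * q * q))))
      ↥(lg_E L (N' * q * q)) :=
    (faithfulSMul_iff_algebraMap_injective _ _).2 Subtype.val_injective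
  haveI := h𝔫.isPrime
  exact s36cp_cases _ _ _ 𝔫 (s36tp_three_P_le_of_mem H hC2 _ rfl 𝔫 hπ𝔫)
    (s36cp_bl_leg_hall L O hπ N' q hq2 hqN' ζ hζ H hVC hWC hWB1 huniq 𝔫 h𝔫)

end NF

end Fermat.Agent.S36
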