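/-
Project S36 (Carayol), cell [M2], leaf [VAL3-V] (helper29; prefix `s36vv_`): THE VALUATION-SUBRING
FORM OF THE THIRD VALUATION (`s36v_main`, S36/Val3.lean), in the vocabulary of
SS/Model/TwoValW.lean and S36/Ins1/Val.lean: `K ⊆ E` finite separable, `R` a DVR with fraction field
`K`, `ssm_tw_Over K R V` (`V ∩ K = R`), `ssm_tw_centre K R V hV` (the centre of `V` on
`S = integralClosure R E`).

* `s36vv_adic`  : a valuation subring `V` over `R` is the valuation subring of the adic valuation of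
  `S` at its centre: `a ∈ V ↔ v(a) ≤ 1`, `a ∈ 𝔪(V) ↔ v(a) < 1`;
* `s36vv_norm_not_mem` : the hypothesis `hN` from the FIELD norm (`N_{E/K}(z) ≠ π² c`);
* `s36vv_main`  : `[E : K] = q ≥ 2`, `VA` over `R` with `e = f = 1`, `z ∈ S` lying in `𝔪(V)` for every
  valuation subring `V ≠ VA` over `R`, `N(z) ∉ 𝔪_R²`  ⟹  there is a valuation subring `VC ≠ VA` over
  `R`, `VA` and `VC` are the only ones, `𝔪_R S = Q_A Q_C^(q-1)`, `f(Q_C) = 1`, `e(Q_C) = q - 1`,
  `z ∈ Q_C ∖ Q_C²` (the inputs of `s36nx_nC_val` verbatim);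
* `s36vv_unif`  : `z ∈ Q ∖ Q²` is a uniformiser of `V`: `a ∈ 𝔪(V) ↔ ∃ b ∈ V, a = z b`;
* `s36vv_ram`   : `𝔪_R S = Q_A Q_C^n`, `Q_A ≠ Q_C`: `π = u z^n` with `u` a unit of `VC`;
  `s36vv_ram_mem` : `π⁻¹ a^n ∈ VC` for `a ∈ 𝔪(VC)` (the `ram` field of `s36tp_Hyp`, `e = q - 1`);
* `s36vv_res`   : `f(Q | 𝔪_R) = 1` ⟹ every `a ∈ V` is congruent to an element of `R` mod `𝔪(V)`;
* `s36vv_not_mem_A` : `z` is a unit of `VA`.
-/
import Mathlib
import Fermat.Agent.S36.Val3
import Fermat.Agent.S36.Ins1.Third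
import Fermat.Agent.S36.NormEltV
import Fermat.Agent.SS.Model.TwoValW

set_option autoImplicit false
set_option linter.unusedSectionVars false
set_option linter.style.haveILetI false

open Fermat.Agent.JT3 Fermat.Agent.SS IsLocalRing IsDedekindDomain WithZero

namespace Fermat.Agent.S36

/-- discreteness of `ℤᵐ⁰`. -/
theorem s36vv_val_eq {x : ℤᵐ⁰} {n : ℤ} (h1 : x ≤ exp (-n)) (h2 : ¬ x ≤ exp (-(n + 1))) :
    x = exp (-n) := by
  have hx : x ≠ 0 := by
    rintro rfl
    exact h2 zero_le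
  have h3 : log x ≤ -n := (log_le_iff_le_exp hx).2 h1
  have h4 : -(n + 1) < log x := (lt_log_iff_exp_lt hx).2 (not_le.1 h2)
  have h5 : log x = -n := by omega
  rw [← h5, exp_log hx]

/-- `x < 1 ↔ x ≤ exp (-1)` in `ℤᵐ⁰`. -/
theorem s36vv_lt_one_iff (x : ℤᵐ⁰) : x < 1 ↔ x ≤ exp (-1 : ℤ) := by
  have h := lt_mul_exp_iff_le (x := x) (y := exp (-1 : ℤ)) exp_ne_zero
  rw [← exp_add] at h
  simpa using h

section Adic

variable (K : Type*) {E : Type*} [Field K] [Field E] [Algebra K E] [FiniteDimensional K E]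
  [Algebra.IsSeparable K E]
  (R : Type*) [CommRing R] [IsDomain R] [IsDiscreteValuationRing R] [Algebra R K]
  [IsFractionRing R K] [Algebra R E] [IsScalarTower R K E]

variable {K R}

include K in
/-- a valuation subring over `R` is the valuation subring of the adic valuation at its centre. -/
theorem s36vv_adic [IsDedekindDomain ↥(integralClosure R E)]
    [IsFractionRing ↥(integralClosure R E) E] {V : ValuationSubring E}
    (hV : ssm_tw_Over K R V) :
    ∃ v : HeightOneSpectrum ↥(integralClosure R E), v.asIdeal = ssm_tw_centre K R V hV ∧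
      (∀ a : E, a ∈ V ↔ v.valuation E a ≤ 1) ∧
      (∀ a : E, a ∈ V.nonunits ↔ v.valuation E a < 1) := by
  let v : HeightOneSpectrum ↥(integralClosure R E) :=
    ⟨ssm_tw_centre K R V hV, ssm_tw_centre_isPrime hV, ssm_tw_centre_ne_bot hV⟩
  have hv1 : ∀ t : ↥(integralClosure R E), t ∉ ssm_tw_centre K R V hV →
      v.valuation E (t : E) = 1 := by
    intro t ht
    have h1 : v.valuation E (algebraMap ↥(integralClosure R E) E t) ≤ 1 := v.valuation_le_one t
    have h2 : ¬ v.valuation E (algebraMap ↥(integralClosure R E) E t) < 1 := fun h =>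
      ht ((v.valuation_lt_one_iff_mem t).1 h)
    exact le_antisymm h1 (not_lt.1 h2)
  have hmem : ∀ a : E, a ∈ V ↔ v.valuation E a ≤ 1 := by
    intro a
    constructor
    · intro ha
      obtain ⟨x, t, ht, hxt⟩ := (ssm_tw_bridge hV a).1 ha
      have h1 : v.valuation E a * v.valuation E (t : E) = v.valuation E (x : E) := by
        rw [← map_mul, hxt]
      rw [hv1 t ht, mul_one] at h1
      rw [h1]
      exact v.valuation_le_one x
    · intro ha
      by_contra hna
      have hinv : a⁻¹ ∈ V := (V.mem_or_inv_mem a).resolve_left hna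
      have ha0 : a ≠ 0 := fun h => hna (by rw [h]; exact V.zero_mem)
      have hnon : a⁻¹ ∈ V.nonunits := by
        rw [ssm_tw_nonunits_iff]
        refine ⟨hinv, Or.inr ?_⟩
        rwa [inv_inv]
      obtain ⟨x, t, ht, hxt⟩ := (ssm_tw_bridge hV a⁻¹).1 hinv
      have hx : x ∈ ssm_tw_centre K R V hV := by
        rw [ssm_tw_mem_centre, ← hxt, mul_comm]
        exact ssm_tw_nonunits_mul V (ssm_tw_le hV t.1 t.2) hnon
      have h1 : v.valuation E a⁻¹ * v.valuation E (t : E) = v.valuation E (x : E) := by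
        rw [← map_mul, hxt]
      rw [hv1 t ht, mul_one] at h1
      have h2 : v.valuation E (algebraMap ↥(integralClosure R E) E x) < 1 :=
        (v.valuation_lt_one_iff_mem x).2 hx
      have h3 : v.valuation E a⁻¹ < 1 := by rw [h1]; exact h2
      rw [map_inv₀] at h3
      have hva : v.valuation E a ≠ 0 := (Valuation.ne_zero_iff _).2 ha0
      have := (inv_lt_one₀ (zero_lt_iff.2 hva)).1 h3
      exact absurd ha (not_le.2 this)
  refine ⟨v, rfl, hmem, ?_⟩
  intro a
  rw [ssm_tw_nonunits_iff, hmem, hmem]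
  by_cases ha : a = 0
  · subst ha; simp
  · have hv : v.valuation E a ≠ 0 := (Valuation.ne_zero_iff _).2 ha
    rw [map_inv₀, inv_le_one₀ (zero_lt_iff.2 hv)]
    constructor
    · rintro ⟨h1, h2 | h2⟩
      · exact absurd h2 ha
      · exact not_le.1 h2
    · intro h; exact ⟨h.le, Or.inr (not_le.2 h)⟩

end Adic

section Main

variable (K : Type*) {E : Type*} [Field K] [Field E] [Algebra K E] [FiniteDimensional K E]
  [Algebra.IsSeparable K E]
  (R : Type*) [CommRing R] [IsDomain R] [IsDiscreteValuationRing R] [Algebra R K]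
  [IsFractionRing R K] [Algebra R E] [IsScalarTower R K E]

variable {K R}

include K in
/-- the hypothesis `hN` of `s36vv_main` from the FIELD norm: `N_{E/K}(z)` is not of the form
`π² c`, `c ∈ R`. -/
theorem s36vv_norm_not_mem (π : R) (hπ : Irreducible π) (z : ↥(integralClosure R E))
    (hN : ∀ c : R, Algebra.norm K (z : E) ≠ algebraMap R K (π ^ 2 * c)) :
    Algebra.norm R z ∉ maximalIdeal R ^ 2 := by
  intro hmem
  rw [hπ.maximalIdeal_eq, Ideal.span_singleton_pow, Ideal.mem_span_singleton] at hmem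
  obtain ⟨c, hc⟩ := hmem
  apply hN c
  have h1 := s36nx_norm_coe K R z
  rw [hc] at h1
  have h2 : ((algebraMap R ↥(integralClosure R E) (π ^ 2 * c) : ↥(integralClosure R E)) : E) =
      algebraMap K E (algebraMap R K (π ^ 2 * c)) := by
    rw [← IsScalarTower.algebraMap_apply R K E]
    rfl
  rw [h2] at h1
  exact (algebraMap K E).injective h1

include K in
/-- **[VAL3-V]: the third valuation, valuation-subring form.** -/
theorem s36vv_main [CharZero K] {q : ℕ} (hq : 2 ≤ q) (hrank : Module.finrank K E = q)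
    {VA : ValuationSubring E} (hVA : ssm_tw_Over K R VA)
    (heA : (ssm_tw_centre K R VA hVA).ramificationIdx R = 1)
    (hfA : (ssm_tw_centre K R VA hVA).inertiaDeg R = 1)
    (z : ↥(integralClosure R E))
    (hz : ∀ V : ValuationSubring E, ssm_tw_Over K R V → V ≠ VA → (z : E) ∈ V.nonunits)
    (hN : Algebra.norm R z ∉ maximalIdeal R ^ 2) :
    ∃ (VC : ValuationSubring E) (hVC : ssm_tw_Over K R VC), VC ≠ VA ∧
      (∀ V : ValuationSubring E, ssm_tw_Over K R V → V = VA ∨ V = VC) ∧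
      ssm_tw_centre K R VA hVA ≠ ssm_tw_centre K R VC hVC ∧
      (maximalIdeal R).map (algebraMap R ↥(integralClosure R E)) =
        ssm_tw_centre K R VA hVA * ssm_tw_centre K R VC hVC ^ (q - 1) ∧
      (ssm_tw_centre K R VC hVC).inertiaDeg R = 1 ∧
      (ssm_tw_centre K R VC hVC).ramificationIdx R = q - 1 ∧
      z ∈ ssm_tw_centre K R VC hVC ∧ z ∉ ssm_tw_centre K R VC hVC ^ 2 := by
  obtain ⟨hD, hF, hfin, hfree, hrk⟩ := ssm_tw_inst K (E := E) R
  haveI := hD
  haveI := hF
  haveI := hfin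
  haveI := hfree
  have hinj : Function.Injective (algebraMap R E) := by
    rw [IsScalarTower.algebraMap_eq R K E]
    exact (algebraMap K E).injective.comp (IsFractionRing.injective R K)
  haveI : FaithfulSMul R E := (faithfulSMul_iff_algebraMap_injective R E).2 hinj
  haveI : Module.IsTorsionFree R E := inferInstance
  haveI : Module.IsTorsionFree R ↥(integralClosure R E) := inferInstance
  haveI : CharZero R := (algebraMap R K).charZero
  haveI : CharZero (FractionRing R) :=
    charZero_of_injective_algebraMap (IsFractionRing.injective R (FractionRing R))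
  haveI : PerfectField (FractionRing R) := PerfectField.ofCharZero
  have hp0 : maximalIdeal R ≠ ⊥ := IsDiscreteValuationRing.not_a_field R
  haveI hPA : (ssm_tw_centre K R VA hVA).IsPrime := ssm_tw_centre_isPrime hVA
  haveI : (ssm_tw_centre K R VA hVA).LiesOver (maximalIdeal R) :=
    ⟨(ssm_tw_comap_centre hVA).symm⟩
  have hz' : ∀ Q : Ideal ↥(integralClosure R E), Q.IsPrime → Q.LiesOver (maximalIdeal R) →
      Q ≠ ssm_tw_centre K R VA hVA → z ∈ Q := by
    intro Q hQ hQo hne
    obtain ⟨V, hV, hVQ⟩ := s36i_exists_val_of_prime K R Q hQo.over.symm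
    have hVne : V ≠ VA := by
      rintro rfl
      exact hne hVQ.symm
    rw [← hVQ, ssm_tw_mem_centre]
    exact hz V hV hVne
  have hN' : Algebra.intNorm R ↥(integralClosure R E) z ∉ maximalIdeal R ^ 2 := by
    rwa [Algebra.intNorm_eq_norm]
  obtain ⟨QC, hQCp, hQCo, hQCne, hall, hfC, heC, hzC, hzC2, hmap⟩ :=
    s36v_main (maximalIdeal R) hp0 hq (hrk.trans hrank) (ssm_tw_centre K R VA hVA) heA hfA z hz' hN'
  obtain ⟨VC, hVC, hVCQ⟩ := s36i_exists_val_of_prime K R QC hQCo.over.symm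
  subst hVCQ
  refine ⟨VC, hVC, ?_, ?_, Ne.symm hQCne, hmap, hfC, heC, hzC, hzC2⟩
  · rintro rfl
    exact hQCne rfl
  · intro V hV
    haveI : (ssm_tw_centre K R V hV).IsPrime := ssm_tw_centre_isPrime hV
    rcases hall (ssm_tw_centre K R V hV) (ssm_tw_centre_isPrime hV)
      ⟨(ssm_tw_comap_centre hV).symm⟩ with h | h
    · exact Or.inl (ssm_tw_eq_of_centre_eq hV hVA h)
    · exact Or.inr (ssm_tw_eq_of_centre_eq hV hVC h)

end Main

section Derived

variable (K : Type*) {E : Type*} [Field K] [Field E] [Algebra K E] [FiniteDimensional K E]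
  [Algebra.IsSeparable K E]
  (R : Type*) [CommRing R] [IsDomain R] [IsDiscreteValuationRing R] [Algebra R K]
  [IsFractionRing R K] [Algebra R E] [IsScalarTower R K E]

variable {K R}

include K in
/-- the adic valuation of an element of `Q ∖ Q²`. -/
theorem s36vv_val_unif [IsDedekindDomain ↥(integralClosure R E)]
    [IsFractionRing ↥(integralClosure R E) E] {V : ValuationSubring E}
    (hV : ssm_tw_Over K R V) (v : HeightOneSpectrum ↥(integralClosure R E))
    (hv : v.asIdeal = ssm_tw_centre K R V hV) (z : ↥(integralClosure R E)) (n : ℕ)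
    (hz1 : z ∈ ssm_tw_centre K R V hV ^ n) (hz2 : z ∉ ssm_tw_centre K R V hV ^ (n + 1)) :
    v.valuation E (z : E) = exp (-(n : ℤ)) := by
  have e : v.valuation E (algebraMap ↥(integralClosure R E) E z) = v.intValuation z :=
    v.valuation_of_algebraMap z
  have h1 : v.intValuation z ≤ exp (-(n : ℤ)) :=
    (v.intValuation_le_pow_iff_mem z n).2 (by rw [hv]; exact hz1)
  have h2 : ¬ v.intValuation z ≤ exp (-((n : ℤ) + 1)) := fun h =>
    hz2 (by
      rw [← hv]
      refine (v.intValuation_le_pow_iff_mem z (n + 1)).1 ?_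
      push_cast
      exact h)
  show v.valuation E (algebraMap ↥(integralClosure R E) E z) = _
  rw [e]
  exact s36vv_val_eq h1 h2

include K in
/-- **a uniformiser**: `z ∈ Q ∖ Q²` generates `𝔪(V)`. -/
theorem s36vv_unif {V : ValuationSubring E} (hV : ssm_tw_Over K R V)
    (z : ↥(integralClosure R E)) (hz1 : z ∈ ssm_tw_centre K R V hV)
    (hz2 : z ∉ ssm_tw_centre K R V hV ^ 2) (a : E) :
    a ∈ V.nonunits ↔ ∃ b ∈ V, a = (z : E) * b := by
  obtain ⟨hD, hF, -, -, -⟩ := ssm_tw_inst K (E := E) R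
  haveI := hD
  haveI := hF
  obtain ⟨v, hv, hmem, hnon⟩ := s36vv_adic hV
  have hvz : v.valuation E (z : E) = exp (-((1 : ℕ) : ℤ)) :=
    s36vv_val_unif hV v hv z 1 (by rwa [pow_one]) hz2
  have hz0 : (z : E) ≠ 0 := by
    intro h
    rw [h, map_zero] at hvz
    exact exp_ne_zero hvz.symm
  constructor
  · intro ha
    refine ⟨a * (z : E)⁻¹, ?_, ?_⟩
    · rw [hmem, map_mul, map_inv₀, hvz]
      have h1 := (s36vv_lt_one_iff _).1 ((hnon a).1 ha)
      exact mul_inv_le_one_of_le₀ (by simpa using h1) zero_le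
    · field_simp
  · rintro ⟨b, hb, rfl⟩
    rw [mul_comm]
    exact ssm_tw_nonunits_mul V hb ((ssm_tw_mem_centre hV z).1 hz1)

include K in
/-- **the ramification of `VC`**: if `𝔪_R S = Q_A Q_C^n` with `Q_A ≠ Q_C` and `z ∈ Q_C ∖ Q_C²`, then
`π = u z^n` with `u` a unit of `VC`. -/
theorem s36vv_ram {VA VC : ValuationSubring E} (hVA : ssm_tw_Over K R VA)
    (hVC : ssm_tw_Over K R VC)
    (hne : ssm_tw_centre K R VA hVA ≠ ssm_tw_centre K R VC hVC) {n : ℕ}
    (hmap : (maximalIdeal R).map (algebraMap R ↥(integralClosure R E)) =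
      ssm_tw_centre K R VA hVA * ssm_tw_centre K R VC hVC ^ n)
    (π : R) (hπ : Irreducible π) (z : ↥(integralClosure R E))
    (hz1 : z ∈ ssm_tw_centre K R VC hVC) (hz2 : z ∉ ssm_tw_centre K R VC hVC ^ 2) :
    ∃ u : E, u ∈ VC ∧ u⁻¹ ∈ VC ∧ algebraMap R E π = u * (z : E) ^ n := by
  obtain ⟨hD, hF, -, -, -⟩ := ssm_tw_inst K (E := E) R
  haveI := hD
  haveI := hF
  obtain ⟨v, hv, hmem, hnon⟩ := s36vv_adic hVC
  have hvz : v.valuation E (z : E) = exp (-((1 : ℕ) : ℤ)) :=
    s36vv_val_unif hVC v hv z 1 (by rwa [pow_one]) hz2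
  have hz0 : (z : E) ≠ 0 := by
    intro h
    rw [h, map_zero] at hvz
    exact exp_ne_zero hvz.symm
  have hspan : (maximalIdeal R).map (algebraMap R ↥(integralClosure R E)) =
      Ideal.span {algebraMap R ↥(integralClosure R E) π} := by
    rw [hπ.maximalIdeal_eq, Ideal.map_span, Set.image_singleton]
  have hπ1 : algebraMap R ↥(integralClosure R E) π ∈ ssm_tw_centre K R VC hVC ^ n := by
    have h1 : algebraMap R ↥(integralClosure R E) π ∈
        (maximalIdeal R).map (algebraMap R ↥(integralClosure R E)) :=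
      Ideal.mem_map_of_mem _ ((mem_maximalIdeal _).2 hπ.not_isUnit)
    rw [hmap] at h1
    exact Ideal.mul_le_right h1
  have hπ2 : algebraMap R ↥(integralClosure R E) π ∉ ssm_tw_centre K R VC hVC ^ (n + 1) := by
    intro h
    have h1 : ssm_tw_centre K R VA hVA * ssm_tw_centre K R VC hVC ^ n ≤
        ssm_tw_centre K R VC hVC ^ (n + 1) := by
      rw [← hmap, hspan, Ideal.span_singleton_le_iff_mem]
      exact h
    have h2 : ssm_tw_centre K R VC hVC ^ (n + 1) ∣
        ssm_tw_centre K R VA hVA * ssm_tw_centre K R VC hVC ^ n := Ideal.dvd_iff_le.2 h1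
    rw [pow_succ, mul_comm (ssm_tw_centre K R VA hVA)] at h2
    have h0 : ssm_tw_centre K R VC hVC ^ n ≠ 0 := pow_ne_zero _ (ssm_tw_centre_ne_bot hVC)
    have h3 : ssm_tw_centre K R VC hVC ∣ ssm_tw_centre K R VA hVA :=
      (mul_dvd_mul_iff_left h0).1 h2
    have h4 : ssm_tw_centre K R VA hVA ≤ ssm_tw_centre K R VC hVC := Ideal.dvd_iff_le.1 h3
    exact hne ((ssm_tw_centre_isMaximal hVA).eq_of_le (ssm_tw_centre_isPrime hVC).ne_top h4)
  have hvπ : v.valuation E (algebraMap R E π) = exp (-(n : ℤ)) :=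
    s36vv_val_unif hVC v hv (algebraMap R ↥(integralClosure R E) π) n hπ1 hπ2
  have hvzn : v.valuation E ((z : E) ^ n) = exp (-(n : ℤ)) := by
    rw [map_pow, hvz, ← exp_nsmul]
    congr 1
    simp
  have hu : v.valuation E (algebraMap R E π * ((z : E) ^ n)⁻¹) = 1 := by
    rw [map_mul, map_inv₀, hvπ, hvzn]
    exact mul_inv_cancel₀ exp_ne_zero
  refine ⟨algebraMap R E π * ((z : E) ^ n)⁻¹, (hmem _).2 hu.le, ?_, ?_⟩
  · rw [hmem, map_inv₀, hu, inv_one]
  · have : (z : E) ^ n ≠ 0 := pow_ne_zero _ hz0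
    field_simp

include K in
/-- the `ram` field of `s36tp_Hyp` for `VC`: `π⁻¹ a^n ∈ VC` for every `a ∈ 𝔪(VC)`. -/
theorem s36vv_ram_mem {VA VC : ValuationSubring E} (hVA : ssm_tw_Over K R VA)
    (hVC : ssm_tw_Over K R VC)
    (hne : ssm_tw_centre K R VA hVA ≠ ssm_tw_centre K R VC hVC) {n : ℕ}
    (hmap : (maximalIdeal R).map (algebraMap R ↥(integralClosure R E)) =
      ssm_tw_centre K R VA hVA * ssm_tw_centre K R VC hVC ^ n)
    (π : R) (hπ : Irreducible π) (z : ↥(integralClosure R E))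
    (hz1 : z ∈ ssm_tw_centre K R VC hVC) (hz2 : z ∉ ssm_tw_centre K R VC hVC ^ 2)
    (a : E) (ha : a ∈ VC.nonunits) : (algebraMap R E π)⁻¹ * a ^ n ∈ VC := by
  obtain ⟨u, hu, hu', hπu⟩ := s36vv_ram hVA hVC hne hmap π hπ z hz1 hz2
  obtain ⟨b, hb, rfl⟩ := (s36vv_unif hVC z hz1 hz2 a).1 ha
  have hπ0 : algebraMap R E π ≠ 0 := by
    intro h
    have hinj : Function.Injective (algebraMap R E) := by
      rw [IsScalarTower.algebraMap_eq R K E]
      exact (algebraMap K E).injective.comp (IsFractionRing.injective R K)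
    exact hπ.ne_zero (hinj (by rw [h, map_zero]))
  have hu0 : u ≠ 0 := by
    rintro rfl
    rw [zero_mul] at hπu
    exact hπ0 hπu
  have hzn : (z : E) ^ n ≠ 0 := by
    intro h
    rw [h, mul_zero] at hπu
    exact hπ0 hπu
  have e : (algebraMap R E π)⁻¹ * ((z : E) * b) ^ n = u⁻¹ * b ^ n := by
    rw [hπu, mul_pow]
    field_simp
  rw [e]
  exact VC.mul_mem _ _ hu' (pow_mem hb n)

include K in
/-- `f(Q | 𝔪_R) = 1`: every element of `V` is congruent to an element of `R` modulo `𝔪(V)`. -/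
theorem s36vv_res {V : ValuationSubring E} (hV : ssm_tw_Over K R V)
    (hf : (ssm_tw_centre K R V hV).inertiaDeg R = 1) (a : E) (ha : a ∈ V) :
    ∃ r : R, a - algebraMap R E r ∈ V.nonunits := by
  obtain ⟨hD, hF, hfin, hfree, hrk⟩ := ssm_tw_inst K (E := E) R
  haveI := hfin
  haveI := hfree
  haveI : (ssm_tw_centre K R V hV).IsMaximal := ssm_tw_centre_isMaximal hV
  haveI : (ssm_tw_centre K R V hV).LiesOver (maximalIdeal R) :=
    ⟨(ssm_tw_comap_centre hV).symm⟩
  obtain ⟨s, hs⟩ := ssm_tw_exists_lift hV a ha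
  obtain ⟨r, hr⟩ := s36nx_surj_of_inertiaDeg (ssm_tw_centre K R V hV) hf s
  refine ⟨r, ?_⟩
  rw [ssm_tw_mem_centre] at hr
  have e : a - algebraMap R E r =
      ((s - algebraMap R ↥(integralClosure R E) r : ↥(integralClosure R E)) : E) -
        ((s : E) - a) := by
    push_cast
    ring
  rw [e]
  exact ssm_tw_nonunits_sub V hr hs

include K in
/-- `z` is a unit of `VA` as soon as `z ∉ Q_A`. -/
theorem s36vv_unit_of_not_mem {V : ValuationSubring E} (hV : ssm_tw_Over K R V)
    (z : ↥(integralClosure R E)) (hz : z ∉ ssm_tw_centre K R V hV) :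
    (z : E) ∈ V ∧ (z : E) ∉ V.nonunits :=
  ⟨ssm_tw_le hV z.1 z.2, fun h => hz ((ssm_tw_mem_centre hV z).2 h)⟩

end Derived

end Fermat.Agent.S36
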