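/-
Project S36, cell [M2] (the three-component model at level `N' q²`), leaf **[NC3]** (helper23):
NO TWO COMPONENTS OF THE SPECIAL FIBRE MEET AT A CUSP.  Abstract form (twin of `ssm_crig_noCusp`,
`SS/Model/CrossingGen.lean`).  Prefix `s36mc_`.

`B` a domain (a chart of the level-`N' q²` model), `PA PB PC` the three vertical primes,
`l₀ = λ`, `l₁ = λ(X^q)`, `l₂ = λ(X^(q²))`.  Frobenius congruences
  on `A`: `l₁ ≡ l₀^q`, `l₂ ≡ l₁^q`;   on `B`: `l₀ ≡ l₁^q`, `l₁ ≡ l₂^q`;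
  on `C`: `l₁ ≡ l₀^q`, `l₁ ≡ l₂^q` (hence `l₂ ≡ l₀`, Frobenius being injective modulo a prime).
Quotients `w = l₀^(q²)/l₂`, `w' = l₂^(q²)/l₀` in `B` (cusp facts + normality).

* `s36mc_noCrossing_AC` : the NEW case `A ∩ C` (resp. `B ∩ C`): modulo `PC` the identity
  `w l₂ = l₀^n` reads `w ≡ l₀^(n-1)`, so `w` vanishes at a point of `C` where `l₀` vanishes, while
  `w ≡ 1` on `A`;
* `s36mc_frob2`, `s36mc_congr_C` : the derived congruences `l₂ ≡ l₀^(q²)` on `A`, `l₂ ≡ l₀` on `C`,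
  also for `G(l_i)`, `G ∈ ℤ[X]`;
* `s36mc_noCusp3` : at a proper ideal containing two of the three primes neither `λ` nor `c(λ)`
  vanishes (`c ∈ ℤ[X]` the polynomial of the finite cusps `≠ 0`: `X - 1` Legendre, `X² + 3X + 3`
  Hesse in the coordinate `μ - 1`).
-/
import Mathlib
import Fermat.Agent.SS.Model.CrossingInst

set_option autoImplicit false
set_option linter.unusedSectionVars false
set_option linter.style.haveILetI false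

namespace Fermat.Agent.S36

open Ideal Polynomial Fermat.Agent.SS

section NC3

variable {B : Type*} [CommRing B] [IsDomain B]

/-- **(NC) for `A ∩ C`**: `μ₂ ≡ μ^n` modulo `PA`, `μ₂ ≡ μ` modulo `PC`, `μ ∉ PA ∪ PC`,
`w = μ^n / μ₂ ∈ B`, `n ≥ 2`: no proper ideal containing `PA + PC` contains `μ`. -/
theorem s36mc_noCrossing_AC (PA PC 𝔞 : Ideal B) [hPA : PA.IsPrime] [hPC : PC.IsPrime]
    (h𝔞 : 𝔞 ≠ ⊤) (n : ℕ) (hn : 2 ≤ n) (μ μ2 w : B) (hμA : μ ∉ PA) (hμC : μ ∉ PC)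
    (hfrobA : μ2 - μ ^ n ∈ PA) (hC : μ2 - μ ∈ PC) (hw : w * μ2 = μ ^ n) (hμ𝔞 : μ ∈ 𝔞) :
    ¬ (PA ≤ 𝔞 ∧ PC ≤ 𝔞) := by
  rintro ⟨hA, hC'⟩
  have hμ2A : μ2 ∉ PA := by
    intro h
    have : μ ^ n ∈ PA := by
      have e : μ ^ n = μ2 - (μ2 - μ ^ n) := by ring
      rw [e]
      exact PA.sub_mem h hfrobA
    exact hμA (hPA.mem_of_pow_mem n this)
  have hw1 : w - 1 ∈ PA := by
    have h : (w - 1) * μ2 ∈ PA := by
      have e : (w - 1) * μ2 = -(μ2 - μ ^ n) := by rw [sub_mul, hw]; ring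
      rw [e]
      exact PA.neg_mem hfrobA
    exact (hPA.mem_or_mem h).resolve_right hμ2A
  have hw2 : w - μ ^ (n - 1) ∈ PC := by
    have h : (w - μ ^ (n - 1)) * μ ∈ PC := by
      have e1 : μ ^ (n - 1) * μ = μ ^ n := by
        rw [← pow_succ]
        congr 1
        omega
      have e : (w - μ ^ (n - 1)) * μ = -(w * (μ2 - μ)) := by
        rw [sub_mul, e1, ← hw]; ring
      rw [e]
      exact PC.neg_mem (PC.mul_mem_left _ hC)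
    exact (hPC.mem_or_mem h).resolve_right hμC
  apply h𝔞
  rw [Ideal.eq_top_iff_one]
  have hpow : μ ^ (n - 1) ∈ 𝔞 := Ideal.pow_mem_of_mem _ hμ𝔞 _ (by omega)
  have e : (1 : B) = (w - μ ^ (n - 1)) + μ ^ (n - 1) - (w - 1) := by ring
  rw [e]
  exact 𝔞.sub_mem (𝔞.add_mem (hC' hw2) hpow) (hA hw1)

/-- Two Frobenius steps: `l₁ ≡ l₀^q`, `l₂ ≡ l₁^q` modulo `P` give `l₂ ≡ l₀^(q²)`. -/
theorem s36mc_frob2 (P : Ideal B) (q : ℕ) (l0 l1 l2 : B) (h1 : l1 - l0 ^ q ∈ P)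
    (h2 : l2 - l1 ^ q ∈ P) : l2 - l0 ^ (q ^ 2) ∈ P := by
  obtain ⟨c, hc⟩ := sub_dvd_pow_sub_pow l1 (l0 ^ q) q
  have e : l2 - l0 ^ (q ^ 2) = (l2 - l1 ^ q) + (l1 - l0 ^ q) * c := by
    rw [← hc, ← pow_mul, ← pow_two]
    ring
  rw [e]
  exact P.add_mem h2 (P.mul_mem_right _ h1)

/-- On the component `C`: `l₁ ≡ l₀^q` and `l₁ ≡ l₂^q` modulo the prime `PC ∋ q` give
`l₂ ≡ l₀`. -/
theorem s36mc_congr_C (PC : Ideal B) [hPC : PC.IsPrime] (q : ℕ) [hq : Fact q.Prime]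
    (hqC : (q : B) ∈ PC) (l0 l1 l2 : B) (h1 : l1 - l0 ^ q ∈ PC) (h2 : l1 - l2 ^ q ∈ PC) :
    l2 - l0 ∈ PC := by
  haveI : CharP (B ⧸ PC) q := by
    rw [CharP.charP_iff_prime_eq_zero hq.out]
    have : ((q : B ⧸ PC)) = Ideal.Quotient.mk PC (q : B) := by simp
    rw [this, Ideal.Quotient.eq_zero_iff_mem]
    exact hqC
  haveI : IsDomain (B ⧸ PC) := Ideal.Quotient.isDomain PC
  have h : (l2 - l0) ^ q ∈ PC := by
    rw [← Ideal.Quotient.eq_zero_iff_mem, map_pow, map_sub, sub_pow_char, ← map_pow, ← map_pow,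
      ← map_sub, Ideal.Quotient.eq_zero_iff_mem]
    have e : l2 ^ q - l0 ^ q = (l1 - l0 ^ q) - (l1 - l2 ^ q) := by ring
    rw [e]
    exact PC.sub_mem h1 h2
  exact hPC.mem_of_pow_mem q h

/-- `G(b) ≡ G(a)` modulo `P` when `b ≡ a`. -/
theorem s36mc_aeval_congr (P : Ideal B) (G : ℤ[X]) (a b : B) (hab : b - a ∈ P) :
    aeval b G - aeval a G ∈ P := by
  obtain ⟨c, hc⟩ := Polynomial.sub_dvd_eval_sub b a (G.map (Int.castRingHom B))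
  rw [Polynomial.eval_map, Polynomial.eval_map, Polynomial.eval₂_eq_eval_map,
    Polynomial.eval₂_eq_eval_map] at hc
  have e : ∀ x : B, aeval x G = Polynomial.eval x (G.map (Int.castRingHom B)) := by
    intro x
    rw [Polynomial.aeval_def, Polynomial.eval₂_eq_eval_map]
    rfl
  rw [e, e, Polynomial.eval_map, Polynomial.eval_map, Polynomial.eval₂_eq_eval_map,
    Polynomial.eval₂_eq_eval_map, hc]
  exact P.mul_mem_right _ hab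

/-- The package for one cusp function `μ_i = G(l_i)`: the six Frobenius congruences for
`(μ₀, μ₁, μ₂)` and the two quotients give: no proper ideal containing two of the three primes
contains `μ₀`. -/
theorem s36mc_noCusp_one (PA PB PC : Ideal B) [hPA : PA.IsPrime] [hPB : PB.IsPrime]
    [hPC : PC.IsPrime] (q : ℕ) [hq : Fact q.Prime] (hqC : (q : B) ∈ PC)
    (m0 m1 m2 : B)
    (hA1 : m1 - m0 ^ q ∈ PA) (hA2 : m2 - m1 ^ q ∈ PA)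
    (hB1 : m0 - m1 ^ q ∈ PB) (hB2 : m1 - m2 ^ q ∈ PB)
    (hC1 : m1 - m0 ^ q ∈ PC) (hC2 : m1 - m2 ^ q ∈ PC)
    (h0A : m0 ∉ PA) (h0B : m0 ∉ PB) (h0C : m0 ∉ PC)
    (w w' : B) (hw : w * m2 = m0 ^ (q ^ 2)) (hw' : w' * m0 = m2 ^ (q ^ 2))
    (𝔞 : Ideal B) (h𝔞 : 𝔞 ≠ ⊤)
    (h2 : (PA ≤ 𝔞 ∧ PB ≤ 𝔞) ∨ (PA ≤ 𝔞 ∧ PC ≤ 𝔞) ∨ (PB ≤ 𝔞 ∧ PC ≤ 𝔞)) : m0 ∉ 𝔞 := by
  have hq2 : 2 ≤ q ^ 2 := by
    have := hq.out.two_le
    nlinarith
  have hfA : m2 - m0 ^ (q ^ 2) ∈ PA := s36mc_frob2 PA q m0 m1 m2 hA1 hA2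
  have hfB : m0 - m2 ^ (q ^ 2) ∈ PB := s36mc_frob2 PB q m2 m1 m0 hB2 hB1
  have hfC : m2 - m0 ∈ PC := s36mc_congr_C PC q hqC m0 m1 m2 hC1 hC2
  have h2C : m2 ∉ PC := by
    intro h
    apply h0C
    have e : m0 = m2 - (m2 - m0) := by ring
    rw [e]
    exact PC.sub_mem h hfC
  have h2B : m2 ∉ PB := by
    intro h
    apply h0B
    have e : m0 = (m0 - m2 ^ (q ^ 2)) + m2 ^ (q ^ 2) := by ring
    rw [e]
    exact PB.add_mem hfB (Ideal.pow_mem_of_mem _ h _ (by omega))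
  intro hm
  rcases h2 with h | h | h
  · exact ssm_cri_noCrossing PA PB 𝔞 h𝔞 (q ^ 2) hq2 m0 m2 w w' h0A h0B hfA hfB hw hw' hm h
  · exact s36mc_noCrossing_AC PA PC 𝔞 h𝔞 (q ^ 2) hq2 m0 m2 w h0A h0C hfA hfC hw hm h
  · have hm2 : m2 ∈ 𝔞 := by
      have e : m2 = (m2 - m0) + m0 := by ring
      rw [e]
      exact 𝔞.add_mem (h.2 hfC) hm
    have hfC' : m0 - m2 ∈ PC := by
      rw [← neg_sub]
      exact PC.neg_mem hfC
    exact s36mc_noCrossing_AC PB PC 𝔞 h𝔞 (q ^ 2) hq2 m2 m0 w' h2B h2C hfB hfC' hw' hm2 h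

/-- **[NC3] no two components meet at a cusp.**  `l₀ = λ`, `l₁ = λ(X^q)`, `l₂ = λ(X^(q²))` with
the six Frobenius congruences on the three components `PA, PB, PC ∋ q`; `c ∈ ℤ[X]` the polynomial
of the finite nonzero cusps; `λ, c(λ)` outside the three primes; the four quotients
`w = λ^(q²)/l₂`, `w' = l₂^(q²)/λ`, `w₁ = c(λ)^(q²)/c(l₂)`, `w₁' = c(l₂)^(q²)/c(λ)` in `B`.
Then neither `λ` nor `c(λ)` lies in a proper ideal containing two of the three primes. -/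
theorem s36mc_noCusp3 (PA PB PC : Ideal B) [hPA : PA.IsPrime] [hPB : PB.IsPrime]
    [hPC : PC.IsPrime] (q : ℕ) [hq : Fact q.Prime]
    (hqA : (q : B) ∈ PA) (hqB : (q : B) ∈ PB) (hqC : (q : B) ∈ PC)
    (l0 l1 l2 : B)
    (hA1 : l1 - l0 ^ q ∈ PA) (hA2 : l2 - l1 ^ q ∈ PA)
    (hB1 : l0 - l1 ^ q ∈ PB) (hB2 : l1 - l2 ^ q ∈ PB)
    (hC1 : l1 - l0 ^ q ∈ PC) (hC2 : l1 - l2 ^ q ∈ PC)
    (c : ℤ[X])
    (h0A : l0 ∉ PA) (h0B : l0 ∉ PB) (h0C : l0 ∉ PC)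
    (hcA : aeval l0 c ∉ PA) (hcB : aeval l0 c ∉ PB) (hcC : aeval l0 c ∉ PC)
    (w w' w1 w1' : B) (hw : w * l2 = l0 ^ (q ^ 2)) (hw' : w' * l0 = l2 ^ (q ^ 2))
    (hw1 : w1 * aeval l2 c = aeval l0 c ^ (q ^ 2)) (hw1' : w1' * aeval l0 c = aeval l2 c ^ (q ^ 2))
    (𝔞 : Ideal B) (h𝔞 : 𝔞 ≠ ⊤)
    (h2 : (PA ≤ 𝔞 ∧ PB ≤ 𝔞) ∨ (PA ≤ 𝔞 ∧ PC ≤ 𝔞) ∨ (PB ≤ 𝔞 ∧ PC ≤ 𝔞)) :
    l0 ∉ 𝔞 ∧ aeval l0 c ∉ 𝔞 := by
  refine ⟨s36mc_noCusp_one PA PB PC q hqC l0 l1 l2 hA1 hA2 hB1 hB2 hC1 hC2 h0A h0B h0C w w' hw hw'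
    𝔞 h𝔞 h2, ?_⟩
  exact s36mc_noCusp_one PA PB PC q hqC (aeval l0 c) (aeval l1 c) (aeval l2 c)
    (ssm_cr_frob q PA hqA c l0 l1 hA1) (ssm_cr_frob q PA hqA c l1 l2 hA2)
    (ssm_cr_frob q PB hqB c l1 l0 hB1) (ssm_cr_frob q PB hqB c l2 l1 hB2)
    (ssm_cr_frob q PC hqC c l0 l1 hC1) (ssm_cr_frob q PC hqC c l2 l1 hC2)
    hcA hcB hcC w1 w1' hw1 hw1' 𝔞 h𝔞 h2

end NC3

end Fermat.Agent.S36
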