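/-
Project S36 (Carayol), cell [M2] (the three-component model at level `N' q²`), leaf **[I2]**
(helper29): THE INTEGRALITY FACTS AT LEVEL `N' q²` = the three-valuation twin of
`SS/Model/Integral.lean`, `SS/Model/IntegralGen.lean` (S34, `ssm_i1_`, `ssm_i1g_`).  Prefix `s36ig_`.

Setting: `A0` a discrete valuation ring with fraction field `L`, `F0` the level-`N' q²` function
field, `x` the chart coordinate, `x₁ = x(X^q)`, `x₂ = x(X^(q²))`, `VA` (Gauss), `VB` (its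
Atkin–Lehner mirror), `VC` (the middle component, `e = q - 1`) the three valuation subrings of `F0`
over the Gauss ring of `A0[x]`.

* `s36ig_mem_of_pow_mem`, `s36ig_unit_of_pow`, `s36ig_unit_of_congr(')`, `s36ig_frob2`,
  `s36ig_congrC`, `s36ig_ratio_sub_one`, `s36ig_frob_inv` : valuation-subring bookkeeping;
* `s36ig_Semi` : the semilocal property of `(VA, VB, VC)` over `R` (conclusion of [TP3]'s
  `s36tp_semilocal`), taken as a hypothesis;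
* `s36ig_mem_chart_of_semi`, `s36ig_mem_chart` : `z ∈ VA ⊓ VB ⊓ VC`, `z` integral over `L[x]` ⟹
  `z ∈ fc_chart A0 {x}`;
* `s36ig_U`, `s36ig_ratio` : units; for a pair `(t, t')` of units with zeros paired with ratio `n`:
  `t'`, `t^n/t'`, `t'^n/t ∈ fc_chart A0 {x}`;
* `s36ig_Facts`, `s36ig_main`, `s36ig_main_leg` : THE PACKAGE: `x₁, x₂ ∈ B_x`, `x₁⁻¹, x₂⁻¹ ∈ B_{x⁻¹}`,
  units, all Frobenius congruences for `(x, x₁, x₂)` and `(c(x), c(x₁), c(x₂))` on the three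
  components (`c ∈ ℤ[X]` monic: the middle cusp polynomial), and the quotients
  `w = x^(q²)/x₂`, `w' = x₂^(q²)/x`, `w₁`, `w₁'` (for `c`), `w_∞`, `w_∞'` (for `x⁻¹`) in the charts with
  `w ≡ 1` on `A`, `w' ≡ 1` on `B` — from the BASIC congruences and the zero pairings of [CF2];
* `s36ig_step` : the first-step ratios `x^q/x₁`, `x₁^q/x`, `x₁^q/x₂`, `x₂^q/x₁ ∈ B_x`;
* `s36ig_W_charts` : `W₂` preserves the three charts;
* `s36ig_noCusp3`, `s36ig_noCusp_inf` : the chart form of helper23's [NC3]: no two components meet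
  at a cusp (`x`, `c(x)`, resp. `x⁻¹` do not vanish at a point of two components).
-/
import Mathlib
import Fermat.Agent.SS.Model.IntegralGen
import Fermat.Agent.SS.Model.CuspsInst
import Fermat.Agent.S36.Model.NoCusp3

set_option autoImplicit false
set_option linter.unusedSectionVars false
set_option linter.unusedVariables false
set_option linter.style.haveILetI false

namespace Fermat.Agent.S36

open Polynomial IntermediateField Fermat.Agent.JT3 AlgebraicCurve Fermat.Agent.SS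
open scoped IntermediateField.algebraAdjoinAdjoin

universe v

/-! ### valuation-subring bookkeeping -/

section VS

variable {F0 : Type v} [Field F0] (V : ValuationSubring F0)

/-- a valuation subring is integrally closed: `b ^ n ∈ V`, `n ≠ 0` ⟹ `b ∈ V`. -/
theorem s36ig_mem_of_pow_mem {b : F0} {n : ℕ} (hn : n ≠ 0) (h : b ^ n ∈ V) : b ∈ V := by
  rw [← V.valuation_le_one_iff] at h ⊢
  rw [map_pow] at h
  exact (pow_le_one_iff_of_nonneg zero_le hn).mp h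

/-- `b ^ n` a unit of `V`, `n ≠ 0` ⟹ `b` a unit of `V`. -/
theorem s36ig_unit_of_pow {b : F0} {n : ℕ} (hn : n ≠ 0) (h : b ^ n ∈ V)
    (h' : b ^ n ∉ V.nonunits) : b ∈ V ∧ b ∉ V.nonunits := by
  refine ⟨s36ig_mem_of_pow_mem V hn h, fun hb => h' ?_⟩
  obtain ⟨k, rfl⟩ := Nat.exists_eq_succ_of_ne_zero hn
  rw [pow_succ]
  rw [mul_comm]
  exact ssm_tp_nonunits_mul V hb (V.pow_mem (V.nonunits_subset hb) k)

/-- a unit of `V` plus an element of `𝔪(V)` is a unit of `V`. -/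
theorem s36ig_unit_of_congr {a b : F0} (ha : a ∈ V) (ha' : a ∉ V.nonunits)
    (h : b - a ∈ V.nonunits) : b ∈ V ∧ b ∉ V.nonunits := by
  have hb : b ∈ V := by
    have : b = a + (b - a) := by ring
    rw [this]
    exact V.add_mem _ _ ha (V.nonunits_subset h)
  refine ⟨hb, fun hb' => ha' ?_⟩
  have : a = b + -(b - a) := by ring
  rw [this]
  exact ssm_tp_nonunits_add V hb' (ssm_tp_nonunits_neg V h)

/-- symmetric form. -/
theorem s36ig_unit_of_congr' {a b : F0} (ha : a ∈ V) (ha' : a ∉ V.nonunits)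
    (h : a - b ∈ V.nonunits) : b ∈ V ∧ b ∉ V.nonunits := by
  refine s36ig_unit_of_congr V ha ha' ?_
  have : b - a = -(a - b) := by ring
  rw [this]
  exact ssm_tp_nonunits_neg V h

/-- two Frobenius steps. -/
theorem s36ig_frob2 (q : ℕ) {a0 a1 a2 : F0} (h0 : a0 ∈ V) (h1 : a1 ∈ V)
    (h01 : a1 - a0 ^ q ∈ V.nonunits) (h12 : a2 - a1 ^ q ∈ V.nonunits) :
    a2 - a0 ^ (q ^ 2) ∈ V.nonunits := by
  obtain ⟨c, hc⟩ := sub_dvd_pow_sub_pow (⟨a1, h1⟩ : V) (⟨a0, h0⟩ ^ q) q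
  have hc' : a1 ^ q - (a0 ^ q) ^ q = (a1 - a0 ^ q) * (c : F0) := by
    have := congrArg (fun z : V => (z : F0)) hc
    simpa using this
  have e : a2 - a0 ^ (q ^ 2) = (a2 - a1 ^ q) + (a1 - a0 ^ q) * (c : F0) := by
    rw [← hc', ← pow_mul, ← pow_two]
    ring
  rw [e]
  exact ssm_tp_nonunits_add V h12 (ssm_tp_nonunits_mul V h01 c.2)

/-- on the middle component: `a1 ≡ a0^q` and `a1 ≡ a2^q` modulo `𝔪(V) ∋ q` give `a2 ≡ a0`. -/
theorem s36ig_congrC (q : ℕ) [hq : Fact q.Prime] (hqV : (q : F0) ∈ V.nonunits) {a0 a1 a2 : F0}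
    (h0 : a0 ∈ V) (h1 : a1 ∈ V) (h2 : a2 ∈ V)
    (h01 : a1 - a0 ^ q ∈ V.nonunits) (h21 : a1 - a2 ^ q ∈ V.nonunits) :
    a2 - a0 ∈ V.nonunits := by
  have key := s36mc_congr_C (IsLocalRing.maximalIdeal ↥V) q
    (by
      rw [← ValuationSubring.coe_mem_nonunits_iff]
      simpa using hqV)
    (⟨a0, h0⟩ : V) ⟨a1, h1⟩ ⟨a2, h2⟩
    (by rw [← ValuationSubring.coe_mem_nonunits_iff]; simpa using h01)
    (by rw [← ValuationSubring.coe_mem_nonunits_iff]; simpa using h21)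
  rw [← ValuationSubring.coe_mem_nonunits_iff] at key
  simpa using key

/-- the ratio congruence: `t' ≡ t^n` modulo `𝔪(V)`, `t'` a unit ⟹ `t^n / t' ≡ 1`. -/
theorem s36ig_ratio_sub_one (n : ℕ) {t t' : F0} (ht' : t' ∉ V.nonunits)
    (h : t' - t ^ n ∈ V.nonunits) : t ^ n / t' - 1 ∈ V.nonunits := by
  have h0 : t' ≠ 0 := ssm_tp_ne_zero V ht'
  have : t ^ n / t' - 1 = -(t' - t ^ n) * t'⁻¹ := by
    field_simp
    ring
  rw [this]
  exact ssm_tp_nonunits_mul V (ssm_tp_nonunits_neg V h) (ssm_tp_inv_mem V ht')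

end VS

/-! ### membership in a chart -/

section Chart

variable {A0 L : Type*} {F0 : Type v} [CommRing A0] [IsDomain A0] [IsDiscreteValuationRing A0]
  [Field L] [Field F0] [Algebra A0 L] [IsFractionRing A0 L] [Algebra L F0] [Algebra A0 F0]
  [IsScalarTower A0 L F0]

/-- **the semilocal property** of three valuation subrings over the Gauss ring of `R`
(= the conclusion of `s36tp_semilocal`, [TP3]): an element of `VA ⊓ VB ⊓ VC` becomes integral over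
`R` after multiplication by some `s ∈ R ∖ πR`. -/
def s36ig_Semi {R : Type*} [CommRing R] [Algebra R F0] (π' : R)
    (VA VB VC : ValuationSubring F0) : Prop :=
  ∀ z : F0, z ∈ VA → z ∈ VB → z ∈ VC →
    ∃ s : R, ¬ π' ∣ s ∧ IsIntegral R (algebraMap R F0 s * z)

/-- **[I2], chart form, one element.**  `V1` over the Gauss ring of `A0[x]`, `z` integral over
`L[x]` and integral over `A0[x]` up to a factor `s ∈ A0[x] ∖ π A0[x]` ⟹ `z ∈ fc_chart A0 {x}`. -/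
theorem s36ig_mem_chart_of_semi {π : A0} (hπ : Irreducible π) {x : F0} (hx : Transcendental L x)
    [FiniteDimensional L⟮x⟯ F0] {V1 : ValuationSubring F0}
    (hover : ssm_tp_Over (algebraMap A0 (Algebra.adjoin A0 ({x} : Set F0)) π) V1) {z : F0}
    (hsemi : ∃ s : Algebra.adjoin A0 ({x} : Set F0),
      ¬ algebraMap A0 (Algebra.adjoin A0 ({x} : Set F0)) π ∣ s ∧
        IsIntegral (Algebra.adjoin A0 ({x} : Set F0))
          (algebraMap (Algebra.adjoin A0 ({x} : Set F0)) F0 s * z))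
    (hzL : IsIntegral (Algebra.adjoin L ({x} : Set F0)) z) :
    z ∈ fc_chart A0 ({x} : Set F0) := by
  have hxA : Transcendental A0 x := fc_ff_transcendental (L := L) hx
  haveI : IsIntegrallyClosed (Algebra.adjoin A0 ({x} : Set F0)) := fc_ff_isIntegrallyClosed hxA
  haveI : FaithfulSMul (Algebra.adjoin A0 ({x} : Set F0)) F0 :=
    (faithfulSMul_iff_algebraMap_injective _ _).2 Subtype.val_injective
  rw [fc_mem_chart]
  have hO : ∀ a : A0, algebraMap A0 F0 a ∈ V1 := fun a =>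
    hover.le (algebraMap A0 (Algebra.adjoin A0 ({x} : Set F0)) a)
  -- the Gauss lemma from `cen`
  have hG : ∀ p : L[X], aeval x p ∈ V1 → ∀ i, p.coeff i ∈ (algebraMap A0 L).range := by
    refine ssm_i1a_gauss π hπ x V1 hO (IsLocalRing.residue V1) ?_ ?_
    · rw [IsLocalRing.residue_eq_zero_iff, ← ValuationSubring.coe_mem_nonunits_iff]
      exact hover.pi_mem
    · intro p hp hres
      rw [IsLocalRing.residue_eq_zero_iff,
        ← ValuationSubring.coe_mem_nonunits_iff] at hres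
      have hb : aeval x p ∈ Algebra.adjoin A0 ({x} : Set F0) := aeval_mem_adjoin_singleton A0 x
      have h1 := (hover.cen ⟨aeval x p, hb⟩).1 hres
      have h2 := (ssm_tp_dvd_aeval_iff hxA π p ⟨aeval x p, hb⟩ rfl).1 h1
      exact (C_dvd_iff_dvd_coeff π p).1 h2
  refine ssm_i1a_main x V1 hG z hzL ?_
  -- integrality over `V1 ∩ L(x)` from `hsemi`
  obtain ⟨s, hs, hint⟩ := hsemi
  set R2 := V1.comap (algebraMap L⟮x⟯ F0) with hR2
  let ψ : Algebra.adjoin A0 ({x} : Set F0) →+* L⟮x⟯ := fc_ff_incl (L := L) x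
  have hψ : ∀ r, algebraMap L⟮x⟯ F0 (ψ r) = (r : F0) := fun r => rfl
  let φ : Algebra.adjoin A0 ({x} : Set F0) →+* R2 :=
    ψ.codRestrict R2.toSubring (fun r => by
      change algebraMap L⟮x⟯ F0 (ψ r) ∈ V1
      rw [hψ]; exact hover.le r)
  have hφ : (algebraMap R2 F0).comp φ =
      (RingHom.id F0).comp (algebraMap (Algebra.adjoin A0 ({x} : Set F0)) F0) := by
    ext r; rfl
  have h1 : IsIntegral R2 (algebraMap (Algebra.adjoin A0 ({x} : Set F0)) F0 s * z) := by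
    have := IsIntegral.map_of_comp_eq φ (RingHom.id F0) hφ hint
    simpa using this
  -- the inverse of `s` lies in `R2`
  have hsinv : (algebraMap (Algebra.adjoin A0 ({x} : Set F0)) F0 s)⁻¹ ∈ V1 := hover.inv_mem hs
  have hs0 : algebraMap (Algebra.adjoin A0 ({x} : Set F0)) F0 s ≠ 0 :=
    ssm_tp_ne_zero V1 (hover.not_mem_nonunits hs)
  let t : R2 := ⟨(ψ s)⁻¹, by
    change algebraMap L⟮x⟯ F0 (ψ s)⁻¹ ∈ V1
    rw [map_inv₀, hψ]; exact hsinv⟩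
  have ht : algebraMap R2 F0 t = (algebraMap (Algebra.adjoin A0 ({x} : Set F0)) F0 s)⁻¹ := by
    change algebraMap L⟮x⟯ F0 (ψ s)⁻¹ = _
    rw [map_inv₀, hψ]; rfl
  have h2 : IsIntegral R2 (algebraMap R2 F0 t *
      (algebraMap (Algebra.adjoin A0 ({x} : Set F0)) F0 s * z)) :=
    IsIntegral.mul isIntegral_algebraMap h1
  rwa [ht, ← mul_assoc, inv_mul_cancel₀ hs0, one_mul] at h2

/-- **[I2], chart form.**  Three valuation subrings `VA`, `VB`, `VC` with the semilocal property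
over `A0[x]`, `VA` over the Gauss ring: an element of `VA ⊓ VB ⊓ VC` which is integral over `L[x]`
lies in the chart `fc_chart A0 {x}`. -/
theorem s36ig_mem_chart {π : A0} (hπ : Irreducible π) {x : F0} (hx : Transcendental L x)
    [FiniteDimensional L⟮x⟯ F0] {VA VB VC : ValuationSubring F0}
    (hover : ssm_tp_Over (algebraMap A0 (Algebra.adjoin A0 ({x} : Set F0)) π) VA)
    (hsemi : s36ig_Semi (algebraMap A0 (Algebra.adjoin A0 ({x} : Set F0)) π) VA VB VC) {z : F0}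
    (hA : z ∈ VA) (hB : z ∈ VB) (hC : z ∈ VC)
    (hzL : IsIntegral (Algebra.adjoin L ({x} : Set F0)) z) :
    z ∈ fc_chart A0 ({x} : Set F0) :=
  s36ig_mem_chart_of_semi hπ hx hover (hsemi z hA hB hC) hzL


/-- `t` is a unit of the valuation subring `V`. -/
def s36ig_U (V : ValuationSubring F0) (t : F0) : Prop := t ∈ V ∧ t ∉ V.nonunits

omit [Algebra A0 F0] in
theorem s36ig_U.pow {V : ValuationSubring F0} {t : F0} (h : s36ig_U V t) (n : ℕ) :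
    s36ig_U V (t ^ n) := ⟨V.pow_mem h.1 n, ssm_tp_pow_not_mem V h.2 n⟩

omit [Algebra A0 F0] in
theorem s36ig_U.inv {V : ValuationSubring F0} {t : F0} (h : s36ig_U V t) : s36ig_U V t⁻¹ := by
  refine ⟨ssm_tp_inv_mem V h.2, fun hn => ?_⟩
  have := ssm_tp_nonunits_mul V hn h.1
  rw [inv_mul_cancel₀ (ssm_tp_ne_zero V h.2)] at this
  exact ssm_tp_one_not_mem_nonunits V this

omit [Algebra A0 F0] in
theorem s36ig_U.ne_zero {V : ValuationSubring F0} {t : F0} (h : s36ig_U V t) : t ≠ 0 :=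
  ssm_tp_ne_zero V h.2

omit [Algebra A0 F0] in
theorem s36ig_U.div_mem {V : ValuationSubring F0} {t t' : F0} (h : t ∈ V) (h' : s36ig_U V t') :
    t / t' ∈ V := by
  rw [div_eq_mul_inv]
  exact V.mul_mem _ _ h h'.inv.1

/-- **[I2], ratio form.**  `(t, t')` units of `VA`, `VB`, `VC`, zeros paired both ways with ratio
`n`, both regular wherever `x` is: `t'`, `t^n/t'`, `t'^n/t` lie in the chart `fc_chart A0 {x}`. -/
theorem s36ig_ratio [CharZero L] {π : A0} (hπ : Irreducible π) {x : F0}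
    (hx : Transcendental L x) [FiniteDimensional L⟮x⟯ F0] {VA VB VC : ValuationSubring F0}
    (hover : ssm_tp_Over (algebraMap A0 (Algebra.adjoin A0 ({x} : Set F0)) π) VA)
    (hsemi : s36ig_Semi (algebraMap A0 (Algebra.adjoin A0 ({x} : Set F0)) π) VA VB VC)
    (n : ℕ) {t t' : F0}
    (hA : s36ig_U VA t) (hB : s36ig_U VB t) (hC : s36ig_U VC t)
    (hA' : s36ig_U VA t') (hB' : s36ig_U VB t') (hC' : s36ig_U VC t')
    (hZ : ssm_cf_ZeroPair L n t t') (hZ' : ssm_cf_ZeroPair L n t' t)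
    (hreg : ∀ c : Place L F0, 0 ≤ c.ord x → 0 ≤ c.ord t)
    (hreg' : ∀ c : Place L F0, 0 ≤ c.ord x → 0 ≤ c.ord t') :
    t' ∈ fc_chart A0 ({x} : Set F0) ∧ t ^ n / t' ∈ fc_chart A0 ({x} : Set F0) ∧
      t' ^ n / t ∈ fc_chart A0 ({x} : Set F0) := by
  have hint := ssm_i1p_isIntegral_ratio x n hA.ne_zero hA'.ne_zero hZ hZ' hreg hreg'
  exact ⟨s36ig_mem_chart hπ hx hover hsemi hA'.1 hB'.1 hC'.1
      (ssm_i1p_isIntegral_of_ord x t' hreg'),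
    s36ig_mem_chart hπ hx hover hsemi (s36ig_U.div_mem (hA.pow n).1 hA')
      (s36ig_U.div_mem (hB.pow n).1 hB') (s36ig_U.div_mem (hC.pow n).1 hC') hint.1,
    s36ig_mem_chart hπ hx hover hsemi (s36ig_U.div_mem (hA'.pow n).1 hA)
      (s36ig_U.div_mem (hB'.pow n).1 hB) (s36ig_U.div_mem (hC'.pow n).1 hC) hint.2⟩


/-- **the output of [I2]**: the integrality facts at level `N' q²` for the coordinate triple
`(x, x₁, x₂) = (x, x(X^q), x(X^(q²)))` and the middle cusp polynomial `c ∈ ℤ[X]`, with respect to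
the three vertical valuation subrings `VA` (Gauss), `VB` (its Atkin–Lehner mirror), `VC` (the
middle component). -/
structure s36ig_Facts (A0 : Type*) [CommRing A0] {F0 : Type v} [Field F0] [Algebra A0 F0]
    (q : ℕ) (x x1 x2 : F0) (c : ℤ[X]) (VA VB VC : ValuationSubring F0) : Prop where
  qA : (q : F0) ∈ VA.nonunits
  qB : (q : F0) ∈ VB.nonunits
  qC : (q : F0) ∈ VC.nonunits
  bA1 : x1 - x ^ q ∈ VA.nonunits
  bA2 : x2 - x1 ^ q ∈ VA.nonunits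
  bB1 : x - x1 ^ q ∈ VB.nonunits
  bB2 : x1 - x2 ^ q ∈ VB.nonunits
  bC1 : x1 - x ^ q ∈ VC.nonunits
  bC2 : x1 - x2 ^ q ∈ VC.nonunits
  x1_mem : x1 ∈ fc_chart A0 ({x} : Set F0)
  x2_mem : x2 ∈ fc_chart A0 ({x} : Set F0)
  x1_inv_mem : x1⁻¹ ∈ fc_chart A0 ({x⁻¹} : Set F0)
  x2_inv_mem : x2⁻¹ ∈ fc_chart A0 ({x⁻¹} : Set F0)
  uA : s36ig_U VA x ∧ s36ig_U VA x1 ∧ s36ig_U VA x2
  uB : s36ig_U VB x ∧ s36ig_U VB x1 ∧ s36ig_U VB x2
  uC : s36ig_U VC x ∧ s36ig_U VC x1 ∧ s36ig_U VC x2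
  cA : s36ig_U VA (aeval x c) ∧ s36ig_U VA (aeval x1 c) ∧ s36ig_U VA (aeval x2 c)
  cB : s36ig_U VB (aeval x c) ∧ s36ig_U VB (aeval x1 c) ∧ s36ig_U VB (aeval x2 c)
  cC : s36ig_U VC (aeval x c) ∧ s36ig_U VC (aeval x1 c) ∧ s36ig_U VC (aeval x2 c)
  frobA : x2 - x ^ (q ^ 2) ∈ VA.nonunits
  frobB : x - x2 ^ (q ^ 2) ∈ VB.nonunits
  congC : x2 - x ∈ VC.nonunits
  cA1 : aeval x1 c - aeval x c ^ q ∈ VA.nonunits
  cA2 : aeval x2 c - aeval x1 c ^ q ∈ VA.nonunits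
  cB1 : aeval x c - aeval x1 c ^ q ∈ VB.nonunits
  cB2 : aeval x1 c - aeval x2 c ^ q ∈ VB.nonunits
  cC1 : aeval x1 c - aeval x c ^ q ∈ VC.nonunits
  cC2 : aeval x1 c - aeval x2 c ^ q ∈ VC.nonunits
  cfrobA : aeval x2 c - aeval x c ^ (q ^ 2) ∈ VA.nonunits
  cfrobB : aeval x c - aeval x2 c ^ (q ^ 2) ∈ VB.nonunits
  ccongC : aeval x2 c - aeval x c ∈ VC.nonunits
  w0 : x ^ (q ^ 2) / x2 ∈ fc_chart A0 ({x} : Set F0)
  w0' : x2 ^ (q ^ 2) / x ∈ fc_chart A0 ({x} : Set F0)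
  w0_sub : x ^ (q ^ 2) / x2 - 1 ∈ VA.nonunits
  w0'_sub : x2 ^ (q ^ 2) / x - 1 ∈ VB.nonunits
  w1 : aeval x c ^ (q ^ 2) / aeval x2 c ∈ fc_chart A0 ({x} : Set F0)
  w1' : aeval x2 c ^ (q ^ 2) / aeval x c ∈ fc_chart A0 ({x} : Set F0)
  w1_sub : aeval x c ^ (q ^ 2) / aeval x2 c - 1 ∈ VA.nonunits
  w1'_sub : aeval x2 c ^ (q ^ 2) / aeval x c - 1 ∈ VB.nonunits
  winf : x⁻¹ ^ (q ^ 2) / x2⁻¹ ∈ fc_chart A0 ({x⁻¹} : Set F0)
  winf' : x2⁻¹ ^ (q ^ 2) / x⁻¹ ∈ fc_chart A0 ({x⁻¹} : Set F0)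
  winf_sub : x⁻¹ ^ (q ^ 2) / x2⁻¹ - 1 ∈ VA.nonunits
  winf'_sub : x2⁻¹ ^ (q ^ 2) / x⁻¹ - 1 ∈ VB.nonunits

omit [Algebra A0 F0] in
/-- `a ≡ b^n` modulo `𝔪(V)` for units gives `a⁻¹ ≡ (b⁻¹)^n`. -/
theorem s36ig_frob_inv (V : ValuationSubring F0) (n : ℕ) {a b : F0} (ha : s36ig_U V a)
    (hb : s36ig_U V b) (h : a - b ^ n ∈ V.nonunits) : a⁻¹ - b⁻¹ ^ n ∈ V.nonunits := by
  have ha0 := ha.ne_zero
  have hb0 := hb.ne_zero
  have : a⁻¹ - b⁻¹ ^ n = -(a - b ^ n) * (a⁻¹ * b⁻¹ ^ n) := by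
    have h1 : b ^ n * b⁻¹ ^ n = 1 := by rw [← mul_pow, mul_inv_cancel₀ hb0, one_pow]
    have h2 : a * a⁻¹ = 1 := mul_inv_cancel₀ ha0
    calc a⁻¹ - b⁻¹ ^ n
        = (b ^ n * b⁻¹ ^ n) * a⁻¹ - (a * a⁻¹) * b⁻¹ ^ n := by rw [h1, h2, one_mul, one_mul]
      _ = -(a - b ^ n) * (a⁻¹ * b⁻¹ ^ n) := by ring
  rw [this]
  exact ssm_tp_nonunits_mul V (ssm_tp_nonunits_neg V h) (V.mul_mem _ _ ha.inv.1 (hb.inv.pow n).1)

set_option maxHeartbeats 1600000 in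
/-- **[I2], main form.**  `x` the chart coordinate, `x₁ = x(X^q)`, `x₂ = x(X^(q²))`; `VA`, `VB`,
`VC` over the Gauss ring of `A0[x]` with the semilocal property over `A0[x]` and over `A0[x⁻¹]`;
`q ∈ 𝔪(V)` for the three; the BASIC Frobenius congruences (`VA`: `x₁ ≡ x^q`, `x₂ ≡ x₁^q`; `VB`:
`x ≡ x₁^q`, `x₁ ≡ x₂^q`; `VC`: `x₁ ≡ x^q`, `x₁ ≡ x₂^q`); `c ∈ ℤ[X]` monic; the zero pairings of
`(x, x₂)`, `(c(x), c(x₂))`, `(x⁻¹, x₂⁻¹)` with ratio `q * q` and of `(x₁, x)`, `(x₁⁻¹, x⁻¹)` with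
ratio `q` ([CF2]). -/
theorem s36ig_main [CharZero L] {π : A0} (hπ : Irreducible π) {x x1 x2 : F0}
    (hx : Transcendental L x) [FiniteDimensional L⟮x⟯ F0] {VA VB VC : ValuationSubring F0}
    (oA : ssm_tp_Over (algebraMap A0 (Algebra.adjoin A0 ({x} : Set F0)) π) VA)
    (oB : ssm_tp_Over (algebraMap A0 (Algebra.adjoin A0 ({x} : Set F0)) π) VB)
    (oC : ssm_tp_Over (algebraMap A0 (Algebra.adjoin A0 ({x} : Set F0)) π) VC)
    (hsemi : s36ig_Semi (algebraMap A0 (Algebra.adjoin A0 ({x} : Set F0)) π) VA VB VC)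
    (hsemi' : s36ig_Semi (algebraMap A0 (Algebra.adjoin A0 ({x⁻¹} : Set F0)) π) VA VB VC)
    (q : ℕ) [hq : Fact q.Prime]
    (hqA : (q : F0) ∈ VA.nonunits) (hqB : (q : F0) ∈ VB.nonunits) (hqC : (q : F0) ∈ VC.nonunits)
    (hA1 : x1 - x ^ q ∈ VA.nonunits) (hA2 : x2 - x1 ^ q ∈ VA.nonunits)
    (hB1 : x - x1 ^ q ∈ VB.nonunits) (hB2 : x1 - x2 ^ q ∈ VB.nonunits)
    (hC1 : x1 - x ^ q ∈ VC.nonunits) (hC2 : x1 - x2 ^ q ∈ VC.nonunits)
    (c : ℤ[X]) (hc : c.Monic)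
    (zero01' : ssm_cf_ZeroPair L q x1 x) (inf01' : ssm_cf_ZeroPair L q x1⁻¹ x⁻¹)
    (zero : ssm_cf_ZeroPair L (q * q) x x2) (zero' : ssm_cf_ZeroPair L (q * q) x2 x)
    (mid : ssm_cf_ZeroPair L (q * q) (aeval x c) (aeval x2 c))
    (mid' : ssm_cf_ZeroPair L (q * q) (aeval x2 c) (aeval x c))
    (inf : ssm_cf_ZeroPair L (q * q) x⁻¹ x2⁻¹) (inf' : ssm_cf_ZeroPair L (q * q) x2⁻¹ x⁻¹) :
    s36ig_Facts A0 q x x1 x2 c VA VB VC := by
  have hq0 : q ≠ 0 := hq.out.ne_zero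
  have hqq : q * q = q ^ 2 := (pow_two q).symm
  rw [hqq] at zero zero' mid mid' inf inf'
  have hxA : Transcendental A0 x := fc_ff_transcendental (L := L) hx
  have hxi : Transcendental L x⁻¹ := fun h => hx (IsAlgebraic.inv_iff.mp h)
  have hxiA : Transcendental A0 x⁻¹ := fc_ff_transcendental (L := L) hxi
  haveI hfd2 : FiniteDimensional L⟮x⁻¹⟯ F0 := by
    rw [rt_adjoin_inv]; infer_instance
  have oA' := ssm_tp_over_inv hxA hxiA hπ.not_isUnit oA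
  -- units: the coordinate
  have hX : ∀ {V : ValuationSubring F0},
      ssm_tp_Over (algebraMap A0 (Algebra.adjoin A0 ({x} : Set F0)) π) V → s36ig_U V x := by
    intro V oV
    have h := ssm_i1g_monic_int_not_mem hπ hxA oV (X : ℤ[X]) monic_X
    rwa [aeval_X] at h
  have hcU : ∀ {V : ValuationSubring F0},
      ssm_tp_Over (algebraMap A0 (Algebra.adjoin A0 ({x} : Set F0)) π) V →
        s36ig_U V (aeval x c) := fun oV => ssm_i1g_monic_int_not_mem hπ hxA oV c hc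
  -- units at `VA`
  have uA0 := hX oA
  have uA1 : s36ig_U VA x1 := s36ig_unit_of_congr VA (uA0.pow q).1 (uA0.pow q).2 hA1
  have uA2 : s36ig_U VA x2 := s36ig_unit_of_congr VA (uA1.pow q).1 (uA1.pow q).2 hA2
  -- units at `VB`
  have uB0 := hX oB
  have uB1 : s36ig_U VB x1 := by
    have h := s36ig_unit_of_congr' VB uB0.1 uB0.2 hB1
    exact s36ig_unit_of_pow VB hq0 h.1 h.2
  have uB2 : s36ig_U VB x2 := by
    have h := s36ig_unit_of_congr' VB uB1.1 uB1.2 hB2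
    exact s36ig_unit_of_pow VB hq0 h.1 h.2
  -- units at `VC`
  have uC0 := hX oC
  have uC1 : s36ig_U VC x1 := s36ig_unit_of_congr VC (uC0.pow q).1 (uC0.pow q).2 hC1
  have uC2 : s36ig_U VC x2 := by
    have h := s36ig_unit_of_congr' VC uC1.1 uC1.2 hC2
    exact s36ig_unit_of_pow VC hq0 h.1 h.2
  -- the congruences for `c`
  have cA1 := ssm_i1g_frob_poly VA hq.out hqA uA1.1 uA0.1 hA1 c
  have cA2 := ssm_i1g_frob_poly VA hq.out hqA uA2.1 uA1.1 hA2 c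
  have cB1 := ssm_i1g_frob_poly VB hq.out hqB uB0.1 uB1.1 hB1 c
  have cB2 := ssm_i1g_frob_poly VB hq.out hqB uB1.1 uB2.1 hB2 c
  have cC1 := ssm_i1g_frob_poly VC hq.out hqC uC1.1 uC0.1 hC1 c
  have cC2 := ssm_i1g_frob_poly VC hq.out hqC uC1.1 uC2.1 hC2 c
  -- units: `c`
  have kA0 := hcU oA
  have kA1 : s36ig_U VA (aeval x1 c) :=
    s36ig_unit_of_congr VA (kA0.pow q).1 (kA0.pow q).2 cA1
  have kA2 : s36ig_U VA (aeval x2 c) :=
    s36ig_unit_of_congr VA (kA1.pow q).1 (kA1.pow q).2 cA2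
  have kB0 := hcU oB
  have kB1 : s36ig_U VB (aeval x1 c) := by
    have h := s36ig_unit_of_congr' VB kB0.1 kB0.2 cB1
    exact s36ig_unit_of_pow VB hq0 h.1 h.2
  have kB2 : s36ig_U VB (aeval x2 c) := by
    have h := s36ig_unit_of_congr' VB kB1.1 kB1.2 cB2
    exact s36ig_unit_of_pow VB hq0 h.1 h.2
  have kC0 := hcU oC
  have kC1 : s36ig_U VC (aeval x1 c) :=
    s36ig_unit_of_congr VC (kC0.pow q).1 (kC0.pow q).2 cC1
  have kC2 : s36ig_U VC (aeval x2 c) := by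
    have h := s36ig_unit_of_congr' VC kC1.1 kC1.2 cC2
    exact s36ig_unit_of_pow VC hq0 h.1 h.2
  -- the derived congruences
  have frobA := s36ig_frob2 VA q uA0.1 uA1.1 hA1 hA2
  have frobB := s36ig_frob2 VB q uB2.1 uB1.1 hB2 hB1
  have congC := s36ig_congrC VC q hqC uC0.1 uC1.1 uC2.1 hC1 hC2
  have cfrobA := s36ig_frob2 VA q kA0.1 kA1.1 cA1 cA2
  have cfrobB := s36ig_frob2 VB q kB2.1 kB1.1 cB2 cB1
  have ccongC := s36ig_congrC VC q hqC kC0.1 kC1.1 kC2.1 cC1 cC2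
  -- regularity
  have hreg1 : ∀ p : Place L F0, 0 ≤ p.ord x → 0 ≤ p.ord x1 := fun p hp =>
    ssm_i1p_nonneg_of_inv_pair p q inf01' hp
  have hreg2 : ∀ p : Place L F0, 0 ≤ p.ord x → 0 ≤ p.ord x2 := fun p hp =>
    ssm_i1p_nonneg_of_inv_pair p (q ^ 2) inf' hp
  have hregi1 : ∀ p : Place L F0, 0 ≤ p.ord x⁻¹ → 0 ≤ p.ord x1⁻¹ := by
    intro p hp
    rw [Place.ord_inv] at hp ⊢
    by_contra hneg
    push Not at hneg
    have := (zero01' p (by omega)).1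
    omega
  have hregi2 : ∀ p : Place L F0, 0 ≤ p.ord x⁻¹ → 0 ≤ p.ord x2⁻¹ := by
    intro p hp
    rw [Place.ord_inv] at hp ⊢
    by_contra hneg
    push Not at hneg
    have := (zero' p (by omega)).1
    omega
  -- the three ratio packages
  have P0 := s36ig_ratio hπ hx oA hsemi (q ^ 2) uA0 uB0 uC0 uA2 uB2 uC2 zero zero'
    (fun p hp => hp) hreg2
  have P1 := s36ig_ratio hπ hx oA hsemi (q ^ 2) kA0 kB0 kC0 kA2 kB2 kC2 mid mid'
    (fun p hp => ssm_i1g_ord_aeval_nonneg p hp c)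
    (fun p hp => ssm_i1g_ord_aeval_nonneg p (hreg2 p hp) c)
  have Pinf := s36ig_ratio hπ hxi oA' hsemi' (q ^ 2) uA0.inv uB0.inv uC0.inv uA2.inv uB2.inv
    uC2.inv inf inf' (fun p hp => hp) hregi2
  have hx1mem : x1 ∈ fc_chart A0 ({x} : Set F0) :=
    s36ig_mem_chart hπ hx oA hsemi uA1.1 uB1.1 uC1.1 (ssm_i1p_isIntegral_of_ord x x1 hreg1)
  have hx1inv : x1⁻¹ ∈ fc_chart A0 ({x⁻¹} : Set F0) :=
    s36ig_mem_chart hπ hxi oA' hsemi' uA1.inv.1 uB1.inv.1 uC1.inv.1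
      (ssm_i1p_isIntegral_of_ord x⁻¹ x1⁻¹ hregi1)
  exact
    { qA := hqA
      qB := hqB
      qC := hqC
      bA1 := hA1
      bA2 := hA2
      bB1 := hB1
      bB2 := hB2
      bC1 := hC1
      bC2 := hC2
      x1_mem := hx1mem
      x2_mem := P0.1
      x1_inv_mem := hx1inv
      x2_inv_mem := Pinf.1
      uA := ⟨uA0, uA1, uA2⟩
      uB := ⟨uB0, uB1, uB2⟩
      uC := ⟨uC0, uC1, uC2⟩
      cA := ⟨kA0, kA1, kA2⟩
      cB := ⟨kB0, kB1, kB2⟩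
      cC := ⟨kC0, kC1, kC2⟩
      frobA := frobA
      frobB := frobB
      congC := congC
      cA1 := cA1
      cA2 := cA2
      cB1 := cB1
      cB2 := cB2
      cC1 := cC1
      cC2 := cC2
      cfrobA := cfrobA
      cfrobB := cfrobB
      ccongC := ccongC
      w0 := P0.2.1
      w0' := P0.2.2
      w0_sub := s36ig_ratio_sub_one VA (q ^ 2) uA2.2 frobA
      w0'_sub := s36ig_ratio_sub_one VB (q ^ 2) uB0.2 frobB
      w1 := P1.2.1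
      w1' := P1.2.2
      w1_sub := s36ig_ratio_sub_one VA (q ^ 2) kA2.2 cfrobA
      w1'_sub := s36ig_ratio_sub_one VB (q ^ 2) kB0.2 cfrobB
      winf := Pinf.2.1
      winf' := Pinf.2.2
      winf_sub := s36ig_ratio_sub_one VA (q ^ 2) uA2.inv.2
        (s36ig_frob_inv VA (q ^ 2) uA2 uA0 frobA)
      winf'_sub := s36ig_ratio_sub_one VB (q ^ 2) uB0.inv.2
        (s36ig_frob_inv VB (q ^ 2) uB0 uB2 frobB) }


/-- **[I2], Legendre form** (`c = X - 1`): the zero pairings packaged as the two `ssm_cf_CuspFacts`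
of [CF2] (`s36mc_cuspFacts01`, `s36mc_cuspFacts02`). -/
theorem s36ig_main_leg [CharZero L] {π : A0} (hπ : Irreducible π) {x x1 x2 : F0}
    (hx : Transcendental L x) [FiniteDimensional L⟮x⟯ F0] {VA VB VC : ValuationSubring F0}
    (oA : ssm_tp_Over (algebraMap A0 (Algebra.adjoin A0 ({x} : Set F0)) π) VA)
    (oB : ssm_tp_Over (algebraMap A0 (Algebra.adjoin A0 ({x} : Set F0)) π) VB)
    (oC : ssm_tp_Over (algebraMap A0 (Algebra.adjoin A0 ({x} : Set F0)) π) VC)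
    (hsemi : s36ig_Semi (algebraMap A0 (Algebra.adjoin A0 ({x} : Set F0)) π) VA VB VC)
    (hsemi' : s36ig_Semi (algebraMap A0 (Algebra.adjoin A0 ({x⁻¹} : Set F0)) π) VA VB VC)
    (q : ℕ) [hq : Fact q.Prime]
    (hqA : (q : F0) ∈ VA.nonunits) (hqB : (q : F0) ∈ VB.nonunits) (hqC : (q : F0) ∈ VC.nonunits)
    (hA1 : x1 - x ^ q ∈ VA.nonunits) (hA2 : x2 - x1 ^ q ∈ VA.nonunits)
    (hB1 : x - x1 ^ q ∈ VB.nonunits) (hB2 : x1 - x2 ^ q ∈ VB.nonunits)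
    (hC1 : x1 - x ^ q ∈ VC.nonunits) (hC2 : x1 - x2 ^ q ∈ VC.nonunits)
    (cf01 : ssm_cf_CuspFacts L q x x1) (cf02 : ssm_cf_CuspFacts L (q * q) x x2) :
    s36ig_Facts A0 q x x1 x2 (X - 1) VA VB VC := by
  have hmon : (X - 1 : ℤ[X]).Monic := by simpa using monic_X_sub_C (1 : ℤ)
  have e : ∀ y : F0, aeval y (X - 1 : ℤ[X]) = y - 1 := fun y => by simp
  refine s36ig_main hπ hx oA oB oC hsemi hsemi' q hqA hqB hqC hA1 hA2 hB1 hB2 hC1 hC2 (X - 1) hmon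
    cf01.zero' cf01.inf' cf02.zero cf02.zero' ?_ ?_ cf02.inf cf02.inf'
  · rw [e, e]; exact cf02.one
  · rw [e, e]; exact cf02.one'

/-- **[I2], first-step ratios**: for the pairs `(x, x₁)` and `(x₁, x₂)` (ratio `q`), from the
complete zero pairings of [CF2]: `x^q/x₁`, `x₁^q/x`, `x₁^q/x₂`, `x₂^q/x₁ ∈ fc_chart A0 {x}`. -/
theorem s36ig_step [CharZero L] {π : A0} (hπ : Irreducible π) {x x1 x2 : F0}
    (hx : Transcendental L x) [FiniteDimensional L⟮x⟯ F0] {VA VB VC : ValuationSubring F0}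
    (oA : ssm_tp_Over (algebraMap A0 (Algebra.adjoin A0 ({x} : Set F0)) π) VA)
    (hsemi : s36ig_Semi (algebraMap A0 (Algebra.adjoin A0 ({x} : Set F0)) π) VA VB VC)
    {q : ℕ} {c : ℤ[X]} (F : s36ig_Facts A0 q x x1 x2 c VA VB VC)
    (z01 : ssm_cf_ZeroPair L q x x1) (z01' : ssm_cf_ZeroPair L q x1 x)
    (z12 : ssm_cf_ZeroPair L q x1 x2) (z12' : ssm_cf_ZeroPair L q x2 x1)
    (inf01' : ssm_cf_ZeroPair L q x1⁻¹ x⁻¹) (inf12' : ssm_cf_ZeroPair L q x2⁻¹ x1⁻¹) :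
    x ^ q / x1 ∈ fc_chart A0 ({x} : Set F0) ∧ x1 ^ q / x ∈ fc_chart A0 ({x} : Set F0) ∧
      x1 ^ q / x2 ∈ fc_chart A0 ({x} : Set F0) ∧ x2 ^ q / x1 ∈ fc_chart A0 ({x} : Set F0) := by
  have hreg1 : ∀ p : Place L F0, 0 ≤ p.ord x → 0 ≤ p.ord x1 := fun p hp =>
    ssm_i1p_nonneg_of_inv_pair p q inf01' hp
  have hreg2 : ∀ p : Place L F0, 0 ≤ p.ord x → 0 ≤ p.ord x2 := fun p hp =>
    ssm_i1p_nonneg_of_inv_pair p q inf12' (hreg1 p hp)
  have P01 := s36ig_ratio hπ hx oA hsemi q F.uA.1 F.uB.1 F.uC.1 F.uA.2.1 F.uB.2.1 F.uC.2.1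
    z01 z01' (fun p hp => hp) hreg1
  have P12 := s36ig_ratio hπ hx oA hsemi q F.uA.2.1 F.uB.2.1 F.uC.2.1 F.uA.2.2 F.uB.2.2 F.uC.2.2
    z12 z12' hreg1 hreg2
  exact ⟨P01.2.1, P01.2.2, P12.2.1, P12.2.2⟩

end Chart

/-! ### the Atkin–Lehner involution `W₂` preserves the charts -/

section WChart

variable {A0 : Type*} {F0 : Type v} [CommRing A0] [Field F0] [Algebra A0 F0]

/-- `W₂` (`W₂ x = x₂`, fixing `A0`) preserves the three charts `{x}`, `{x⁻¹}`, `{x, x⁻¹}`. -/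
theorem s36ig_W_charts (W : F0 ≃+* F0)
    (hWA : ∀ a : A0, W (algebraMap A0 F0 a) = algebraMap A0 F0 a) {q : ℕ} {x x1 x2 : F0}
    {c : ℤ[X]} {VA VB VC : ValuationSubring F0} (hWx : W x = x2)
    (F : s36ig_Facts A0 q x x1 x2 c VA VB VC) :
    (∀ b ∈ fc_chart A0 ({x} : Set F0), W b ∈ fc_chart A0 ({x} : Set F0)) ∧
    (∀ b ∈ fc_chart A0 ({x⁻¹} : Set F0), W b ∈ fc_chart A0 ({x⁻¹} : Set F0)) ∧
    (∀ b ∈ fc_chart A0 ({x, x⁻¹} : Set F0), W b ∈ fc_chart A0 ({x, x⁻¹} : Set F0)) := by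
  refine ⟨fun b hb => ssm_i1_W_chart W hWA _ ?_ hb, fun b hb => ssm_i1_W_chart W hWA _ ?_ hb,
    fun b hb => ssm_i1_W_chart W hWA _ ?_ hb⟩
  · intro s hs
    rw [Set.mem_singleton_iff.1 hs, hWx]
    exact F.x2_mem
  · intro s hs
    rw [Set.mem_singleton_iff.1 hs, map_inv₀, hWx]
    exact F.x2_inv_mem
  · intro s hs
    rcases hs with rfl | hs
    · rw [hWx]
      exact fc_chart1_le _ F.x2_mem
    · rw [Set.mem_singleton_iff.1 hs, map_inv₀, hWx]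
      exact fc_chart2_le _ F.x2_inv_mem

end WChart

/-! ### no two components meet at a cusp: the chart form of [NC3] -/

section NoCusp

variable {A0 : Type*} {F0 : Type v} [CommRing A0] [Field F0] [Algebra A0 F0]

/-- coercion of a polynomial expression in a subalgebra. -/
theorem s36ig_coe_aeval (B : Subalgebra A0 F0) (b : B) (p : ℤ[X]) :
    ((aeval b p : B) : F0) = aeval (b : F0) p :=
  (Polynomial.aeval_algHom_apply (B.val.toRingHom.toIntAlgHom) b p).symm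

/-- **[NC3], chart form**: on every subalgebra `B ⊇ fc_chart A0 {x}` contained in `VA`, `VB`, `VC`
(the charts `{x}` and `{x, x⁻¹}`), with `P_i = 𝔪(V_i) ∩ B`: neither `x` nor `c(x)` lies in a proper
ideal containing two of the three vertical primes. -/
theorem s36ig_noCusp3 {q : ℕ} [hq : Fact q.Prime] {x x1 x2 : F0} {c : ℤ[X]}
    {VA VB VC : ValuationSubring F0} (F : s36ig_Facts A0 q x x1 x2 c VA VB VC)
    (B : Subalgebra A0 F0) (hB : fc_chart A0 ({x} : Set F0) ≤ B)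
    (hleA : ∀ b ∈ B, b ∈ VA) (hleB : ∀ b ∈ B, b ∈ VB) (hleC : ∀ b ∈ B, b ∈ VC)
    (𝔞 : Ideal B) (h𝔞 : 𝔞 ≠ ⊤)
    (h2 : (ssm_tp_P B VA ≤ 𝔞 ∧ ssm_tp_P B VB ≤ 𝔞) ∨ (ssm_tp_P B VA ≤ 𝔞 ∧ ssm_tp_P B VC ≤ 𝔞) ∨
      (ssm_tp_P B VB ≤ 𝔞 ∧ ssm_tp_P B VC ≤ 𝔞)) :
    (⟨x, hB (fc_x_mem_chart x)⟩ : B) ∉ 𝔞 ∧ aeval (⟨x, hB (fc_x_mem_chart x)⟩ : B) c ∉ 𝔞 := by
  haveI := ssm_tp_P_isPrime hleA
  haveI := ssm_tp_P_isPrime hleB
  haveI := ssm_tp_P_isPrime hleC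
  set l0 : B := ⟨x, hB (fc_x_mem_chart x)⟩ with hl0
  set l1 : B := ⟨x1, hB F.x1_mem⟩ with hl1
  set l2 : B := ⟨x2, hB F.x2_mem⟩ with hl2
  have e0 : ∀ p : ℤ[X], ((aeval l0 p : B) : F0) = aeval x p := fun p => s36ig_coe_aeval B l0 p
  have e2 : ∀ p : ℤ[X], ((aeval l2 p : B) : F0) = aeval x2 p := fun p => s36ig_coe_aeval B l2 p
  refine s36mc_noCusp3 (ssm_tp_P B VA) (ssm_tp_P B VB) (ssm_tp_P B VC) q
    ?_ ?_ ?_ l0 l1 l2 ?_ ?_ ?_ ?_ ?_ ?_ c ?_ ?_ ?_ ?_ ?_ ?_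
    ⟨x ^ (q ^ 2) / x2, hB F.w0⟩ ⟨x2 ^ (q ^ 2) / x, hB F.w0'⟩
    ⟨aeval x c ^ (q ^ 2) / aeval x2 c, hB F.w1⟩ ⟨aeval x2 c ^ (q ^ 2) / aeval x c, hB F.w1'⟩
    ?_ ?_ ?_ ?_ 𝔞 h𝔞 h2
  · rw [ssm_tp_mem_P hleA]; simpa using F.qA
  · rw [ssm_tp_mem_P hleB]; simpa using F.qB
  · rw [ssm_tp_mem_P hleC]; simpa using F.qC
  · rw [ssm_tp_mem_P hleA]; exact F.bA1
  · rw [ssm_tp_mem_P hleA]; exact F.bA2
  · rw [ssm_tp_mem_P hleB]; exact F.bB1
  · rw [ssm_tp_mem_P hleB]; exact F.bB2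
  · rw [ssm_tp_mem_P hleC]; exact F.bC1
  · rw [ssm_tp_mem_P hleC]; exact F.bC2
  · rw [ssm_tp_mem_P hleA]; exact F.uA.1.2
  · rw [ssm_tp_mem_P hleB]; exact F.uB.1.2
  · rw [ssm_tp_mem_P hleC]; exact F.uC.1.2
  · rw [ssm_tp_mem_P hleA, e0]; exact F.cA.1.2
  · rw [ssm_tp_mem_P hleB, e0]; exact F.cB.1.2
  · rw [ssm_tp_mem_P hleC, e0]; exact F.cC.1.2
  · apply Subtype.ext
    show x ^ (q ^ 2) / x2 * x2 = x ^ (q ^ 2)
    exact div_mul_cancel₀ _ F.uA.2.2.ne_zero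
  · apply Subtype.ext
    show x2 ^ (q ^ 2) / x * x = x2 ^ (q ^ 2)
    exact div_mul_cancel₀ _ F.uA.1.ne_zero
  · apply Subtype.ext
    rw [MulMemClass.coe_mul, SubmonoidClass.coe_pow, e0, e2]
    show aeval x c ^ (q ^ 2) / aeval x2 c * aeval x2 c = aeval x c ^ (q ^ 2)
    exact div_mul_cancel₀ _ F.cA.2.2.ne_zero
  · apply Subtype.ext
    rw [MulMemClass.coe_mul, SubmonoidClass.coe_pow, e0, e2]
    show aeval x2 c ^ (q ^ 2) / aeval x c * aeval x c = aeval x2 c ^ (q ^ 2)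
    exact div_mul_cancel₀ _ F.cA.1.ne_zero


/-- **[NC3] at infinity, chart form**: on every subalgebra `B ⊇ fc_chart A0 {x⁻¹}` contained in
`VA`, `VB`, `VC` (the charts `{x⁻¹}` and `{x, x⁻¹}`): `x⁻¹` does not lie in a proper ideal containing
two of the three vertical primes. -/
theorem s36ig_noCusp_inf {q : ℕ} [hq : Fact q.Prime] {x x1 x2 : F0} {c : ℤ[X]}
    {VA VB VC : ValuationSubring F0} (F : s36ig_Facts A0 q x x1 x2 c VA VB VC)
    (B : Subalgebra A0 F0) (hB : fc_chart A0 ({x⁻¹} : Set F0) ≤ B)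
    (hleA : ∀ b ∈ B, b ∈ VA) (hleB : ∀ b ∈ B, b ∈ VB) (hleC : ∀ b ∈ B, b ∈ VC)
    (𝔞 : Ideal B) (h𝔞 : 𝔞 ≠ ⊤)
    (h2 : (ssm_tp_P B VA ≤ 𝔞 ∧ ssm_tp_P B VB ≤ 𝔞) ∨ (ssm_tp_P B VA ≤ 𝔞 ∧ ssm_tp_P B VC ≤ 𝔞) ∨
      (ssm_tp_P B VB ≤ 𝔞 ∧ ssm_tp_P B VC ≤ 𝔞)) :
    (⟨x⁻¹, hB (fc_x_mem_chart x⁻¹)⟩ : B) ∉ 𝔞 := by
  haveI := ssm_tp_P_isPrime hleA
  haveI := ssm_tp_P_isPrime hleB
  haveI := ssm_tp_P_isPrime hleC
  refine s36mc_noCusp_one (ssm_tp_P B VA) (ssm_tp_P B VB) (ssm_tp_P B VC) q ?_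
    (⟨x⁻¹, hB (fc_x_mem_chart x⁻¹)⟩ : B) ⟨x1⁻¹, hB F.x1_inv_mem⟩ ⟨x2⁻¹, hB F.x2_inv_mem⟩
    ?_ ?_ ?_ ?_ ?_ ?_ ?_ ?_ ?_
    ⟨x⁻¹ ^ (q ^ 2) / x2⁻¹, hB F.winf⟩ ⟨x2⁻¹ ^ (q ^ 2) / x⁻¹, hB F.winf'⟩ ?_ ?_ 𝔞 h𝔞 h2
  · rw [ssm_tp_mem_P hleC]; simpa using F.qC
  · rw [ssm_tp_mem_P hleA]; exact s36ig_frob_inv VA q F.uA.2.1 F.uA.1 F.bA1
  · rw [ssm_tp_mem_P hleA]; exact s36ig_frob_inv VA q F.uA.2.2 F.uA.2.1 F.bA2
  · rw [ssm_tp_mem_P hleB]; exact s36ig_frob_inv VB q F.uB.1 F.uB.2.1 F.bB1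
  · rw [ssm_tp_mem_P hleB]; exact s36ig_frob_inv VB q F.uB.2.1 F.uB.2.2 F.bB2
  · rw [ssm_tp_mem_P hleC]; exact s36ig_frob_inv VC q F.uC.2.1 F.uC.1 F.bC1
  · rw [ssm_tp_mem_P hleC]; exact s36ig_frob_inv VC q F.uC.2.1 F.uC.2.2 F.bC2
  · rw [ssm_tp_mem_P hleA]; exact F.uA.1.inv.2
  · rw [ssm_tp_mem_P hleB]; exact F.uB.1.inv.2
  · rw [ssm_tp_mem_P hleC]; exact F.uC.1.inv.2
  · apply Subtype.ext
    show x⁻¹ ^ (q ^ 2) / x2⁻¹ * x2⁻¹ = x⁻¹ ^ (q ^ 2)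
    exact div_mul_cancel₀ _ F.uA.2.2.inv.ne_zero
  · apply Subtype.ext
    show x2⁻¹ ^ (q ^ 2) / x⁻¹ * x⁻¹ = x2⁻¹ ^ (q ^ 2)
    exact div_mul_cancel₀ _ F.uA.1.inv.ne_zero

end NoCusp

end Fermat.Agent.S36
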