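/-
Project S36 (Carayol), cell [M2] (model), leaf [TP3] (helper24), part 4: THE BRIDGE from
"valuation subrings of `E` over the DVR `R'` of a subfield `K`" (vocabulary `ssm_tw_Over K R'` of
`SS/Model/TwoValW.lean`, in which the valuation-theoretic leaves [VAL3]/[INS1]/[V3-ASM] speak) to
"valuation subrings of `E` over the Gauss ring of the coordinate ring `A0[x]`" (vocabulary
`ssm_tp_Over` of [TP]/[TP3], in which the chart lemmas speak).  `n`-ary twin of `ssm_tpw_hyp`
(`SS/Model/TwoPrimesW.lean`).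

`K` = the function field of the bottom level (`lg_E L N'`), `R'` its Gauss DVR, seen as the
valuation subring `VK` of `K`, which is the ONLY valuation subring of `K` over the Gauss ring of
`A0[x]` (`hun`; `s36tp_hyp_of_tw_of_prime`: from `π` prime on the chart of `K`, `cn_prime_funField`);
`E` = the function field of the top level.

* `s36tp_over_of_tw`, `s36tp_tw_of_over` : `ssm_tw_Over K R' V ↔ ssm_tp_Over π V`;
* `s36tp_hyp_of_tw` : a finite family `V i` of valuation subrings of `E`, each over `R'`, pairwise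
  distinct, exhausting the valuation subrings of `E` over `R'`, with `z ^ e i ∈ π V i` for
  `z ∈ 𝔪(V i)`, satisfies `s36tp_Hyp π V e` for the coordinate ring `A0[x] ⊆ E`;
* `s36tp_hyp_of_tw_three` : the named form `![VA, VB, VC]`, `![1, 1, eC]` with the uniformiser
  statements in the `∃ b ∈ V, a = π' * b` form of `ssm_tw_unif1` and `π' = u * z ^ eC` at `VC`.
Prefix `s36tp_`.
-/
import Mathlib
import Fermat.Agent.SS.Model.TwoPrimesW
import Fermat.Agent.S36.Model.Primes3Inst

set_option autoImplicit false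
set_option linter.unusedSectionVars false
set_option linter.style.haveILetI false

namespace Fermat.Agent.S36

open Polynomial Fermat.Agent.SS

section BridgeW

open IntermediateField Fermat.Agent.JT3

universe v

variable {K : Type*} {E : Type v} [Field K] [Field E] [Algebra K E]
  {R' : Type*} [CommRing R'] [Algebra R' K] [Algebra R' E] [IsScalarTower R' K E]
  {A0 L : Type*} [CommRing A0] [IsDomain A0] [IsDiscreteValuationRing A0]
  [Field L] [Algebra A0 L] [IsFractionRing A0 L] [Algebra L E] [Algebra A0 E]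
  [IsScalarTower A0 L E] [Algebra A0 K] [IsScalarTower A0 K E]

/-- a valuation subring of `E` over `R'` lies over the Gauss ring of `A0[x]` -/
theorem s36tp_over_of_tw {π : A0} {x : K} (hxA : Transcendental A0 x)
    (VK : ValuationSubring K) (hVK : ∀ z : K, z ∈ VK ↔ z ∈ (algebraMap R' K).range)
    (hover : ssm_tp_Over (algebraMap A0 (Algebra.adjoin A0 ({x} : Set K)) π) VK)
    {V : ValuationSubring E} (hV : ssm_tw_Over K R' V) :
    ssm_tp_Over (algebraMap A0 (Algebra.adjoin A0 ({algebraMap K E x} : Set E)) π) V := by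
  have hcomap : V.comap (algebraMap K E) = VK := by
    ext z
    rw [ValuationSubring.mem_comap, hV z, hVK z]
  rw [ssm_tpw_over_comap_iff hxA, hcomap]
  exact hover

/-- a valuation subring of `E` over the Gauss ring of `A0[x]` lies over `R'` -/
theorem s36tp_tw_of_over {π : A0} {x : K} (hxA : Transcendental A0 x)
    (VK : ValuationSubring K) (hVK : ∀ z : K, z ∈ VK ↔ z ∈ (algebraMap R' K).range)
    (hun : ∀ V' : ValuationSubring K,
      ssm_tp_Over (algebraMap A0 (Algebra.adjoin A0 ({x} : Set K)) π) V' → V' = VK)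
    {V : ValuationSubring E}
    (hV : ssm_tp_Over (algebraMap A0 (Algebra.adjoin A0 ({algebraMap K E x} : Set E)) π) V) :
    ssm_tw_Over K R' V := by
  intro z
  rw [← hVK z, ← hun _ ((ssm_tpw_over_comap_iff hxA π V).1 hV), ValuationSubring.mem_comap]

variable {ι : Type*} [Fintype ι]

/-- **[TP3] the composite**: from the classification of the valuation subrings of `E` over the DVR
`R'` of `K` to the hypotheses `s36tp_Hyp` of [TP3] for the coordinate ring `A0[x] ⊆ E`. -/
theorem s36tp_hyp_of_tw {π : A0} (hπ : Irreducible π) {x : K}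
    (hxE : Transcendental L (algebraMap K E x)) [FiniteDimensional L⟮algebraMap K E x⟯ E]
    (VK : ValuationSubring K) (hVK : ∀ z : K, z ∈ VK ↔ z ∈ (algebraMap R' K).range)
    (hover : ssm_tp_Over (algebraMap A0 (Algebra.adjoin A0 ({x} : Set K)) π) VK)
    (hun : ∀ V' : ValuationSubring K,
      ssm_tp_Over (algebraMap A0 (Algebra.adjoin A0 ({x} : Set K)) π) V' → V' = VK)
    {V : ι → ValuationSubring E} {e : ι → ℕ}
    (hV : ∀ i, ssm_tw_Over K R' (V i)) (epos : ∀ i, 0 < e i)
    (ram : ∀ i, ∀ z ∈ (V i).nonunits, (algebraMap A0 E π)⁻¹ * z ^ e i ∈ V i)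
    (inj : Function.Injective V)
    (only : ∀ W : ValuationSubring E, ssm_tw_Over K R' W → ∃ i, W = V i) :
    s36tp_Hyp (algebraMap A0 (Algebra.adjoin A0 ({algebraMap K E x} : Set E)) π) V e := by
  have hxEA : Transcendental A0 (algebraMap K E x) := fc_ff_transcendental (L := L) hxE
  have hxA : Transcendental A0 x :=
    (transcendental_algebraMap_iff (algebraMap K E).injective).1 hxEA
  exact s36tp_ff_hyp (L := L) hπ hxE (fun i => s36tp_over_of_tw hxA VK hVK hover (hV i)) epos ram
    inj (fun W hW => only W (s36tp_tw_of_over hxA VK hVK hun hW))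

/-- **[TP3] the composite, with the level-`K` uniqueness from `π` prime on the chart of `K`.** -/
theorem s36tp_hyp_of_tw_of_prime [Algebra L K] [IsScalarTower A0 L K] {π : A0}
    (hπ : Irreducible π) {x : K} (hx : Transcendental L x) [FiniteDimensional L⟮x⟯ K]
    (hxE : Transcendental L (algebraMap K E x)) [FiniteDimensional L⟮algebraMap K E x⟯ E]
    (hprime : Prime (algebraMap A0 (fc_chart A0 ({x} : Set K)) π))
    (VK : ValuationSubring K) (hVK : ∀ z : K, z ∈ VK ↔ z ∈ (algebraMap R' K).range)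
    (hover : ssm_tp_Over (algebraMap A0 (Algebra.adjoin A0 ({x} : Set K)) π) VK)
    {V : ι → ValuationSubring E} {e : ι → ℕ}
    (hV : ∀ i, ssm_tw_Over K R' (V i)) (epos : ∀ i, 0 < e i)
    (ram : ∀ i, ∀ z ∈ (V i).nonunits, (algebraMap A0 E π)⁻¹ * z ^ e i ∈ V i)
    (inj : Function.Injective V)
    (only : ∀ W : ValuationSubring E, ssm_tw_Over K R' W → ∃ i, W = V i) :
    s36tp_Hyp (algebraMap A0 (Algebra.adjoin A0 ({algebraMap K E x} : Set E)) π) V e :=
  s36tp_hyp_of_tw (L := L) hπ hxE VK hVK hover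
    (fun _ hV' => ssm_tpw_ff_unique (L := L) hπ hx hprime hV' hover) hV epos ram inj only

/-- **the named form**: three valuation subrings `VA, VB, VC` of `E` over `R'`; `π'` (the image of
`π` in `R'`) is a uniformiser of `VA` and of `VB` (form of `ssm_tw_unif1`), and `π' = u · z ^ eC`
with `u` a unit and `z` a uniformiser of `VC` (form of [VAL3-V]). -/
theorem s36tp_hyp_of_tw_three {π : A0} (hπ : Irreducible π) {x : K}
    (hxE : Transcendental L (algebraMap K E x)) [FiniteDimensional L⟮algebraMap K E x⟯ E]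
    (VK : ValuationSubring K) (hVK : ∀ z : K, z ∈ VK ↔ z ∈ (algebraMap R' K).range)
    (hover : ssm_tp_Over (algebraMap A0 (Algebra.adjoin A0 ({x} : Set K)) π) VK)
    (hun : ∀ V' : ValuationSubring K,
      ssm_tp_Over (algebraMap A0 (Algebra.adjoin A0 ({x} : Set K)) π) V' → V' = VK)
    (π' : R') (hππ' : algebraMap R' K π' = algebraMap A0 K π)
    {VA VB VC : ValuationSubring E}
    (hVA : ssm_tw_Over K R' VA) (hVB : ssm_tw_Over K R' VB) (hVC : ssm_tw_Over K R' VC)
    (unifA : ∀ a ∈ VA.nonunits, ∃ b ∈ VA, a = algebraMap R' E π' * b)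
    (unifB : ∀ a ∈ VB.nonunits, ∃ b ∈ VB, a = algebraMap R' E π' * b)
    {eC : ℕ} (heC : 0 < eC) (z u : E)
    (unifC : ∀ a ∈ VC.nonunits, ∃ b ∈ VC, a = z * b)
    (hun' : u ∉ VC.nonunits) (hram : algebraMap R' E π' = u * z ^ eC)
    (hAB : VA ≠ VB) (hAC : VA ≠ VC) (hBC : VB ≠ VC)
    (only : ∀ W : ValuationSubring E, ssm_tw_Over K R' W → W = VA ∨ W = VB ∨ W = VC) :
    s36tp_Hyp (algebraMap A0 (Algebra.adjoin A0 ({algebraMap K E x} : Set E)) π)
      ![VA, VB, VC] ![1, 1, eC] := by
  have hxEA : Transcendental A0 (algebraMap K E x) := fc_ff_transcendental (L := L) hxE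
  have hxA : Transcendental A0 x :=
    (transcendental_algebraMap_iff (algebraMap K E).injective).1 hxEA
  have hπE : algebraMap R' E π' = algebraMap A0 E π := by
    rw [IsScalarTower.algebraMap_apply R' K E, hππ', ← IsScalarTower.algebraMap_apply]
  have hϖ0 : algebraMap A0 E π ≠ 0 := by
    rw [IsScalarTower.algebraMap_apply A0 L E]
    exact (map_ne_zero_iff _ (algebraMap L E).injective).2
      ((map_ne_zero_iff _ (IsFractionRing.injective A0 L)).2 hπ.ne_zero)
  have hu0 : u ≠ 0 := ssm_tp_ne_zero VC hun'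
  have hz0 : z ^ eC ≠ 0 := by
    intro h0
    apply hϖ0
    rw [← hπE, hram, h0, mul_zero]
  have H3 := s36tp_hyp_of_tw (L := L) (ι := Fin 3) hπ hxE VK hVK hover hun
    (V := ![VA, VB, VC]) (e := ![1, 1, eC])
    (s36tp_forall_fin3.2 ⟨hVA, hVB, hVC⟩) (s36tp_forall_fin3.2 ⟨Nat.one_pos, Nat.one_pos, heC⟩)
    (s36tp_forall_fin3.2 ⟨?_, ?_, ?_⟩) ?_ ?_
  · exact H3
  · intro a ha
    obtain ⟨b, hb, rfl⟩ := unifA a ha
    change (algebraMap A0 E π)⁻¹ * (algebraMap R' E π' * b) ^ 1 ∈ VA
    rw [pow_one, hπE, ← mul_assoc, inv_mul_cancel₀ hϖ0, one_mul]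
    exact hb
  · intro a ha
    obtain ⟨b, hb, rfl⟩ := unifB a ha
    change (algebraMap A0 E π)⁻¹ * (algebraMap R' E π' * b) ^ 1 ∈ VB
    rw [pow_one, hπE, ← mul_assoc, inv_mul_cancel₀ hϖ0, one_mul]
    exact hb
  · intro a ha
    obtain ⟨b, hb, rfl⟩ := unifC a ha
    change (algebraMap A0 E π)⁻¹ * (z * b) ^ eC ∈ VC
    have h1 : (algebraMap A0 E π)⁻¹ * (z * b) ^ eC = u⁻¹ * b ^ eC := by
      rw [← hπE, hram, mul_pow, mul_inv]
      field_simp
    rw [h1]
    exact VC.mul_mem _ _ (ssm_tp_inv_mem VC hun') (VC.pow_mem hb _)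
  · intro i j hij
    fin_cases i <;> fin_cases j
    · rfl
    · exact absurd hij hAB
    · exact absurd hij hAC
    · exact absurd hij.symm hAB
    · rfl
    · exact absurd hij hBC
    · exact absurd hij.symm hAC
    · exact absurd hij.symm hBC
    · rfl
  · intro W hW
    rcases only W hW with h | h | h
    · exact ⟨0, h⟩
    · exact ⟨1, h⟩
    · exact ⟨2, h⟩

end BridgeW

end Fermat.Agent.S36
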