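/-
Project S36 (Carayol), cell [M2], leaf [V3-ASM], ABSTRACT part (helper29; prefix `s36t3_`):
THE THREE VERTICAL VALUATIONS `VA, VB, VC` OF THE TOP LEVEL FROM THE MIDDLE LEVEL.

* `s36t3_Third K R q π z VA VC` : the package "third valuation" over a DVR `R` of the middle field
  `K` (`K ⊆ E` finite separable of degree `q`; in the application `(K, R) = (E₁, VF)`): `VA`, `VC`
  are the only valuation subrings of `E` over `R`, `𝔪_R S = Q_A Q_C^(q-1)`, `f = 1` twice,
  `π` is a uniformiser of `VA`, `z` a uniformiser of `VC`, `π = u z^(q-1)` at `VC`, `z` a unit of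
  `VA`, the residue fields of `VA`, `VC` are the residue field of `R`;
* `s36t3_third` : the package from the hypotheses of `s36vv_main` (S36/Model/Val3V.lean):
  `e(VA) = f(VA) = 1` (helper15's Val3Hyp), `z ∈ 𝔪(V)` for `V ≠ VA` (helper26's `s36i_third`),
  `N_{E/K}(z) ≠ π² c` (helper8's [THETA]);
* `s36t3_hyp` : the middle level `K ∋ x` carries the two valuations `VF, VV` of S34
  (`H1 : ssm_tp_Hyp π VF VV` over `A0[x]`), `RF`, `RV` are their rings, `T : s36t3_Third K RF …` the
  package over `VF`, `DB : s36i_Data K RV q VB t r` the one-valuation data over `VV` (helper26's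
  (I-B)).  Then `s36tp_Hyp π ![VA, VB, VC] ![1, 1, q - 1]` (helper24's [TP3]) over `A0[x] ⊆ E`.
-/
import Mathlib
import Fermat.Agent.S36.Model.Val3V
import Fermat.Agent.S36.Model.Primes3W

set_option autoImplicit false
set_option linter.unusedSectionVars false
set_option linter.style.haveILetI false

open Fermat.Agent.JT3 Fermat.Agent.SS IsLocalRing IsDedekindDomain

namespace Fermat.Agent.S36

section Third

variable (K : Type*) {E : Type*} [Field K] [Field E] [Algebra K E] [FiniteDimensional K E]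
  [Algebra.IsSeparable K E]
  (R : Type*) [CommRing R] [IsDomain R] [IsDiscreteValuationRing R] [Algebra R K]
  [IsFractionRing R K] [Algebra R E] [IsScalarTower R K E]

/-- **the third-valuation package** over the DVR `R` of `K`. -/
structure s36t3_Third (q : ℕ) (π : R) (z : E) (VA VC : ValuationSubring E) : Prop where
  overA : ssm_tw_Over K R VA
  overC : ssm_tw_Over K R VC
  ne : VC ≠ VA
  only : ∀ V : ValuationSubring E, ssm_tw_Over K R V → V = VA ∨ V = VC
  centre_ne : ssm_tw_centre K R VA overA ≠ ssm_tw_centre K R VC overC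
  map_eq : (maximalIdeal R).map (algebraMap R ↥(integralClosure R E)) =
    ssm_tw_centre K R VA overA * ssm_tw_centre K R VC overC ^ (q - 1)
  fA : (ssm_tw_centre K R VA overA).inertiaDeg R = 1
  fC : (ssm_tw_centre K R VC overC).inertiaDeg R = 1
  z_int : IsIntegral R z
  z_unitA : z ∈ VA ∧ z ∉ VA.nonunits
  unifA : ∀ a : E, a ∈ VA.nonunits ↔ ∃ b ∈ VA, a = algebraMap R E π * b
  unifC : ∀ a : E, a ∈ VC.nonunits ↔ ∃ b ∈ VC, a = z * b
  ramC : ∃ u : E, u ∈ VC ∧ u⁻¹ ∈ VC ∧ algebraMap R E π = u * z ^ (q - 1)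
  resA : ∀ a ∈ VA, ∃ r : R, a - algebraMap R E r ∈ VA.nonunits
  resC : ∀ a ∈ VC, ∃ r : R, a - algebraMap R E r ∈ VC.nonunits

variable {K R}

include K in
/-- `z ∈ 𝔪(VC)`. -/
theorem s36t3_Third.z_mem {q : ℕ} {π : R} {z : E} {VA VC : ValuationSubring E}
    (T : s36t3_Third K R q π z VA VC) : z ∈ VC.nonunits :=
  (T.unifC z).2 ⟨1, VC.one_mem, (mul_one z).symm⟩

include K in
/-- the `ram` clause of [TP3] at `VC`. -/
theorem s36t3_Third.ram_mem {q : ℕ} {π : R} {z : E} {VA VC : ValuationSubring E}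
    (T : s36t3_Third K R q π z VA VC) (a : E) (ha : a ∈ VC.nonunits) :
    (algebraMap R E π)⁻¹ * a ^ (q - 1) ∈ VC := by
  obtain ⟨u, hu, hu', hπu⟩ := T.ramC
  obtain ⟨b, hb, rfl⟩ := (T.unifC a).1 ha
  by_cases hπ0 : algebraMap R E π = 0
  · rw [hπ0, inv_zero, zero_mul]
    exact VC.zero_mem
  have hu0 : u ≠ 0 := by
    rintro rfl
    rw [zero_mul] at hπu
    exact hπ0 hπu
  have hzn : z ^ (q - 1) ≠ 0 := by
    intro h
    rw [h, mul_zero] at hπu
    exact hπ0 hπu
  have e : (algebraMap R E π)⁻¹ * (z * b) ^ (q - 1) = u⁻¹ * b ^ (q - 1) := by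
    rw [hπu, mul_pow]
    field_simp
  rw [e]
  exact VC.mul_mem _ _ hu' (pow_mem hb _)

include K in
/-- **the package from the hypotheses of `s36vv_main`.** -/
theorem s36t3_third [CharZero K] {q : ℕ} (hq : 2 ≤ q) (hrank : Module.finrank K E = q)
    (π : R) (hπ : Irreducible π)
    {VA : ValuationSubring E} (hVA : ssm_tw_Over K R VA)
    (heA : (ssm_tw_centre K R VA hVA).ramificationIdx R = 1)
    (hfA : (ssm_tw_centre K R VA hVA).inertiaDeg R = 1)
    (z : E) (hzi : IsIntegral R z)
    (hz : ∀ V : ValuationSubring E, ssm_tw_Over K R V → V ≠ VA → z ∈ V.nonunits)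
    (hN : ∀ c : R, Algebra.norm K z ≠ algebraMap R K (π ^ 2 * c)) :
    ∃ VC : ValuationSubring E, s36t3_Third K R q π z VA VC := by
  obtain ⟨hD, hF, hfin, hfree, hrk⟩ := ssm_tw_inst K (E := E) R
  haveI := hD
  haveI := hF
  haveI := hfin
  haveI := hfree
  have hinj : Function.Injective (algebraMap R E) := by
    rw [IsScalarTower.algebraMap_eq R K E]
    exact (algebraMap K E).injective.comp (IsFractionRing.injective R K)
  haveI : FaithfulSMul R E := (faithfulSMul_iff_algebraMap_injective R E).2 hinj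
  haveI : Module.IsTorsionFree R E := inferInstance
  haveI : Module.IsTorsionFree R ↥(integralClosure R E) := inferInstance
  haveI : CharZero R := (algebraMap R K).charZero
  haveI : CharZero (FractionRing R) :=
    charZero_of_injective_algebraMap (IsFractionRing.injective R (FractionRing R))
  haveI : PerfectField (FractionRing R) := PerfectField.ofCharZero
  set zS : ↥(integralClosure R E) := ⟨z, hzi⟩ with hzS
  have hNS : Algebra.norm R zS ∉ maximalIdeal R ^ 2 := s36vv_norm_not_mem π hπ zS hN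
  obtain ⟨VC, hVC, hne, honly, hcne, hmap, hfC, heC, hzC, hzC2⟩ :=
    s36vv_main hq hrank hVA heA hfA zS hz hNS
  haveI hPA : (ssm_tw_centre K R VA hVA).IsMaximal := ssm_tw_centre_isMaximal hVA
  haveI hPC : (ssm_tw_centre K R VC hVC).IsMaximal := ssm_tw_centre_isMaximal hVC
  haveI : (ssm_tw_centre K R VA hVA).LiesOver (maximalIdeal R) :=
    ⟨(ssm_tw_comap_centre hVA).symm⟩
  haveI : (ssm_tw_centre K R VC hVC).LiesOver (maximalIdeal R) :=
    ⟨(ssm_tw_comap_centre hVC).symm⟩
  -- `z ∉ Q_A`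
  have hzA : zS ∉ ssm_tw_centre K R VA hVA := by
    intro hmem
    apply (Algebra.intNorm_eq_norm R ↥(integralClosure R E) ▸ hNS :
      Algebra.intNorm R ↥(integralClosure R E) zS ∉ maximalIdeal R ^ 2)
    have hcop : IsCoprime (ssm_tw_centre K R VA hVA) (ssm_tw_centre K R VC hVC) :=
      Ideal.isCoprime_of_isMaximal hcne
    have hmem2 : zS ∈ ssm_tw_centre K R VA hVA * ssm_tw_centre K R VC hVC := by
      rw [Ideal.mul_eq_inf_of_isCoprime hcop]
      exact ⟨hmem, hzC⟩
    refine s36v_norm_mem_sq (maximalIdeal R) _ ?_ hmem2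
    rw [map_mul, s36v_relNorm_prime (maximalIdeal R) (ssm_tw_centre K R VA hVA),
      s36v_relNorm_prime (maximalIdeal R) (ssm_tw_centre K R VC hVC), hfA, hfC, ← pow_add]
  -- `π ∈ Q_A ∖ Q_A²`
  have hπA1 : algebraMap R ↥(integralClosure R E) π ∈ ssm_tw_centre K R VA hVA :=
    ssm_tw_map_le_centre hVA (Ideal.mem_map_of_mem _ ((mem_maximalIdeal _).2 hπ.not_isUnit))
  have hspan : (maximalIdeal R).map (algebraMap R ↥(integralClosure R E)) =
      Ideal.span {algebraMap R ↥(integralClosure R E) π} := by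
    rw [hπ.maximalIdeal_eq, Ideal.map_span, Set.image_singleton]
  have hπA2 : algebraMap R ↥(integralClosure R E) π ∉ ssm_tw_centre K R VA hVA ^ 2 := by
    intro h
    have h1 : ssm_tw_centre K R VA hVA * ssm_tw_centre K R VC hVC ^ (q - 1) ≤
        ssm_tw_centre K R VA hVA ^ 2 := by
      rw [← hmap, hspan, Ideal.span_singleton_le_iff_mem]
      exact h
    have h2 : ssm_tw_centre K R VA hVA ^ 2 ∣
        ssm_tw_centre K R VA hVA * ssm_tw_centre K R VC hVC ^ (q - 1) := Ideal.dvd_iff_le.2 h1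
    rw [pow_two] at h2
    have h0 : ssm_tw_centre K R VA hVA ≠ 0 := ssm_tw_centre_ne_bot hVA
    have h3 : ssm_tw_centre K R VA hVA ∣ ssm_tw_centre K R VC hVC ^ (q - 1) :=
      (mul_dvd_mul_iff_left h0).1 h2
    have h4 : ssm_tw_centre K R VC hVC ^ (q - 1) ≤ ssm_tw_centre K R VA hVA :=
      Ideal.dvd_iff_le.1 h3
    have h5 : ssm_tw_centre K R VC hVC ≤ ssm_tw_centre K R VA hVA :=
      (ssm_tw_centre_isPrime hVA).le_of_pow_le h4
    exact hcne (hPC.eq_of_le (ssm_tw_centre_isPrime hVA).ne_top h5).symm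
  refine ⟨VC, hVC |> fun hVC' => ⟨hVA, hVC', hne, honly, hcne, hmap, hfA, hfC, hzi,
    s36vv_unit_of_not_mem hVA zS hzA, ?_, s36vv_unif hVC' zS hzC hzC2,
    s36vv_ram hVA hVC' hcne hmap π hπ zS hzC hzC2, s36vv_res hVA hfA, s36vv_res hVC' hfC⟩⟩
  exact s36vv_unif hVA (algebraMap R ↥(integralClosure R E) π) hπA1 hπA2

end Third

section Tower

open IntermediateField Polynomial

universe v

variable {K : Type*} {E : Type v} [Field K] [Field E] [Algebra K E] [FiniteDimensional K E]
  [Algebra.IsSeparable K E]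
  {RF : Type*} [CommRing RF] [IsDomain RF] [IsDiscreteValuationRing RF] [Algebra RF K]
  [IsFractionRing RF K] [Algebra RF E] [IsScalarTower RF K E]
  {RV : Type*} [CommRing RV] [IsDomain RV] [IsDiscreteValuationRing RV] [Algebra RV K]
  [IsFractionRing RV K] [Algebra RV E] [IsScalarTower RV K E]
  {A0 L : Type*} [CommRing A0] [IsDomain A0] [IsDiscreteValuationRing A0]
  [Field L] [Algebra A0 L] [IsFractionRing A0 L] [Algebra L E] [Algebra A0 E]
  [IsScalarTower A0 L E] [Algebra A0 K] [IsScalarTower A0 K E]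

omit [FiniteDimensional K E] [Algebra.IsSeparable K E] [IsDomain RF]
  [IsDiscreteValuationRing RF] [IsFractionRing RF K] in
/-- a valuation subring of `E` whose restriction to `K` is `VF` lies over the ring `RF` of `VF`. -/
theorem s36t3_tw_of_comap {VF : ValuationSubring K}
    (hRF : ∀ y : K, y ∈ VF ↔ y ∈ (algebraMap RF K).range) {V : ValuationSubring E}
    (h : V.comap (algebraMap K E) = VF) : ssm_tw_Over K RF V := by
  intro y
  rw [← hRF y, ← h, ValuationSubring.mem_comap]

omit [FiniteDimensional K E] [Algebra.IsSeparable K E] [IsDomain RF]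
  [IsDiscreteValuationRing RF] [IsFractionRing RF K] in
/-- the restriction to `K` of a valuation subring of `E` over the ring `RF` of `VF` is `VF`. -/
theorem s36t3_comap_of_tw {VF : ValuationSubring K}
    (hRF : ∀ y : K, y ∈ VF ↔ y ∈ (algebraMap RF K).range) {V : ValuationSubring E}
    (h : ssm_tw_Over K RF V) : V.comap (algebraMap K E) = VF := by
  ext y
  rw [ValuationSubring.mem_comap, h y, hRF y]

/-- **[V3-ASM], abstract**: the hypotheses of [TP3] for the three valuations `VA, VB, VC` of the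
top level, from the two valuations `VF, VV` of the middle level (S34), the third-valuation package
over `VF` and the one-valuation data over `VV`. -/
theorem s36t3_hyp {π : A0} (hπ : Irreducible π) {x : K}
    (hxE : Transcendental L (algebraMap K E x)) [FiniteDimensional L⟮algebraMap K E x⟯ E]
    {VF VV : ValuationSubring K}
    (H1 : ssm_tp_Hyp (algebraMap A0 (Algebra.adjoin A0 ({x} : Set K)) π) VF VV)
    (hRF : ∀ y : K, y ∈ VF ↔ y ∈ (algebraMap RF K).range)
    (hRV : ∀ y : K, y ∈ VV ↔ y ∈ (algebraMap RV K).range)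
    (πF : RF) (hπF : algebraMap RF K πF = algebraMap A0 K π)
    (πV : RV) (hπV : Irreducible πV) (hπV' : algebraMap RV K πV = algebraMap A0 K π)
    {q : ℕ} (hq : 2 ≤ q) {z : E} {VA VB VC : ValuationSubring E}
    (T : s36t3_Third K RF q πF z VA VC)
    {t : E} {r : RV} (DB : s36i_Data K RV q VB t r) :
    s36tp_Hyp (algebraMap A0 (Algebra.adjoin A0 ({algebraMap K E x} : Set E)) π)
      ![VA, VB, VC] ![1, 1, q - 1] := by
  have hxEA : Transcendental A0 (algebraMap K E x) := fc_ff_transcendental (L := L) hxE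
  have hxA : Transcendental A0 x :=
    (transcendental_algebraMap_iff (algebraMap K E).injective).1 hxEA
  have hπFE : algebraMap RF E πF = algebraMap A0 E π := by
    rw [IsScalarTower.algebraMap_apply RF K E, hπF, ← IsScalarTower.algebraMap_apply]
  have hπVE : algebraMap RV E πV = algebraMap A0 E π := by
    rw [IsScalarTower.algebraMap_apply RV K E, hπV', ← IsScalarTower.algebraMap_apply]
  have hϖ0 : algebraMap A0 E π ≠ 0 := by
    rw [IsScalarTower.algebraMap_apply A0 L E]
    exact (map_ne_zero_iff _ (algebraMap L E).injective).2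
      ((map_ne_zero_iff _ (IsFractionRing.injective A0 L)).2 hπ.ne_zero)
  have hcA : VA.comap (algebraMap K E) = VF := s36t3_comap_of_tw hRF T.overA
  have hcC : VC.comap (algebraMap K E) = VF := s36t3_comap_of_tw hRF T.overC
  have hcB : VB.comap (algebraMap K E) = VV := s36t3_comap_of_tw hRV DB.overR
  have hAB : VA ≠ VB := by
    intro h
    apply H1.ne
    rw [← hcA, ← hcB, h]
  have hBC : VB ≠ VC := by
    intro h
    apply H1.ne
    rw [← hcC, ← hcB, h]
  refine s36tp_ff_hyp (L := L) hπ hxE (s36tp_forall_fin3.2 ⟨?_, ?_, ?_⟩)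
    (s36tp_forall_fin3.2 ⟨Nat.one_pos, Nat.one_pos, Nat.sub_pos_of_lt hq⟩)
    (s36tp_forall_fin3.2 ⟨?_, ?_, ?_⟩) ?_ ?_
  · exact (ssm_tpw_over_comap_iff hxA π VA).2 (by rw [hcA]; exact H1.over1)
  · exact (ssm_tpw_over_comap_iff hxA π VB).2 (by rw [hcB]; exact H1.over2)
  · exact (ssm_tpw_over_comap_iff hxA π VC).2 (by rw [hcC]; exact H1.over1)
  · intro a ha
    obtain ⟨b, hb, rfl⟩ := (T.unifA a).1 ha
    change (algebraMap A0 E π)⁻¹ * (algebraMap RF E πF * b) ^ 1 ∈ VA
    rw [pow_one, hπFE, ← mul_assoc, inv_mul_cancel₀ hϖ0, one_mul]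
    exact hb
  · intro a ha
    obtain ⟨b, hb, rfl⟩ := (s36i_unif DB πV hπV a).1 ha
    change (algebraMap A0 E π)⁻¹ * (algebraMap RV E πV * b) ^ 1 ∈ VB
    rw [pow_one, hπVE, ← mul_assoc, inv_mul_cancel₀ hϖ0, one_mul]
    exact hb
  · intro a ha
    have h1 := T.ram_mem a ha
    rw [hπFE] at h1
    exact h1
  · intro i j hij
    fin_cases i <;> fin_cases j
    · rfl
    · exact absurd hij hAB
    · exact absurd hij T.ne.symm
    · exact absurd hij.symm hAB
    · rfl
    · exact absurd hij hBC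
    · exact absurd hij.symm T.ne.symm
    · exact absurd hij.symm hBC
    · rfl
  · intro W hW
    have h1 := (ssm_tpw_over_comap_iff hxA π W).1 hW
    rcases H1.only _ h1 with h | h
    · rcases T.only W (s36t3_tw_of_comap hRF h) with h2 | h2
      · exact ⟨0, h2⟩
      · exact ⟨2, h2⟩
    · exact ⟨1, s36i_unique DB W (s36t3_tw_of_comap hRV h)⟩

end Tower

section Invol

open Polynomial

variable {A0 : Type*} {F0 : Type*} [CommRing A0] [IsDomain A0] [Field F0] [Algebra A0 F0]

omit [IsDomain A0] in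
/-- `p(x₂) - p(x) ∈ (x₂ - x) V` for a polynomial `p` over `A0 ⊆ V` and `x, x₂ ∈ V`. -/
theorem s36t3_aeval_sub (V : ValuationSubring F0) (hle : ∀ a : A0, algebraMap A0 F0 a ∈ V)
    {x x2 : F0} (hx : x ∈ V) (hx2 : x2 ∈ V) (p : A0[X]) :
    ∃ c ∈ V, aeval x2 p - aeval x p = (x2 - x) * c := by
  let g : A0 →+* ↥V := (algebraMap A0 F0).codRestrict V.toSubring hle
  have key : ∀ (y : F0) (hy : y ∈ V), (((p.map g).eval ⟨y, hy⟩ : ↥V) : F0) = aeval y p := by
    intro y hy
    rw [Polynomial.eval_map, Polynomial.aeval_def]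
    exact Polynomial.hom_eval₂ p g V.subtype ⟨y, hy⟩
  obtain ⟨c, hc⟩ := Polynomial.sub_dvd_eval_sub (⟨x2, hx2⟩ : ↥V) ⟨x, hx⟩ (p.map g)
  refine ⟨c, c.2, ?_⟩
  rw [← key x2 hx2, ← key x hx]
  have := congrArg (fun t : ↥V => (t : F0)) hc
  simpa using this

/-- a ring automorphism `W` fixing `A0` with `W x ≡ x mod 𝔪(V)` preserves "`V` lies over the Gauss
ring of `A0[x]`". -/
theorem s36t3_over_comap_W {π : A0} {x : F0} (hx : Transcendental A0 x) (W : F0 ≃+* F0)
    (hWA : ∀ a : A0, W (algebraMap A0 F0 a) = algebraMap A0 F0 a) {V : ValuationSubring F0}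
    (hV : ssm_tp_Over (algebraMap A0 (Algebra.adjoin A0 ({x} : Set F0)) π) V)
    (h2 : W x - x ∈ V.nonunits) :
    ssm_tp_Over (algebraMap A0 (Algebra.adjoin A0 ({x} : Set F0)) π)
      (V.comap (W : F0 →+* F0)) := by
  rw [ssm_tpw_over_iff_poly hx] at hV ⊢
  let Walg : F0 →ₐ[A0] F0 := { (W : F0 →+* F0) with commutes' := hWA }
  have hWp : ∀ p : A0[X], W (aeval x p) = aeval (W x) p := fun p =>
    (Polynomial.aeval_algHom_apply Walg x p).symm
  have hle : ∀ a : A0, algebraMap A0 F0 a ∈ V := by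
    intro a
    have := (hV (C a)).1
    rwa [aeval_C] at this
  have hxV : x ∈ V := by
    have := (hV X).1
    rwa [aeval_X] at this
  have hWxV : W x ∈ V := by
    have e : W x = x + (W x - x) := by ring
    rw [e]
    exact V.add_mem _ _ hxV (ssm_tw_nonunits_le V h2)
  intro p
  obtain ⟨h1, h3⟩ := hV p
  obtain ⟨c, hc, e⟩ := s36t3_aeval_sub V hle hxV hWxV p
  have hd : aeval (W x) p - aeval x p ∈ V.nonunits := by
    rw [e, mul_comm]
    exact ssm_tw_nonunits_mul V hc h2
  constructor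
  · rw [ValuationSubring.mem_comap]
    show W (aeval x p) ∈ V
    rw [hWp]
    have e2 : aeval (W x) p = aeval x p + (aeval (W x) p - aeval x p) := by ring
    rw [e2]
    exact V.add_mem _ _ h1 (ssm_tw_nonunits_le V hd)
  · rw [ssm_tw_nonunits_comap, hWp, ← h3]
    constructor
    · intro h
      have e2 : aeval x p = aeval (W x) p - (aeval (W x) p - aeval x p) := by ring
      rw [e2]
      exact ssm_tw_nonunits_sub V h hd
    · intro h
      have e2 : aeval (W x) p = aeval x p + (aeval (W x) p - aeval x p) := by ring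
      rw [e2]
      exact ssm_tw_nonunits_add V h hd

end Invol

section InvolFF

open IntermediateField

universe v

variable {A0 L : Type*} {F0 : Type v} [CommRing A0] [IsDomain A0] [IsDiscreteValuationRing A0]
  [Field L] [Field F0] [Algebra A0 L] [IsFractionRing A0 L] [Algebra L F0] [Algebra A0 F0]
  [IsScalarTower A0 L F0]

/-- **`W₂` fixes `VC`**: if `W` is an involution of `F0` fixing `A0` with `VB = W(VA)` and
`W x ≡ x mod 𝔪(VC)`, then `W(VC) = VC`. -/
theorem s36t3_comap_W_eq {π : A0} {x : F0} (hx : Transcendental L x)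
    {VA VB VC : ValuationSubring F0} {e : Fin 3 → ℕ}
    (H : s36tp_Hyp (algebraMap A0 (Algebra.adjoin A0 ({x} : Set F0)) π) ![VA, VB, VC] e)
    (W : F0 ≃+* F0) (hWW : ∀ y, W (W y) = y)
    (hWA : ∀ a : A0, W (algebraMap A0 F0 a) = algebraMap A0 F0 a)
    (hVB : VB = VA.comap (W : F0 →+* F0)) (h2 : W x - x ∈ VC.nonunits) :
    VC.comap (W : F0 →+* F0) = VC := by
  have hxA : Transcendental A0 x := fc_ff_transcendental (L := L) hx
  have hcc : ∀ V : ValuationSubring F0,
      (V.comap (W : F0 →+* F0)).comap (W : F0 →+* F0) = V := by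
    intro V
    ext y
    rw [ValuationSubring.mem_comap, ValuationSubring.mem_comap]
    show W (W y) ∈ V ↔ y ∈ V
    rw [hWW]
  have hoC : ssm_tp_Over (algebraMap A0 (Algebra.adjoin A0 ({x} : Set F0)) π) VC := H.ovr 2
  have hover := s36t3_over_comap_W hxA W hWA hoC h2
  obtain ⟨i, hi⟩ := H.only _ hover
  have hBC : VB ≠ VC := fun h => by
    have := H.inj (show (![VA, VB, VC] : Fin 3 → ValuationSubring F0) 1 = ![VA, VB, VC] 2 from h)
    exact absurd this (by decide)
  have hAC : VA ≠ VC := fun h => by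
    have := H.inj (show (![VA, VB, VC] : Fin 3 → ValuationSubring F0) 0 = ![VA, VB, VC] 2 from h)
    exact absurd this (by decide)
  fin_cases i
  · -- `W(VC) = VA`: then `VC = W(VA) = VB`
    exfalso
    apply hBC
    have h3 : VC.comap (W : F0 →+* F0) = VA := hi
    rw [hVB, ← h3, hcc]
  · -- `W(VC) = VB = W(VA)`: then `VC = VA`
    exfalso
    apply hAC
    have h3 : VC.comap (W : F0 →+* F0) = VB := hi
    rw [← hcc VA, ← hVB, ← h3, hcc]
  · exact hi

end InvolFF

end Fermat.Agent.S36
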