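/-
Project S36 (Carayol), [M2] layer 1, leaf [V3-INST](0), CENTRE FORMS + LEGENDRE INSTANCE (helper15).
Prefix `s36vh_`.

Generic Gauss form (context of helper26's `S36/Ins1/ThirdGauss.lean`): `E1 ≤ E2 ≤ Quot(O((X)))`
inside `L((X))`, `VF` = the Gauss ring of `E1`, `VA` = the Gauss valuation subring of `E2`
(inclusion algebras `ssm_gi_algebra`, `ssm_gi_algebraV`), `[E2 : E1]` finite:

* `s36vh_gauss_pi`   : the uniformiser `π` of `VF` maps to the constant `π` of `E2`;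
* `s36vh_gauss_unif` : `π` generates `𝔪(VA)`;
* `s36vh_gauss_heA`  : `e(centre of VA | 𝔪(VF)) = 1`   (`heA` of `s36v_main` / `s36vv_main`);
* `s36vh_gauss_hfA`  : `f(centre of VA | 𝔪(VF)) = 1` from the element form of `κ(VA) = κ(VF)`.

Legendre tower [LEG-CTX], `E₁ = lg_E L (N' q) ≤ E₂ = lg_E L (N' q q)`, `VF = ssm_gl_V1`,
`VA = s36i_VA`, `hVA = s36i_leg_overA` (helper26):

* `s36vh_leg_finrank`, `s36vh_leg_heA`, `s36vh_leg_hfA` (element form of `hfA` = helper17's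
  `s36cp_ra_leg_mid`).
-/
import Mathlib
import Fermat.Agent.S36.Val3Hyp
import Fermat.Agent.S36.Model.ResAInst
import Fermat.Agent.S36.PEquiv2.DegE

set_option autoImplicit false
set_option linter.unusedSectionVars false
set_option linter.unusedVariables false
set_option linter.style.haveILetI false

noncomputable section

open ModularCurve IntermediateField IsLocalRing
open Fermat.Agent.JT3 Fermat.Agent.SS

namespace Fermat.Agent.S36

section Gauss

variable {L : Type*} [Field L] [CharZero L] (O : ValuationSubring L) [IsDiscreteValuationRing O]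
  {π : O} (hπ : Irreducible π)
variable (E1 E2 : IntermediateField L (LaurentSeries L))
variable (h12 : E1 ≤ E2) (hE2 : E2 ≤ gq_quotField O L)

/-- the uniformiser of the Gauss ring of `E1` is the constant `π` of `E2`. -/
theorem s36vh_gauss_pi :
    letI := ssm_gi_algebra h12
    letI := ssm_gi_algebraV h12 (gq_valSubOf π hπ.ne_zero hπ.maximalIdeal_eq E1 (h12.trans hE2))
    algebraMap ↥(gq_valSubOf π hπ.ne_zero hπ.maximalIdeal_eq E1 (h12.trans hE2)) ↥E2
        (gq_unif π hπ.ne_zero hπ.maximalIdeal_eq E1 (h12.trans hE2)) =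
      algebraMap L ↥E2 (algebraMap ↥O L π) :=
  Subtype.ext rfl

/-- `π` generates the maximal ideal of the Gauss valuation subring of `E2`. -/
theorem s36vh_gauss_unif (a : ↥E2)
    (ha : a ∈ (gq_valSubOf π hπ.ne_zero hπ.maximalIdeal_eq E2 hE2).nonunits) :
    letI := ssm_gi_algebra h12
    letI := ssm_gi_algebraV h12 (gq_valSubOf π hπ.ne_zero hπ.maximalIdeal_eq E1 (h12.trans hE2))
    ∃ b ∈ gq_valSubOf π hπ.ne_zero hπ.maximalIdeal_eq E2 hE2,
      a = algebraMap ↥(gq_valSubOf π hπ.ne_zero hπ.maximalIdeal_eq E1 (h12.trans hE2)) ↥E2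
        (gq_unif π hπ.ne_zero hπ.maximalIdeal_eq E1 (h12.trans hE2)) * b := by
  letI := ssm_gi_algebra h12
  letI := ssm_gi_algebraV h12 (gq_valSubOf π hπ.ne_zero hπ.maximalIdeal_eq E1 (h12.trans hE2))
  rw [ValuationSubring.mem_nonunits_iff_exists_mem_maximalIdeal] at ha
  obtain ⟨ha1, ha2⟩ := ha
  rw [gq_mem_maximalIdeal_iff] at ha2
  obtain ⟨w, hw, haw⟩ := ha2
  refine ⟨w, hw, ?_⟩
  rw [s36vh_gauss_pi O hπ E1 E2 h12 hE2]
  exact haw

/-- **`heA`, generic Gauss form**: `e(centre of Gauss(E2) | 𝔪(Gauss E1)) = 1`. -/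
theorem s36vh_gauss_heA {n : ℕ} (hrank : IntermediateField.relfinrank E1 E2 = n + 1) :
    letI := ssm_gi_algebra h12
    letI := ssm_gi_algebraV h12 (gq_valSubOf π hπ.ne_zero hπ.maximalIdeal_eq E1 (h12.trans hE2))
    haveI := ssm_gi_isScalarTower h12
      (gq_valSubOf π hπ.ne_zero hπ.maximalIdeal_eq E1 (h12.trans hE2))
    (ssm_tw_centre ↥E1 ↥(gq_valSubOf π hπ.ne_zero hπ.maximalIdeal_eq E1 (h12.trans hE2))
      (gq_valSubOf π hπ.ne_zero hπ.maximalIdeal_eq E2 hE2)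
      (s36i_gauss_over O hπ E1 E2 h12 hE2)).ramificationIdx
        ↥(gq_valSubOf π hπ.ne_zero hπ.maximalIdeal_eq E1 (h12.trans hE2)) = 1 := by
  letI := ssm_gi_algebra h12
  letI := ssm_gi_algebraV h12 (gq_valSubOf π hπ.ne_zero hπ.maximalIdeal_eq E1 (h12.trans hE2))
  haveI := ssm_gi_isScalarTower h12
    (gq_valSubOf π hπ.ne_zero hπ.maximalIdeal_eq E1 (h12.trans hE2))
  haveI : FiniteDimensional ↥E1 ↥E2 :=
    ssm_gi_finiteDimensional ((ssm_gt_finrank_eq h12).trans hrank)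
  haveI : Algebra.IsSeparable ↥E1 ↥E2 := ssm_gi_isSeparable
  exact s36vh_ramificationIdx_one (s36i_gauss_over O hπ E1 E2 h12 hE2)
    (gq_unif π hπ.ne_zero hπ.maximalIdeal_eq E1 (h12.trans hE2))
    (ssm_ga_unif_irreducible π hπ.ne_zero hπ.maximalIdeal_eq E1 (h12.trans hE2))
    (fun a ha => s36vh_gauss_unif O hπ E1 E2 h12 hE2 a ha)

/-- **`hfA`, generic Gauss form**: `f(centre of Gauss(E2) | 𝔪(Gauss E1)) = 1` from the element
form of `κ(Gauss E2) = κ(Gauss E1)`. -/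
theorem s36vh_gauss_hfA {n : ℕ} (hrank : IntermediateField.relfinrank E1 E2 = n + 1)
    (hres : ∀ a : ↥E2, a ∈ gq_valSubOf π hπ.ne_zero hπ.maximalIdeal_eq E2 hE2 →
      ∃ y : ↥(gq_valSubOf π hπ.ne_zero hπ.maximalIdeal_eq E1 (h12.trans hE2)),
        a - IntermediateField.inclusion h12 (y : ↥E1) ∈
          (gq_valSubOf π hπ.ne_zero hπ.maximalIdeal_eq E2 hE2).nonunits) :
    letI := ssm_gi_algebra h12
    letI := ssm_gi_algebraV h12 (gq_valSubOf π hπ.ne_zero hπ.maximalIdeal_eq E1 (h12.trans hE2))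
    haveI := ssm_gi_isScalarTower h12
      (gq_valSubOf π hπ.ne_zero hπ.maximalIdeal_eq E1 (h12.trans hE2))
    (ssm_tw_centre ↥E1 ↥(gq_valSubOf π hπ.ne_zero hπ.maximalIdeal_eq E1 (h12.trans hE2))
      (gq_valSubOf π hπ.ne_zero hπ.maximalIdeal_eq E2 hE2)
      (s36i_gauss_over O hπ E1 E2 h12 hE2)).inertiaDeg
        ↥(gq_valSubOf π hπ.ne_zero hπ.maximalIdeal_eq E1 (h12.trans hE2)) = 1 := by
  letI := ssm_gi_algebra h12
  letI := ssm_gi_algebraV h12 (gq_valSubOf π hπ.ne_zero hπ.maximalIdeal_eq E1 (h12.trans hE2))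
  haveI := ssm_gi_isScalarTower h12
    (gq_valSubOf π hπ.ne_zero hπ.maximalIdeal_eq E1 (h12.trans hE2))
  haveI : FiniteDimensional ↥E1 ↥E2 :=
    ssm_gi_finiteDimensional ((ssm_gt_finrank_eq h12).trans hrank)
  haveI : Algebra.IsSeparable ↥E1 ↥E2 := ssm_gi_isSeparable
  exact s36vh_inertiaDeg_one (s36i_gauss_over O hπ E1 E2 h12 hE2) (fun a ha => hres a ha)

end Gauss

section Legendre

variable {L : Type*} [Field L] [CharZero L] [Algebra L (AlgebraicClosure ℚ)]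
  (O : ValuationSubring L) [IsDiscreteValuationRing O] {π : O} (hπ : Irreducible π)
variable (N' q : ℕ) [NeZero N'] [NeZero q] [hq : Fact q.Prime] [CharP (ResidueField O) q]
  (hq2 : ¬ 2 ∣ q) (hqN' : ¬ q ∣ N')

include hq2 in
/-- `[E₂ : E₁] = q` (inclusion algebra). -/
theorem s36vh_leg_finrank :
    letI := ssm_gi_algebra (ssm_al_E_le L (N' * q) q)
    Module.finrank ↥(lg_E L (N' * q)) ↥(lg_E L (N' * q * q)) = q :=
  (ssm_gt_finrank_eq (ssm_al_E_le L (N' * q) q)).trans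
    (s36pe_relfinrank_E L (N' * q) q hq.out hq2 (Dvd.intro_left N' rfl))

include hq2 in
/-- **`heA`, Legendre tower**: `e(centre of VA | 𝔪(VF)) = 1`. -/
theorem s36vh_leg_heA :
    letI := ssm_gi_algebra (ssm_al_E_le L (N' * q) q)
    letI := ssm_gi_algebraV (ssm_al_E_le L (N' * q) q) (ssm_gl_V1 O hπ N' q)
    haveI := ssm_gi_isScalarTower (ssm_al_E_le L (N' * q) q) (ssm_gl_V1 O hπ N' q)
    (ssm_tw_centre ↥(lg_E L (N' * q)) ↥(ssm_gl_V1 O hπ N' q) (s36i_VA O hπ (N' * q) q)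
      (s36i_leg_overA O hπ N' q)).ramificationIdx ↥(ssm_gl_V1 O hπ N' q) = 1 :=
  s36vh_gauss_heA O hπ (lg_E L (N' * q)) (lg_E L (N' * q * q)) (ssm_al_E_le L (N' * q) q)
    (ssm_ga_E_le_quotField O (N' * q * q)) (n := q - 1)
    ((s36pe_relfinrank_E L (N' * q) q hq.out hq2 (Dvd.intro_left N' rfl)).trans
      (Nat.sub_add_cancel hq.out.one_le).symm)

include hq2 hqN' in
/-- **`hfA`, Legendre tower**: `f(centre of VA | 𝔪(VF)) = 1`. -/
theorem s36vh_leg_hfA :
    letI := ssm_gi_algebra (ssm_al_E_le L (N' * q) q)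
    letI := ssm_gi_algebraV (ssm_al_E_le L (N' * q) q) (ssm_gl_V1 O hπ N' q)
    haveI := ssm_gi_isScalarTower (ssm_al_E_le L (N' * q) q) (ssm_gl_V1 O hπ N' q)
    (ssm_tw_centre ↥(lg_E L (N' * q)) ↥(ssm_gl_V1 O hπ N' q) (s36i_VA O hπ (N' * q) q)
      (s36i_leg_overA O hπ N' q)).inertiaDeg ↥(ssm_gl_V1 O hπ N' q) = 1 :=
  s36vh_gauss_hfA O hπ (lg_E L (N' * q)) (lg_E L (N' * q * q)) (ssm_al_E_le L (N' * q) q)
    (ssm_ga_E_le_quotField O (N' * q * q)) (n := q - 1)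
    ((s36pe_relfinrank_E L (N' * q) q hq.out hq2 (Dvd.intro_left N' rfl)).trans
      (Nat.sub_add_cancel hq.out.one_le).symm)
    (fun a ha => s36cp_ra_leg_mid O hπ N' q hq2 hqN' a ha)

end Legendre

end Fermat.Agent.S36
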