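import Mathlib
import Fermat.Agent.S36.Model.ThreeAbs
import Fermat.Agent.S36.Model.Integral2
import Fermat.Agent.S36.Model.Cusps2
import Fermat.Agent.S36.Ins1.LegB
import Fermat.Agent.S36.Ins1.RestrLeg
import Fermat.Agent.S36.Val3Hyp
import Fermat.Agent.S36.Model.Val3HypLeg
import Fermat.Agent.S36.Ins1.ThirdLeg
import Fermat.Agent.S36.Model.ResAInst
import Fermat.Agent.S36.Theta.HN
import Fermat.Agent.SS.Model.FinalLeg

set_option autoImplicit false
set_option linter.unusedSectionVars false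
set_option linter.unusedVariables false
set_option linter.style.haveILetI false

noncomputable section

open ModularCurve IntermediateField IsLocalRing
open Fermat.Agent.JT3 Fermat.Agent.SS

namespace Fermat.Agent.S36

section Abs

variable {K : Type*} {E : Type*} [Field K] [Field E] [Algebra K E]
  {R : Type*} [CommRing R] [IsDomain R] [IsDiscreteValuationRing R] [Algebra R K]
  [IsFractionRing R K]

/-- the norm hypothesis of `s36t3_third` from the form delivered by [THETA]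
(`s36th_leg_hN` / `s36th_hes_hN`). -/
theorem s36t3_hN_of_mul (π : R) (hπ : Irreducible π) (z : E)
    (h : ∃ c w : R, c ∉ maximalIdeal R ^ 2 ∧
      Algebra.norm K z * algebraMap R K w = algebraMap R K c) :
    ∀ c' : R, Algebra.norm K z ≠ algebraMap R K (π ^ 2 * c') := by
  intro c' he
  obtain ⟨c, w, hc, h⟩ := h
  apply hc
  rw [he, ← map_mul] at h
  have h1 : π ^ 2 * c' * w = c := IsFractionRing.injective R K h
  rw [← h1, hπ.maximalIdeal_eq, Ideal.span_singleton_pow, Ideal.mem_span_singleton]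
  exact ⟨c' * w, by ring⟩

end Abs

section Abs2

variable (K : Type*) {E : Type*} [Field K] [Field E] [Algebra K E] [FiniteDimensional K E]
  [Algebra.IsSeparable K E]
  (R : Type*) [CommRing R] [IsDomain R] [IsDiscreteValuationRing R] [Algebra R K]
  [IsFractionRing R K] [Algebra R E] [IsScalarTower R K E]

variable {K R}

include K in
/-- an element lying in every valuation subring of `E` over `R` is integral over `R`. -/
theorem s36t3_integral_of_forall (a : E)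
    (h : ∀ V : ValuationSubring E, ssm_tw_Over K R V → a ∈ V) : IsIntegral R a := by
  obtain ⟨hD, hF, hfin, hfree, hrk⟩ := ssm_tw_inst K (E := E) R
  haveI := hD
  haveI := hF
  let I : Ideal ↥(integralClosure R E) :=
    { carrier := {d | (d : E) * a ∈ integralClosure R E}
      add_mem' := by
        intro d e hd he
        show ((d + e : ↥(integralClosure R E)) : E) * a ∈ integralClosure R E
        push_cast
        rw [add_mul]
        exact (integralClosure R E).add_mem hd he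
      zero_mem' := by
        show ((0 : ↥(integralClosure R E)) : E) * a ∈ integralClosure R E
        push_cast
        rw [zero_mul]
        exact (integralClosure R E).zero_mem
      smul_mem' := by
        intro c d hd
        show ((c * d : ↥(integralClosure R E)) : E) * a ∈ integralClosure R E
        push_cast
        rw [mul_assoc]
        exact (integralClosure R E).mul_mem c.2 hd }
  have hItop : I = ⊤ := by
    by_contra hne
    obtain ⟨M, hM, hIM⟩ := Ideal.exists_le_maximal I hne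
    haveI := hM
    have hMc : M.comap (algebraMap R ↥(integralClosure R E)) = maximalIdeal R :=
      IsLocalRing.eq_maximalIdeal (Ideal.isMaximal_comap_of_isIntegral_of_isMaximal M)
    haveI : M.IsPrime := hM.isPrime
    obtain ⟨V, hV, hVM⟩ := s36i_exists_val_of_prime K R M hMc
    obtain ⟨x1, t1, ht1, h1⟩ := (ssm_tw_bridge hV a).1 (h V hV)
    apply ht1
    rw [hVM]
    apply hIM
    show (t1 : E) * a ∈ integralClosure R E
    rw [mul_comm, h1]
    exact x1.2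
  have h1I : (1 : ↥(integralClosure R E)) ∈ I := by rw [hItop]; exact Submodule.mem_top
  have : ((1 : ↥(integralClosure R E)) : E) * a ∈ integralClosure R E := h1I
  rw [OneMemClass.coe_one, one_mul] at this
  exact this

end Abs2

section Legendre

variable {L : Type*} [Field L] [CharZero L] [Algebra L (AlgebraicClosure ℚ)]
  (O : ValuationSubring L) [IsDiscreteValuationRing O] {π : O} (hπ : Irreducible π)
variable (N' q : ℕ) [NeZero N'] [NeZero q] [hq : Fact q.Prime] [CharP (ResidueField O) q]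
  (hq2 : ¬ 2 ∣ q) (hqN' : ¬ q ∣ N')

/-- the uniformiser `π` as an element of `VV`. -/
def s36t3_piV : ↥(s36i_VV O hπ N' q hq2 hqN') :=
  (s36i_comapEquiv (ssm_gl_V1 O hπ N' q) (ssm_gl_W L N' q hq2 hqN')).symm
    (gq_unif π hπ.ne_zero hπ.maximalIdeal_eq (lg_E L (N' * q)) (ssm_ga_E_le_quotField O (N' * q)))

theorem s36t3_piV_irreducible : Irreducible (s36t3_piV O hπ N' q hq2 hqN') :=
  (MulEquiv.irreducible_iff
    (s36i_comapEquiv (ssm_gl_V1 O hπ N' q) (ssm_gl_W L N' q hq2 hqN')).symm).2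
    (ssm_ga_unif_irreducible π hπ.ne_zero hπ.maximalIdeal_eq (lg_E L (N' * q))
      (ssm_ga_E_le_quotField O (N' * q)))

theorem s36t3_coe_piV :
    ((s36t3_piV O hπ N' q hq2 hqN' : ↥(s36i_VV O hπ N' q hq2 hqN')) : ↥(lg_E L (N' * q))) =
      algebraMap ↥O ↥(lg_E L (N' * q)) π := by
  show (ssm_gl_W L N' q hq2 hqN').symm
    (algebraMap L ↥(lg_E L (N' * q)) (algebraMap O L π)) = _
  rw [RingEquiv.symm_apply_eq]
  exact ((ssm_al_WE L N' q hq.out hq2 hqN').commutes (algebraMap O L π)).symm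

include hqN' in
/-- **the third-valuation package on the Legendre tower**, from the three instance inputs
`e = f = 1` ([V3-INST](0)), `hz` ([V3-INST](i)) and integrality of `λ₂ - λ`. -/
theorem s36t3_leg_third_of (u : ↥O) (hu : IsUnit u) (hqu : ((q : ℕ) : ↥O) = π * u) :
    letI := ssm_gi_algebra (ssm_al_E_le L (N' * q) q)
    letI := ssm_gi_algebraV (ssm_al_E_le L (N' * q) q) (ssm_gl_V1 O hπ N' q)
    letI : IsScalarTower ↥(ssm_gl_V1 O hπ N' q) ↥(lg_E L (N' * q)) ↥(lg_E L (N' * q * q)) :=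
      ssm_gi_isScalarTower (ssm_al_E_le L (N' * q) q) (ssm_gl_V1 O hπ N' q)
    ∀ (hVA : ssm_tw_Over ↥(lg_E L (N' * q)) ↥(ssm_gl_V1 O hπ N' q) (s36i_VA O hπ (N' * q) q))
      (heA : (ssm_tw_centre ↥(lg_E L (N' * q)) ↥(ssm_gl_V1 O hπ N' q)
        (s36i_VA O hπ (N' * q) q) hVA).ramificationIdx ↥(ssm_gl_V1 O hπ N' q) = 1)
      (hfA : (ssm_tw_centre ↥(lg_E L (N' * q)) ↥(ssm_gl_V1 O hπ N' q)
        (s36i_VA O hπ (N' * q) q) hVA).inertiaDeg ↥(ssm_gl_V1 O hπ N' q) = 1)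
      (hzi : IsIntegral ↥(ssm_gl_V1 O hπ N' q)
        (s36i_lam2 L N' q hq2 - lg_lamE (N' * q * q)))
      (hz : ∀ V : ValuationSubring ↥(lg_E L (N' * q * q)),
        ssm_tw_Over ↥(lg_E L (N' * q)) ↥(ssm_gl_V1 O hπ N' q) V →
        V ≠ s36i_VA O hπ (N' * q) q →
        s36i_lam2 L N' q hq2 - lg_lamE (N' * q * q) ∈ V.nonunits),
      ∃ VC : ValuationSubring ↥(lg_E L (N' * q * q)),
        s36t3_Third ↥(lg_E L (N' * q)) ↥(ssm_gl_V1 O hπ N' q) q
          (gq_unif π hπ.ne_zero hπ.maximalIdeal_eq (lg_E L (N' * q))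
            (ssm_ga_E_le_quotField O (N' * q)))
          (s36i_lam2 L N' q hq2 - lg_lamE (N' * q * q)) (s36i_VA O hπ (N' * q) q) VC := by
  letI := ssm_gi_algebra (ssm_al_E_le L (N' * q) q)
  letI := ssm_gi_algebraV (ssm_al_E_le L (N' * q) q) (ssm_gl_V1 O hπ N' q)
  letI : IsScalarTower ↥(ssm_gl_V1 O hπ N' q) ↥(lg_E L (N' * q)) ↥(lg_E L (N' * q * q)) :=
    ssm_gi_isScalarTower (ssm_al_E_le L (N' * q) q) (ssm_gl_V1 O hπ N' q)
  intro hVA heA hfA hzi hz
  have hfr : Module.finrank ↥(lg_E L (N' * q)) ↥(lg_E L (N' * q * q)) = q :=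
    (ssm_gt_finrank_eq (ssm_al_E_le L (N' * q) q)).trans
      (s36pe_relfinrank_E L (N' * q) q hq.out hq2 (Dvd.intro_left N' rfl))
  haveI : FiniteDimensional ↥(lg_E L (N' * q)) ↥(lg_E L (N' * q * q)) :=
    Module.finite_of_finrank_pos (by rw [hfr]; exact hq.out.pos)
  haveI : Algebra.IsSeparable ↥(lg_E L (N' * q)) ↥(lg_E L (N' * q * q)) := ssm_gi_isSeparable
  haveI : CharZero ↥(lg_E L (N' * q)) :=
    charZero_of_injective_algebraMap (algebraMap L ↥(lg_E L (N' * q))).injective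
  refine s36t3_third hq.out.two_le hfr _
    (ssm_ga_unif_irreducible π hπ.ne_zero hπ.maximalIdeal_eq (lg_E L (N' * q))
      (ssm_ga_E_le_quotField O (N' * q))) hVA heA hfA _ hzi hz ?_
  refine s36t3_hN_of_mul _ (ssm_ga_unif_irreducible π hπ.ne_zero hπ.maximalIdeal_eq
    (lg_E L (N' * q)) (ssm_ga_E_le_quotField O (N' * q))) _ ?_
  exact s36th_leg_hN O hπ N' q hq2 hqN' u hu hqu

include hqN' in
set_option synthInstance.maxHeartbeats 200000 in
/-- **[TP3] on the Legendre tower**: the hypotheses `s36tp_Hyp` for `![VA, VB, VC]`,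
`![1, 1, q - 1]` over `O[λ] ⊆ E₂`, from the third-valuation package. -/
theorem s36t3_leg_hyp_of
    (hprime : Prime (algebraMap ↥O (fc_chart ↥O ({lg_lamE N'} : Set ↥(lg_E L N'))) π)) :
    letI := ssm_gi_algebra (ssm_al_E_le L (N' * q) q)
    letI := ssm_gi_algebraV (ssm_al_E_le L (N' * q) q) (ssm_gl_V1 O hπ N' q)
    letI : IsScalarTower ↥(ssm_gl_V1 O hπ N' q) ↥(lg_E L (N' * q)) ↥(lg_E L (N' * q * q)) :=
      ssm_gi_isScalarTower (ssm_al_E_le L (N' * q) q) (ssm_gl_V1 O hπ N' q)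
    ∀ (VC : ValuationSubring ↥(lg_E L (N' * q * q))),
      s36t3_Third ↥(lg_E L (N' * q)) ↥(ssm_gl_V1 O hπ N' q) q
        (gq_unif π hπ.ne_zero hπ.maximalIdeal_eq (lg_E L (N' * q))
          (ssm_ga_E_le_quotField O (N' * q)))
        (s36i_lam2 L N' q hq2 - lg_lamE (N' * q * q)) (s36i_VA O hπ (N' * q) q) VC →
      s36tp_Hyp
        (algebraMap ↥O (Algebra.adjoin ↥O ({lg_lamE (N' * q * q)} : Set ↥(lg_E L (N' * q * q)))) π)
        ![s36i_VA O hπ (N' * q) q, s36i_VB O hπ N' q hq2 hqN', VC] ![1, 1, q - 1] := by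
  letI := ssm_gi_algebra (ssm_al_E_le L (N' * q) q)
  letI := ssm_gi_algebraV (ssm_al_E_le L (N' * q) q) (ssm_gl_V1 O hπ N' q)
  letI : IsScalarTower ↥(ssm_gl_V1 O hπ N' q) ↥(lg_E L (N' * q)) ↥(lg_E L (N' * q * q)) :=
    ssm_gi_isScalarTower (ssm_al_E_le L (N' * q) q) (ssm_gl_V1 O hπ N' q)
  letI := ssm_gi_algebraV (ssm_al_E_le L (N' * q) q) (s36i_VV O hπ N' q hq2 hqN')
  letI : IsScalarTower ↥(s36i_VV O hπ N' q hq2 hqN') ↥(lg_E L (N' * q)) ↥(lg_E L (N' * q * q)) :=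
    ssm_gi_isScalarTower (ssm_al_E_le L (N' * q) q) (s36i_VV O hπ N' q hq2 hqN')
  intro VC T
  have hfr : Module.finrank ↥(lg_E L (N' * q)) ↥(lg_E L (N' * q * q)) = q :=
    (ssm_gt_finrank_eq (ssm_al_E_le L (N' * q) q)).trans
      (s36pe_relfinrank_E L (N' * q) q hq.out hq2 (Dvd.intro_left N' rfl))
  haveI : FiniteDimensional ↥(lg_E L (N' * q)) ↥(lg_E L (N' * q * q)) :=
    Module.finite_of_finrank_pos (by rw [hfr]; exact hq.out.pos)
  haveI : Algebra.IsSeparable ↥(lg_E L (N' * q)) ↥(lg_E L (N' * q * q)) := ssm_gi_isSeparable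
  haveI := ssm_go_isScalarTower O (lg_E L (N' * q * q))
  haveI := ssm_go_isScalarTower O (lg_E L (N' * q))
  haveI := ssm_gt_isScalarTower O (ssm_al_E_le L (N' * q) q)
  have hxE : Transcendental L (algebraMap ↥(lg_E L (N' * q)) ↥(lg_E L (N' * q * q))
      (lg_lamE (N' * q))) := lgf_lam_transcendental L (N' * q * q) two_ne_zero
  haveI : FiniteDimensional
      L⟮algebraMap ↥(lg_E L (N' * q)) ↥(lg_E L (N' * q * q)) (lg_lamE (N' * q))⟯
      ↥(lg_E L (N' * q * q)) := lgf_finite L (N' * q * q)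
  have H1 := ssm_gl_hyp O hπ N' q hq2 hqN' hprime
  have key := s36t3_hyp (K := ↥(lg_E L (N' * q))) (E := ↥(lg_E L (N' * q * q)))
    (RF := ↥(ssm_gl_V1 O hπ N' q)) (RV := ↥(s36i_VV O hπ N' q hq2 hqN')) (A0 := ↥O) (L := L)
    hπ (x := lg_lamE (N' * q)) hxE H1
    (fun y => (ssm_gi_mem_range _ y).symm) (fun y => (ssm_gi_mem_range _ y).symm)
    (gq_unif π hπ.ne_zero hπ.maximalIdeal_eq (lg_E L (N' * q))
      (ssm_ga_E_le_quotField O (N' * q)))
    (ssm_go_unif O (lg_E L (N' * q)) hπ (ssm_ga_E_le_quotField O (N' * q)))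
    (s36t3_piV O hπ N' q hq2 hqN') (s36t3_piV_irreducible O hπ N' q hq2 hqN')
    (s36t3_coe_piV O hπ N' q hq2 hqN') hq.out.two_le T (s36i_leg_dataB O hπ N' q hq2 hqN')
  exact key

variable (L) in
/-- `λ(X^q)` as an element of `E₂`. -/
def s36t3_lam1 : ↥(lg_E L (N' * q * q)) :=
  ⟨qExpand L q (lg_lam L), s36mc_lam1_mem L (N' * q) q hq.out (ssm_fl_ne_two q hq2)⟩

/-- the reduction of `y(X^q)` has `𝔽_q`-coefficients if that of `y` has. -/
theorem s36t3_frobFixed_qExpand (y : LaurentSeries O) (hy : ssm_ga_FrobFixed q y) :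
    ssm_ga_FrobFixed q (qExpand O q y) := by
  unfold ssm_ga_FrobFixed at hy ⊢
  rw [coeffMap_qExpand, coeffMap_qExpand, hy]

/-- `λ₁ - λ^q ∈ 𝔪(V_A)`. -/
theorem s36t3_leg_bA1 :
    s36t3_lam1 L N' q hq2 - lg_lamE (N' * q * q) ^ q ∈ (s36i_VA O hπ (N' * q) q).nonunits := by
  refine ssm_ga_frob_mem_nonunits q π hπ.ne_zero hπ.maximalIdeal_eq (lg_E L (N' * q * q))
    (ssm_ga_E_le_quotField O (N' * q * q)) (hm_lam O) (ssm_ga_lam_frobFixed O q) _ ?_
  rw [hm_coeffMap_lam]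
  rfl

/-- `λ₂ - λ₁^q ∈ 𝔪(V_A)`. -/
theorem s36t3_leg_bA2 :
    s36i_lam2 L N' q hq2 - s36t3_lam1 L N' q hq2 ^ q ∈ (s36i_VA O hπ (N' * q) q).nonunits := by
  refine ssm_ga_frob_mem_nonunits q π hπ.ne_zero hπ.maximalIdeal_eq (lg_E L (N' * q * q))
    (ssm_ga_E_le_quotField O (N' * q * q)) (qExpand O q (hm_lam O))
    (s36t3_frobFixed_qExpand O q _ (ssm_ga_lam_frobFixed O q)) _ ?_
  rw [coeffMap_qExpand, hm_coeffMap_lam]
  rfl

theorem s36t3_W2_lam :
    s36i_W2 L N' q hq2 hqN' (lg_lamE (N' * q * q)) = s36i_lam2 L N' q hq2 :=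
  Subtype.ext (s36w_coe_WE_lam L N' q hq.out hq2 hqN' _)

theorem s36t3_W2_lam1 :
    s36i_W2 L N' q hq2 hqN' (s36t3_lam1 L N' q hq2) = s36t3_lam1 L N' q hq2 :=
  Subtype.ext (s36w_coe_WE_lam_mid L N' q hq.out hq2 hqN' _)

/-- `λ - λ₁^q ∈ 𝔪(V_B)`. -/
theorem s36t3_leg_bB1 :
    lg_lamE (N' * q * q) - s36t3_lam1 L N' q hq2 ^ q ∈
      (s36i_VB O hπ N' q hq2 hqN').nonunits := by
  rw [ssm_tw_nonunits_comap, map_sub, map_pow, s36t3_W2_lam, s36t3_W2_lam1]
  exact s36t3_leg_bA2 O hπ N' q hq2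

/-- `λ₁ - λ₂^q ∈ 𝔪(V_B)`. -/
theorem s36t3_leg_bB2 :
    s36t3_lam1 L N' q hq2 - s36i_lam2 L N' q hq2 ^ q ∈
      (s36i_VB O hπ N' q hq2 hqN').nonunits := by
  rw [ssm_tw_nonunits_comap, map_sub, map_pow, s36i_W2_lam2, s36t3_W2_lam1]
  exact s36t3_leg_bA1 O hπ N' q hq2

include hq2 in
/-- `λ ∈ V_A`. -/
theorem s36t3_leg_lam_mem : lg_lamE (N' * q * q) ∈ s36i_VA O hπ (N' * q) q := by
  letI := ssm_gi_algebra (ssm_al_E_beta_le L (N' * q) q hq2)
  letI := ssm_gi_algebraV (ssm_al_E_beta_le L (N' * q) q hq2) (s36i_RG O hπ (N' * q) q hq2)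
  exact (s36i_leg_dataA O hπ (N' * q) q hq2 (Dvd.intro_left N' rfl)).t_mem

/-- `λ₁ ∈ V_A`. -/
theorem s36t3_leg_lam1_mem : s36t3_lam1 L N' q hq2 ∈ s36i_VA O hπ (N' * q) q := by
  have h := add_mem
    (ssm_tw_nonunits_le _ (s36t3_leg_bA1 O hπ N' q hq2))
    (pow_mem (s36t3_leg_lam_mem O hπ N' q hq2) q)
  rwa [sub_add_cancel] at h

/-- `λ₂ ∈ V_A`. -/
theorem s36t3_leg_lam2_mem : s36i_lam2 L N' q hq2 ∈ s36i_VA O hπ (N' * q) q := by
  have h := add_mem
    (ssm_tw_nonunits_le _ (s36t3_leg_bA2 O hπ N' q hq2))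
    (pow_mem (s36t3_leg_lam1_mem O hπ N' q hq2) q)
  rwa [sub_add_cancel] at h

include hqN' in
/-- `λ₂ - λ` is integral over `V_F`. -/
theorem s36t3_leg_hzi :
    letI := ssm_gi_algebra (ssm_al_E_le L (N' * q) q)
    letI := ssm_gi_algebraV (ssm_al_E_le L (N' * q) q) (ssm_gl_V1 O hπ N' q)
    IsIntegral ↥(ssm_gl_V1 O hπ N' q) (s36i_lam2 L N' q hq2 - lg_lamE (N' * q * q)) := by
  letI := ssm_gi_algebra (ssm_al_E_le L (N' * q) q)
  letI := ssm_gi_algebraV (ssm_al_E_le L (N' * q) q) (ssm_gl_V1 O hπ N' q)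
  letI : IsScalarTower ↥(ssm_gl_V1 O hπ N' q) ↥(lg_E L (N' * q)) ↥(lg_E L (N' * q * q)) :=
    ssm_gi_isScalarTower (ssm_al_E_le L (N' * q) q) (ssm_gl_V1 O hπ N' q)
  have hfr : Module.finrank ↥(lg_E L (N' * q)) ↥(lg_E L (N' * q * q)) = q :=
    s36vh_leg_finrank N' q hq2
  haveI : FiniteDimensional ↥(lg_E L (N' * q)) ↥(lg_E L (N' * q * q)) :=
    Module.finite_of_finrank_pos (by rw [hfr]; exact hq.out.pos)
  haveI : Algebra.IsSeparable ↥(lg_E L (N' * q)) ↥(lg_E L (N' * q * q)) := ssm_gi_isSeparable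
  refine s36t3_integral_of_forall (K := ↥(lg_E L (N' * q))) _ ?_
  intro V hV
  by_cases hVA : V = s36i_VA O hπ (N' * q) q
  · rw [hVA]
    exact sub_mem (s36t3_leg_lam2_mem O hπ N' q hq2) (s36t3_leg_lam_mem O hπ N' q hq2)
  · exact ssm_tw_nonunits_le _ (s36i_leg_third O hπ N' q hq2 hqN' V hV hVA)

include hqN' in
/-- **[T3], Legendre tower, CLOSED**: the third valuation subring `V_C` of `E₂` over `V_F`. -/
theorem s36t3_leg_third (u : ↥O) (hu : IsUnit u) (hqu : ((q : ℕ) : ↥O) = π * u) :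
    letI := ssm_gi_algebra (ssm_al_E_le L (N' * q) q)
    letI := ssm_gi_algebraV (ssm_al_E_le L (N' * q) q) (ssm_gl_V1 O hπ N' q)
    letI : IsScalarTower ↥(ssm_gl_V1 O hπ N' q) ↥(lg_E L (N' * q)) ↥(lg_E L (N' * q * q)) :=
      ssm_gi_isScalarTower (ssm_al_E_le L (N' * q) q) (ssm_gl_V1 O hπ N' q)
    ∃ VC : ValuationSubring ↥(lg_E L (N' * q * q)),
      s36t3_Third ↥(lg_E L (N' * q)) ↥(ssm_gl_V1 O hπ N' q) q
        (gq_unif π hπ.ne_zero hπ.maximalIdeal_eq (lg_E L (N' * q))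
          (ssm_ga_E_le_quotField O (N' * q)))
        (s36i_lam2 L N' q hq2 - lg_lamE (N' * q * q)) (s36i_VA O hπ (N' * q) q) VC := by
  letI := ssm_gi_algebra (ssm_al_E_le L (N' * q) q)
  letI := ssm_gi_algebraV (ssm_al_E_le L (N' * q) q) (ssm_gl_V1 O hπ N' q)
  letI : IsScalarTower ↥(ssm_gl_V1 O hπ N' q) ↥(lg_E L (N' * q)) ↥(lg_E L (N' * q * q)) :=
    ssm_gi_isScalarTower (ssm_al_E_le L (N' * q) q) (ssm_gl_V1 O hπ N' q)
  exact s36t3_leg_third_of O hπ N' q hq2 hqN' u hu hqu (s36i_leg_overA O hπ N' q)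
    (s36vh_leg_heA O hπ N' q hq2) (s36vh_leg_hfA O hπ N' q hq2 hqN')
    (s36t3_leg_hzi O hπ N' q hq2 hqN')
    (fun V hV hne => s36i_leg_third O hπ N' q hq2 hqN' V hV hne)

end Legendre

end Fermat.Agent.S36
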