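/-
Project S36 (Carayol), cell [M2], layer 1 = [V3-ASM], LEGENDRE tower, part 2 (helper29; prefix
`s36t3_`).  [LEG-CTX].  From the third-valuation package `T : s36t3_Third ↥E₁ ↥VF q π_F (λ₂ - λ) VA VC`
(`s36t3_leg_third`, or helper15's `s36t3l_leg_third`, or helper26's `s36i_leg_towerPack`):

* `s36t3_leg_comap_W2` : `W₂(VC) = VC`;
* `s36t3_leg_bC1`, `s36t3_leg_bC2` : the Frobenius congruences at `VC`;
* `s36t3_leg_facts` : the integrality package `s36ig_Facts` of [I2];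
* `s36t3_leg_hWB`   : `W₂` preserves the charts `O[λ]~`, `O[λ⁻¹]~`, `O[λ, λ⁻¹]~`
                      (`hWB1`, `hWB2` of `s36cp_nf_one` / `s36gd_leg`);
* `s36t3_leg_pack`  : everything in one existential.
-/
import Mathlib
import Fermat.Agent.S36.Model.ThreeLeg
import Fermat.Agent.S36.Ins1.MirrorLeg

set_option autoImplicit false
set_option linter.unusedSectionVars false
set_option linter.unusedVariables false
set_option linter.style.haveILetI false

noncomputable section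

open ModularCurve IntermediateField IsLocalRing Polynomial
open Fermat.Agent.JT3 Fermat.Agent.SS

namespace Fermat.Agent.S36

section Abs

variable {K : Type*} {E : Type*} [Field K] [Field E] [Algebra K E]
  {R : Type*} [CommRing R] [IsDomain R] [IsDiscreteValuationRing R] [Algebra R K]
  [IsFractionRing R K] [Algebra R E] [IsScalarTower R K E]

/-- two valuation subrings of `E` with the same trace on `K` have the same maximal ideal on `K`. -/
theorem s36t3_nonunits_transfer {V V' : ValuationSubring E} (hV : ssm_tw_Over K R V)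
    (hV' : ssm_tw_Over K R V') (y : K) (h : algebraMap K E y ∈ V.nonunits) :
    algebraMap K E y ∈ V'.nonunits := by
  obtain ⟨r, rfl⟩ := (hV y).1 (ssm_tw_nonunits_le V h)
  rw [← IsScalarTower.algebraMap_apply] at h ⊢
  exact (ssm_tw_over_nonunits hV' r).2 ((ssm_tw_over_nonunits hV r).1 h)

end Abs

section Chart

variable {A0 : Type*} {F0 : Type*} [CommRing A0] [Field F0] [Algebra A0 F0]

/-- `q ∈ 𝔪(V)` for `V` over the Gauss ring of a chart, if `π ∣ q` in the base. -/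
theorem s36t3_natCast_mem {π : A0} {x : F0} {V : ValuationSubring F0}
    (o : ssm_tp_Over (algebraMap A0 (Algebra.adjoin A0 ({x} : Set F0)) π) V) (q : ℕ)
    (hq : π ∣ (q : A0)) : (q : F0) ∈ V.nonunits := by
  have h := (o.cen ((q : ℕ) : ↥(Algebra.adjoin A0 ({x} : Set F0)))).2 (by
    obtain ⟨c, hc⟩ := hq
    exact ⟨algebraMap A0 _ c, by rw [← map_mul, ← hc, map_natCast]⟩)
  rwa [map_natCast] at h

end Chart

section Semi

universe v

variable {A0 L : Type*} {F0 : Type v} [CommRing A0] [IsDomain A0] [IsDiscreteValuationRing A0]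
  [Field L] [Field F0] [Algebra A0 L] [IsFractionRing A0 L] [Algebra L F0] [Algebra A0 F0]
  [IsScalarTower A0 L F0]

/-- the semilocal property `s36ig_Semi` from the hypotheses of [TP3] on a chart `A0[x]`. -/
theorem s36t3_semi_of_hyp {x : F0} (hx : Transcendental L x) {π : A0}
    {VA VB VC : ValuationSubring F0} {e : Fin 3 → ℕ}
    (H : s36tp_Hyp (algebraMap A0 (Algebra.adjoin A0 ({x} : Set F0)) π) ![VA, VB, VC] e) :
    s36ig_Semi (algebraMap A0 (Algebra.adjoin A0 ({x} : Set F0)) π) VA VB VC := by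
  have hxA : Transcendental A0 x := fc_ff_transcendental (L := L) hx
  haveI : IsIntegrallyClosed (Algebra.adjoin A0 ({x} : Set F0)) := fc_ff_isIntegrallyClosed hxA
  exact s36tp_three_semilocal H

end Semi

section Legendre

variable {L : Type*} [Field L] [CharZero L] [Algebra L (AlgebraicClosure ℚ)]
  (O : ValuationSubring L) [IsDiscreteValuationRing O] {π : O} (hπ : Irreducible π)
variable (N' q : ℕ) [NeZero N'] [NeZero q] [hq : Fact q.Prime] [CharP (ResidueField O) q]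
  (hq2 : ¬ 2 ∣ q) (hqN' : ¬ q ∣ N')

include hπ in
/-- `π ∣ q` in `O`. -/
theorem s36t3_pi_dvd_q : π ∣ ((q : ℕ) : ↥O) := by
  have h : ((q : ℕ) : ↥O) ∈ maximalIdeal ↥O := by
    rw [← IsLocalRing.residue_eq_zero_iff, map_natCast]
    exact CharP.cast_eq_zero _ q
  rwa [hπ.maximalIdeal_eq, Ideal.mem_span_singleton] at h

/-- **`W₂(VC) = VC`**. -/
theorem s36t3_leg_comap_W2 {VC : ValuationSubring ↥(lg_E L (N' * q * q))}
    (T :
      letI := ssm_gi_algebra (ssm_al_E_le L (N' * q) q)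
      letI := ssm_gi_algebraV (ssm_al_E_le L (N' * q) q) (ssm_gl_V1 O hπ N' q)
      letI : IsScalarTower ↥(ssm_gl_V1 O hπ N' q) ↥(lg_E L (N' * q)) ↥(lg_E L (N' * q * q)) :=
        ssm_gi_isScalarTower (ssm_al_E_le L (N' * q) q) (ssm_gl_V1 O hπ N' q)
      s36t3_Third ↥(lg_E L (N' * q)) ↥(ssm_gl_V1 O hπ N' q) q
        (gq_unif π hπ.ne_zero hπ.maximalIdeal_eq (lg_E L (N' * q))
          (ssm_ga_E_le_quotField O (N' * q)))
        (s36i_lam2 L N' q hq2 - lg_lamE (N' * q * q)) (s36i_VA O hπ (N' * q) q) VC) :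
    VC.comap (s36i_W2 L N' q hq2 hqN' :
      ↥(lg_E L (N' * q * q)) →+* ↥(lg_E L (N' * q * q))) = VC := by
  letI := ssm_gi_algebra (ssm_al_E_le L (N' * q) q)
  letI := ssm_gi_algebraV (ssm_al_E_le L (N' * q) q) (ssm_gl_V1 O hπ N' q)
  letI : IsScalarTower ↥(ssm_gl_V1 O hπ N' q) ↥(lg_E L (N' * q)) ↥(lg_E L (N' * q * q)) :=
    ssm_gi_isScalarTower (ssm_al_E_le L (N' * q) q) (ssm_gl_V1 O hπ N' q)
  exact s36i_leg_W2_VC O hπ N' q hq2 hqN' VC T.overC T.ne T.only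

/-- `λ₁ - λ^q ∈ 𝔪(V_C)`. -/
theorem s36t3_leg_bC1 {VC : ValuationSubring ↥(lg_E L (N' * q * q))}
    (T :
      letI := ssm_gi_algebra (ssm_al_E_le L (N' * q) q)
      letI := ssm_gi_algebraV (ssm_al_E_le L (N' * q) q) (ssm_gl_V1 O hπ N' q)
      letI : IsScalarTower ↥(ssm_gl_V1 O hπ N' q) ↥(lg_E L (N' * q)) ↥(lg_E L (N' * q * q)) :=
        ssm_gi_isScalarTower (ssm_al_E_le L (N' * q) q) (ssm_gl_V1 O hπ N' q)
      s36t3_Third ↥(lg_E L (N' * q)) ↥(ssm_gl_V1 O hπ N' q) q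
        (gq_unif π hπ.ne_zero hπ.maximalIdeal_eq (lg_E L (N' * q))
          (ssm_ga_E_le_quotField O (N' * q)))
        (s36i_lam2 L N' q hq2 - lg_lamE (N' * q * q)) (s36i_VA O hπ (N' * q) q) VC) :
    s36t3_lam1 L N' q hq2 - lg_lamE (N' * q * q) ^ q ∈ VC.nonunits := by
  letI := ssm_gi_algebra (ssm_al_E_le L (N' * q) q)
  letI := ssm_gi_algebraV (ssm_al_E_le L (N' * q) q) (ssm_gl_V1 O hπ N' q)
  letI : IsScalarTower ↥(ssm_gl_V1 O hπ N' q) ↥(lg_E L (N' * q)) ↥(lg_E L (N' * q * q)) :=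
    ssm_gi_isScalarTower (ssm_al_E_le L (N' * q) q) (ssm_gl_V1 O hπ N' q)
  have h := s36t3_nonunits_transfer (K := ↥(lg_E L (N' * q))) (R := ↥(ssm_gl_V1 O hπ N' q))
    T.overA T.overC (s36i_lam1 L N' q hq2 - lg_lamE (N' * q) ^ q)
    (by
      rw [map_sub, map_pow]
      exact s36t3_leg_bA1 O hπ N' q hq2)
  rw [map_sub, map_pow] at h
  exact h

include hqN' in
/-- `λ₁ - λ₂^q ∈ 𝔪(V_C)`. -/
theorem s36t3_leg_bC2 {VC : ValuationSubring ↥(lg_E L (N' * q * q))}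
    (T :
      letI := ssm_gi_algebra (ssm_al_E_le L (N' * q) q)
      letI := ssm_gi_algebraV (ssm_al_E_le L (N' * q) q) (ssm_gl_V1 O hπ N' q)
      letI : IsScalarTower ↥(ssm_gl_V1 O hπ N' q) ↥(lg_E L (N' * q)) ↥(lg_E L (N' * q * q)) :=
        ssm_gi_isScalarTower (ssm_al_E_le L (N' * q) q) (ssm_gl_V1 O hπ N' q)
      s36t3_Third ↥(lg_E L (N' * q)) ↥(ssm_gl_V1 O hπ N' q) q
        (gq_unif π hπ.ne_zero hπ.maximalIdeal_eq (lg_E L (N' * q))
          (ssm_ga_E_le_quotField O (N' * q)))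
        (s36i_lam2 L N' q hq2 - lg_lamE (N' * q * q)) (s36i_VA O hπ (N' * q) q) VC) :
    s36t3_lam1 L N' q hq2 - s36i_lam2 L N' q hq2 ^ q ∈ VC.nonunits := by
  have h1 := s36t3_leg_bC1 O hπ N' q hq2 T
  rw [← s36t3_leg_comap_W2 O hπ N' q hq2 hqN' T, ssm_tw_nonunits_comap, map_sub, map_pow,
    s36t3_W2_lam, s36t3_W2_lam1] at h1
  exact h1

include hqN' in
set_option synthInstance.maxHeartbeats 200000 in
/-- **[I2] on the Legendre tower**: the integrality package for `(λ, λ₁, λ₂)`, `c = X - 1` and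
`VA, VB, VC`, from [TP3] (`H`) and the third-valuation package (`T`). -/
theorem s36t3_leg_facts {VC : ValuationSubring ↥(lg_E L (N' * q * q))}
    (H : s36tp_Hyp
      (algebraMap ↥O (Algebra.adjoin ↥O ({lg_lamE (N' * q * q)} : Set ↥(lg_E L (N' * q * q)))) π)
      ![s36i_VA O hπ (N' * q) q, s36i_VB O hπ N' q hq2 hqN', VC] ![1, 1, q - 1])
    (T :
      letI := ssm_gi_algebra (ssm_al_E_le L (N' * q) q)
      letI := ssm_gi_algebraV (ssm_al_E_le L (N' * q) q) (ssm_gl_V1 O hπ N' q)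
      letI : IsScalarTower ↥(ssm_gl_V1 O hπ N' q) ↥(lg_E L (N' * q)) ↥(lg_E L (N' * q * q)) :=
        ssm_gi_isScalarTower (ssm_al_E_le L (N' * q) q) (ssm_gl_V1 O hπ N' q)
      s36t3_Third ↥(lg_E L (N' * q)) ↥(ssm_gl_V1 O hπ N' q) q
        (gq_unif π hπ.ne_zero hπ.maximalIdeal_eq (lg_E L (N' * q))
          (ssm_ga_E_le_quotField O (N' * q)))
        (s36i_lam2 L N' q hq2 - lg_lamE (N' * q * q)) (s36i_VA O hπ (N' * q) q) VC) :
    s36ig_Facts ↥O q (lg_lamE (N' * q * q)) (s36t3_lam1 L N' q hq2) (s36i_lam2 L N' q hq2)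
      (X - 1) (s36i_VA O hπ (N' * q) q) (s36i_VB O hπ N' q hq2 hqN') VC := by
  haveI := ssm_go_isScalarTower O (lg_E L (N' * q * q))
  have hx : Transcendental L (lg_lamE (L := L) (N' * q * q)) :=
    lgf_lam_transcendental L (N' * q * q) two_ne_zero
  haveI : FiniteDimensional L⟮lg_lamE (L := L) (N' * q * q)⟯ ↥(lg_E L (N' * q * q)) :=
    lgf_finite L (N' * q * q)
  have oA : ssm_tp_Over (algebraMap ↥O (Algebra.adjoin ↥O
      ({lg_lamE (N' * q * q)} : Set ↥(lg_E L (N' * q * q)))) π) (s36i_VA O hπ (N' * q) q) := H.ovr 0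
  have oB : ssm_tp_Over (algebraMap ↥O (Algebra.adjoin ↥O
      ({lg_lamE (N' * q * q)} : Set ↥(lg_E L (N' * q * q)))) π) (s36i_VB O hπ N' q hq2 hqN') :=
    H.ovr 1
  have oC : ssm_tp_Over (algebraMap ↥O (Algebra.adjoin ↥O
      ({lg_lamE (N' * q * q)} : Set ↥(lg_E L (N' * q * q)))) π) VC := H.ovr 2
  have hd := s36t3_pi_dvd_q O hπ q
  exact s36ig_main_leg (L := L) hπ hx oA oB oC (s36t3_semi_of_hyp (L := L) hx H)
    (s36t3_semi_of_hyp (L := L) (fun h => hx (IsAlgebraic.inv_iff.mp h))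
      (s36tp_ff_hyp_inv (L := L) hπ hx H)) q
    (s36t3_natCast_mem oA q hd) (s36t3_natCast_mem oB q hd) (s36t3_natCast_mem oC q hd)
    (s36t3_leg_bA1 O hπ N' q hq2) (s36t3_leg_bA2 O hπ N' q hq2)
    (s36t3_leg_bB1 O hπ N' q hq2 hqN') (s36t3_leg_bB2 O hπ N' q hq2 hqN')
    (s36t3_leg_bC1 O hπ N' q hq2 T) (s36t3_leg_bC2 O hπ N' q hq2 hqN' T)
    (s36mc_cuspFacts01 L (N' * q) q hq.out (ssm_fl_ne_two q hq2))
    (s36mc_cuspFacts02 L (N' * q) q hq.out (ssm_fl_ne_two q hq2) (Dvd.intro_left N' rfl))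

include hqN' in
set_option synthInstance.maxHeartbeats 200000 in
/-- **`W₂` preserves the charts** `O[λ]~`, `O[λ⁻¹]~`, `O[λ, λ⁻¹]~` of `E₂` (`hWB1`, `hWB2` of
`s36cp_nf_one` / `s36gd_leg`). -/
theorem s36t3_leg_hWB {VC : ValuationSubring ↥(lg_E L (N' * q * q))}
    (H : s36tp_Hyp
      (algebraMap ↥O (Algebra.adjoin ↥O ({lg_lamE (N' * q * q)} : Set ↥(lg_E L (N' * q * q)))) π)
      ![s36i_VA O hπ (N' * q) q, s36i_VB O hπ N' q hq2 hqN', VC] ![1, 1, q - 1])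
    (T :
      letI := ssm_gi_algebra (ssm_al_E_le L (N' * q) q)
      letI := ssm_gi_algebraV (ssm_al_E_le L (N' * q) q) (ssm_gl_V1 O hπ N' q)
      letI : IsScalarTower ↥(ssm_gl_V1 O hπ N' q) ↥(lg_E L (N' * q)) ↥(lg_E L (N' * q * q)) :=
        ssm_gi_isScalarTower (ssm_al_E_le L (N' * q) q) (ssm_gl_V1 O hπ N' q)
      s36t3_Third ↥(lg_E L (N' * q)) ↥(ssm_gl_V1 O hπ N' q) q
        (gq_unif π hπ.ne_zero hπ.maximalIdeal_eq (lg_E L (N' * q))
          (ssm_ga_E_le_quotField O (N' * q)))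
        (s36i_lam2 L N' q hq2 - lg_lamE (N' * q * q)) (s36i_VA O hπ (N' * q) q) VC) :
    (∀ b ∈ fc_chart ↥O ({lg_lamE (N' * q * q)} : Set ↥(lg_E L (N' * q * q))),
      s36i_W2 L N' q hq2 hqN' b ∈
        fc_chart ↥O ({lg_lamE (N' * q * q)} : Set ↥(lg_E L (N' * q * q)))) ∧
    (∀ b ∈ fc_chart ↥O ({(lg_lamE (N' * q * q))⁻¹} : Set ↥(lg_E L (N' * q * q))),
      s36i_W2 L N' q hq2 hqN' b ∈
        fc_chart ↥O ({(lg_lamE (N' * q * q))⁻¹} : Set ↥(lg_E L (N' * q * q)))) ∧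
    (∀ b ∈ fc_chart ↥O
        ({lg_lamE (N' * q * q), (lg_lamE (N' * q * q))⁻¹} : Set ↥(lg_E L (N' * q * q))),
      s36i_W2 L N' q hq2 hqN' b ∈ fc_chart ↥O
        ({lg_lamE (N' * q * q), (lg_lamE (N' * q * q))⁻¹} : Set ↥(lg_E L (N' * q * q)))) :=
  s36ig_W_charts (s36i_W2 L N' q hq2 hqN')
    (fun a => s36cp_W2_algebraMap O N' q hq2 hqN' a)
    (s36t3_W2_lam N' q hq2 hqN') (s36t3_leg_facts O hπ N' q hq2 hqN' H T)

/-- **spelling conversion**: the third-valuation package in the spelling of helper15's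
`s36t3l_leg_third` / helper26's `s36i_leg_towerPack` (`z = s36th_lam2 - algebraMap (lg_lamE (N' q))`)
is the package in the spelling of this file. -/
theorem s36t3_leg_third_conv {VC : ValuationSubring ↥(lg_E L (N' * q * q))}
    (T :
      letI := ssm_gi_algebra (ssm_al_E_le L (N' * q) q)
      letI := ssm_gi_algebraV (ssm_al_E_le L (N' * q) q) (ssm_gl_V1 O hπ N' q)
      letI : IsScalarTower ↥(ssm_gl_V1 O hπ N' q) ↥(lg_E L (N' * q)) ↥(lg_E L (N' * q * q)) :=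
        ssm_gi_isScalarTower (ssm_al_E_le L (N' * q) q) (ssm_gl_V1 O hπ N' q)
      s36t3_Third ↥(lg_E L (N' * q)) ↥(ssm_gl_V1 O hπ N' q) q
        (gq_unif π hπ.ne_zero hπ.maximalIdeal_eq (lg_E L (N' * q))
          (ssm_ga_E_le_quotField O (N' * q)))
        (s36th_lam2 L N' q hq2 hqN' -
          algebraMap ↥(lg_E L (N' * q)) ↥(lg_E L (N' * q * q)) (lg_lamE (N' * q)))
        (s36i_VA O hπ (N' * q) q) VC) :
    letI := ssm_gi_algebra (ssm_al_E_le L (N' * q) q)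
    letI := ssm_gi_algebraV (ssm_al_E_le L (N' * q) q) (ssm_gl_V1 O hπ N' q)
    letI : IsScalarTower ↥(ssm_gl_V1 O hπ N' q) ↥(lg_E L (N' * q)) ↥(lg_E L (N' * q * q)) :=
      ssm_gi_isScalarTower (ssm_al_E_le L (N' * q) q) (ssm_gl_V1 O hπ N' q)
    s36t3_Third ↥(lg_E L (N' * q)) ↥(ssm_gl_V1 O hπ N' q) q
      (gq_unif π hπ.ne_zero hπ.maximalIdeal_eq (lg_E L (N' * q))
        (ssm_ga_E_le_quotField O (N' * q)))
      (s36i_lam2 L N' q hq2 - lg_lamE (N' * q * q)) (s36i_VA O hπ (N' * q) q) VC := by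
  letI := ssm_gi_algebra (ssm_al_E_le L (N' * q) q)
  letI := ssm_gi_algebraV (ssm_al_E_le L (N' * q) q) (ssm_gl_V1 O hπ N' q)
  letI : IsScalarTower ↥(ssm_gl_V1 O hπ N' q) ↥(lg_E L (N' * q)) ↥(lg_E L (N' * q * q)) :=
    ssm_gi_isScalarTower (ssm_al_E_le L (N' * q) q) (ssm_gl_V1 O hπ N' q)
  have e : s36th_lam2 L N' q hq2 hqN' -
      algebraMap ↥(lg_E L (N' * q)) ↥(lg_E L (N' * q * q)) (lg_lamE (N' * q)) =
      s36i_lam2 L N' q hq2 - lg_lamE (N' * q * q) := rfl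
  rw [e] at T
  exact T

include hqN' in
set_option synthInstance.maxHeartbeats 200000 in
/-- **[V3-ASM], Legendre tower, everything from `T3`**: for ANY `VC` with the third-valuation package
`T` (spelling of this file; use `s36t3_leg_third_conv` for helper15/helper26's), and the level-`N'`
prime hypothesis: [TP3] on both charts, [I2], `W₂ VC = VC`, and the `W₂`-stability of the charts. -/
theorem s36t3_leg_all_of
    (hprime : Prime (algebraMap ↥O (fc_chart ↥O ({lg_lamE N'} : Set ↥(lg_E L N'))) π))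
    {VC : ValuationSubring ↥(lg_E L (N' * q * q))}
    (T :
      letI := ssm_gi_algebra (ssm_al_E_le L (N' * q) q)
      letI := ssm_gi_algebraV (ssm_al_E_le L (N' * q) q) (ssm_gl_V1 O hπ N' q)
      letI : IsScalarTower ↥(ssm_gl_V1 O hπ N' q) ↥(lg_E L (N' * q)) ↥(lg_E L (N' * q * q)) :=
        ssm_gi_isScalarTower (ssm_al_E_le L (N' * q) q) (ssm_gl_V1 O hπ N' q)
      s36t3_Third ↥(lg_E L (N' * q)) ↥(ssm_gl_V1 O hπ N' q) q
        (gq_unif π hπ.ne_zero hπ.maximalIdeal_eq (lg_E L (N' * q))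
          (ssm_ga_E_le_quotField O (N' * q)))
        (s36i_lam2 L N' q hq2 - lg_lamE (N' * q * q)) (s36i_VA O hπ (N' * q) q) VC) :
    s36tp_Hyp
      (algebraMap ↥O (Algebra.adjoin ↥O ({lg_lamE (N' * q * q)} : Set ↥(lg_E L (N' * q * q)))) π)
      ![s36i_VA O hπ (N' * q) q, s36i_VB O hπ N' q hq2 hqN', VC] ![1, 1, q - 1] ∧
    s36tp_Hyp
      (algebraMap ↥O
        (Algebra.adjoin ↥O ({(lg_lamE (N' * q * q))⁻¹} : Set ↥(lg_E L (N' * q * q)))) π)
      ![s36i_VA O hπ (N' * q) q, s36i_VB O hπ N' q hq2 hqN', VC] ![1, 1, q - 1] ∧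
    s36ig_Facts ↥O q (lg_lamE (N' * q * q)) (s36t3_lam1 L N' q hq2) (s36i_lam2 L N' q hq2)
      (X - 1) (s36i_VA O hπ (N' * q) q) (s36i_VB O hπ N' q hq2 hqN') VC ∧
    VC.comap (s36i_W2 L N' q hq2 hqN' :
      ↥(lg_E L (N' * q * q)) →+* ↥(lg_E L (N' * q * q))) = VC ∧
    (∀ b ∈ fc_chart ↥O ({lg_lamE (N' * q * q)} : Set ↥(lg_E L (N' * q * q))),
      s36i_W2 L N' q hq2 hqN' b ∈
        fc_chart ↥O ({lg_lamE (N' * q * q)} : Set ↥(lg_E L (N' * q * q)))) ∧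
    (∀ b ∈ fc_chart ↥O ({(lg_lamE (N' * q * q))⁻¹} : Set ↥(lg_E L (N' * q * q))),
      s36i_W2 L N' q hq2 hqN' b ∈
        fc_chart ↥O ({(lg_lamE (N' * q * q))⁻¹} : Set ↥(lg_E L (N' * q * q)))) := by
  haveI := ssm_go_isScalarTower O (lg_E L (N' * q * q))
  have hx : Transcendental L (lg_lamE (L := L) (N' * q * q)) :=
    lgf_lam_transcendental L (N' * q * q) two_ne_zero
  haveI : FiniteDimensional L⟮lg_lamE (L := L) (N' * q * q)⟯ ↥(lg_E L (N' * q * q)) :=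
    lgf_finite L (N' * q * q)
  have H := s36t3_leg_hyp_of O hπ N' q hq2 hqN' hprime VC T
  have W := s36t3_leg_hWB O hπ N' q hq2 hqN' H T
  exact ⟨H, s36tp_ff_hyp_inv (L := L) hπ hx H, s36t3_leg_facts O hπ N' q hq2 hqN' H T,
    s36t3_leg_comap_W2 O hπ N' q hq2 hqN' T, W.1, W.2.1⟩

include hqN' in
set_option synthInstance.maxHeartbeats 200000 in
/-- **[V3-ASM], Legendre tower, the package**: there is a third valuation subring `VC` of `E₂` with
the third-valuation package, [TP3] on both charts, [I2], `W₂ VC = VC` and the `W₂`-stability of the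
charts. -/
theorem s36t3_leg_pack
    (hprime : Prime (algebraMap ↥O (fc_chart ↥O ({lg_lamE N'} : Set ↥(lg_E L N'))) π))
    (u : ↥O) (hu : IsUnit u) (hqu : ((q : ℕ) : ↥O) = π * u) :
    letI := ssm_gi_algebra (ssm_al_E_le L (N' * q) q)
    letI := ssm_gi_algebraV (ssm_al_E_le L (N' * q) q) (ssm_gl_V1 O hπ N' q)
    letI : IsScalarTower ↥(ssm_gl_V1 O hπ N' q) ↥(lg_E L (N' * q)) ↥(lg_E L (N' * q * q)) :=
      ssm_gi_isScalarTower (ssm_al_E_le L (N' * q) q) (ssm_gl_V1 O hπ N' q)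
    ∃ VC : ValuationSubring ↥(lg_E L (N' * q * q)),
      s36t3_Third ↥(lg_E L (N' * q)) ↥(ssm_gl_V1 O hπ N' q) q
        (gq_unif π hπ.ne_zero hπ.maximalIdeal_eq (lg_E L (N' * q))
          (ssm_ga_E_le_quotField O (N' * q)))
        (s36i_lam2 L N' q hq2 - lg_lamE (N' * q * q)) (s36i_VA O hπ (N' * q) q) VC ∧
      s36tp_Hyp
        (algebraMap ↥O (Algebra.adjoin ↥O ({lg_lamE (N' * q * q)} : Set ↥(lg_E L (N' * q * q)))) π)
        ![s36i_VA O hπ (N' * q) q, s36i_VB O hπ N' q hq2 hqN', VC] ![1, 1, q - 1] ∧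
      s36tp_Hyp
        (algebraMap ↥O
          (Algebra.adjoin ↥O ({(lg_lamE (N' * q * q))⁻¹} : Set ↥(lg_E L (N' * q * q)))) π)
        ![s36i_VA O hπ (N' * q) q, s36i_VB O hπ N' q hq2 hqN', VC] ![1, 1, q - 1] ∧
      s36ig_Facts ↥O q (lg_lamE (N' * q * q)) (s36t3_lam1 L N' q hq2) (s36i_lam2 L N' q hq2)
        (X - 1) (s36i_VA O hπ (N' * q) q) (s36i_VB O hπ N' q hq2 hqN') VC ∧
      VC.comap (s36i_W2 L N' q hq2 hqN' :
        ↥(lg_E L (N' * q * q)) →+* ↥(lg_E L (N' * q * q))) = VC ∧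
      (∀ b ∈ fc_chart ↥O ({lg_lamE (N' * q * q)} : Set ↥(lg_E L (N' * q * q))),
        s36i_W2 L N' q hq2 hqN' b ∈
          fc_chart ↥O ({lg_lamE (N' * q * q)} : Set ↥(lg_E L (N' * q * q)))) ∧
      (∀ b ∈ fc_chart ↥O ({(lg_lamE (N' * q * q))⁻¹} : Set ↥(lg_E L (N' * q * q))),
        s36i_W2 L N' q hq2 hqN' b ∈
          fc_chart ↥O ({(lg_lamE (N' * q * q))⁻¹} : Set ↥(lg_E L (N' * q * q)))) := by
  letI := ssm_gi_algebra (ssm_al_E_le L (N' * q) q)
  letI := ssm_gi_algebraV (ssm_al_E_le L (N' * q) q) (ssm_gl_V1 O hπ N' q)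
  letI : IsScalarTower ↥(ssm_gl_V1 O hπ N' q) ↥(lg_E L (N' * q)) ↥(lg_E L (N' * q * q)) :=
    ssm_gi_isScalarTower (ssm_al_E_le L (N' * q) q) (ssm_gl_V1 O hπ N' q)
  obtain ⟨VC, T⟩ := s36t3_leg_third O hπ N' q hq2 hqN' u hu hqu
  exact ⟨VC, T, s36t3_leg_all_of O hπ N' q hq2 hqN' hprime T⟩

end Legendre

end Fermat.Agent.S36
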