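/-
Project S36 (Carayol), cell [M2], layer [NF-TOP], LEGENDRE cover (helper28, on request of the
S36 architect helper25): THE NUMBER-FIELD SHELL.  Legendre twin of helper12's `S36/Model/TopHes.lean`
(`s36mh_CoreCtx`, `s36mh_coreNF_of`), itself a twin of `ss_nf_coreAt` (S34) / `s35ti_leg_toricNF1`
(S35).  Prefix `s36m_`.

* `s36m_CoreCtx N' q hq2 d` : the OUTPUT SHAPE of the Legendre assembly of [M2] + [ACORE]: over
  every number field `L ⊆ Q̄` containing `ζ_{N'}` and every discrete valuation ring `O` of `L` with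
  uniformiser `q` (context [NF2-CTX] = the binder list of `ssm_nlb_thick_nf`), for every `m` prime
  to `q` with `ζ_m ∈ L`: `s36_CoreAt N' q hq2 m d`;
* `s36m_coreNF_of` : `d ≠ 0`, `q ∤ N'`, `s36m_CoreCtx N' q hq2 d` ⟹ `s36_CoreNF N' q hq2`
  (`T := {ζ_{N'}}`, fixed by the inertia group since `q ∤ N'`).
-/
import Mathlib
import Fermat.Agent.S36.Seams
import Fermat.Agent.SS.CoreNFLeg
import Fermat.Agent.S35.DescU.InertiaField

set_option autoImplicit false
set_option linter.style.haveILetI false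
set_option linter.unusedSectionVars false
set_option linter.unusedVariables false

noncomputable section

namespace Fermat.Agent.S36

open Fermat.Agent.SS Fermat.Agent.JT3 Fermat.Agent.S35 IntermediateField ModularCurve IsLocalRing
  AlgebraicCurve

local notation "GQ" => (AlgebraicClosure ℚ ≃ₐ[ℚ] AlgebraicClosure ℚ)
local notation "Qb" => AlgebraicClosure ℚ

section NFL

variable (N' q : ℕ) [NeZero N'] [NeZero q] [hq : Fact q.Prime] (hq2 : ¬ 2 ∣ q) (hqN' : ¬ q ∣ N')

/-- **The output shape of the Legendre assembly** ([M2] + [ACORE], context [NF2-CTX]). -/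
def s36m_CoreCtx (d : ℕ) : Prop :=
  ∀ (L : Type) [Field L] [NumberField L] [Algebra L (AlgebraicClosure ℚ)]
    (O : ValuationSubring L) [IsDiscreteValuationRing O]
    [CharP (ResidueField O) q] (hπ : Irreducible ((q : ℕ) : ↥O))
    (ζ : L) (hζ : IsPrimitiveRoot ζ N') (m : ℕ), ¬ q ∣ m →
    (∃ ζm : L, IsPrimitiveRoot ζm m) → s36_CoreAt (L := L) N' q hq2 m d

set_option synthInstance.maxHeartbeats 200000 in
set_option maxHeartbeats 1600000 in
include hqN' in
/-- **[NF-TOP]-Leg**: the number-field seam `s36_CoreNF` from the Legendre assembly. -/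
theorem s36m_coreNF_of (d : ℕ) (hd : d ≠ 0) (H : s36m_CoreCtx N' q hq2 d) :
    s36_CoreNF N' q hq2 := by
  classical
  intro A hAq
  obtain ⟨ζ', hζ'⟩ := HasEnoughRootsOfUnity.exists_primitiveRoot Qb N'
  refine ⟨d, hd, {ζ'}, ?_, fun L1 hfd hsub hπ m hqm hζm => ?_⟩
  · intro t ht s hs
    rw [Finset.mem_singleton] at ht
    rw [ht]
    exact s35d_root_fixed A q hAq hqN' hζ'.pow_eq_one hs
  have hζmem : ζ' ∈ L1 := hsub (by simp)
  haveI : NumberField ↥L1 := { to_charZero := inferInstance, to_finiteDimensional := hfd }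
  haveI hdvr : IsDiscreteValuationRing ↥(A.comap (algebraMap ↥L1 Qb)) :=
    dsc_isDVR_comap_numberField A q hAq hq.out.ne_zero ↥L1
  have hmem := lg_natCast_mem_maximalIdeal A hAq ↥L1
  haveI : CharP (IsLocalRing.ResidueField ↥(A.comap (algebraMap ↥L1 Qb))) q :=
    ss_nfl_charP_residue hmem
  have hζ : IsPrimitiveRoot (⟨ζ', hζmem⟩ : ↥L1) N' :=
    (IsPrimitiveRoot.map_iff_of_injective (f := algebraMap ↥L1 Qb)
      (FaithfulSMul.algebraMap_injective ↥L1 Qb)).1 hζ'
  exact H ↥L1 (A.comap (algebraMap ↥L1 Qb)) hπ ⟨ζ', hζmem⟩ hζ m hqm hζm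

include hqN' in
/-- the same with the exponent existentially quantified (the form the assembly will most likely
produce: `d` an explicit function of `q`). -/
theorem s36m_coreNF_of_exists (H : ∃ d : ℕ, d ≠ 0 ∧ s36m_CoreCtx N' q hq2 d) :
    s36_CoreNF N' q hq2 := by
  obtain ⟨d, hd, H⟩ := H
  exact s36m_coreNF_of N' q hq2 hqN' d hd H

end NFL

end Fermat.Agent.S36
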