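/-
Project S36 (Carayol), cell [M2], layer [L4], LEGENDRE SKELETON (helper1, on ruling (C3) of the
S36 architect helper25, #2438).  Prefix `s36asm_`.

The Legendre assembly `s36_CoreAt` / `s36m_CoreCtx` / `s36_CoreNF` with the NOT-YET-LANDED LEAVES AS
EXPLICIT HYPOTHESES, in their owners' shapes; everything that is on main is discharged here:

* `s36asm_Tower`  (def) : helper11's `s36at_Tower` on the concrete Legendre tower
  `E₁ = lg_E L (N' q)`, `β E₁`, `E₂ = lg_E L (N' q q)` (inclusion algebras), `RF = VF = ssm_gl_V1`,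
  `RV = VV = ssm_gl_V2`, `RU = s36i_RU`, `RG = s36i_RG`, `VA = s36i_VA`, `VB = s36i_VB`, `VC` free
  [leaves: [L2] side 1 (helper15), side 2 = its `W₂`-mirror (helper26), hVA hVB (helper14 [L0])];
* `s36asm_Glue`   (def) : helper1's seam `s36c_Glue` on the same objects with `ordH := Place.ord`
  [leaf: [GLUE-MAIN] (helper3) or `s36c_glue_of_hloc` + the per-point dispatch];
* `s36asm_coreAt_of_tower` : `s36asm_Tower` + `s36asm_Glue` ⟹ `s36_CoreAt N' q hq2 m (s36c_exp q Eg)`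
  (the three (root) properties are discharged by helper24's `s36rt_leg_VA / _VB / _VC`, the orders by
  `Place.ord_mul` / `ssk_ord_algebraMap`, the instances by `s36pe_*`);
* `s36asm_coreCtx_of` : the same over every base of [NF2-CTX] ⟹ `s36m_CoreCtx N' q hq2 (s36c_exp q Eg)`;
* `s36asm_coreNF_of`  : ⟹ `s36_CoreNF N' q hq2` (helper28's `s36m_coreNF_of`).
-/
import Mathlib
import Fermat.Agent.S36.ATower.Main
import Fermat.Agent.S36.ACore.AtTower
import Fermat.Agent.S36.ACore.Pack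
import Fermat.Agent.S36.Root.Leg
import Fermat.Agent.S36.Ins1.RestrLeg
import Fermat.Agent.S36.Model.TopLeg
import Fermat.Agent.SS.Kummer

set_option autoImplicit false
set_option linter.unusedSectionVars false
set_option linter.unusedVariables false
set_option linter.style.haveILetI false
set_option maxHeartbeats 1000000

noncomputable section

open ModularCurve AlgebraicCurve IntermediateField IsLocalRing
open Fermat.Agent.JT3 Fermat.Agent.SS Fermat.Agent.S35

namespace Fermat.Agent.S36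

section Legendre

variable {L : Type*} [Field L] [CharZero L] [Algebra L (AlgebraicClosure ℚ)]
  (O : ValuationSubring L) [IsDiscreteValuationRing O] {π : O} (hπ : Irreducible π)
variable (N' q : ℕ) [NeZero N'] [NeZero q] [hq : Fact q.Prime] [CharP (ResidueField O) q]
  (hq2 : ¬ 2 ∣ q) (hqN' : ¬ q ∣ N')

/-- **helper11's tower package on the concrete Legendre tower** (`VC` and the uniformisers free). -/
def s36asm_Tower (VC : ValuationSubring ↥(lg_E L (N' * q * q)))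
    (πF : ↥(ssm_gl_V1 O hπ N' q)) (πV : ↥(s36i_VV O hπ N' q hq2 hqN'))
    (πU : ↥(s36i_RU O hπ N' q hq2 hqN')) (πG : ↥(s36i_RG O hπ (N' * q) q hq2))
    (zC zC' tB tA : ↥(lg_E L (N' * q * q))) (rB : ↥(s36i_VV O hπ N' q hq2 hqN'))
    (rA : ↥(s36i_RG O hπ (N' * q) q hq2)) : Prop :=
  letI := ssm_gi_algebra (ssm_al_E_le L (N' * q) q)
  letI := ssm_gi_algebra (ssm_al_E_beta_le L (N' * q) q hq2)
  letI := ssm_gi_algebraV (ssm_al_E_le L (N' * q) q) (ssm_gl_V1 O hπ N' q)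
  letI := ssm_gi_algebraV (ssm_al_E_le L (N' * q) q) (s36i_VV O hπ N' q hq2 hqN')
  letI := ssm_gi_algebraV (ssm_al_E_beta_le L (N' * q) q hq2) (s36i_RU O hπ N' q hq2 hqN')
  letI := ssm_gi_algebraV (ssm_al_E_beta_le L (N' * q) q hq2) (s36i_RG O hπ (N' * q) q hq2)
  haveI := ssm_gi_isScalarTower (ssm_al_E_le L (N' * q) q) (ssm_gl_V1 O hπ N' q)
  haveI := ssm_gi_isScalarTower (ssm_al_E_beta_le L (N' * q) q hq2) (s36i_RU O hπ N' q hq2 hqN')
  s36at_Tower (K1 := ↥(lg_E L (N' * q))) (K2 := ↥((lg_E L (N' * q)).map (qExpandAlgHomC L q)))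
    O (π : L) q (s36i_VA O hπ (N' * q) q) (s36i_VB O hπ N' q hq2 hqN') VC
    πF πV πU πG zC zC' tB tA rB rA

/-- **helper1's seam `s36c_Glue` on the concrete Legendre tower**, `ordH := Place.ord`. -/
def s36asm_Glue (VC : ValuationSubring ↥(lg_E L (N' * q * q))) (m Eg : ℕ) : Prop :=
  letI := ssm_gi_algebra (ssm_al_E_le L (N' * q) q)
  letI := ssm_gi_algebra (ssm_al_E_beta_le L (N' * q) q hq2)
  s36c_Glue O (s36i_VA O hπ (N' * q) q) (s36i_VB O hπ N' q hq2 hqN') VC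
    (s36at_N ↥(lg_E L (N' * q))) (s36at_N ↥((lg_E L (N' * q)).map (qExpandAlgHomC L q)))
    q m Eg (fun (v : Place L ↥(lg_E L (N' * q * q))) (x : ↥(lg_E L (N' * q * q))) => v.ord x)

include hqN' in
/-- **[L4]-Leg, layer 1**: the tower package + the seam ⟹ `s36_CoreAt` with the exponent
`s36c_exp q Eg = (q + 1)(q² - 1) · ((q² - 1) · Eg)`.  The three (root) properties are helper24's
`s36rt_leg_VA / _VB / _VC` (the latter from `T.side1.overC` + `T.side1.resC`). -/
theorem s36asm_coreAt_of_tower (m Eg : ℕ) (hqm : ¬ q ∣ m)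
    {VC : ValuationSubring ↥(lg_E L (N' * q * q))}
    {πF : ↥(ssm_gl_V1 O hπ N' q)} {πV : ↥(s36i_VV O hπ N' q hq2 hqN')}
    {πU : ↥(s36i_RU O hπ N' q hq2 hqN')} {πG : ↥(s36i_RG O hπ (N' * q) q hq2)}
    {zC zC' tB tA : ↥(lg_E L (N' * q * q))} {rB : ↥(s36i_VV O hπ N' q hq2 hqN')}
    {rA : ↥(s36i_RG O hπ (N' * q) q hq2)}
    (T : s36asm_Tower O hπ N' q hq2 hqN' VC πF πV πU πG zC zC' tB tA rB rA)
    (hglue : s36asm_Glue O hπ N' q hq2 hqN' VC m Eg) :
    s36_CoreAt (L := L) N' q hq2 m (s36c_exp q Eg) := by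
  letI := ssm_gi_algebra (ssm_al_E_le L (N' * q) q)
  letI := ssm_gi_algebra (ssm_al_E_beta_le L (N' * q) q hq2)
  letI := ssm_gi_algebraV (ssm_al_E_le L (N' * q) q) (ssm_gl_V1 O hπ N' q)
  letI := ssm_gi_algebraV (ssm_al_E_le L (N' * q) q) (s36i_VV O hπ N' q hq2 hqN')
  letI := ssm_gi_algebraV (ssm_al_E_beta_le L (N' * q) q hq2) (s36i_RU O hπ N' q hq2 hqN')
  letI := ssm_gi_algebraV (ssm_al_E_beta_le L (N' * q) q hq2) (s36i_RG O hπ (N' * q) q hq2)
  haveI := ssm_gi_isScalarTower (ssm_al_E_le L (N' * q) q) (ssm_gl_V1 O hπ N' q)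
  haveI := ssm_gi_isScalarTower (ssm_al_E_le L (N' * q) q) (s36i_VV O hπ N' q hq2 hqN')
  haveI := ssm_gi_isScalarTower (ssm_al_E_beta_le L (N' * q) q hq2) (s36i_RU O hπ N' q hq2 hqN')
  haveI := ssm_gi_isScalarTower (ssm_al_E_beta_le L (N' * q) q hq2)
    (s36i_RG O hπ (N' * q) q hq2)
  haveI := ssm_gi_isScalarTower_base (ssm_al_E_le L (N' * q) q)
  haveI := ssm_gi_isScalarTower_base (ssm_al_E_beta_le L (N' * q) q hq2)
  have hT : s36at_Tower (K1 := ↥(lg_E L (N' * q)))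
      (K2 := ↥((lg_E L (N' * q)).map (qExpandAlgHomC L q)))
      O (π : L) q (s36i_VA O hπ (N' * q) q) (s36i_VB O hπ N' q hq2 hqN') VC
      πF πV πU πG zC zC' tB tA rB rA := T
  have hq1 : q - 1 + 1 = q := Nat.sub_add_cancel hq.out.one_le
  haveI : FiniteDimensional ↥(lg_E L (N' * q)) ↥(lg_E L (N' * q * q)) :=
    ssm_gi_finiteDimensional (n := q - 1) (by rw [hq1]; exact hT.side1.finrank_eq)
  haveI : FiniteDimensional ↥((lg_E L (N' * q)).map (qExpandAlgHomC L q))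
      ↥(lg_E L (N' * q * q)) :=
    ssm_gi_finiteDimensional (n := q - 1) (by rw [hq1]; exact hT.side2.finrank_eq)
  haveI : Algebra.IsSeparable ↥(lg_E L (N' * q)) ↥(lg_E L (N' * q * q)) := ssm_gi_isSeparable
  haveI : Algebra.IsSeparable ↥((lg_E L (N' * q)).map (qExpandAlgHomC L q))
      ↥(lg_E L (N' * q * q)) := ssm_gi_isSeparable
  have hm1 : 1 ≤ m := by
    rcases Nat.eq_zero_or_pos m with h | h
    · exact absurd (h ▸ dvd_zero q) hqm
    · exact h
  have hcop : Nat.Coprime q m := (Nat.Prime.coprime_iff_not_dvd hq.out).2 hqm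
  have hmres : ((m : ℕ) : ResidueField O) ≠ 0 := fun h =>
    hqm ((CharP.cast_eq_zero_iff (ResidueField O) q m).1 h)
  -- the (root) property at `VC`
  have hrootC : s36rt_Root O VC m := by
    refine s36rt_leg_VC O hπ N' q m hmres VC ?_ ?_
    · intro z
      have h := hT.side1.overC z
      rw [ssm_gi_mem_range] at h
      exact h
    · intro a ha
      obtain ⟨r0, hr0⟩ := hT.side1.resC a ha
      exact ⟨(r0 : ↥(lg_E L (N' * q))), hr0⟩
  refine s36c_coreAt_of_tower N' q hq2 m (s36c_exp q Eg) ?_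
  intro g hg hord c1 c2 hc1 hc2 r1 r2 hr1 hr2 h1 h2
  exact s36at_core hT m Eg hm1 hcop (fun y hy c hc h => hrootC y hy c hc h)
    (fun y hy c hc h => s36rt_leg_VA O hπ N' q m hmres y hy c hc h)
    (fun y hy c hc h => s36rt_leg_VB O hπ N' q hq2 hqN' m hmres y hy c hc h)
    (fun (v : Place L ↥(lg_E L (N' * q * q))) (x : ↥(lg_E L (N' * q * q))) => v.ord x)
    (fun v x y hx hy => v.ord_mul hx hy) (fun v c hc => ssk_ord_algebraMap v hc)
    hglue g hg hord c1 c2 hc1 hc2 r1 r2 hr1 hr2 h1 h2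

end Legendre

section NF

variable (N' q : ℕ) [NeZero N'] [NeZero q] [hq : Fact q.Prime] (hq2 : ¬ 2 ∣ q) (hqN' : ¬ q ∣ N')

/-- **THE REMAINING LEAVES of the Legendre assembly**, context [NF2-CTX]: over every number field
`L ⊆ Q̄` containing `ζ_{N'}`, every DVR `O` of `L` with uniformiser `q`, every `m` prime to `q` with
`ζ_m ∈ L`: a third valuation `VC` with the tower package and the seam (exponent `Eg`). -/
def s36asm_Leaves (Eg : ℕ) : Prop :=
  ∀ (L : Type) [Field L] [NumberField L] [Algebra L (AlgebraicClosure ℚ)]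
    (O : ValuationSubring L) [IsDiscreteValuationRing O]
    [CharP (ResidueField O) q] (hπ : Irreducible ((q : ℕ) : ↥O))
    (ζ : L) (hζ : IsPrimitiveRoot ζ N') (m : ℕ), ¬ q ∣ m →
    (∃ ζm : L, IsPrimitiveRoot ζm m) →
    ∃ (VC : ValuationSubring ↥(lg_E L (N' * q * q)))
      (πF : ↥(ssm_gl_V1 O hπ N' q)) (πV : ↥(s36i_VV O hπ N' q hq2 hqN'))
      (πU : ↥(s36i_RU O hπ N' q hq2 hqN')) (πG : ↥(s36i_RG O hπ (N' * q) q hq2))
      (zC zC' tB tA : ↥(lg_E L (N' * q * q))) (rB : ↥(s36i_VV O hπ N' q hq2 hqN'))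
      (rA : ↥(s36i_RG O hπ (N' * q) q hq2)),
      s36asm_Tower O hπ N' q hq2 hqN' VC πF πV πU πG zC zC' tB tA rB rA ∧
      s36asm_Glue O hπ N' q hq2 hqN' VC m Eg

/-- **[L4]-Leg, layer 2**: the leaves ⟹ helper28's `s36m_CoreCtx` with the exponent
`s36c_exp q Eg`. -/
theorem s36asm_coreCtx_of (Eg : ℕ) (H : s36asm_Leaves N' q hq2 hqN' Eg) :
    s36m_CoreCtx N' q hq2 (s36c_exp q Eg) := by
  intro L _ _ _ O _ _ hπ ζ hζ m hqm hζm
  obtain ⟨VC, πF, πV, πU, πG, zC, zC', tB, tA, rB, rA, T, hglue⟩ := H L O hπ ζ hζ m hqm hζm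
  exact s36asm_coreAt_of_tower O hπ N' q hq2 hqN' m Eg hqm T hglue

/-- **[L4]-Leg, layer 2'**: the leaves with a nonzero seam exponent ⟹ `s36_CoreNF N' q hq2`
(= (C-L) of the S36 architecture, NOTE 2 of helper25). -/
theorem s36asm_coreNF_of (Eg : ℕ) (hEg : Eg ≠ 0) (H : s36asm_Leaves N' q hq2 hqN' Eg) :
    s36_CoreNF N' q hq2 :=
  s36m_coreNF_of N' q hq2 hqN' (s36c_exp q Eg) (s36c_exp_ne_zero hq.out.two_le hEg)
    (s36asm_coreCtx_of N' q hq2 hqN' Eg H)

end NF

end Fermat.Agent.S36
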