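/-
Project S36 (Carayol), cell [M2], layer [L4], LEGENDRE SKELETON, part 2 (helper1; prefix `s36asm_`):
THE SEAM `s36asm_Glue` FROM THE TOWER, [TP3] AND THE POINT CLAUSES.

* `s36asm_normData_of_tower` (abstract) : helper3's global norm data `s36g_NormData` is a COROLLARY
  of helper11's tower package `s36at_Tower` (`N_i := s36at_N K_i`, `K_i' := (algebraMap K_i E).fieldRange`,
  `p := q - 1`);
* `s36asm_glue_of` (Legendre) : `s36asm_Tower` + helper24's `s36tp_Hyp … ![VA, VB, VC] ![1, 1, q - 1]`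
  + the point clauses `hpts`, `hinf` of helper3's `s36g_glue` ⟹ `s36asm_Glue … VC m (q ^ 2 * D1 * q)`;
* `s36asm_Leaves2`, `s36asm_leaves_of`, `s36asm_coreNF_of2` : the refined list of leaves
  (tower, [TP3], points) ⟹ `s36_CoreNF N' q hq2`.
-/
import Mathlib
import Fermat.Agent.S36.Model.AsmLeg
import Fermat.Agent.S36.Glue.HlocAll
import Fermat.Agent.S36.Model.PtsAB

set_option autoImplicit false
set_option linter.unusedSectionVars false
set_option linter.unusedVariables false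
set_option linter.style.haveILetI false
set_option maxHeartbeats 1000000

noncomputable section

open ModularCurve AlgebraicCurve IntermediateField IsLocalRing
open Fermat.Agent.JT3 Fermat.Agent.SS Fermat.Agent.S35

namespace Fermat.Agent.S36

section Abstract

variable {L K1 K2 E : Type*} [Field L] [Field K1] [Field K2] [Field E]
  [Algebra L E] [Algebra L K1] [Algebra L K2] [Algebra K1 E] [Algebra K2 E]
  [IsScalarTower L K1 E] [IsScalarTower L K2 E]
  [FiniteDimensional K1 E] [Algebra.IsSeparable K1 E]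
  [FiniteDimensional K2 E] [Algebra.IsSeparable K2 E]
  {RF : Type*} [CommRing RF] [IsDomain RF] [IsDiscreteValuationRing RF] [Algebra RF K1]
  [IsFractionRing RF K1] [Algebra RF E] [IsScalarTower RF K1 E]
  {RV : Type*} [CommRing RV] [IsDomain RV] [IsDiscreteValuationRing RV] [Algebra RV K1]
  [IsFractionRing RV K1] [Algebra RV E] [IsScalarTower RV K1 E]
  {RU : Type*} [CommRing RU] [IsDomain RU] [IsDiscreteValuationRing RU] [Algebra RU K2]
  [IsFractionRing RU K2] [Algebra RU E] [IsScalarTower RU K2 E]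
  {RG : Type*} [CommRing RG] [IsDomain RG] [IsDiscreteValuationRing RG] [Algebra RG K2]
  [IsFractionRing RG K2] [Algebra RG E] [IsScalarTower RG K2 E]
  {O : ValuationSubring L} {ϖ : L} {q : ℕ} {VA VB VC : ValuationSubring E}
  {πF : RF} {πV : RV} {πU : RU} {πG : RG} {zC zC' tB tA : E} {rB : RV} {rA : RG}

/-- **helper3's global norm data from helper11's tower.** -/
theorem s36asm_normData_of_tower
    (T : s36at_Tower (K1 := K1) (K2 := K2) O ϖ q VA VB VC πF πV πU πG zC zC' tB tA rB rA) :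
    s36g_NormData ![VA, VB, VC] (q - 1) (s36at_N K1) (s36at_N K2)
      (algebraMap K1 E).fieldRange (algebraMap K2 E).fieldRange := by
  have hq1 : q - 1 + 1 = q := Nat.sub_add_cancel (by have := T.two_le; omega)
  refine ⟨T.hN1K, T.hN2K, fun z hz h => (T.hAC1 z hz).2 h, fun z hz h => (T.hBC2 z hz).2 h,
    ?_, ?_, ?_, ?_⟩
  · intro x hx
    rw [hq1]
    exact T.side1.nY x hx
  · intro x hx
    rw [hq1]
    exact T.side2.nY x hx
  · rintro x hxA hxC r ⟨k, rfl⟩ hrA hxr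
    obtain ⟨r0, hr0⟩ := (T.side1.overX k).1 hrA
    have e : algebraMap K1 E k = algebraMap RF E r0 := by
      rw [IsScalarTower.algebraMap_apply RF K1 E, hr0]
    have e' : (algebraMap K1 E : K1 →+* E) k = algebraMap RF E r0 := e
    rw [e'] at hxr ⊢
    exact T.side1.nC x hxA hxC r0 hxr
  · rintro x hxB hxC r ⟨k, rfl⟩ hrB hxr
    obtain ⟨r0, hr0⟩ := (T.side2.overX k).1 hrB
    have e : algebraMap K2 E k = algebraMap RU E r0 := by
      rw [IsScalarTower.algebraMap_apply RU K2 E, hr0]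
    have e' : (algebraMap K2 E : K2 →+* E) k = algebraMap RU E r0 := e
    rw [e'] at hxr ⊢
    exact T.side2.nC x hxB hxC r0 hxr

end Abstract

section Legendre

variable {L : Type*} [Field L] [CharZero L] [Algebra L (AlgebraicClosure ℚ)]
  (O : ValuationSubring L) [IsDiscreteValuationRing O] {π : O} (hπ : Irreducible π)
variable (N' q : ℕ) [NeZero N'] [NeZero q] [hq : Fact q.Prime] [CharP (ResidueField O) q]
  (hq2 : ¬ 2 ∣ q) (hqN' : ¬ q ∣ N')

/-- **the point clauses** of helper3's `s36g_glue` on the two charts of `x = λ ∈ E₂`, with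
`N_i := s36at_N`, `K_i' := fieldRange` (= the target of the point dispatch). -/
def s36asm_Pts (VC : ValuationSubring ↥(lg_E L (N' * q * q))) (D1 : ℕ) : Prop :=
  letI := ssm_gi_algebra (ssm_al_E_le L (N' * q) q)
  letI := ssm_gi_algebra (ssm_al_E_beta_le L (N' * q) q hq2)
  haveI := s36cp_chart_isFractionRing O (N' * q * q)
  haveI := s36cp_chart_inv_isFractionRing O (N' * q * q)
  (∀ (𝔫 : Ideal (fc_chart ↥O ({lg_lamE (N' * q * q)} : Set ↥(lg_E L (N' * q * q)))))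
    (h𝔫 : 𝔫.IsMaximal),
    algebraMap ↥O (fc_chart ↥O ({lg_lamE (N' * q * q)} : Set ↥(lg_E L (N' * q * q)))) π ∈ 𝔫 →
    (haveI := h𝔫.isPrime
     s36g_PtOne π q (fc_chart ↥O ({lg_lamE (N' * q * q)} : Set ↥(lg_E L (N' * q * q)))) 𝔫 ∨
     s36g_PtWeak π q D1 (fc_chart ↥O ({lg_lamE (N' * q * q)} : Set ↥(lg_E L (N' * q * q)))) 𝔫 ∨
     s36g_PtTri π (q - 1) (s36at_N ↥(lg_E L (N' * q)))
      (s36at_N ↥((lg_E L (N' * q)).map (qExpandAlgHomC L q)))
      (algebraMap ↥(lg_E L (N' * q)) ↥(lg_E L (N' * q * q))).fieldRange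
      (algebraMap ↥((lg_E L (N' * q)).map (qExpandAlgHomC L q)) ↥(lg_E L (N' * q * q))).fieldRange
      (fc_chart ↥O ({lg_lamE (N' * q * q)} : Set ↥(lg_E L (N' * q * q))))
      (ssm_tp_P (fc_chart ↥O ({lg_lamE (N' * q * q)} : Set ↥(lg_E L (N' * q * q))))
        (s36i_VA O hπ (N' * q) q))
      (ssm_tp_P (fc_chart ↥O ({lg_lamE (N' * q * q)} : Set ↥(lg_E L (N' * q * q))))
        (s36i_VB O hπ N' q hq2 hqN'))
      (ssm_tp_P (fc_chart ↥O ({lg_lamE (N' * q * q)} : Set ↥(lg_E L (N' * q * q)))) VC) 𝔫)) ∧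
  (∀ (𝔫 : Ideal (fc_chart ↥O ({(lg_lamE (N' * q * q))⁻¹} : Set ↥(lg_E L (N' * q * q)))))
    (h𝔫 : 𝔫.IsMaximal),
    algebraMap ↥O (fc_chart ↥O ({(lg_lamE (N' * q * q))⁻¹} : Set ↥(lg_E L (N' * q * q)))) π ∈ 𝔫 →
    (⟨(lg_lamE (N' * q * q))⁻¹, fc_x_mem_chart (lg_lamE (N' * q * q))⁻¹⟩ :
      fc_chart ↥O ({(lg_lamE (N' * q * q))⁻¹} : Set ↥(lg_E L (N' * q * q)))) ∈ 𝔫 →
    (haveI := h𝔫.isPrime
     s36g_PtOne π q (fc_chart ↥O ({(lg_lamE (N' * q * q))⁻¹} : Set ↥(lg_E L (N' * q * q)))) 𝔫 ∨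
     s36g_PtWeak π q D1
      (fc_chart ↥O ({(lg_lamE (N' * q * q))⁻¹} : Set ↥(lg_E L (N' * q * q)))) 𝔫 ∨
     s36g_PtTri π (q - 1) (s36at_N ↥(lg_E L (N' * q)))
      (s36at_N ↥((lg_E L (N' * q)).map (qExpandAlgHomC L q)))
      (algebraMap ↥(lg_E L (N' * q)) ↥(lg_E L (N' * q * q))).fieldRange
      (algebraMap ↥((lg_E L (N' * q)).map (qExpandAlgHomC L q)) ↥(lg_E L (N' * q * q))).fieldRange
      (fc_chart ↥O ({(lg_lamE (N' * q * q))⁻¹} : Set ↥(lg_E L (N' * q * q))))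
      (ssm_tp_P (fc_chart ↥O ({(lg_lamE (N' * q * q))⁻¹} : Set ↥(lg_E L (N' * q * q))))
        (s36i_VA O hπ (N' * q) q))
      (ssm_tp_P (fc_chart ↥O ({(lg_lamE (N' * q * q))⁻¹} : Set ↥(lg_E L (N' * q * q))))
        (s36i_VB O hπ N' q hq2 hqN'))
      (ssm_tp_P (fc_chart ↥O ({(lg_lamE (N' * q * q))⁻¹} : Set ↥(lg_E L (N' * q * q)))) VC) 𝔫))

include hπ in
/-- `π ∣ q` in `O` (residue characteristic `q`). -/
theorem s36asm_pi_dvd_q : π ∣ ((q : ℕ) : ↥O) := by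
  have h0 : residue ↥O ((q : ℕ) : ↥O) = 0 := by
    rw [map_natCast]
    exact CharP.cast_eq_zero (ResidueField O) q
  have h1 : ((q : ℕ) : ↥O) ∈ maximalIdeal ↥O := (residue_eq_zero_iff _).1 h0
  rw [hπ.maximalIdeal_eq, Ideal.mem_span_singleton] at h1
  exact h1

/-- `m` prime to `q` is a unit of `O`. -/
theorem s36asm_isUnit_of_not_dvd (m : ℕ) (hqm : ¬ q ∣ m) : IsUnit ((m : ℕ) : ↥O) := by
  by_contra h
  have h1 : ((m : ℕ) : ↥O) ∈ maximalIdeal ↥O := (mem_maximalIdeal _).2 h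
  have h0 : residue ↥O ((m : ℕ) : ↥O) = 0 := (residue_eq_zero_iff _).2 h1
  rw [map_natCast] at h0
  exact hqm ((CharP.cast_eq_zero_iff (ResidueField O) q m).1 h0)

include hqN' in
/-- **[L4]-Leg, layer 3**: the seam from the tower, [TP3] and the point clauses
(one call of helper3's `s36g_glue`; `ND := s36asm_normData_of_tower T`). -/
theorem s36asm_glue_of (m D1 : ℕ) (hqm : ¬ q ∣ m)
    {VC : ValuationSubring ↥(lg_E L (N' * q * q))}
    {πF : ↥(ssm_gl_V1 O hπ N' q)} {πV : ↥(s36i_VV O hπ N' q hq2 hqN')}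
    {πU : ↥(s36i_RU O hπ N' q hq2 hqN')} {πG : ↥(s36i_RG O hπ (N' * q) q hq2)}
    {zC zC' tB tA : ↥(lg_E L (N' * q * q))} {rB : ↥(s36i_VV O hπ N' q hq2 hqN')}
    {rA : ↥(s36i_RG O hπ (N' * q) q hq2)}
    (T : s36asm_Tower O hπ N' q hq2 hqN' VC πF πV πU πG zC zC' tB tA rB rA)
    (H : s36tp_Hyp (algebraMap ↥O (Algebra.adjoin ↥O
        ({lg_lamE (N' * q * q)} : Set ↥(lg_E L (N' * q * q)))) π)
      ![s36i_VA O hπ (N' * q) q, s36i_VB O hπ N' q hq2 hqN', VC] ![1, 1, q - 1])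
    (P : s36asm_Pts O hπ N' q hq2 hqN' VC D1) :
    s36asm_Glue O hπ N' q hq2 hqN' VC m (q ^ 2 * D1 * q) := by
  letI := ssm_gi_algebra (ssm_al_E_le L (N' * q) q)
  letI := ssm_gi_algebra (ssm_al_E_beta_le L (N' * q) q hq2)
  letI := ssm_gi_algebraV (ssm_al_E_le L (N' * q) q) (ssm_gl_V1 O hπ N' q)
  letI := ssm_gi_algebraV (ssm_al_E_le L (N' * q) q) (s36i_VV O hπ N' q hq2 hqN')
  letI := ssm_gi_algebraV (ssm_al_E_beta_le L (N' * q) q hq2) (s36i_RU O hπ N' q hq2 hqN')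
  letI := ssm_gi_algebraV (ssm_al_E_beta_le L (N' * q) q hq2) (s36i_RG O hπ (N' * q) q hq2)
  haveI := ssm_gi_isScalarTower (ssm_al_E_le L (N' * q) q) (ssm_gl_V1 O hπ N' q)
  haveI := ssm_gi_isScalarTower (ssm_al_E_le L (N' * q) q) (s36i_VV O hπ N' q hq2 hqN')
  haveI := ssm_gi_isScalarTower (ssm_al_E_beta_le L (N' * q) q hq2) (s36i_RU O hπ N' q hq2 hqN')
  haveI := ssm_gi_isScalarTower (ssm_al_E_beta_le L (N' * q) q hq2)
    (s36i_RG O hπ (N' * q) q hq2)
  haveI := ssm_gi_isScalarTower_base (ssm_al_E_le L (N' * q) q)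
  haveI := ssm_gi_isScalarTower_base (ssm_al_E_beta_le L (N' * q) q hq2)
  have hT : s36at_Tower (K1 := ↥(lg_E L (N' * q)))
      (K2 := ↥((lg_E L (N' * q)).map (qExpandAlgHomC L q)))
      O (π : L) q (s36i_VA O hπ (N' * q) q) (s36i_VB O hπ N' q hq2 hqN') VC
      πF πV πU πG zC zC' tB tA rB rA := T
  have hq1 : q - 1 + 1 = q := Nat.sub_add_cancel hq.out.one_le
  haveI : FiniteDimensional ↥(lg_E L (N' * q)) ↥(lg_E L (N' * q * q)) :=
    ssm_gi_finiteDimensional (n := q - 1) (by rw [hq1]; exact hT.side1.finrank_eq)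
  haveI : FiniteDimensional ↥((lg_E L (N' * q)).map (qExpandAlgHomC L q))
      ↥(lg_E L (N' * q * q)) :=
    ssm_gi_finiteDimensional (n := q - 1) (by rw [hq1]; exact hT.side2.finrank_eq)
  haveI : Algebra.IsSeparable ↥(lg_E L (N' * q)) ↥(lg_E L (N' * q * q)) := ssm_gi_isSeparable
  haveI : Algebra.IsSeparable ↥((lg_E L (N' * q)).map (qExpandAlgHomC L q))
      ↥(lg_E L (N' * q * q)) := ssm_gi_isSeparable
  haveI := ssm_go_isScalarTower O (lg_E L (N' * q * q))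
  haveI : FiniteDimensional L⟮(lg_lamE (N' * q * q) : lg_E L (N' * q * q))⟯
      ↥(lg_E L (N' * q * q)) := lgf_finite L (N' * q * q)
  haveI := s36cp_chart_isFractionRing O (N' * q * q)
  haveI := s36cp_chart_inv_isFractionRing O (N' * q * q)
  have hx : Transcendental L (lg_lamE (L := L) (N' * q * q)) :=
    lgf_lam_transcendental L (N' * q * q) two_ne_zero
  have he : ∀ i : Fin 3, (![1, 1, q - 1] : Fin 3 → ℕ) i ≤ q := by
    intro i
    have := hq.out.one_le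
    fin_cases i
    · exact this
    · exact this
    · exact Nat.sub_le q 1
  exact s36g_glue O hπ hx (lgf_hconst (lg_E L (N' * q * q))) hq.out (s36asm_pi_dvd_q O hπ q) H he
    (s36asm_normData_of_tower hT) D1 P.1 P.2 (s36asm_isUnit_of_not_dvd O q m hqm)

end Legendre

section NF

variable (N' q : ℕ) [NeZero N'] [NeZero q] [hq : Fact q.Prime] (hq2 : ¬ 2 ∣ q) (hqN' : ¬ q ∣ N')

/-- **THE REFINED LIST OF LEAVES** (independent of `m`), context [NF2-CTX]: a third valuation `VC`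
with (T) helper11's tower package, (H) helper24's [TP3] package with `e = ![1, 1, q - 1]`,
(P) the point clauses of helper3's `s36g_glue` on the two charts. -/
def s36asm_Leaves2 (D1 : ℕ) : Prop :=
  ∀ (L : Type) [Field L] [NumberField L] [Algebra L (AlgebraicClosure ℚ)]
    (O : ValuationSubring L) [IsDiscreteValuationRing O]
    [CharP (ResidueField O) q] (hπ : Irreducible ((q : ℕ) : ↥O))
    (ζ : L) (hζ : IsPrimitiveRoot ζ N'),
    ∃ (VC : ValuationSubring ↥(lg_E L (N' * q * q)))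
      (πF : ↥(ssm_gl_V1 O hπ N' q)) (πV : ↥(s36i_VV O hπ N' q hq2 hqN'))
      (πU : ↥(s36i_RU O hπ N' q hq2 hqN')) (πG : ↥(s36i_RG O hπ (N' * q) q hq2))
      (zC zC' tB tA : ↥(lg_E L (N' * q * q))) (rB : ↥(s36i_VV O hπ N' q hq2 hqN'))
      (rA : ↥(s36i_RG O hπ (N' * q) q hq2)),
      s36asm_Tower O hπ N' q hq2 hqN' VC πF πV πU πG zC zC' tB tA rB rA ∧
      s36tp_Hyp (algebraMap ↥O (Algebra.adjoin ↥O
          ({lg_lamE (N' * q * q)} : Set ↥(lg_E L (N' * q * q)))) ((q : ℕ) : ↥O))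
        ![s36i_VA O hπ (N' * q) q, s36i_VB O hπ N' q hq2 hqN', VC] ![1, 1, q - 1] ∧
      s36asm_Pts O hπ N' q hq2 hqN' VC D1

/-- the refined leaves give the leaves of `AsmLeg.lean` with the seam exponent `q² · D1 · q`. -/
theorem s36asm_leaves_of (D1 : ℕ) (H : s36asm_Leaves2 N' q hq2 hqN' D1) :
    s36asm_Leaves N' q hq2 hqN' (q ^ 2 * D1 * q) := by
  intro L _ _ _ O _ _ hπ ζ hζ m hqm hζm
  obtain ⟨VC, πF, πV, πU, πG, zC, zC', tB, tA, rB, rA, T, H3, P⟩ := H L O hπ ζ hζ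
  exact ⟨VC, πF, πV, πU, πG, zC, zC', tB, tA, rB, rA, T,
    s36asm_glue_of O hπ N' q hq2 hqN' m D1 hqm T H3 P⟩

/-- **[L4]-Leg**: the refined leaves ⟹ `s36_CoreNF N' q hq2` (= (C-L)); the exponent is
`d = (q + 1)(q² - 1)² · q³ · D1`. -/
theorem s36asm_coreNF_of2 (D1 : ℕ) (hD1 : D1 ≠ 0) (H : s36asm_Leaves2 N' q hq2 hqN' D1) :
    s36_CoreNF N' q hq2 :=
  s36asm_coreNF_of N' q hq2 hqN' (q ^ 2 * D1 * q)
    (mul_ne_zero (mul_ne_zero (pow_ne_zero 2 hq.out.ne_zero) hD1) hq.out.ne_zero)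
    (s36asm_leaves_of N' q hq2 hqN' D1 H)

end NF

end Fermat.Agent.S36
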