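/-
Project S36 (Carayol), cell [M2], helper lemma for the instances of [V3-ASM] (helper15;
prefix `s36iv_`): in the `ssm_tw_` context (`K ⊆ E` finite separable, `R` a DVR with fraction field
`K`), an element of `E` lying in EVERY valuation subring of `E` over `R` is integral over `R`
(`integralClosure R E = ⋂ V`).  This produces the hypothesis `hzi : IsIntegral R z` of
`s36t3_third` (S36/Model/ThreeAbs.lean) for `z = λ₂ - λ` from `hz` (helper26's `s36i_leg_third`:
`z ∈ 𝔪(V)` for `V ≠ VA`) and `z ∈ VA`.
-/
import Mathlib
import Fermat.Agent.S36.Model.Val3V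

set_option autoImplicit false
set_option linter.unusedSectionVars false
set_option linter.style.haveILetI false

open Fermat.Agent.JT3 Fermat.Agent.SS IsLocalRing IsDedekindDomain

namespace Fermat.Agent.S36

section IntVal

variable (K : Type*) {E : Type*} [Field K] [Field E] [Algebra K E] [FiniteDimensional K E]
  [Algebra.IsSeparable K E]
  (R : Type*) [CommRing R] [IsDomain R] [IsDiscreteValuationRing R] [Algebra R K]
  [IsFractionRing R K] [Algebra R E] [IsScalarTower R K E]

variable {K R}

include K in
/-- an element of `E` lying in EVERY valuation subring of `E` over `R` is integral over `R`. -/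
theorem s36iv_isIntegral_of_forall_mem (a : E)
    (h : ∀ V : ValuationSubring E, ssm_tw_Over K R V → a ∈ V) : IsIntegral R a := by
  obtain ⟨hD, hF, hfin, hfree, hrk⟩ := ssm_tw_inst K (E := E) R
  haveI := hD
  haveI := hF
  have hval : ∀ v : HeightOneSpectrum ↥(integralClosure R E), v.valuation E a ≤ 1 := by
    intro v
    haveI : v.asIdeal.IsMaximal := v.isMaximal
    have hmax : (v.asIdeal.comap (algebraMap R ↥(integralClosure R E))).IsMaximal :=
      Ideal.isMaximal_comap_of_isIntegral_of_isMaximal v.asIdeal
    have hQc : v.asIdeal.comap (algebraMap R ↥(integralClosure R E)) = maximalIdeal R :=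
      IsLocalRing.eq_maximalIdeal hmax
    obtain ⟨V, hV, hVQ⟩ := s36i_exists_val_of_prime K R v.asIdeal hQc
    obtain ⟨v', hv', hmem, -⟩ := s36vv_adic hV
    have hvv : v' = v := HeightOneSpectrum.ext (hv'.trans hVQ)
    subst hvv
    exact (hmem a).1 (h V hV)
  obtain ⟨b, hb⟩ := HeightOneSpectrum.mem_integers_of_valuation_le_one E a hval
  rw [← hb]
  exact b.2

include K in
/-- the same with one distinguished valuation subring `VA`: `a ∈ VA` and `a ∈ 𝔪(V)` for every other
valuation subring over `R` (the shape of `hz` of `s36vv_main` / `s36t3_third`). -/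
theorem s36iv_isIntegral_of_third {VA : ValuationSubring E} (a : E) (haA : a ∈ VA)
    (hz : ∀ V : ValuationSubring E, ssm_tw_Over K R V → V ≠ VA → a ∈ V.nonunits) :
    IsIntegral R a := by
  refine s36iv_isIntegral_of_forall_mem (K := K) a fun V hV => ?_
  by_cases hVA : V = VA
  · rw [hVA]
    exact haA
  · exact ((ssm_tw_nonunits_iff V a).1 (hz V hV hVA)).1

end IntVal

end Fermat.Agent.S36
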