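/-
Project S36 (Carayol), cell [M2], leaf [V3-ASM], INSTANCE of `s36t3_third` (helper15; prefix
`s36t3l_`): THE THIRD-VALUATION PACKAGE `s36t3_Third` ON A GAUSS TOWER AND ON THE LEGENDRE TOWER.

Generic Gauss form (`E1 ≤ E2 ≤ Quot(O((X)))` inside `L((X))`, inclusion algebras, `VF` = the Gauss
ring of `E1`, `VA` = the Gauss valuation subring of `E2`, `πF = gq_unif` the constant `π` in `VF`):

* `s36t3l_gauss_third` : `[E2 : E1] = q ≥ 2`, `κ(VA) = κ(VF)` (element form `hres`), `z ∈ VA`,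
  `z ∈ 𝔪(V)` for every valuation subring `V ≠ VA` of `E2` over `VF` (`hz`), and
  `N_{E2/E1}(z) · w = c`, `c ∉ 𝔪(VF)²` (`hN`, helper8's shape) ⟹
  `∃ VC, s36t3_Third ↥E1 ↥VF q πF z VA VC`.

Legendre tower [LEG-CTX] (`E₁ = lg_E L (N' q)`, `E₂ = lg_E L (N' q q)`, `VF = ssm_gl_V1`,
`VA = s36i_VA`), `z = λ₂ - λ` in helper8's spelling (`s36th_leg_hN`):

* `s36t3l_leg_third` : `∃ VC, s36t3_Third ↥E₁ ↥VF q πF z VA VC`.
-/
import Mathlib
import Fermat.Agent.S36.Model.ThreeAbs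
import Fermat.Agent.S36.Model.IntAllVal
import Fermat.Agent.S36.Model.Val3HypLeg
import Fermat.Agent.S36.Theta.HN

set_option autoImplicit false
set_option linter.unusedSectionVars false
set_option linter.unusedVariables false
set_option linter.style.haveILetI false

noncomputable section

open ModularCurve IntermediateField IsLocalRing
open Fermat.Agent.JT3 Fermat.Agent.SS

namespace Fermat.Agent.S36

section Gauss

variable {L : Type*} [Field L] [CharZero L] (O : ValuationSubring L) [IsDiscreteValuationRing O]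
  {π : O} (hπ : Irreducible π)
variable (E1 E2 : IntermediateField L (LaurentSeries L))
variable (h12 : E1 ≤ E2) (hE2 : E2 ≤ gq_quotField O L)

set_option synthInstance.maxHeartbeats 200000 in
set_option maxHeartbeats 800000 in
/-- **the third-valuation package on a Gauss tower.** -/
theorem s36t3l_gauss_third {q : ℕ} (hq : 2 ≤ q)
    (hrank : IntermediateField.relfinrank E1 E2 = q)
    (hres : ∀ a : ↥E2, a ∈ gq_valSubOf π hπ.ne_zero hπ.maximalIdeal_eq E2 hE2 →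
      ∃ y : ↥(gq_valSubOf π hπ.ne_zero hπ.maximalIdeal_eq E1 (h12.trans hE2)),
        a - IntermediateField.inclusion h12 (y : ↥E1) ∈
          (gq_valSubOf π hπ.ne_zero hπ.maximalIdeal_eq E2 hE2).nonunits)
    (z : ↥E2) (hzA : z ∈ gq_valSubOf π hπ.ne_zero hπ.maximalIdeal_eq E2 hE2)
    (hz : ∀ V : ValuationSubring ↥E2,
      (letI := ssm_gi_algebra h12
       letI := ssm_gi_algebraV h12
         (gq_valSubOf π hπ.ne_zero hπ.maximalIdeal_eq E1 (h12.trans hE2))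
       ssm_tw_Over ↥E1 ↥(gq_valSubOf π hπ.ne_zero hπ.maximalIdeal_eq E1 (h12.trans hE2)) V) →
      V ≠ gq_valSubOf π hπ.ne_zero hπ.maximalIdeal_eq E2 hE2 → z ∈ V.nonunits)
    (hN :
      letI := ssm_gi_algebra h12
      ∃ c w : ↥(gq_valSubOf π hπ.ne_zero hπ.maximalIdeal_eq E1 (h12.trans hE2)),
        c ∉ maximalIdeal ↥(gq_valSubOf π hπ.ne_zero hπ.maximalIdeal_eq E1 (h12.trans hE2)) ^ 2 ∧
        Algebra.norm ↥E1 z * (w : ↥E1) = (c : ↥E1)) :
    letI := ssm_gi_algebra h12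
    letI := ssm_gi_algebraV h12 (gq_valSubOf π hπ.ne_zero hπ.maximalIdeal_eq E1 (h12.trans hE2))
    haveI := ssm_gi_isScalarTower h12
      (gq_valSubOf π hπ.ne_zero hπ.maximalIdeal_eq E1 (h12.trans hE2))
    ∃ VC : ValuationSubring ↥E2,
      s36t3_Third ↥E1 ↥(gq_valSubOf π hπ.ne_zero hπ.maximalIdeal_eq E1 (h12.trans hE2)) q
        (gq_unif π hπ.ne_zero hπ.maximalIdeal_eq E1 (h12.trans hE2)) z
        (gq_valSubOf π hπ.ne_zero hπ.maximalIdeal_eq E2 hE2) VC := by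
  letI := ssm_gi_algebra h12
  letI := ssm_gi_algebraV h12 (gq_valSubOf π hπ.ne_zero hπ.maximalIdeal_eq E1 (h12.trans hE2))
  haveI := ssm_gi_isScalarTower h12
    (gq_valSubOf π hπ.ne_zero hπ.maximalIdeal_eq E1 (h12.trans hE2))
  have hq1 : q - 1 + 1 = q := Nat.sub_add_cancel (le_trans (by norm_num) hq)
  have hrk : Module.finrank ↥E1 ↥E2 = q := (ssm_gt_finrank_eq h12).trans hrank
  haveI : FiniteDimensional ↥E1 ↥E2 :=
    ssm_gi_finiteDimensional (n := q - 1) (by rw [hq1]; exact hrk)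
  haveI : Algebra.IsSeparable ↥E1 ↥E2 := ssm_gi_isSeparable
  haveI : CharZero ↥E1 := charZero_of_injective_algebraMap (algebraMap L ↥E1).injective
  have hirr := ssm_ga_unif_irreducible π hπ.ne_zero hπ.maximalIdeal_eq E1 (h12.trans hE2)
  refine s36t3_third hq hrk (gq_unif π hπ.ne_zero hπ.maximalIdeal_eq E1 (h12.trans hE2)) hirr
    (s36i_gauss_over O hπ E1 E2 h12 hE2)
    (s36vh_gauss_heA O hπ E1 E2 h12 hE2 (n := q - 1) (hrank.trans hq1.symm))
    (s36vh_gauss_hfA O hπ E1 E2 h12 hE2 (n := q - 1) (hrank.trans hq1.symm) hres) z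
    (s36iv_isIntegral_of_third (K := ↥E1) z hzA hz) hz ?_
  intro c hc
  obtain ⟨c0, w, hc0, hcw⟩ := hN
  apply hc0
  rw [hirr.maximalIdeal_eq, Ideal.span_singleton_pow, Ideal.mem_span_singleton]
  refine ⟨c * w, ?_⟩
  apply Subtype.ext
  rw [← hcw, hc]
  have e : algebraMap ↥(gq_valSubOf π hπ.ne_zero hπ.maximalIdeal_eq E1 (h12.trans hE2)) ↥E1
      (gq_unif π hπ.ne_zero hπ.maximalIdeal_eq E1 (h12.trans hE2) ^ 2 * c) =
      ((gq_unif π hπ.ne_zero hπ.maximalIdeal_eq E1 (h12.trans hE2) ^ 2 * c :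
        ↥(gq_valSubOf π hπ.ne_zero hπ.maximalIdeal_eq E1 (h12.trans hE2))) : ↥E1) := rfl
  rw [e]
  push_cast
  ring

end Gauss

section Legendre

variable {L : Type*} [Field L] [CharZero L] [Algebra L (AlgebraicClosure ℚ)]
  (O : ValuationSubring L) [IsDiscreteValuationRing O] {π : O} (hπ : Irreducible π)
variable (N' q : ℕ) [NeZero N'] [NeZero q] [hq : Fact q.Prime] [CharP (ResidueField O) q]
  (hq2 : ¬ 2 ∣ q) (hqN' : ¬ q ∣ N')

include hq2 in
/-- `λ ∈ VA`. -/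
theorem s36t3l_lam_mem :
    lg_lamE (N' * q * q) ∈ s36i_VA O hπ (N' * q) q := by
  letI := ssm_gi_algebra (ssm_al_E_beta_le L (N' * q) q hq2)
  letI := ssm_gi_algebraV (ssm_al_E_beta_le L (N' * q) q hq2) (s36i_RG O hπ (N' * q) q hq2)
  exact (s36i_leg_dataA O hπ (N' * q) q hq2 (Dvd.intro_left N' rfl)).t_mem

include hq2 in
/-- `λ(X^{q q}) ∈ VA`. -/
theorem s36t3l_lam2_mem :
    s36i_lam2 L N' q hq2 ∈ s36i_VA O hπ (N' * q) q := by
  have h := (gq_mem_valSubOf π hπ.ne_zero hπ.maximalIdeal_eq (lg_E L (N' * q * q))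
    (ssm_ga_E_le_quotField O (N' * q * q)) (lg_lamE (N' * q * q))).1
    (s36t3l_lam_mem O hπ N' q hq2)
  rw [gq_mem_valSubOf]
  exact ssm_ga_beta_isBdd q (ssm_ga_beta_isBdd q h)

include hq2 in
/-- `z = λ₂ - λ ∈ VA` (helper8's spelling of `z`). -/
theorem s36t3l_z_mem :
    letI := ssm_gi_algebra (ssm_al_E_le L (N' * q) q)
    s36th_lam2 L N' q hq2 hqN' -
        algebraMap ↥(lg_E L (N' * q)) ↥(lg_E L (N' * q * q)) (lg_lamE (N' * q)) ∈
      s36i_VA O hπ (N' * q) q :=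
  (s36i_VA O hπ (N' * q) q).sub_mem (s36t3l_lam2_mem O hπ N' q hq2)
    (s36t3l_lam_mem O hπ N' q hq2)

include hq2 hqN' in
set_option synthInstance.maxHeartbeats 200000 in
set_option maxHeartbeats 800000 in
/-- **[V3-ASM], Legendre tower: the third-valuation package over `VF`**, `z = λ₂ - λ` in the
spelling of helper8's `s36th_leg_hN`, `πF` = the constant `π` in `VF`. -/
theorem s36t3l_leg_third (u : ↥O) (hu : IsUnit u) (hqu : ((q : ℕ) : ↥O) = π * u) :
    letI := ssm_gi_algebra (ssm_al_E_le L (N' * q) q)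
    letI := ssm_gi_algebraV (ssm_al_E_le L (N' * q) q) (ssm_gl_V1 O hπ N' q)
    haveI := ssm_gi_isScalarTower (ssm_al_E_le L (N' * q) q) (ssm_gl_V1 O hπ N' q)
    ∃ VC : ValuationSubring ↥(lg_E L (N' * q * q)),
      s36t3_Third ↥(lg_E L (N' * q)) ↥(ssm_gl_V1 O hπ N' q) q
        (gq_unif π hπ.ne_zero hπ.maximalIdeal_eq (lg_E L (N' * q))
          (ssm_ga_E_le_quotField O (N' * q)))
        (s36th_lam2 L N' q hq2 hqN' -
          algebraMap ↥(lg_E L (N' * q)) ↥(lg_E L (N' * q * q)) (lg_lamE (N' * q)))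
        (s36i_VA O hπ (N' * q) q) VC :=
  s36t3l_gauss_third O hπ (lg_E L (N' * q)) (lg_E L (N' * q * q)) (ssm_al_E_le L (N' * q) q)
    (ssm_ga_E_le_quotField O (N' * q * q)) hq.out.two_le
    (s36pe_relfinrank_E L (N' * q) q hq.out hq2 (Dvd.intro_left N' rfl))
    (fun a ha => s36cp_ra_leg_mid O hπ N' q hq2 hqN' a ha) _
    (s36t3l_z_mem O hπ N' q hq2 hqN')
    (fun V hV hne => s36i_leg_third O hπ N' q hq2 hqN' V hV hne)
    (s36th_leg_hN O hπ N' q hq2 hqN' u hu hqu)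

include hq2 hqN' in
set_option synthInstance.maxHeartbeats 200000 in
set_option maxHeartbeats 800000 in
/-- the same with `z` in helper26's spelling (`s36i_leg_third`). -/
theorem s36t3l_leg_third' (u : ↥O) (hu : IsUnit u) (hqu : ((q : ℕ) : ↥O) = π * u) :
    letI := ssm_gi_algebra (ssm_al_E_le L (N' * q) q)
    letI := ssm_gi_algebraV (ssm_al_E_le L (N' * q) q) (ssm_gl_V1 O hπ N' q)
    haveI := ssm_gi_isScalarTower (ssm_al_E_le L (N' * q) q) (ssm_gl_V1 O hπ N' q)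
    ∃ VC : ValuationSubring ↥(lg_E L (N' * q * q)),
      s36t3_Third ↥(lg_E L (N' * q)) ↥(ssm_gl_V1 O hπ N' q) q
        (gq_unif π hπ.ne_zero hπ.maximalIdeal_eq (lg_E L (N' * q))
          (ssm_ga_E_le_quotField O (N' * q)))
        (s36i_lam2 L N' q hq2 - lg_lamE (N' * q * q))
        (s36i_VA O hπ (N' * q) q) VC :=
  s36t3l_leg_third O hπ N' q hq2 hqN' u hu hqu

end Legendre

end Fermat.Agent.S36
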