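/-
Project S36 (Carayol), cell [M2], layer [L4], LEGENDRE: THE LAST MILE (helper1, owner of the final
Legendre fill per NOTE 5 (E4) of the S36 architect).  Prefix `s36asm_`.

Everything that is a closed term on main is plugged in here:
* (T3) helper15's `s36t3l_leg_third` : `∃ VC, s36asm_Third … VC` (`s36asm_third_exists`);
* (T)  helper11's `s36at_leg_tower` + helper8's `s36th_leg_hN` : `s36asm_Third … VC → s36asm_Tower …`
  (`s36asm_tower_of_third`);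
* (P)  helper24's `s36gd_leg` (point dispatch; A-only / B-only points by helper17's `s36cp_nf_one`):
  `s36asm_Pts` from the C-only clauses and the two-component clauses (`s36asm_pts_of`).

`s36asm_Leaves3 N' q hq2 hqN' D1` = WHAT IS STILL MISSING, per base `(L, O)` of [NF2-CTX] and per third
valuation `VC` with its package `s36asm_Third`: (H) [TP3] `s36tp_Hyp … ![VA, VB, VC] ![1, 1, q - 1]`,
(W) the `W₂`-stability of the two charts, (C) the C-only points, (T) the points on two components.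
`s36asm_coreNF_of3 : s36asm_Leaves3 … D1 → D1 ≠ 0 → s36_CoreNF N' q hq2`.
-/
import Mathlib
import Fermat.Agent.S36.Model.AsmLegGlue
import Fermat.Agent.S36.ATower.Leg
import Fermat.Agent.S36.Model.ThreeLegAlt
import Fermat.Agent.S36.Glue.DispatchLeg

set_option autoImplicit false
set_option linter.unusedSectionVars false
set_option linter.unusedVariables false
set_option linter.style.haveILetI false
set_option maxHeartbeats 1000000

noncomputable section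

open ModularCurve AlgebraicCurve IntermediateField IsLocalRing
open Fermat.Agent.JT3 Fermat.Agent.SS Fermat.Agent.S35

namespace Fermat.Agent.S36

section Legendre

variable {L : Type*} [Field L] [CharZero L] [Algebra L (AlgebraicClosure ℚ)]
  (O : ValuationSubring L) [IsDiscreteValuationRing O] {π : O} (hπ : Irreducible π)
variable (N' q : ℕ) [NeZero N'] [NeZero q] [hq : Fact q.Prime] [CharP (ResidueField O) q]
  (hq2 : ¬ 2 ∣ q) (hqN' : ¬ q ∣ N')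

/-- the uniformiser `z = λ(X^{q q}) - λ` of the third valuation (helper8's spelling). -/
def s36asm_z : ↥(lg_E L (N' * q * q)) :=
  letI := ssm_gi_algebra (ssm_al_E_le L (N' * q) q)
  s36th_lam2 L N' q hq2 hqN' -
    algebraMap ↥(lg_E L (N' * q)) ↥(lg_E L (N' * q * q)) (lg_lamE (N' * q))

/-- **the third-valuation package over `VF`** (helper29's `s36t3_Third`) in the spelling consumed
by helper11's `s36at_leg_tower`: `πF := s36at_leg_piF`, `z := s36asm_z`. -/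
def s36asm_Third (VC : ValuationSubring ↥(lg_E L (N' * q * q))) : Prop :=
  letI := ssm_gi_algebra (ssm_al_E_le L (N' * q) q)
  letI := ssm_gi_algebraV (ssm_al_E_le L (N' * q) q) (ssm_gl_V1 O hπ N' q)
  haveI := ssm_gi_isScalarTower (ssm_al_E_le L (N' * q) q) (ssm_gl_V1 O hπ N' q)
  s36t3_Third ↥(lg_E L (N' * q)) ↥(ssm_gl_V1 O hπ N' q) q (s36at_leg_piF O hπ N' q)
    (s36asm_z (L := L) N' q hq2 hqN') (s36i_VA O hπ (N' * q) q) VC

/-- (T3), helper15: the third valuation exists over an unramified base. -/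
theorem s36asm_third_exists (u : ↥O) (hu : IsUnit u) (hqu : ((q : ℕ) : ↥O) = π * u) :
    ∃ VC : ValuationSubring ↥(lg_E L (N' * q * q)), s36asm_Third O hπ N' q hq2 hqN' VC :=
  s36t3l_leg_third O hπ N' q hq2 hqN' u hu hqu

/-- (T), helper11 + helper8: the tower package from the third-valuation package. -/
theorem s36asm_tower_of_third (u : ↥O) (hu : IsUnit u) (hqu : ((q : ℕ) : ↥O) = π * u)
    {VC : ValuationSubring ↥(lg_E L (N' * q * q))} (T3 : s36asm_Third O hπ N' q hq2 hqN' VC) :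
    s36asm_Tower O hπ N' q hq2 hqN' VC (s36at_leg_piF O hπ N' q)
      (s36at_leg_piV O hπ N' q hq2 hqN')
      (s36i_wRF O hπ N' q hq2 hqN' (s36at_leg_piF O hπ N' q))
      (s36i_wR O hπ N' q hq2 hqN' (s36at_leg_piV O hπ N' q hq2 hqN'))
      (s36asm_z (L := L) N' q hq2 hqN')
      (s36i_W2 L N' q hq2 hqN' (s36asm_z (L := L) N' q hq2 hqN')) (s36i_lam2 L N' q hq2)
      (s36i_W2 L N' q hq2 hqN' (s36i_lam2 L N' q hq2)) (s36i_lam1V O hπ N' q hq2 hqN')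
      (s36i_wR O hπ N' q hq2 hqN' (s36i_lam1V O hπ N' q hq2 hqN')) :=
  s36at_leg_tower O hπ N' q hq2 hqN' T3 (s36th_leg_hN O hπ N' q hq2 hqN' u hu hqu)

/-- **the C-only clauses** ([L3b] ordinary + [L3c] cusps) of helper24's dispatch `s36gd_leg`, on the
two charts of `λ ∈ E₂`. -/
def s36asm_PtsC (VC : ValuationSubring ↥(lg_E L (N' * q * q))) (D1 : ℕ) : Prop :=
  (∀ (𝔫 : Ideal (fc_chart ↥O ({lg_lamE (N' * q * q)} : Set ↥(lg_E L (N' * q * q))))) (h𝔫 : 𝔫.IsMaximal),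
    algebraMap ↥O (fc_chart ↥O ({lg_lamE (N' * q * q)} : Set ↥(lg_E L (N' * q * q)))) π ∈ 𝔫 →
    ssm_tp_P (fc_chart ↥O ({lg_lamE (N' * q * q)} : Set ↥(lg_E L (N' * q * q)))) VC ≤ 𝔫 →
    ¬ ssm_tp_P (fc_chart ↥O ({lg_lamE (N' * q * q)} : Set ↥(lg_E L (N' * q * q)))) (s36i_VA O hπ (N' * q) q) ≤ 𝔫 →
    ¬ ssm_tp_P (fc_chart ↥O ({lg_lamE (N' * q * q)} : Set ↥(lg_E L (N' * q * q)))) (s36i_VB O hπ N' q hq2 hqN') ≤ 𝔫 →
    (haveI := s36cp_chart_isFractionRing O (N' * q * q)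
     haveI := h𝔫.isPrime
     s36g_PtOne π q (fc_chart ↥O ({lg_lamE (N' * q * q)} : Set ↥(lg_E L (N' * q * q)))) 𝔫 ∨
     s36g_PtWeak π q D1 (fc_chart ↥O ({lg_lamE (N' * q * q)} : Set ↥(lg_E L (N' * q * q)))) 𝔫)) ∧
  (∀ (𝔫 : Ideal (fc_chart ↥O ({(lg_lamE (N' * q * q))⁻¹} : Set ↥(lg_E L (N' * q * q))))) (h𝔫 : 𝔫.IsMaximal),
    algebraMap ↥O (fc_chart ↥O ({(lg_lamE (N' * q * q))⁻¹} : Set ↥(lg_E L (N' * q * q)))) π ∈ 𝔫 →
    (⟨(lg_lamE (N' * q * q))⁻¹, fc_x_mem_chart (lg_lamE (N' * q * q))⁻¹⟩ :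
      fc_chart ↥O ({(lg_lamE (N' * q * q))⁻¹} : Set ↥(lg_E L (N' * q * q)))) ∈ 𝔫 →
    ssm_tp_P (fc_chart ↥O ({(lg_lamE (N' * q * q))⁻¹} : Set ↥(lg_E L (N' * q * q)))) VC ≤ 𝔫 →
    ¬ ssm_tp_P (fc_chart ↥O ({(lg_lamE (N' * q * q))⁻¹} : Set ↥(lg_E L (N' * q * q)))) (s36i_VA O hπ (N' * q) q) ≤ 𝔫 →
    ¬ ssm_tp_P (fc_chart ↥O ({(lg_lamE (N' * q * q))⁻¹} : Set ↥(lg_E L (N' * q * q)))) (s36i_VB O hπ N' q hq2 hqN') ≤ 𝔫 →
    (haveI := s36cp_chart_inv_isFractionRing O (N' * q * q)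
     haveI := h𝔫.isPrime
     s36g_PtOne π q (fc_chart ↥O ({(lg_lamE (N' * q * q))⁻¹} : Set ↥(lg_E L (N' * q * q)))) 𝔫 ∨
     s36g_PtWeak π q D1 (fc_chart ↥O ({(lg_lamE (N' * q * q))⁻¹} : Set ↥(lg_E L (N' * q * q)))) 𝔫))

/-- **the two-component clauses** ([L3d]) of helper24's dispatch `s36gd_leg`, on the two charts of
`λ ∈ E₂`, with `N_i := s36at_N`, `K_i' := fieldRange`. -/
def s36asm_PtsT (VC : ValuationSubring ↥(lg_E L (N' * q * q))) : Prop :=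
  letI := ssm_gi_algebra (ssm_al_E_le L (N' * q) q)
  letI := ssm_gi_algebra (ssm_al_E_beta_le L (N' * q) q hq2)
  (∀ (𝔫 : Ideal (fc_chart ↥O ({lg_lamE (N' * q * q)} : Set ↥(lg_E L (N' * q * q))))) (h𝔫 : 𝔫.IsMaximal),
    algebraMap ↥O (fc_chart ↥O ({lg_lamE (N' * q * q)} : Set ↥(lg_E L (N' * q * q)))) π ∈ 𝔫 →
    ((ssm_tp_P (fc_chart ↥O ({lg_lamE (N' * q * q)} : Set ↥(lg_E L (N' * q * q)))) (s36i_VA O hπ (N' * q) q) ≤ 𝔫 ∧
          ssm_tp_P (fc_chart ↥O ({lg_lamE (N' * q * q)} : Set ↥(lg_E L (N' * q * q)))) (s36i_VB O hπ N' q hq2 hqN') ≤ 𝔫) ∨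
        (ssm_tp_P (fc_chart ↥O ({lg_lamE (N' * q * q)} : Set ↥(lg_E L (N' * q * q)))) (s36i_VA O hπ (N' * q) q) ≤ 𝔫 ∧
          ssm_tp_P (fc_chart ↥O ({lg_lamE (N' * q * q)} : Set ↥(lg_E L (N' * q * q)))) VC ≤ 𝔫) ∨
        (ssm_tp_P (fc_chart ↥O ({lg_lamE (N' * q * q)} : Set ↥(lg_E L (N' * q * q)))) (s36i_VB O hπ N' q hq2 hqN') ≤ 𝔫 ∧
          ssm_tp_P (fc_chart ↥O ({lg_lamE (N' * q * q)} : Set ↥(lg_E L (N' * q * q)))) VC ≤ 𝔫)) →
    (haveI := s36cp_chart_isFractionRing O (N' * q * q)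
     haveI := h𝔫.isPrime
     s36g_PtTri π (q - 1) (s36at_N ↥(lg_E L (N' * q)))
        (s36at_N ↥((lg_E L (N' * q)).map (qExpandAlgHomC L q)))
        (algebraMap ↥(lg_E L (N' * q)) ↥(lg_E L (N' * q * q))).fieldRange
        (algebraMap ↥((lg_E L (N' * q)).map (qExpandAlgHomC L q))
          ↥(lg_E L (N' * q * q))).fieldRange
        (fc_chart ↥O ({lg_lamE (N' * q * q)} : Set ↥(lg_E L (N' * q * q))))
        (ssm_tp_P (fc_chart ↥O ({lg_lamE (N' * q * q)} : Set ↥(lg_E L (N' * q * q)))) (s36i_VA O hπ (N' * q) q))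
        (ssm_tp_P (fc_chart ↥O ({lg_lamE (N' * q * q)} : Set ↥(lg_E L (N' * q * q)))) (s36i_VB O hπ N' q hq2 hqN'))
        (ssm_tp_P (fc_chart ↥O ({lg_lamE (N' * q * q)} : Set ↥(lg_E L (N' * q * q)))) VC) 𝔫)) ∧
  (∀ (𝔫 : Ideal (fc_chart ↥O ({(lg_lamE (N' * q * q))⁻¹} : Set ↥(lg_E L (N' * q * q))))) (h𝔫 : 𝔫.IsMaximal),
    algebraMap ↥O (fc_chart ↥O ({(lg_lamE (N' * q * q))⁻¹} : Set ↥(lg_E L (N' * q * q)))) π ∈ 𝔫 →
    (⟨(lg_lamE (N' * q * q))⁻¹, fc_x_mem_chart (lg_lamE (N' * q * q))⁻¹⟩ :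
      fc_chart ↥O ({(lg_lamE (N' * q * q))⁻¹} : Set ↥(lg_E L (N' * q * q)))) ∈ 𝔫 →
    ((ssm_tp_P (fc_chart ↥O ({(lg_lamE (N' * q * q))⁻¹} : Set ↥(lg_E L (N' * q * q)))) (s36i_VA O hπ (N' * q) q) ≤ 𝔫 ∧
          ssm_tp_P (fc_chart ↥O ({(lg_lamE (N' * q * q))⁻¹} : Set ↥(lg_E L (N' * q * q)))) (s36i_VB O hπ N' q hq2 hqN') ≤ 𝔫) ∨
        (ssm_tp_P (fc_chart ↥O ({(lg_lamE (N' * q * q))⁻¹} : Set ↥(lg_E L (N' * q * q)))) (s36i_VA O hπ (N' * q) q) ≤ 𝔫 ∧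
          ssm_tp_P (fc_chart ↥O ({(lg_lamE (N' * q * q))⁻¹} : Set ↥(lg_E L (N' * q * q)))) VC ≤ 𝔫) ∨
        (ssm_tp_P (fc_chart ↥O ({(lg_lamE (N' * q * q))⁻¹} : Set ↥(lg_E L (N' * q * q)))) (s36i_VB O hπ N' q hq2 hqN') ≤ 𝔫 ∧
          ssm_tp_P (fc_chart ↥O ({(lg_lamE (N' * q * q))⁻¹} : Set ↥(lg_E L (N' * q * q)))) VC ≤ 𝔫)) →
    (haveI := s36cp_chart_inv_isFractionRing O (N' * q * q)
     haveI := h𝔫.isPrime
     s36g_PtTri π (q - 1) (s36at_N ↥(lg_E L (N' * q)))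
        (s36at_N ↥((lg_E L (N' * q)).map (qExpandAlgHomC L q)))
        (algebraMap ↥(lg_E L (N' * q)) ↥(lg_E L (N' * q * q))).fieldRange
        (algebraMap ↥((lg_E L (N' * q)).map (qExpandAlgHomC L q))
          ↥(lg_E L (N' * q * q))).fieldRange
        (fc_chart ↥O ({(lg_lamE (N' * q * q))⁻¹} : Set ↥(lg_E L (N' * q * q))))
        (ssm_tp_P (fc_chart ↥O ({(lg_lamE (N' * q * q))⁻¹} : Set ↥(lg_E L (N' * q * q)))) (s36i_VA O hπ (N' * q) q))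
        (ssm_tp_P (fc_chart ↥O ({(lg_lamE (N' * q * q))⁻¹} : Set ↥(lg_E L (N' * q * q)))) (s36i_VB O hπ N' q hq2 hqN'))
        (ssm_tp_P (fc_chart ↥O ({(lg_lamE (N' * q * q))⁻¹} : Set ↥(lg_E L (N' * q * q)))) VC) 𝔫))

end Legendre

section NFpts

variable (L : Type) [Field L] [NumberField L] [Algebra L (AlgebraicClosure ℚ)]
  (O : ValuationSubring L) [IsDiscreteValuationRing O] {π : O} (hπ : Irreducible π)
variable (N' q : ℕ) [NeZero N'] [NeZero q] [hq : Fact q.Prime] [CharP (ResidueField O) q]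
  (hq2 : ¬ 2 ∣ q) (hqN' : ¬ q ∣ N') (ζ : L) (hζ : IsPrimitiveRoot ζ N')

include hζ in
/-- (P), helper24 + helper17: the point clauses from [TP3], the `W₂`-stability of the charts, the
C-only clauses and the two-component clauses. -/
theorem s36asm_pts_of {VC : ValuationSubring ↥(lg_E L (N' * q * q))} {e : Fin 3 → ℕ}
    (H : s36tp_Hyp
      (algebraMap ↥O (Algebra.adjoin ↥O ({lg_lamE (N' * q * q)} : Set ↥(lg_E L (N' * q * q)))) π)
      ![s36i_VA O hπ (N' * q) q, s36i_VB O hπ N' q hq2 hqN', VC] e)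
    (he0 : e 0 = 1) (he1 : e 1 = 1)
    (hWB1 : ∀ b ∈ fc_chart ↥O ({lg_lamE (N' * q * q)} : Set ↥(lg_E L (N' * q * q))),
      s36i_W2 L N' q hq2 hqN' b ∈
        fc_chart ↥O ({lg_lamE (N' * q * q)} : Set ↥(lg_E L (N' * q * q))))
    (hWB2 : ∀ b ∈ fc_chart ↥O ({(lg_lamE (N' * q * q))⁻¹} : Set ↥(lg_E L (N' * q * q))),
      s36i_W2 L N' q hq2 hqN' b ∈
        fc_chart ↥O ({(lg_lamE (N' * q * q))⁻¹} : Set ↥(lg_E L (N' * q * q))))
    (D1 : ℕ) (PC : s36asm_PtsC O hπ N' q hq2 hqN' VC D1)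
    (PT : s36asm_PtsT O hπ N' q hq2 hqN' VC) :
    s36asm_Pts O hπ N' q hq2 hqN' VC D1 := by
  letI := ssm_gi_algebra (ssm_al_E_le L (N' * q) q)
  letI := ssm_gi_algebra (ssm_al_E_beta_le L (N' * q) q hq2)
  exact s36gd_leg L O hπ N' q hq2 hqN' ζ hζ H he0 he1 hWB1 hWB2 D1
    (s36at_N ↥(lg_E L (N' * q))) (s36at_N ↥((lg_E L (N' * q)).map (qExpandAlgHomC L q)))
    (algebraMap ↥(lg_E L (N' * q)) ↥(lg_E L (N' * q * q))).fieldRange
    (algebraMap ↥((lg_E L (N' * q)).map (qExpandAlgHomC L q)) ↥(lg_E L (N' * q * q))).fieldRange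
    PC.1 PT.1 PC.2 PT.2

end NFpts

section NF

variable (N' q : ℕ) [NeZero N'] [NeZero q] [hq : Fact q.Prime] (hq2 : ¬ 2 ∣ q) (hqN' : ¬ q ∣ N')

/-- **WHAT IS STILL MISSING FOR (C-L)**, per base `(L, O)` of [NF2-CTX]: (W) the `W₂`-stability of
the two charts of `λ ∈ E₂`; and for every third valuation `VC` with its package `s36asm_Third`:
(H) [TP3] with `e = ![1, 1, q - 1]`, (C) the C-only points, (T) the points on two components. -/
def s36asm_Leaves3 (D1 : ℕ) : Prop :=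
  ∀ (L : Type) [Field L] [NumberField L] [Algebra L (AlgebraicClosure ℚ)]
    (O : ValuationSubring L) [IsDiscreteValuationRing O]
    [CharP (ResidueField O) q] (hπ : Irreducible ((q : ℕ) : ↥O))
    (ζ : L) (hζ : IsPrimitiveRoot ζ N'),
    ((∀ b ∈ fc_chart ↥O ({lg_lamE (N' * q * q)} : Set ↥(lg_E L (N' * q * q))),
        s36i_W2 L N' q hq2 hqN' b ∈
          fc_chart ↥O ({lg_lamE (N' * q * q)} : Set ↥(lg_E L (N' * q * q)))) ∧
      (∀ b ∈ fc_chart ↥O ({(lg_lamE (N' * q * q))⁻¹} : Set ↥(lg_E L (N' * q * q))),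
        s36i_W2 L N' q hq2 hqN' b ∈
          fc_chart ↥O ({(lg_lamE (N' * q * q))⁻¹} : Set ↥(lg_E L (N' * q * q))))) ∧
    ∀ VC : ValuationSubring ↥(lg_E L (N' * q * q)), s36asm_Third O hπ N' q hq2 hqN' VC →
      s36tp_Hyp (algebraMap ↥O (Algebra.adjoin ↥O
          ({lg_lamE (N' * q * q)} : Set ↥(lg_E L (N' * q * q)))) ((q : ℕ) : ↥O))
        ![s36i_VA O hπ (N' * q) q, s36i_VB O hπ N' q hq2 hqN', VC] ![1, 1, q - 1] ∧
      s36asm_PtsC O hπ N' q hq2 hqN' VC D1 ∧ s36asm_PtsT O hπ N' q hq2 hqN' VC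

/-- the last mile: `s36asm_Leaves3 → s36asm_Leaves2` (T3, the tower and the dispatch plugged). -/
theorem s36asm_leaves2_of3 (D1 : ℕ) (H : s36asm_Leaves3 N' q hq2 hqN' D1) :
    s36asm_Leaves2 N' q hq2 hqN' D1 := by
  intro L _ _ _ O _ _ hπ ζ hζ
  obtain ⟨⟨hWB1, hWB2⟩, hVC⟩ := H L O hπ ζ hζ
  have hqu : ((q : ℕ) : ↥O) = ((q : ℕ) : ↥O) * 1 := (mul_one _).symm
  obtain ⟨VC, T3⟩ := s36asm_third_exists O hπ N' q hq2 hqN' 1 isUnit_one hqu
  obtain ⟨H3, PC, PT⟩ := hVC VC T3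
  exact ⟨VC, _, _, _, _, _, _, _, _, _, _,
    s36asm_tower_of_third O hπ N' q hq2 hqN' 1 isUnit_one hqu T3, H3,
    s36asm_pts_of L O hπ N' q hq2 hqN' ζ hζ H3 rfl rfl hWB1 hWB2 D1 PC PT⟩

/-- **[L4]-Leg, the last mile**: `s36asm_Leaves3 … D1`, `D1 ≠ 0` ⟹ `s36_CoreNF N' q hq2` (= (C-L)). -/
theorem s36asm_coreNF_of3 (D1 : ℕ) (hD1 : D1 ≠ 0) (H : s36asm_Leaves3 N' q hq2 hqN' D1) :
    s36_CoreNF N' q hq2 :=
  s36asm_coreNF_of2 N' q hq2 hqN' D1 hD1 (s36asm_leaves2_of3 N' q hq2 hqN' D1 H)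

end NF

end Fermat.Agent.S36
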