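/-
Project S36 (Carayol), cell [M2], leaf [CP3], HESSE side (helper12): THE SMOOTH CLAUSE ON THE
MIDDLE COMPONENT `C` WHEN IT IS REDUCED (`e(VC) = q - 1 = 1`, i.e. `q = 2`: the Hesse assembly).
Complement of helper17's `S36/Model/Comp3FF.lean` (`s36cp_ff_smoothA`, `s36cp_ff_smoothB`).

`s36cp_smooth_val` is symmetric under `VA ↔ VC` once `e 2 = 1`: `C` is the `(1,1)`-component,
`κ(VC) = κ(R')` (`R'` the Gauss ring of the level-`N'` field `K`), so the closed points lying on `C`
only inherit the regularity clause of the level-`N'` chart exactly as the points on `A` only.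

* `s36cpc_ff_smoothC` : the SMOOTH clause `(∃ t, tq_GenBy π t 𝔫) ∧ tq_Dom π 𝔫` at every maximal
  `𝔫 ∋ π` of `fc_chart A0 {ι y}` with `P_A ⊄ 𝔫`, `P_B ⊄ 𝔫`, for `e 0 = e 1 = e 2 = 1`.
Prefix `s36cpc_`.
-/
import Mathlib
import Fermat.Agent.S36.Model.Comp3FF

set_option autoImplicit false
set_option linter.unusedSectionVars false
set_option linter.unusedVariables false
set_option linter.style.haveILetI false

namespace Fermat.Agent.S36

open Fermat.Agent.JT3 Fermat.Agent.SS IsLocalRing IntermediateField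

section FF

universe u v

variable {K : Type u} {E : Type v} [Field K] [Field E] [Algebra K E]
  {R' : Type*} [CommRing R'] [Algebra R' K] [Algebra R' E] [IsScalarTower R' K E]
  {A0 L : Type*} [CommRing A0] [IsDomain A0] [IsDiscreteValuationRing A0]
  [Field L] [Algebra A0 L] [IsFractionRing A0 L] [Algebra L E] [Algebra A0 E]
  [IsScalarTower A0 L E] [Algebra A0 K] [IsScalarTower A0 K E] [Algebra L K] [IsScalarTower A0 L K]

variable {VA VB VC : ValuationSubring E} {e : Fin 3 → ℕ}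

/-- **[CP3], SMOOTH clause on `C`, reduced case** (`e 2 = 1`): on the chart
`B = fc_chart A0 {ι y}` of level `N' q²`, at every maximal ideal `𝔫 ∋ π` lying neither on `A` nor
on `B`, from the regularity clause of the chart `B' = fc_chart A0 {y}` of level `N'`. -/
theorem s36cpc_ff_smoothC {π : A0} (hπ : Irreducible π) {y : K}
    (hy : Transcendental L y) [FiniteDimensional L⟮y⟯ K]
    (hyE : Transcendental L (algebraMap K E y))
    (hprime : Prime (algebraMap A0 (fc_chart A0 ({y} : Set K)) π))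
    (hic : IsIntegrallyClosed (fc_chart A0 ({y} : Set K) ⧸
      (Ideal.span {algebraMap A0 (fc_chart A0 ({y} : Set K)) π} :
        Ideal (fc_chart A0 ({y} : Set K)))))
    (VK : ValuationSubring K) (hVK : ∀ z : K, z ∈ VK ↔ z ∈ (algebraMap R' K).range)
    (hover : ssm_tp_Over (algebraMap A0 (Algebra.adjoin A0 ({y} : Set K)) π) VK)
    (H : s36tp_Hyp (algebraMap A0 (Algebra.adjoin A0 ({algebraMap K E y} : Set E)) π)
      ![VA, VB, VC] e) (he0 : e 0 = 1) (he1 : e 1 = 1) (he2 : e 2 = 1)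
    (hVCover : ∀ z : K, algebraMap K E z ∈ VC ↔ z ∈ (algebraMap R' K).range)
    (hresC : ∀ a ∈ VC, ∃ r : R', a - algebraMap R' E r ∈ VC.nonunits)
    (hreg : jt_RegAt (fc_chart A0 ({y} : Set K)) (algebraMap A0 (fc_chart A0 ({y} : Set K)) π))
    (𝔫 : Ideal (fc_chart A0 ({algebraMap K E y} : Set E))) (h𝔫 : 𝔫.IsMaximal)
    (hπ𝔫 : algebraMap A0 (fc_chart A0 ({algebraMap K E y} : Set E)) π ∈ 𝔫)
    (hA : ¬ ssm_tp_P (fc_chart A0 ({algebraMap K E y} : Set E)) VA ≤ 𝔫)
    (hB : ¬ ssm_tp_P (fc_chart A0 ({algebraMap K E y} : Set E)) VB ≤ 𝔫) :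
    (∃ t, tq_GenBy (algebraMap A0 (fc_chart A0 ({algebraMap K E y} : Set E)) π) t 𝔫) ∧
      tq_Dom (algebraMap A0 (fc_chart A0 ({algebraMap K E y} : Set E)) π) 𝔫 := by
  have hyEA : Transcendental A0 (algebraMap K E y) := fc_ff_transcendental (L := L) hyE
  haveI : IsIntegrallyClosed (Algebra.adjoin A0 ({algebraMap K E y} : Set E)) :=
    fc_ff_isIntegrallyClosed hyEA
  haveI : FaithfulSMul (Algebra.adjoin A0 ({algebraMap K E y} : Set E)) E :=
    (faithfulSMul_iff_algebraMap_injective _ _).2 Subtype.val_injective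
  haveI := h𝔫.isPrime
  have hCh := ssm_tp_ff_chart (L := L) hπ hyE
  have Lk := s36cp_link_ff (L := L) (R' := R') hπ hy hyE hprime VK hVK hover VC hVCover (H.ovr 2)
  have hπ' : (Ideal.span {algebraMap A0 (fc_chart A0 ({y} : Set K)) π} :
      Ideal (fc_chart A0 ({y} : Set K))).IsPrime :=
    (Ideal.span_singleton_prime hprime.ne_zero).2 hprime
  obtain ⟨leA, leB, -, hdiv, unifA, unifB, ramC⟩ := s36cp_ff_inputs (L := L) hπ hyE H he0 he1
  have hC : ssm_tp_P (fc_chart A0 ({algebraMap K E y} : Set E)) VC ≤ 𝔫 := by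
    rcases s36tp_three_P_le_of_mem H hCh _ rfl 𝔫 hπ𝔫 with h | h | h
    · exact absurd h hA
    · exact absurd h hB
    · exact h
  have unifC : ∀ a ∈ VC.nonunits, (algebraMap A0 E π)⁻¹ * a ∈ VC := by
    intro a ha
    have := ramC a ha
    rwa [he2, pow_one] at this
  have ramA : ∀ a ∈ VA.nonunits, (algebraMap A0 E π)⁻¹ * a ^ 1 ∈ VA := by
    intro a ha
    rw [pow_one]
    exact unifA a ha
  have hφπ := ssm_cpi_phi_algebraMap (A0 := A0) (E := E) y π
  have h := s36cp_smooth_val VC VB VA Lk hresC (ssm_cpi_phi_isIntegral (A0 := A0) (E := E) y) hπ'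
    hic hreg leB leA (by rw [hφπ]; exact fun b h1 h2 h3 => hdiv b h3 h2 h1)
    (by rw [hφπ]; exact unifC) (by rw [hφπ]; exact unifB) 1 (by rw [hφπ]; exact ramA) 𝔫 h𝔫 hC hB hA
  rw [hφπ] at h
  exact h

end FF

end Fermat.Agent.S36
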