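/-
Project S36 (Carayol), cell [M2], instance leaf [L3a]-Hes (helper12): THE SMOOTH CLAUSES AT THE
POINTS LYING ON ONE COMPONENT ONLY, HESSE TOWER `E' = hs_E L h3 N' ≤ E = hs_E L h3 (N' q q)`,
coordinate `x = μ - 1`, `W = W₂` (`s36w_h_WE`).  Twin of helper17's `S36/Model/Smooth3Inst.lean`,
PLUS the clause on the middle component `C` when it is reduced (`e 2 = 1`, i.e. `q = 2`: the Hesse
assembly; `s36cpc_ff_smoothC`).

* `s36cph_si_chartC`      : generic tower, one chart `fc_chart O {yE}`: the clause on `C`;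
* `s36cph_si_smoothC_gen` : generic tower, both charts `lam'`, `lam'⁻¹`;
* `s36cph_E_le2`, `s36cph_W2_algebraMap` : `hs_E L h3 N' ≤ hs_E L h3 (N' q q)`, `W₂` fixes `O`;
* `s36cph_hes_smooth`     : the Hesse instance, clauses on `A` only and on `B` only (four clauses,
  any `e 2`);
* `s36cph_hes_smoothC`    : the Hesse instance, clauses on `C` only (two clauses, `e 2 = 1`).
Prefix `s36cph_`.
-/
import Mathlib
import Fermat.Agent.S36.Model.Smooth3Inst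
import Fermat.Agent.S36.Model.Comp3FFC
import Fermat.Agent.S36.Ins1.HesB

set_option autoImplicit false
set_option linter.unusedSectionVars false
set_option linter.unusedVariables false
set_option linter.style.haveILetI false

noncomputable section

open ModularCurve IntermediateField IsLocalRing
open Fermat.Agent.JT3 Fermat.Agent.SS

namespace Fermat.Agent.S36

section Generic

variable {L : Type*} [Field L] [CharZero L] (O : ValuationSubring L)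
  [IsDiscreteValuationRing O] {π : O} (hπ : Irreducible π)
variable (E' E : IntermediateField L (LaurentSeries L)) (hle : E' ≤ E)
  (hE : E ≤ gq_quotField O L)

set_option synthInstance.maxHeartbeats 200000 in
set_option maxHeartbeats 400000 in
/-- **the smooth clause on `C` on one chart** `fc_chart O {yE}` (`e 2 = 1`): at the maximal ideals
`𝔫 ∋ π` lying neither on `A` nor on `B`. -/
theorem s36cph_si_chartC {VB VC : ValuationSubring ↥E} {e : Fin 3 → ℕ}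
    (y : ↥E') (yE : ↥E) (hyE : IntermediateField.inclusion hle y = yE)
    (hy : Transcendental L y) [FiniteDimensional L⟮y⟯ ↥E'] (hyEt : Transcendental L yE)
    (hover : ssm_tp_Over (algebraMap ↥O (Algebra.adjoin ↥O ({y} : Set ↥E')) π)
      (gq_valSubOf π hπ.ne_zero hπ.maximalIdeal_eq E' (hle.trans hE)))
    (H : s36tp_Hyp (algebraMap ↥O (Algebra.adjoin ↥O ({yE} : Set ↥E)) π)
      ![gq_valSubOf π hπ.ne_zero hπ.maximalIdeal_eq E hE, VB, VC] e)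
    (he0 : e 0 = 1) (he1 : e 1 = 1) (he2 : e 2 = 1)
    (hVC : ∀ z : ↥E', IntermediateField.inclusion hle z ∈ VC ↔
      z ∈ gq_valSubOf π hπ.ne_zero hπ.maximalIdeal_eq E' (hle.trans hE))
    (hresC : ∀ a ∈ VC,
      ∃ r : ↥(gq_valSubOf π hπ.ne_zero hπ.maximalIdeal_eq E' (hle.trans hE)),
        a - IntermediateField.inclusion hle (r : ↥E') ∈ VC.nonunits)
    (hprime : Prime (algebraMap ↥O (fc_chart ↥O ({y} : Set ↥E')) π))
    (hic : IsIntegrallyClosed (fc_chart ↥O ({y} : Set ↥E') ⧸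
      (Ideal.span {algebraMap ↥O (fc_chart ↥O ({y} : Set ↥E')) π} :
        Ideal (fc_chart ↥O ({y} : Set ↥E')))))
    (hreg : jt_RegAt (fc_chart ↥O ({y} : Set ↥E'))
      (algebraMap ↥O (fc_chart ↥O ({y} : Set ↥E')) π)) :
    ∀ 𝔫 : Ideal (fc_chart ↥O ({yE} : Set ↥E)), 𝔫.IsMaximal →
      algebraMap ↥O (fc_chart ↥O ({yE} : Set ↥E)) π ∈ 𝔫 →
      ¬ ssm_tp_P (fc_chart ↥O ({yE} : Set ↥E))
        (gq_valSubOf π hπ.ne_zero hπ.maximalIdeal_eq E hE) ≤ 𝔫 →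
      ¬ ssm_tp_P (fc_chart ↥O ({yE} : Set ↥E)) VB ≤ 𝔫 →
      ss_SmoothAt π (fc_chart ↥O ({yE} : Set ↥E)) 𝔫 := by
  subst hyE
  letI := ssm_gi_algebra hle
  letI := ssm_gi_algebraV hle (gq_valSubOf π hπ.ne_zero hπ.maximalIdeal_eq E' (hle.trans hE))
  haveI := ssm_gi_isScalarTower hle
    (gq_valSubOf π hπ.ne_zero hπ.maximalIdeal_eq E' (hle.trans hE))
  haveI := ssm_go_isScalarTower O E
  haveI := ssm_go_isScalarTower O E'
  haveI := ssm_gt_isScalarTower O hle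
  have hVK : ∀ z : ↥E', z ∈ gq_valSubOf π hπ.ne_zero hπ.maximalIdeal_eq E' (hle.trans hE) ↔
      z ∈ (algebraMap ↥(gq_valSubOf π hπ.ne_zero hπ.maximalIdeal_eq E' (hle.trans hE)) ↥E').range :=
    fun z => (ssm_gi_mem_range _ z).symm
  have hVCover : ∀ z : ↥E', algebraMap ↥E' ↥E z ∈ VC ↔
      z ∈ (algebraMap ↥(gq_valSubOf π hπ.ne_zero hπ.maximalIdeal_eq E' (hle.trans hE)) ↥E').range := by
    intro z
    rw [ssm_gi_mem_range]
    exact hVC z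
  have hresC' : ∀ a ∈ VC,
      ∃ r : ↥(gq_valSubOf π hπ.ne_zero hπ.maximalIdeal_eq E' (hle.trans hE)),
        a - algebraMap ↥(gq_valSubOf π hπ.ne_zero hπ.maximalIdeal_eq E' (hle.trans hE)) ↥E r ∈
          VC.nonunits := hresC
  intro 𝔫 h𝔫 hπ𝔫 hA hB
  exact s36cpc_ff_smoothC (L := L)
    (R' := ↥(gq_valSubOf π hπ.ne_zero hπ.maximalIdeal_eq E' (hle.trans hE)))
    hπ hy hyEt hprime hic
    (gq_valSubOf π hπ.ne_zero hπ.maximalIdeal_eq E' (hle.trans hE)) hVK hover H he0 he1 he2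
    hVCover hresC' hreg 𝔫 h𝔫 hπ𝔫 hA hB

set_option synthInstance.maxHeartbeats 200000 in
set_option maxHeartbeats 800000 in
/-- **the two smooth clauses on `C`** for the two charts `lam`, `lam⁻¹` of `E` (`e 2 = 1`). -/
theorem s36cph_si_smoothC_gen {VB VC : ValuationSubring ↥E} {e : Fin 3 → ℕ}
    (ys : LaurentSeries O) (n : ℤ) (hn0 : n ≠ 0) (hyn : residue O (ys.coeff n) ≠ 0) (lam' : ↥E')
    (hlam : (lam' : LaurentSeries L) = coeffMap (algebraMap O L) ys)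
    [FiniteDimensional L⟮lam'⟯ ↥E']
    [FiniteDimensional L⟮IntermediateField.inclusion hle lam'⟯ ↥E]
    (H : s36tp_Hyp
      (algebraMap ↥O (Algebra.adjoin ↥O ({IntermediateField.inclusion hle lam'} : Set ↥E)) π)
      ![gq_valSubOf π hπ.ne_zero hπ.maximalIdeal_eq E hE, VB, VC] e)
    (he0 : e 0 = 1) (he1 : e 1 = 1) (he2 : e 2 = 1)
    (hVC : ∀ z : ↥E', IntermediateField.inclusion hle z ∈ VC ↔
      z ∈ gq_valSubOf π hπ.ne_zero hπ.maximalIdeal_eq E' (hle.trans hE))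
    (hresC : ∀ a ∈ VC,
      ∃ r : ↥(gq_valSubOf π hπ.ne_zero hπ.maximalIdeal_eq E' (hle.trans hE)),
        a - IntermediateField.inclusion hle (r : ↥E') ∈ VC.nonunits)
    (hprime1 : Prime (algebraMap ↥O (fc_chart ↥O ({lam'} : Set ↥E')) π))
    (hprime2 : Prime (algebraMap ↥O (fc_chart ↥O ({lam'⁻¹} : Set ↥E')) π))
    (hic1 : IsIntegrallyClosed (fc_chart ↥O ({lam'} : Set ↥E') ⧸
      (Ideal.span {algebraMap ↥O (fc_chart ↥O ({lam'} : Set ↥E')) π} :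
        Ideal (fc_chart ↥O ({lam'} : Set ↥E')))))
    (hic2 : IsIntegrallyClosed (fc_chart ↥O ({lam'⁻¹} : Set ↥E') ⧸
      (Ideal.span {algebraMap ↥O (fc_chart ↥O ({lam'⁻¹} : Set ↥E')) π} :
        Ideal (fc_chart ↥O ({lam'⁻¹} : Set ↥E')))))
    (hreg1 : jt_RegAt (fc_chart ↥O ({lam'} : Set ↥E'))
      (algebraMap ↥O (fc_chart ↥O ({lam'} : Set ↥E')) π))
    (hreg2 : jt_RegAt (fc_chart ↥O ({lam'⁻¹} : Set ↥E'))
      (algebraMap ↥O (fc_chart ↥O ({lam'⁻¹} : Set ↥E')) π)) :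
    (∀ 𝔫 : Ideal (fc_chart ↥O ({IntermediateField.inclusion hle lam'} : Set ↥E)), 𝔫.IsMaximal →
      algebraMap ↥O (fc_chart ↥O ({IntermediateField.inclusion hle lam'} : Set ↥E)) π ∈ 𝔫 →
      ¬ ssm_tp_P (fc_chart ↥O ({IntermediateField.inclusion hle lam'} : Set ↥E))
        (gq_valSubOf π hπ.ne_zero hπ.maximalIdeal_eq E hE) ≤ 𝔫 →
      ¬ ssm_tp_P (fc_chart ↥O ({IntermediateField.inclusion hle lam'} : Set ↥E)) VB ≤ 𝔫 →
      ss_SmoothAt π (fc_chart ↥O ({IntermediateField.inclusion hle lam'} : Set ↥E)) 𝔫) ∧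
    (∀ 𝔫 : Ideal (fc_chart ↥O ({(IntermediateField.inclusion hle lam')⁻¹} : Set ↥E)),
      𝔫.IsMaximal →
      algebraMap ↥O (fc_chart ↥O ({(IntermediateField.inclusion hle lam')⁻¹} : Set ↥E)) π ∈ 𝔫 →
      ¬ ssm_tp_P (fc_chart ↥O ({(IntermediateField.inclusion hle lam')⁻¹} : Set ↥E))
        (gq_valSubOf π hπ.ne_zero hπ.maximalIdeal_eq E hE) ≤ 𝔫 →
      ¬ ssm_tp_P (fc_chart ↥O ({(IntermediateField.inclusion hle lam')⁻¹} : Set ↥E)) VB ≤ 𝔫 →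
      ss_SmoothAt π (fc_chart ↥O ({(IntermediateField.inclusion hle lam')⁻¹} : Set ↥E)) 𝔫) := by
  haveI := ssm_go_isScalarTower O E
  haveI := ssm_go_isScalarTower O E'
  have hx : Transcendental L lam' := ssm_go_transcendental O E' ys lam' hlam hn0 hyn
  have hxE : Transcendental L (IntermediateField.inclusion hle lam') :=
    ssm_go_transcendental O E ys (IntermediateField.inclusion hle lam') hlam hn0 hyn
  have hxi : Transcendental L lam'⁻¹ := fun h => hx (IsAlgebraic.inv_iff.mp h)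
  have hxEi : Transcendental L (IntermediateField.inclusion hle lam')⁻¹ :=
    fun h => hxE (IsAlgebraic.inv_iff.mp h)
  have hover := ssm_go_over O E' ys lam' hlam hπ (hle.trans hE) hn0 hyn
  have hover' := ssm_tp_over_inv (fc_ff_transcendental (L := L) hx)
    (fc_ff_transcendental (L := L) hxi) hπ.not_isUnit hover
  have H' := s36tp_ff_hyp_inv (L := L) hπ hxE H
  haveI : FiniteDimensional L⟮lam'⁻¹⟯ ↥E' := by
    rw [rt_adjoin_inv]; infer_instance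
  have c1 := s36cph_si_chartC O hπ E' E hle hE lam' (IntermediateField.inclusion hle lam') rfl hx hxE
    hover H he0 he1 he2 hVC hresC hprime1 hic1 hreg1
  have c2 := s36cph_si_chartC O hπ E' E hle hE lam'⁻¹ (IntermediateField.inclusion hle lam')⁻¹
    (map_inv₀ (IntermediateField.inclusion hle) lam') hxi hxEi hover' H' he0 he1 he2 hVC hresC
    hprime2 hic2 hreg2
  exact ⟨c1, c2⟩

end Generic

section Hesse

variable {L : Type*} [Field L] [CharZero L] [Algebra L (AlgebraicClosure ℚ)] (h3 : (3 : L) ≠ 0)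
  (O : ValuationSubring L) [IsDiscreteValuationRing O] (h3O : IsUnit (3 : O)) {π : O}
  (hπ : Irreducible π)
variable (N' q : ℕ) [NeZero N'] [NeZero q] [hq : Fact q.Prime] [CharP (ResidueField O) q]
  (hq3 : ¬ 3 ∣ q) (hqN' : ¬ q ∣ N')

/-- `E₀ = hs_E L h3 N' ≤ E₂ = hs_E L h3 (N' q q)`. -/
theorem s36cph_E_le2 : hs_E L h3 N' ≤ hs_E L h3 (N' * q * q) :=
  (ssm_alh_E_le L h3 (ssm_fh_hF9 h3) N' q).trans (ssm_alh_E_le L h3 (ssm_fh_hF9 h3) (N' * q) q)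

set_option synthInstance.maxHeartbeats 200000 in
/-- `W₂` fixes the constants. -/
theorem s36cph_W2_algebraMap (a : ↥O) :
    s36ih_W2 h3 N' q hq3 hqN' (algebraMap ↥O ↥(hs_E L h3 (N' * q * q)) a) =
      algebraMap ↥O ↥(hs_E L h3 (N' * q * q)) a :=
  (s36w_h_WE L h3 (ssm_fh_hF9 h3) N' q hq.out hq3 hqN').commutes (a : L)

set_option synthInstance.maxHeartbeats 200000 in
set_option maxHeartbeats 1600000 in
/-- **[L3a]-Hes, `ss_SmoothAt` form, components `A` and `B`**: the four smooth clauses (points on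
`A` only, points on `B` only; charts `x`, `x⁻¹`) at level `N' q q`, `x = hs_muE h3 (N' q q) - 1`,
`VA = s36ih_VA`, `VB = s36ih_VB`, for EVERY third valuation `VC` and exponents `e` with
`H : s36tp_Hyp π ![VA, VB, VC] e`, `e 0 = e 1 = 1`. -/
theorem s36cph_hes_smooth {VC : ValuationSubring ↥(hs_E L h3 (N' * q * q))} {e : Fin 3 → ℕ}
    (H : s36tp_Hyp
      (algebraMap ↥O (Algebra.adjoin ↥O
        ({hs_muE h3 (N' * q * q) - 1} : Set ↥(hs_E L h3 (N' * q * q)))) π)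
      ![s36ih_VA h3 O h3O hπ (N' * q) q, s36ih_VB h3 O h3O hπ N' q hq3 hqN', VC] e)
    (he0 : e 0 = 1) (he1 : e 1 = 1)
    (hresA : ∀ a ∈ s36ih_VA h3 O h3O hπ (N' * q) q,
      ∃ r : ↥(gq_valSubOf π hπ.ne_zero hπ.maximalIdeal_eq (hs_E L h3 N')
          ((s36cph_E_le2 h3 N' q).trans (hsa_E_le_quotField h3 O (N' * q * q) h3O))),
        a - IntermediateField.inclusion (s36cph_E_le2 h3 N' q) (r : ↥(hs_E L h3 N')) ∈
          (s36ih_VA h3 O h3O hπ (N' * q) q).nonunits)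
    (hprime1 : Prime (algebraMap ↥O
      (fc_chart ↥O ({hs_muE h3 N' - 1} : Set ↥(hs_E L h3 N'))) π))
    (hprime2 : Prime (algebraMap ↥O
      (fc_chart ↥O ({(hs_muE h3 N' - 1)⁻¹} : Set ↥(hs_E L h3 N'))) π))
    (hic1 : IsIntegrallyClosed (fc_chart ↥O ({hs_muE h3 N' - 1} : Set ↥(hs_E L h3 N')) ⧸
      (Ideal.span {algebraMap ↥O (fc_chart ↥O ({hs_muE h3 N' - 1} : Set ↥(hs_E L h3 N'))) π} :
        Ideal (fc_chart ↥O ({hs_muE h3 N' - 1} : Set ↥(hs_E L h3 N'))))))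
    (hic2 : IsIntegrallyClosed (fc_chart ↥O ({(hs_muE h3 N' - 1)⁻¹} : Set ↥(hs_E L h3 N')) ⧸
      (Ideal.span {algebraMap ↥O
          (fc_chart ↥O ({(hs_muE h3 N' - 1)⁻¹} : Set ↥(hs_E L h3 N'))) π} :
        Ideal (fc_chart ↥O ({(hs_muE h3 N' - 1)⁻¹} : Set ↥(hs_E L h3 N'))))))
    (hreg1 : jt_RegAt (fc_chart ↥O ({hs_muE h3 N' - 1} : Set ↥(hs_E L h3 N')))
      (algebraMap ↥O (fc_chart ↥O ({hs_muE h3 N' - 1} : Set ↥(hs_E L h3 N'))) π))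
    (hreg2 : jt_RegAt (fc_chart ↥O ({(hs_muE h3 N' - 1)⁻¹} : Set ↥(hs_E L h3 N')))
      (algebraMap ↥O (fc_chart ↥O ({(hs_muE h3 N' - 1)⁻¹} : Set ↥(hs_E L h3 N'))) π))
    (hWB1 : ∀ b ∈ fc_chart ↥O ({hs_muE h3 (N' * q * q) - 1} : Set ↥(hs_E L h3 (N' * q * q))),
      s36ih_W2 h3 N' q hq3 hqN' b ∈
        fc_chart ↥O ({hs_muE h3 (N' * q * q) - 1} : Set ↥(hs_E L h3 (N' * q * q))))
    (hWB2 : ∀ b ∈ fc_chart ↥O ({(hs_muE h3 (N' * q * q) - 1)⁻¹} :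
        Set ↥(hs_E L h3 (N' * q * q))),
      s36ih_W2 h3 N' q hq3 hqN' b ∈
        fc_chart ↥O ({(hs_muE h3 (N' * q * q) - 1)⁻¹} : Set ↥(hs_E L h3 (N' * q * q)))) :
    (∀ 𝔫 : Ideal (fc_chart ↥O ({hs_muE h3 (N' * q * q) - 1} : Set ↥(hs_E L h3 (N' * q * q)))),
      𝔫.IsMaximal →
      algebraMap ↥O (fc_chart ↥O ({hs_muE h3 (N' * q * q) - 1} :
        Set ↥(hs_E L h3 (N' * q * q)))) π ∈ 𝔫 →
      ¬ ssm_tp_P (fc_chart ↥O ({hs_muE h3 (N' * q * q) - 1} : Set ↥(hs_E L h3 (N' * q * q))))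
        (s36ih_VB h3 O h3O hπ N' q hq3 hqN') ≤ 𝔫 →
      ¬ ssm_tp_P (fc_chart ↥O ({hs_muE h3 (N' * q * q) - 1} : Set ↥(hs_E L h3 (N' * q * q))))
        VC ≤ 𝔫 →
      ss_SmoothAt π (fc_chart ↥O ({hs_muE h3 (N' * q * q) - 1} :
        Set ↥(hs_E L h3 (N' * q * q)))) 𝔫) ∧
    (∀ 𝔫 : Ideal (fc_chart ↥O ({hs_muE h3 (N' * q * q) - 1} : Set ↥(hs_E L h3 (N' * q * q)))),
      𝔫.IsMaximal →
      algebraMap ↥O (fc_chart ↥O ({hs_muE h3 (N' * q * q) - 1} :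
        Set ↥(hs_E L h3 (N' * q * q)))) π ∈ 𝔫 →
      ¬ ssm_tp_P (fc_chart ↥O ({hs_muE h3 (N' * q * q) - 1} : Set ↥(hs_E L h3 (N' * q * q))))
        (s36ih_VA h3 O h3O hπ (N' * q) q) ≤ 𝔫 →
      ¬ ssm_tp_P (fc_chart ↥O ({hs_muE h3 (N' * q * q) - 1} : Set ↥(hs_E L h3 (N' * q * q))))
        VC ≤ 𝔫 →
      ss_SmoothAt π (fc_chart ↥O ({hs_muE h3 (N' * q * q) - 1} :
        Set ↥(hs_E L h3 (N' * q * q)))) 𝔫) ∧
    (∀ 𝔫 : Ideal (fc_chart ↥O ({(hs_muE h3 (N' * q * q) - 1)⁻¹} :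
        Set ↥(hs_E L h3 (N' * q * q)))),
      𝔫.IsMaximal →
      algebraMap ↥O (fc_chart ↥O ({(hs_muE h3 (N' * q * q) - 1)⁻¹} :
        Set ↥(hs_E L h3 (N' * q * q)))) π ∈ 𝔫 →
      ¬ ssm_tp_P (fc_chart ↥O ({(hs_muE h3 (N' * q * q) - 1)⁻¹} :
        Set ↥(hs_E L h3 (N' * q * q)))) (s36ih_VB h3 O h3O hπ N' q hq3 hqN') ≤ 𝔫 →
      ¬ ssm_tp_P (fc_chart ↥O ({(hs_muE h3 (N' * q * q) - 1)⁻¹} :
        Set ↥(hs_E L h3 (N' * q * q)))) VC ≤ 𝔫 →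
      ss_SmoothAt π (fc_chart ↥O ({(hs_muE h3 (N' * q * q) - 1)⁻¹} :
        Set ↥(hs_E L h3 (N' * q * q)))) 𝔫) ∧
    (∀ 𝔫 : Ideal (fc_chart ↥O ({(hs_muE h3 (N' * q * q) - 1)⁻¹} :
        Set ↥(hs_E L h3 (N' * q * q)))),
      𝔫.IsMaximal →
      algebraMap ↥O (fc_chart ↥O ({(hs_muE h3 (N' * q * q) - 1)⁻¹} :
        Set ↥(hs_E L h3 (N' * q * q)))) π ∈ 𝔫 →
      ¬ ssm_tp_P (fc_chart ↥O ({(hs_muE h3 (N' * q * q) - 1)⁻¹} :
        Set ↥(hs_E L h3 (N' * q * q)))) (s36ih_VA h3 O h3O hπ (N' * q) q) ≤ 𝔫 →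
      ¬ ssm_tp_P (fc_chart ↥O ({(hs_muE h3 (N' * q * q) - 1)⁻¹} :
        Set ↥(hs_E L h3 (N' * q * q)))) VC ≤ 𝔫 →
      ss_SmoothAt π (fc_chart ↥O ({(hs_muE h3 (N' * q * q) - 1)⁻¹} :
        Set ↥(hs_E L h3 (N' * q * q)))) 𝔫) := by
  haveI := ssm_glh_finite h3 N'
  haveI : FiniteDimensional
      L⟮IntermediateField.inclusion (s36cph_E_le2 h3 N' q) (hs_muE h3 N' - 1)⟯
        ↥(hs_E L h3 (N' * q * q)) :=
    ssm_glh_finite h3 (N' * q * q)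
  have hn0 : (-1 : ℤ) ≠ 0 := by norm_num
  exact s36cp_si_smooth_gen O hπ (hs_E L h3 N') (hs_E L h3 (N' * q * q)) (s36cph_E_le2 h3 N' q)
    (hsa_E_le_quotField h3 O (N' * q * q) h3O) (hm_mu O h3O - 1) (-1) hn0
    (ssm_glh_coeff O h3O) (hs_muE h3 N' - 1) (ssm_glh_coe_x h3 O h3O N') H he0 he1 hresA
    hprime1 hprime2 hic1 hic2 hreg1 hreg2
    (s36ih_W2 h3 N' q hq3 hqN') (s36w_h_WE_WE L h3 (ssm_fh_hF9 h3) N' q hq.out hq3 hqN') hWB1 hWB2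
    (s36cph_W2_algebraMap h3 O N' q hq3 hqN') (fun z => Iff.rfl)

set_option synthInstance.maxHeartbeats 200000 in
set_option maxHeartbeats 1600000 in
/-- **[L3a]-Hes, `ss_SmoothAt` form, component `C` reduced** (`e 2 = 1`: `q = 2`): the two smooth
clauses at the points on `C` only (charts `x`, `x⁻¹`). -/
theorem s36cph_hes_smoothC {VC : ValuationSubring ↥(hs_E L h3 (N' * q * q))} {e : Fin 3 → ℕ}
    (H : s36tp_Hyp
      (algebraMap ↥O (Algebra.adjoin ↥O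
        ({hs_muE h3 (N' * q * q) - 1} : Set ↥(hs_E L h3 (N' * q * q)))) π)
      ![s36ih_VA h3 O h3O hπ (N' * q) q, s36ih_VB h3 O h3O hπ N' q hq3 hqN', VC] e)
    (he0 : e 0 = 1) (he1 : e 1 = 1) (he2 : e 2 = 1)
    (hVC : ∀ z : ↥(hs_E L h3 N'), IntermediateField.inclusion (s36cph_E_le2 h3 N' q) z ∈ VC ↔
      z ∈ gq_valSubOf π hπ.ne_zero hπ.maximalIdeal_eq (hs_E L h3 N')
          ((s36cph_E_le2 h3 N' q).trans (hsa_E_le_quotField h3 O (N' * q * q) h3O)))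
    (hresC : ∀ a ∈ VC,
      ∃ r : ↥(gq_valSubOf π hπ.ne_zero hπ.maximalIdeal_eq (hs_E L h3 N')
          ((s36cph_E_le2 h3 N' q).trans (hsa_E_le_quotField h3 O (N' * q * q) h3O))),
        a - IntermediateField.inclusion (s36cph_E_le2 h3 N' q) (r : ↥(hs_E L h3 N')) ∈
          VC.nonunits)
    (hprime1 : Prime (algebraMap ↥O
      (fc_chart ↥O ({hs_muE h3 N' - 1} : Set ↥(hs_E L h3 N'))) π))
    (hprime2 : Prime (algebraMap ↥O
      (fc_chart ↥O ({(hs_muE h3 N' - 1)⁻¹} : Set ↥(hs_E L h3 N'))) π))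
    (hic1 : IsIntegrallyClosed (fc_chart ↥O ({hs_muE h3 N' - 1} : Set ↥(hs_E L h3 N')) ⧸
      (Ideal.span {algebraMap ↥O (fc_chart ↥O ({hs_muE h3 N' - 1} : Set ↥(hs_E L h3 N'))) π} :
        Ideal (fc_chart ↥O ({hs_muE h3 N' - 1} : Set ↥(hs_E L h3 N'))))))
    (hic2 : IsIntegrallyClosed (fc_chart ↥O ({(hs_muE h3 N' - 1)⁻¹} : Set ↥(hs_E L h3 N')) ⧸
      (Ideal.span {algebraMap ↥O
          (fc_chart ↥O ({(hs_muE h3 N' - 1)⁻¹} : Set ↥(hs_E L h3 N'))) π} :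
        Ideal (fc_chart ↥O ({(hs_muE h3 N' - 1)⁻¹} : Set ↥(hs_E L h3 N'))))))
    (hreg1 : jt_RegAt (fc_chart ↥O ({hs_muE h3 N' - 1} : Set ↥(hs_E L h3 N')))
      (algebraMap ↥O (fc_chart ↥O ({hs_muE h3 N' - 1} : Set ↥(hs_E L h3 N'))) π))
    (hreg2 : jt_RegAt (fc_chart ↥O ({(hs_muE h3 N' - 1)⁻¹} : Set ↥(hs_E L h3 N')))
      (algebraMap ↥O (fc_chart ↥O ({(hs_muE h3 N' - 1)⁻¹} : Set ↥(hs_E L h3 N'))) π)) :
    (∀ 𝔫 : Ideal (fc_chart ↥O ({hs_muE h3 (N' * q * q) - 1} : Set ↥(hs_E L h3 (N' * q * q)))),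
      𝔫.IsMaximal →
      algebraMap ↥O (fc_chart ↥O ({hs_muE h3 (N' * q * q) - 1} :
        Set ↥(hs_E L h3 (N' * q * q)))) π ∈ 𝔫 →
      ¬ ssm_tp_P (fc_chart ↥O ({hs_muE h3 (N' * q * q) - 1} : Set ↥(hs_E L h3 (N' * q * q))))
        (s36ih_VA h3 O h3O hπ (N' * q) q) ≤ 𝔫 →
      ¬ ssm_tp_P (fc_chart ↥O ({hs_muE h3 (N' * q * q) - 1} : Set ↥(hs_E L h3 (N' * q * q))))
        (s36ih_VB h3 O h3O hπ N' q hq3 hqN') ≤ 𝔫 →
      ss_SmoothAt π (fc_chart ↥O ({hs_muE h3 (N' * q * q) - 1} :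
        Set ↥(hs_E L h3 (N' * q * q)))) 𝔫) ∧
    (∀ 𝔫 : Ideal (fc_chart ↥O ({(hs_muE h3 (N' * q * q) - 1)⁻¹} :
        Set ↥(hs_E L h3 (N' * q * q)))),
      𝔫.IsMaximal →
      algebraMap ↥O (fc_chart ↥O ({(hs_muE h3 (N' * q * q) - 1)⁻¹} :
        Set ↥(hs_E L h3 (N' * q * q)))) π ∈ 𝔫 →
      ¬ ssm_tp_P (fc_chart ↥O ({(hs_muE h3 (N' * q * q) - 1)⁻¹} :
        Set ↥(hs_E L h3 (N' * q * q)))) (s36ih_VA h3 O h3O hπ (N' * q) q) ≤ 𝔫 →
      ¬ ssm_tp_P (fc_chart ↥O ({(hs_muE h3 (N' * q * q) - 1)⁻¹} :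
        Set ↥(hs_E L h3 (N' * q * q)))) (s36ih_VB h3 O h3O hπ N' q hq3 hqN') ≤ 𝔫 →
      ss_SmoothAt π (fc_chart ↥O ({(hs_muE h3 (N' * q * q) - 1)⁻¹} :
        Set ↥(hs_E L h3 (N' * q * q)))) 𝔫) := by
  haveI := ssm_glh_finite h3 N'
  haveI : FiniteDimensional
      L⟮IntermediateField.inclusion (s36cph_E_le2 h3 N' q) (hs_muE h3 N' - 1)⟯
        ↥(hs_E L h3 (N' * q * q)) :=
    ssm_glh_finite h3 (N' * q * q)
  have hn0 : (-1 : ℤ) ≠ 0 := by norm_num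
  exact s36cph_si_smoothC_gen O hπ (hs_E L h3 N') (hs_E L h3 (N' * q * q))
    (s36cph_E_le2 h3 N' q) (hsa_E_le_quotField h3 O (N' * q * q) h3O) (hm_mu O h3O - 1) (-1) hn0
    (ssm_glh_coeff O h3O) (hs_muE h3 N' - 1) (ssm_glh_coe_x h3 O h3O N') H he0 he1 he2 hVC hresC
    hprime1 hprime2 hic1 hic2 hreg1 hreg2

end Hesse

end Fermat.Agent.S36
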