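/-
Project S36 (Carayol), cell [M2], leaf [L3a]-Hes (helper12): THE RESIDUE FIELD OF THE GAUSS
VALUATION `VA` OF `E₂ = hs_E L h3 (N' q q)` IS THAT OF THE GAUSS VALUATION OF `E₀ = hs_E L h3 N'` —
the input `hresA` of `s36cph_hes_smooth` (and of the Hesse `comp` clauses), as a CLOSED statement.
Hesse twin of helper17's `s36cp_ra_leg_mid` / `s36cp_ra_leg` (`S36/Model/ResAInst.lean`): one
application of his generic `s36cp_ra_gauss_mid` / `s36cp_ra_gauss`.

* `s36cph_ra_hes_mid` : `∀ a ∈ VA, ∃ y ∈ VF, a - y ∈ 𝔪(VA)`  (`f(VA | VF) = 1`);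
* `s36cph_ra_hes`     : `∀ a ∈ VA, ∃ r ∈ Gauss E₀, a - r ∈ 𝔪(VA)`  (`hresA` VERBATIM).
Prefix `s36cph_ra_`.
-/
import Mathlib
import Fermat.Agent.S36.Model.ResAInst
import Fermat.Agent.S36.Model.Smooth3InstHes
import Fermat.Agent.S36.Ins1.ThirdHes

set_option autoImplicit false
set_option linter.unusedSectionVars false
set_option linter.unusedVariables false
set_option linter.style.haveILetI false

noncomputable section

open ModularCurve IntermediateField IsLocalRing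
open Fermat.Agent.JT3 Fermat.Agent.SS

namespace Fermat.Agent.S36

section Hesse

variable {L : Type*} [Field L] [CharZero L] [Algebra L (AlgebraicClosure ℚ)] (h3 : (3 : L) ≠ 0)
  (O : ValuationSubring L) [IsDiscreteValuationRing O] (h3O : IsUnit (3 : O)) {π : O}
  (hπ : Irreducible π)
variable (N' q : ℕ) [NeZero N'] [NeZero q] [hq : Fact q.Prime] [CharP (ResidueField O) q]
  (hq3 : ¬ 3 ∣ q) (hqN' : ¬ q ∣ N')

/-- the coordinate of level `N' q` maps to the coordinate of level `N' q q`. -/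
theorem s36cph_ra_incl_x :
    IntermediateField.inclusion (ssm_alh_E_le L h3 (ssm_fh_hF9 h3) (N' * q) q)
      (hs_muE h3 (N' * q) - 1) = hs_muE h3 (N' * q * q) - 1 :=
by
  apply Subtype.ext
  rw [IntermediateField.coe_inclusion]
  exact (s36ih_coe_sub h3 (N' * q)).trans (s36ih_coe_sub h3 (N' * q * q)).symm

include hq3 hqN' in
set_option synthInstance.maxHeartbeats 200000 in
set_option maxHeartbeats 1600000 in
/-- **`f(VA | VF) = 1`, Hesse tower**: every element of the Gauss ring `VA` of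
`E₂ = hs_E L h3 (N' q q)` is congruent modulo `𝔪(VA)` to an element of the Gauss ring `VF` of
`E₁ = hs_E L h3 (N' q)`. -/
theorem s36cph_ra_hes_mid (a : ↥(hs_E L h3 (N' * q * q)))
    (ha : a ∈ s36ih_VA h3 O h3O hπ (N' * q) q) :
    ∃ y : ↥(ssm_fh_V1 h3 O h3O hπ N' q),
      a - IntermediateField.inclusion (ssm_alh_E_le L h3 (ssm_fh_hF9 h3) (N' * q) q)
          (y : ↥(hs_E L h3 (N' * q))) ∈
        (s36ih_VA h3 O h3O hπ (N' * q) q).nonunits :=
  s36cp_ra_gauss_mid O hπ q (hs_E L h3 N') (hs_E L h3 (N' * q)) (hs_E L h3 (N' * q * q))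
    (ssm_alh_E_le L h3 (ssm_fh_hF9 h3) N' q) (ssm_alh_E_le L h3 (ssm_fh_hF9 h3) (N' * q) q)
    (hsa_E_le_quotField h3 O (N' * q * q) h3O)
    (ssm_alh_E_beta_le L h3 (ssm_fh_hF9 h3) N' q hq3)
    (ssm_alh_E_beta_le L h3 (ssm_fh_hF9 h3) (N' * q) q hq3)
    (ssm_fh_W h3 N' q hq3 hqN')
    (ssm_glh_x h3 O h3O hπ N' (N' * q) (ssm_alh_E_le L h3 (ssm_fh_hF9 h3) N' q))
    (ssm_fh_data h3 O h3O hπ N' q hq3 hqN')
    (s36ih_hes_dataA h3 O h3O hπ (N' * q) q hq3 (Dvd.intro_left N' rfl))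
    ⟨hs_muE h3 (N' * q) - 1, s36cph_ra_incl_x h3 N' q⟩ a ha

include hq3 hqN' in
set_option synthInstance.maxHeartbeats 200000 in
set_option maxHeartbeats 1600000 in
/-- **`hresA`, Hesse tower** (`κ(VA) = κ(Gauss E₀)`): the hypothesis `hresA` of
`s36cph_hes_smooth` VERBATIM. -/
theorem s36cph_ra_hes :
    ∀ a ∈ s36ih_VA h3 O h3O hπ (N' * q) q,
      ∃ r : ↥(gq_valSubOf π hπ.ne_zero hπ.maximalIdeal_eq (hs_E L h3 N')
          ((s36cph_E_le2 h3 N' q).trans (hsa_E_le_quotField h3 O (N' * q * q) h3O))),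
        a - IntermediateField.inclusion (s36cph_E_le2 h3 N' q) (r : ↥(hs_E L h3 N')) ∈
          (s36ih_VA h3 O h3O hπ (N' * q) q).nonunits := fun a ha =>
  s36cp_ra_gauss O hπ q (hs_E L h3 N') (hs_E L h3 (N' * q)) (hs_E L h3 (N' * q * q))
    (ssm_alh_E_le L h3 (ssm_fh_hF9 h3) N' q) (ssm_alh_E_le L h3 (ssm_fh_hF9 h3) (N' * q) q)
    (hsa_E_le_quotField h3 O (N' * q * q) h3O)
    (ssm_alh_E_beta_le L h3 (ssm_fh_hF9 h3) N' q hq3)
    (ssm_alh_E_beta_le L h3 (ssm_fh_hF9 h3) (N' * q) q hq3)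
    (ssm_fh_W h3 N' q hq3 hqN')
    (ssm_glh_x h3 O h3O hπ N' (N' * q) (ssm_alh_E_le L h3 (ssm_fh_hF9 h3) N' q))
    (ssm_fh_data h3 O h3O hπ N' q hq3 hqN')
    (s36ih_hes_dataA h3 O h3O hπ (N' * q) q hq3 (Dvd.intro_left N' rfl))
    ⟨hs_muE h3 (N' * q) - 1, s36cph_ra_incl_x h3 N' q⟩ a ha

end Hesse

end Fermat.Agent.S36
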