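/-
Project S36 (Carayol), cell [M2], leaf [L3a]-Hes (helper12): THE POINTS OF THE CHARTS
`B_x = fc_chart O {x}`, `B_{x⁻¹}` (`x = hs_muE h3 (N' q q) - 1`) OF THE HESSE TOWER LYING ON ONE
COMPONENT ONLY, and the smoothness of the reduced components `A`, `B` at every closed point.
Hesse twin of helper17's `S36/Model/CompSmoothInst.lean` (`s36cp_leg_comp`) and
`S36/Model/PtsAB.lean` ([NF2-CTX] packaging), PLUS the points on `C` only when `C` is reduced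
(`e 2 = 1`, i.e. `q = 2`: the Hesse assembly).

* `s36cph_hes_comp`   : [HES-CTX]: `A`, `B` are smooth at EVERY closed point of the two charts
  (`hsmA`/`hsmB` of the Hesse [TRI-INST]);
* `s36cph_chart_isFractionRing`, `s36cph_chart_inv_isFractionRing`, `s36cph_pi_ne_zero`,
  `s36cph_hes_one_of_smooth(_inv)` : a smooth point is a ONE-BRANCH point (`s36cp_PtOne`);
* `s36cph_nf_pkg`     : [NF2H-CTX]: the level-`N'` package (`hprime`, `hic`, `hreg` on both charts);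
* `s36cph_nf_smooth`  : [NF2H-CTX]: the four `ss_SmoothAt` clauses on `A` only / `B` only;
* `s36cph_nf_smoothC` : [NF2H-CTX]: the two `ss_SmoothAt` clauses on `C` only (`e 2 = 1`);
* `s36cph_nf_one`, `s36cph_nf_oneC` : the same six clauses in RING-LEVEL form `s36cp_PtOne`;
* `s36cph_nf_comp`    : [NF2H-CTX]: `hsmA`/`hsmB`.
Remaining inputs: `H : s36tp_Hyp π ![VA, VB, VC] e` (`e 0 = e 1 = 1`), `hVC`, `hresC`, and the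
`W₂`-stability of the two charts (`s36ig_W_charts`).  Prefix `s36cph_`.
-/
import Mathlib
import Fermat.Agent.S36.Model.PtsAB
import Fermat.Agent.S36.Model.ResAInstHes
import Fermat.Agent.SS.Model.HesLevelRam

set_option autoImplicit false
set_option linter.unusedSectionVars false
set_option linter.unusedVariables false
set_option linter.style.haveILetI false

noncomputable section

open ModularCurve IntermediateField IsLocalRing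
open Fermat.Agent.JT3 Fermat.Agent.SS

namespace Fermat.Agent.S36

section Hesse

variable {L : Type*} [Field L] [CharZero L] [Algebra L (AlgebraicClosure ℚ)] (h3 : (3 : L) ≠ 0)
  (O : ValuationSubring L) [IsDiscreteValuationRing O] (h3O : IsUnit (3 : O)) {π : O}
  (hπ : Irreducible π)
variable (N' q : ℕ) [NeZero N'] [NeZero q] [hq : Fact q.Prime] [CharP (ResidueField O) q]
  (hq3 : ¬ 3 ∣ q) (hqN' : ¬ q ∣ N')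

/-- the coordinate of level `N'` maps to the coordinate of level `N' q q`. -/
theorem s36cph_incl_x02 :
    IntermediateField.inclusion (s36cph_E_le2 h3 N' q) (hs_muE h3 N' - 1) =
      hs_muE h3 (N' * q * q) - 1 := by
  apply Subtype.ext
  rw [IntermediateField.coe_inclusion]
  exact (s36ih_coe_sub h3 N').trans (s36ih_coe_sub h3 (N' * q * q)).symm

set_option synthInstance.maxHeartbeats 200000 in
set_option maxHeartbeats 1600000 in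
/-- **[L3a]-Hes / [TRI-INST]-Hes, Hesse tower**: the reduced components `A` (`VA = s36ih_VA`) and
`B` (`VB = s36ih_VB = VA.comap W₂`) are smooth at EVERY closed point of the two charts `x`, `x⁻¹`
(`x = hs_muE h3 (N' q q) - 1`) of level `N' q q`: `𝔫 = P + (t)` locally. -/
theorem s36cph_hes_comp
    (hresA : ∀ a ∈ s36ih_VA h3 O h3O hπ (N' * q) q,
      ∃ r : ↥(gq_valSubOf π hπ.ne_zero hπ.maximalIdeal_eq (hs_E L h3 N')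
          ((s36cph_E_le2 h3 N' q).trans (hsa_E_le_quotField h3 O (N' * q * q) h3O))),
        a - IntermediateField.inclusion (s36cph_E_le2 h3 N' q) (r : ↥(hs_E L h3 N')) ∈
          (s36ih_VA h3 O h3O hπ (N' * q) q).nonunits)
    (hprime1 : Prime (algebraMap ↥O
      (fc_chart ↥O ({hs_muE h3 N' - 1} : Set ↥(hs_E L h3 N'))) π))
    (hprime2 : Prime (algebraMap ↥O
      (fc_chart ↥O ({(hs_muE h3 N' - 1)⁻¹} : Set ↥(hs_E L h3 N'))) π))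
    (hic1 : IsIntegrallyClosed (fc_chart ↥O ({hs_muE h3 N' - 1} : Set ↥(hs_E L h3 N')) ⧸
      (Ideal.span {algebraMap ↥O (fc_chart ↥O ({hs_muE h3 N' - 1} : Set ↥(hs_E L h3 N'))) π} :
        Ideal (fc_chart ↥O ({hs_muE h3 N' - 1} : Set ↥(hs_E L h3 N'))))))
    (hic2 : IsIntegrallyClosed (fc_chart ↥O ({(hs_muE h3 N' - 1)⁻¹} : Set ↥(hs_E L h3 N')) ⧸
      (Ideal.span {algebraMap ↥O (fc_chart ↥O ({(hs_muE h3 N' - 1)⁻¹} : Set ↥(hs_E L h3 N'))) π} :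
        Ideal (fc_chart ↥O ({(hs_muE h3 N' - 1)⁻¹} : Set ↥(hs_E L h3 N'))))))
    (hreg1 : jt_RegAt (fc_chart ↥O ({hs_muE h3 N' - 1} : Set ↥(hs_E L h3 N')))
      (algebraMap ↥O (fc_chart ↥O ({hs_muE h3 N' - 1} : Set ↥(hs_E L h3 N'))) π))
    (hreg2 : jt_RegAt (fc_chart ↥O ({(hs_muE h3 N' - 1)⁻¹} : Set ↥(hs_E L h3 N')))
      (algebraMap ↥O (fc_chart ↥O ({(hs_muE h3 N' - 1)⁻¹} : Set ↥(hs_E L h3 N'))) π))
    (hWB1 : ∀ b ∈ fc_chart ↥O ({hs_muE h3 (N' * q * q) - 1} : Set ↥(hs_E L h3 (N' * q * q))),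
      s36ih_W2 h3 N' q hq3 hqN' b ∈
        fc_chart ↥O ({hs_muE h3 (N' * q * q) - 1} : Set ↥(hs_E L h3 (N' * q * q))))
    (hWB2 : ∀ b ∈ fc_chart ↥O ({(hs_muE h3 (N' * q * q) - 1)⁻¹} : Set ↥(hs_E L h3 (N' * q * q))),
      s36ih_W2 h3 N' q hq3 hqN' b ∈
        fc_chart ↥O ({(hs_muE h3 (N' * q * q) - 1)⁻¹} : Set ↥(hs_E L h3 (N' * q * q)))) :
    (∀ 𝔫 : Ideal (fc_chart ↥O ({hs_muE h3 (N' * q * q) - 1} : Set ↥(hs_E L h3 (N' * q * q)))),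
      𝔫.IsMaximal → ∃ t ∈ 𝔫, ∀ x ∈ 𝔫,
        ∃ s : fc_chart ↥O ({hs_muE h3 (N' * q * q) - 1} : Set ↥(hs_E L h3 (N' * q * q))), s ∉ 𝔫 ∧
        s * x ∈ ssm_tp_P (fc_chart ↥O ({hs_muE h3 (N' * q * q) - 1} : Set ↥(hs_E L h3 (N' * q * q))))
          (s36ih_VA h3 O h3O hπ (N' * q) q) ⊔ Ideal.span {t}) ∧
    (∀ 𝔫 : Ideal (fc_chart ↥O ({hs_muE h3 (N' * q * q) - 1} : Set ↥(hs_E L h3 (N' * q * q)))),
      𝔫.IsMaximal → ∃ t ∈ 𝔫, ∀ x ∈ 𝔫,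
        ∃ s : fc_chart ↥O ({hs_muE h3 (N' * q * q) - 1} : Set ↥(hs_E L h3 (N' * q * q))), s ∉ 𝔫 ∧
        s * x ∈ ssm_tp_P (fc_chart ↥O ({hs_muE h3 (N' * q * q) - 1} : Set ↥(hs_E L h3 (N' * q * q))))
          (s36ih_VB h3 O h3O hπ N' q hq3 hqN') ⊔ Ideal.span {t}) ∧
    (∀ 𝔫 : Ideal (fc_chart ↥O ({(hs_muE h3 (N' * q * q) - 1)⁻¹} : Set ↥(hs_E L h3 (N' * q * q)))),
      𝔫.IsMaximal → ∃ t ∈ 𝔫, ∀ x ∈ 𝔫,
        ∃ s : fc_chart ↥O ({(hs_muE h3 (N' * q * q) - 1)⁻¹} : Set ↥(hs_E L h3 (N' * q * q))), s ∉ 𝔫 ∧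
        s * x ∈ ssm_tp_P (fc_chart ↥O ({(hs_muE h3 (N' * q * q) - 1)⁻¹} : Set ↥(hs_E L h3 (N' * q * q))))
          (s36ih_VA h3 O h3O hπ (N' * q) q) ⊔ Ideal.span {t}) ∧
    (∀ 𝔫 : Ideal (fc_chart ↥O ({(hs_muE h3 (N' * q * q) - 1)⁻¹} : Set ↥(hs_E L h3 (N' * q * q)))),
      𝔫.IsMaximal → ∃ t ∈ 𝔫, ∀ x ∈ 𝔫,
        ∃ s : fc_chart ↥O ({(hs_muE h3 (N' * q * q) - 1)⁻¹} : Set ↥(hs_E L h3 (N' * q * q))), s ∉ 𝔫 ∧
        s * x ∈ ssm_tp_P (fc_chart ↥O ({(hs_muE h3 (N' * q * q) - 1)⁻¹} : Set ↥(hs_E L h3 (N' * q * q))))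
          (s36ih_VB h3 O h3O hπ N' q hq3 hqN') ⊔ Ideal.span {t}) := by
  haveI := ssm_glh_finite h3 N'
  have heq := s36cph_incl_x02 h3 N' q
  haveI : FiniteDimensional
      L⟮IntermediateField.inclusion (s36cph_E_le2 h3 N' q) (hs_muE h3 N' - 1)⟯
        ↥(hs_E L h3 (N' * q * q)) := by
    rw [heq]
    exact ssm_glh_finite h3 (N' * q * q)
  have hn0 : (-1 : ℤ) ≠ 0 := by norm_num
  rw [← heq] at hWB1 hWB2 ⊢
  exact s36cp_si_comp_gen O hπ (hs_E L h3 N') (hs_E L h3 (N' * q * q)) (s36cph_E_le2 h3 N' q)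
    (hsa_E_le_quotField h3 O (N' * q * q) h3O) (hm_mu O h3O - 1) (-1) hn0
    (ssm_glh_coeff O h3O) (hs_muE h3 N' - 1) (ssm_glh_coe_x h3 O h3O N') hresA
    hprime1 hprime2 hic1 hic2 hreg1 hreg2
    (s36ih_W2 h3 N' q hq3 hqN') (s36w_h_WE_WE L h3 (ssm_fh_hF9 h3) N' q hq.out hq3 hqN') hWB1 hWB2
    (fun z => Iff.rfl)

end Hesse

section Charts

variable {L : Type*} [Field L] [CharZero L] (h3 : (3 : L) ≠ 0)
  (O : ValuationSubring L) [IsDiscreteValuationRing O] (M : ℕ) [NeZero M]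

/-- the chart `B_x` of `hs_E L h3 M` has fraction field `hs_E L h3 M`. -/
theorem s36cph_chart_isFractionRing :
    IsFractionRing ↥(fc_chart ↥O ({hs_muE h3 M - 1} : Set ↥(hs_E L h3 M))) ↥(hs_E L h3 M) := by
  haveI := ssm_go_isScalarTower O (hs_E L h3 M)
  haveI := ssm_glh_finite h3 M
  exact ssm_ths_chart_isFractionRing (A0 := ↥O) (L := L) _

/-- the chart `B_{x⁻¹}` of `hs_E L h3 M` has fraction field `hs_E L h3 M`. -/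
theorem s36cph_chart_inv_isFractionRing :
    IsFractionRing ↥(fc_chart ↥O ({(hs_muE h3 M - 1)⁻¹} : Set ↥(hs_E L h3 M))) ↥(hs_E L h3 M) := by
  haveI := ssm_go_isScalarTower O (hs_E L h3 M)
  haveI := ssm_glh_finite h3 M
  haveI : FiniteDimensional L⟮(hs_muE (L := L) h3 M - 1)⁻¹⟯ ↥(hs_E L h3 M) := by
    rw [rt_adjoin_inv]; infer_instance
  exact ssm_ths_chart_isFractionRing (A0 := ↥O) (L := L) _

variable {π : O} (hπ : Irreducible π)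

include hπ in
omit [NeZero M] in
theorem s36cph_pi_ne_zero : algebraMap ↥O ↥(hs_E L h3 M) π ≠ 0 := by
  haveI := ssm_go_isScalarTower O (hs_E L h3 M)
  rw [IsScalarTower.algebraMap_apply ↥O L ↥(hs_E L h3 M)]
  intro h
  have h1 := (algebraMap L ↥(hs_E L h3 M)).injective (h.trans (map_zero _).symm)
  exact hπ.ne_zero (Subtype.ext h1)

include hπ in
set_option synthInstance.maxHeartbeats 200000 in
/-- **ONE-BRANCH clause (ring level) at a smooth point of `B_x`**, level `M` (`u = ϖ`, `e = 1`). -/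
theorem s36cph_hes_one_of_smooth (n : ℕ) (hn : 1 ≤ n)
    (𝔫 : Ideal (fc_chart ↥O ({hs_muE h3 M - 1} : Set ↥(hs_E L h3 M)))) (h𝔫 : 𝔫.IsMaximal)
    (hπ𝔫 : algebraMap ↥O (fc_chart ↥O ({hs_muE h3 M - 1} : Set ↥(hs_E L h3 M))) π ∈ 𝔫)
    (hsm : ss_SmoothAt π (fc_chart ↥O ({hs_muE h3 M - 1} : Set ↥(hs_E L h3 M))) 𝔫) :
    haveI := s36cph_chart_isFractionRing h3 O M
    haveI : 𝔫.IsPrime := h𝔫.isPrime
    s36cp_PtOne π n (fc_chart ↥O ({hs_muE h3 M - 1} : Set ↥(hs_E L h3 M))) 𝔫 := by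
  haveI := ssm_go_isScalarTower O (hs_E L h3 M)
  haveI := ssm_glh_finite h3 M
  have hx : Transcendental L (hs_muE (L := L) h3 M - 1) := ssm_sgm_transcendental h3 M
  haveI : IsNoetherianRing ↥(fc_chart ↥O ({hs_muE h3 M - 1} : Set ↥(hs_E L h3 M))) :=
    ssm_ths_chart_isNoetherianRing (A0 := ↥O) (L := L) hx
  haveI : IsIntegrallyClosed ↥(fc_chart ↥O ({hs_muE h3 M - 1} : Set ↥(hs_E L h3 M))) :=
    ssm_ths_chart_isIntegrallyClosed (A0 := ↥O) (L := L) _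
  haveI := s36cph_chart_isFractionRing h3 O M
  haveI : 𝔫.IsPrime := h𝔫.isPrime
  exact s36cp_ptOne_of_smooth 𝔫 (s36cph_pi_ne_zero h3 O M hπ) hπ𝔫 hsm n hn

include hπ in
set_option synthInstance.maxHeartbeats 200000 in
/-- **ONE-BRANCH clause (ring level) at a smooth point of `B_{x⁻¹}`**, level `M`. -/
theorem s36cph_hes_one_of_smooth_inv (n : ℕ) (hn : 1 ≤ n)
    (𝔫 : Ideal (fc_chart ↥O ({(hs_muE h3 M - 1)⁻¹} : Set ↥(hs_E L h3 M)))) (h𝔫 : 𝔫.IsMaximal)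
    (hπ𝔫 : algebraMap ↥O (fc_chart ↥O ({(hs_muE h3 M - 1)⁻¹} : Set ↥(hs_E L h3 M))) π ∈ 𝔫)
    (hsm : ss_SmoothAt π (fc_chart ↥O ({(hs_muE h3 M - 1)⁻¹} : Set ↥(hs_E L h3 M))) 𝔫) :
    haveI := s36cph_chart_inv_isFractionRing h3 O M
    haveI : 𝔫.IsPrime := h𝔫.isPrime
    s36cp_PtOne π n (fc_chart ↥O ({(hs_muE h3 M - 1)⁻¹} : Set ↥(hs_E L h3 M))) 𝔫 := by
  haveI := ssm_go_isScalarTower O (hs_E L h3 M)
  haveI := ssm_glh_finite h3 M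
  have hxi : Transcendental L (hs_muE (L := L) h3 M - 1)⁻¹ := ssm_sgm_transcendental_inv h3 M
  haveI : FiniteDimensional L⟮(hs_muE (L := L) h3 M - 1)⁻¹⟯ ↥(hs_E L h3 M) := by
    rw [rt_adjoin_inv]; infer_instance
  haveI : IsNoetherianRing ↥(fc_chart ↥O ({(hs_muE h3 M - 1)⁻¹} : Set ↥(hs_E L h3 M))) :=
    ssm_ths_chart_isNoetherianRing (A0 := ↥O) (L := L) hxi
  haveI : IsIntegrallyClosed ↥(fc_chart ↥O ({(hs_muE h3 M - 1)⁻¹} : Set ↥(hs_E L h3 M))) :=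
    ssm_ths_chart_isIntegrallyClosed (A0 := ↥O) (L := L) _
  haveI := s36cph_chart_inv_isFractionRing h3 O M
  haveI : 𝔫.IsPrime := h𝔫.isPrime
  exact s36cp_ptOne_of_smooth 𝔫 (s36cph_pi_ne_zero h3 O M hπ) hπ𝔫 hsm n hn

end Charts

section NF

variable (L : Type) [Field L] [NumberField L] [Algebra L (AlgebraicClosure ℚ)]
  (h3 : (3 : L) ≠ 0) (O : ValuationSubring L) [IsDiscreteValuationRing O]
  (h3O : IsUnit (3 : O))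
variable (N' q : ℕ) [NeZero N'] [NeZero q] [hq : Fact q.Prime] [CharP (ResidueField O) q]
  (hq3 : ¬ 3 ∣ q) (hqN' : ¬ q ∣ N') (hπ : Irreducible ((q : ℕ) : ↥O))
  (ζ : L) (hζ : IsPrimitiveRoot ζ (3 * N'))

include hζ hq3 hqN' hπ in
set_option synthInstance.maxHeartbeats 200000 in
set_option maxHeartbeats 1600000 in
/-- **[NF2H-CTX]: the level-`N'` package** (`hprime1 hprime2 hic1 hic2 hreg1 hreg2`). -/
theorem s36cph_nf_pkg :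
    Prime (algebraMap ↥O
      (fc_chart ↥O ({hs_muE h3 N' - 1} : Set ↥(hs_E L h3 N'))) ((q : ℕ) : ↥O)) ∧
    Prime (algebraMap ↥O
      (fc_chart ↥O ({(hs_muE h3 N' - 1)⁻¹} : Set ↥(hs_E L h3 N'))) ((q : ℕ) : ↥O)) ∧
    IsIntegrallyClosed (fc_chart ↥O ({hs_muE h3 N' - 1} : Set ↥(hs_E L h3 N')) ⧸
      (Ideal.span {algebraMap ↥O (fc_chart ↥O ({hs_muE h3 N' - 1} : Set ↥(hs_E L h3 N'))) ((q : ℕ) : ↥O)} :
        Ideal (fc_chart ↥O ({hs_muE h3 N' - 1} : Set ↥(hs_E L h3 N'))))) ∧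
    IsIntegrallyClosed (fc_chart ↥O ({(hs_muE h3 N' - 1)⁻¹} : Set ↥(hs_E L h3 N')) ⧸
      (Ideal.span {algebraMap ↥O (fc_chart ↥O ({(hs_muE h3 N' - 1)⁻¹} : Set ↥(hs_E L h3 N'))) ((q : ℕ) : ↥O)} :
        Ideal (fc_chart ↥O ({(hs_muE h3 N' - 1)⁻¹} : Set ↥(hs_E L h3 N'))))) ∧
    jt_RegAt (fc_chart ↥O ({hs_muE h3 N' - 1} : Set ↥(hs_E L h3 N')))
      (algebraMap ↥O (fc_chart ↥O ({hs_muE h3 N' - 1} : Set ↥(hs_E L h3 N'))) ((q : ℕ) : ↥O)) ∧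
    jt_RegAt (fc_chart ↥O ({(hs_muE h3 N' - 1)⁻¹} : Set ↥(hs_E L h3 N')))
      (algebraMap ↥O (fc_chart ↥O ({(hs_muE h3 N' - 1)⁻¹} : Set ↥(hs_E L h3 N'))) ((q : ℕ) : ↥O)) := by
  have hqO : ((q : ℕ) : O) ∈ maximalIdeal O := by
    rw [← residue_eq_zero_iff, map_natCast]
    exact CharP.cast_eq_zero _ q
  have hq3' : q ≠ 3 := by
    rintro rfl
    exact hq3 dvd_rfl
  obtain ⟨hreg1, hreg2, hprime1, hprime2, -, hded1, hded2⟩ :=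
    ssm_hlr_main h3 O N' hπ q hqO hq3' hqN' ζ hζ
  refine ⟨hprime1, hprime2, ?_, ?_, hreg1, hreg2⟩
  · haveI := hded1
    infer_instance
  · haveI := hded2
    infer_instance

include hζ in
set_option synthInstance.maxHeartbeats 200000 in
set_option maxHeartbeats 1600000 in
/-- **[L3a]-Hes, [NF2H-CTX]: the four smooth clauses** at the points of `B_x`, `B_{x⁻¹}` lying on
`A` only / on `B` only. -/
theorem s36cph_nf_smooth {VC : ValuationSubring ↥(hs_E L h3 (N' * q * q))} {e : Fin 3 → ℕ}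
    (H : s36tp_Hyp
      (algebraMap ↥O (Algebra.adjoin ↥O
        ({hs_muE h3 (N' * q * q) - 1} : Set ↥(hs_E L h3 (N' * q * q)))) ((q : ℕ) : ↥O))
      ![s36ih_VA h3 O h3O hπ (N' * q) q, s36ih_VB h3 O h3O hπ N' q hq3 hqN', VC] e)
    (he0 : e 0 = 1) (he1 : e 1 = 1)
    (hWB1 : ∀ b ∈ fc_chart ↥O ({hs_muE h3 (N' * q * q) - 1} : Set ↥(hs_E L h3 (N' * q * q))),
      s36ih_W2 h3 N' q hq3 hqN' b ∈
        fc_chart ↥O ({hs_muE h3 (N' * q * q) - 1} : Set ↥(hs_E L h3 (N' * q * q))))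
    (hWB2 : ∀ b ∈ fc_chart ↥O ({(hs_muE h3 (N' * q * q) - 1)⁻¹} : Set ↥(hs_E L h3 (N' * q * q))),
      s36ih_W2 h3 N' q hq3 hqN' b ∈
        fc_chart ↥O ({(hs_muE h3 (N' * q * q) - 1)⁻¹} : Set ↥(hs_E L h3 (N' * q * q)))) :
    (∀ 𝔫 : Ideal (fc_chart ↥O ({hs_muE h3 (N' * q * q) - 1} : Set ↥(hs_E L h3 (N' * q * q)))),
      𝔫.IsMaximal →
      algebraMap ↥O (fc_chart ↥O ({hs_muE h3 (N' * q * q) - 1} : Set ↥(hs_E L h3 (N' * q * q)))) ((q : ℕ) : ↥O) ∈ 𝔫 →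
      ¬ ssm_tp_P (fc_chart ↥O ({hs_muE h3 (N' * q * q) - 1} : Set ↥(hs_E L h3 (N' * q * q))))
        (s36ih_VB h3 O h3O hπ N' q hq3 hqN') ≤ 𝔫 →
      ¬ ssm_tp_P (fc_chart ↥O ({hs_muE h3 (N' * q * q) - 1} : Set ↥(hs_E L h3 (N' * q * q))))
        VC ≤ 𝔫 →
      ss_SmoothAt ((q : ℕ) : ↥O) (fc_chart ↥O ({hs_muE h3 (N' * q * q) - 1} : Set ↥(hs_E L h3 (N' * q * q)))) 𝔫) ∧
    (∀ 𝔫 : Ideal (fc_chart ↥O ({hs_muE h3 (N' * q * q) - 1} : Set ↥(hs_E L h3 (N' * q * q)))),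
      𝔫.IsMaximal →
      algebraMap ↥O (fc_chart ↥O ({hs_muE h3 (N' * q * q) - 1} : Set ↥(hs_E L h3 (N' * q * q)))) ((q : ℕ) : ↥O) ∈ 𝔫 →
      ¬ ssm_tp_P (fc_chart ↥O ({hs_muE h3 (N' * q * q) - 1} : Set ↥(hs_E L h3 (N' * q * q))))
        (s36ih_VA h3 O h3O hπ (N' * q) q) ≤ 𝔫 →
      ¬ ssm_tp_P (fc_chart ↥O ({hs_muE h3 (N' * q * q) - 1} : Set ↥(hs_E L h3 (N' * q * q))))
        VC ≤ 𝔫 →
      ss_SmoothAt ((q : ℕ) : ↥O) (fc_chart ↥O ({hs_muE h3 (N' * q * q) - 1} : Set ↥(hs_E L h3 (N' * q * q)))) 𝔫) ∧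
    (∀ 𝔫 : Ideal (fc_chart ↥O ({(hs_muE h3 (N' * q * q) - 1)⁻¹} : Set ↥(hs_E L h3 (N' * q * q)))),
      𝔫.IsMaximal →
      algebraMap ↥O (fc_chart ↥O ({(hs_muE h3 (N' * q * q) - 1)⁻¹} : Set ↥(hs_E L h3 (N' * q * q)))) ((q : ℕ) : ↥O) ∈ 𝔫 →
      ¬ ssm_tp_P (fc_chart ↥O ({(hs_muE h3 (N' * q * q) - 1)⁻¹} : Set ↥(hs_E L h3 (N' * q * q))))
        (s36ih_VB h3 O h3O hπ N' q hq3 hqN') ≤ 𝔫 →
      ¬ ssm_tp_P (fc_chart ↥O ({(hs_muE h3 (N' * q * q) - 1)⁻¹} : Set ↥(hs_E L h3 (N' * q * q))))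
        VC ≤ 𝔫 →
      ss_SmoothAt ((q : ℕ) : ↥O) (fc_chart ↥O ({(hs_muE h3 (N' * q * q) - 1)⁻¹} : Set ↥(hs_E L h3 (N' * q * q)))) 𝔫) ∧
    (∀ 𝔫 : Ideal (fc_chart ↥O ({(hs_muE h3 (N' * q * q) - 1)⁻¹} : Set ↥(hs_E L h3 (N' * q * q)))),
      𝔫.IsMaximal →
      algebraMap ↥O (fc_chart ↥O ({(hs_muE h3 (N' * q * q) - 1)⁻¹} : Set ↥(hs_E L h3 (N' * q * q)))) ((q : ℕ) : ↥O) ∈ 𝔫 →
      ¬ ssm_tp_P (fc_chart ↥O ({(hs_muE h3 (N' * q * q) - 1)⁻¹} : Set ↥(hs_E L h3 (N' * q * q))))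
        (s36ih_VA h3 O h3O hπ (N' * q) q) ≤ 𝔫 →
      ¬ ssm_tp_P (fc_chart ↥O ({(hs_muE h3 (N' * q * q) - 1)⁻¹} : Set ↥(hs_E L h3 (N' * q * q))))
        VC ≤ 𝔫 →
      ss_SmoothAt ((q : ℕ) : ↥O) (fc_chart ↥O ({(hs_muE h3 (N' * q * q) - 1)⁻¹} : Set ↥(hs_E L h3 (N' * q * q)))) 𝔫) := by
  obtain ⟨hprime1, hprime2, hic1, hic2, hreg1, hreg2⟩ :=
    s36cph_nf_pkg L h3 O N' q hq3 hqN' hπ ζ hζ
  exact s36cph_hes_smooth h3 O h3O hπ N' q hq3 hqN' H he0 he1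
    (s36cph_ra_hes h3 O h3O hπ N' q hq3 hqN') hprime1 hprime2 hic1 hic2 hreg1 hreg2 hWB1 hWB2

include hζ in
set_option synthInstance.maxHeartbeats 200000 in
set_option maxHeartbeats 1600000 in
/-- **[L3a]-Hes, [NF2H-CTX]: the two smooth clauses on `C` only** (`e 2 = 1`: `q = 2`). -/
theorem s36cph_nf_smoothC {VC : ValuationSubring ↥(hs_E L h3 (N' * q * q))} {e : Fin 3 → ℕ}
    (H : s36tp_Hyp
      (algebraMap ↥O (Algebra.adjoin ↥O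
        ({hs_muE h3 (N' * q * q) - 1} : Set ↥(hs_E L h3 (N' * q * q)))) ((q : ℕ) : ↥O))
      ![s36ih_VA h3 O h3O hπ (N' * q) q, s36ih_VB h3 O h3O hπ N' q hq3 hqN', VC] e)
    (he0 : e 0 = 1) (he1 : e 1 = 1) (he2 : e 2 = 1)
    (hVC : ∀ z : ↥(hs_E L h3 N'), IntermediateField.inclusion (s36cph_E_le2 h3 N' q) z ∈ VC ↔
      z ∈ gq_valSubOf ((q : ℕ) : ↥O) hπ.ne_zero hπ.maximalIdeal_eq (hs_E L h3 N')
          ((s36cph_E_le2 h3 N' q).trans (hsa_E_le_quotField h3 O (N' * q * q) h3O)))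
    (hresC : ∀ a ∈ VC,
      ∃ r : ↥(gq_valSubOf ((q : ℕ) : ↥O) hπ.ne_zero hπ.maximalIdeal_eq (hs_E L h3 N')
          ((s36cph_E_le2 h3 N' q).trans (hsa_E_le_quotField h3 O (N' * q * q) h3O))),
        a - IntermediateField.inclusion (s36cph_E_le2 h3 N' q) (r : ↥(hs_E L h3 N')) ∈
          VC.nonunits) :
    (∀ 𝔫 : Ideal (fc_chart ↥O ({hs_muE h3 (N' * q * q) - 1} : Set ↥(hs_E L h3 (N' * q * q)))),
      𝔫.IsMaximal →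
      algebraMap ↥O (fc_chart ↥O ({hs_muE h3 (N' * q * q) - 1} : Set ↥(hs_E L h3 (N' * q * q)))) ((q : ℕ) : ↥O) ∈ 𝔫 →
      ¬ ssm_tp_P (fc_chart ↥O ({hs_muE h3 (N' * q * q) - 1} : Set ↥(hs_E L h3 (N' * q * q))))
        (s36ih_VA h3 O h3O hπ (N' * q) q) ≤ 𝔫 →
      ¬ ssm_tp_P (fc_chart ↥O ({hs_muE h3 (N' * q * q) - 1} : Set ↥(hs_E L h3 (N' * q * q))))
        (s36ih_VB h3 O h3O hπ N' q hq3 hqN') ≤ 𝔫 →
      ss_SmoothAt ((q : ℕ) : ↥O) (fc_chart ↥O ({hs_muE h3 (N' * q * q) - 1} : Set ↥(hs_E L h3 (N' * q * q)))) 𝔫) ∧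
    (∀ 𝔫 : Ideal (fc_chart ↥O ({(hs_muE h3 (N' * q * q) - 1)⁻¹} : Set ↥(hs_E L h3 (N' * q * q)))),
      𝔫.IsMaximal →
      algebraMap ↥O (fc_chart ↥O ({(hs_muE h3 (N' * q * q) - 1)⁻¹} : Set ↥(hs_E L h3 (N' * q * q)))) ((q : ℕ) : ↥O) ∈ 𝔫 →
      ¬ ssm_tp_P (fc_chart ↥O ({(hs_muE h3 (N' * q * q) - 1)⁻¹} : Set ↥(hs_E L h3 (N' * q * q))))
        (s36ih_VA h3 O h3O hπ (N' * q) q) ≤ 𝔫 →
      ¬ ssm_tp_P (fc_chart ↥O ({(hs_muE h3 (N' * q * q) - 1)⁻¹} : Set ↥(hs_E L h3 (N' * q * q))))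
        (s36ih_VB h3 O h3O hπ N' q hq3 hqN') ≤ 𝔫 →
      ss_SmoothAt ((q : ℕ) : ↥O) (fc_chart ↥O ({(hs_muE h3 (N' * q * q) - 1)⁻¹} : Set ↥(hs_E L h3 (N' * q * q)))) 𝔫) := by
  obtain ⟨hprime1, hprime2, hic1, hic2, hreg1, hreg2⟩ :=
    s36cph_nf_pkg L h3 O N' q hq3 hqN' hπ ζ hζ
  exact s36cph_hes_smoothC h3 O h3O hπ N' q hq3 hqN' H he0 he1 he2 hVC hresC
    hprime1 hprime2 hic1 hic2 hreg1 hreg2

include hζ in
set_option synthInstance.maxHeartbeats 200000 in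
set_option maxHeartbeats 1600000 in
/-- **[L3a]-Hes / [TRI-INST]-Hes, [NF2H-CTX]: the components `A`, `B` are smooth at every closed
point** of `B_x`, `B_{x⁻¹}` (`hsmA`, `hsmB`). -/
theorem s36cph_nf_comp
    (hWB1 : ∀ b ∈ fc_chart ↥O ({hs_muE h3 (N' * q * q) - 1} : Set ↥(hs_E L h3 (N' * q * q))),
      s36ih_W2 h3 N' q hq3 hqN' b ∈
        fc_chart ↥O ({hs_muE h3 (N' * q * q) - 1} : Set ↥(hs_E L h3 (N' * q * q))))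
    (hWB2 : ∀ b ∈ fc_chart ↥O ({(hs_muE h3 (N' * q * q) - 1)⁻¹} : Set ↥(hs_E L h3 (N' * q * q))),
      s36ih_W2 h3 N' q hq3 hqN' b ∈
        fc_chart ↥O ({(hs_muE h3 (N' * q * q) - 1)⁻¹} : Set ↥(hs_E L h3 (N' * q * q)))) :
    (∀ 𝔫 : Ideal (fc_chart ↥O ({hs_muE h3 (N' * q * q) - 1} : Set ↥(hs_E L h3 (N' * q * q)))),
      𝔫.IsMaximal → ∃ t ∈ 𝔫, ∀ x ∈ 𝔫,
        ∃ s : fc_chart ↥O ({hs_muE h3 (N' * q * q) - 1} : Set ↥(hs_E L h3 (N' * q * q))), s ∉ 𝔫 ∧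
        s * x ∈ ssm_tp_P (fc_chart ↥O ({hs_muE h3 (N' * q * q) - 1} : Set ↥(hs_E L h3 (N' * q * q))))
          (s36ih_VA h3 O h3O hπ (N' * q) q) ⊔ Ideal.span {t}) ∧
    (∀ 𝔫 : Ideal (fc_chart ↥O ({hs_muE h3 (N' * q * q) - 1} : Set ↥(hs_E L h3 (N' * q * q)))),
      𝔫.IsMaximal → ∃ t ∈ 𝔫, ∀ x ∈ 𝔫,
        ∃ s : fc_chart ↥O ({hs_muE h3 (N' * q * q) - 1} : Set ↥(hs_E L h3 (N' * q * q))), s ∉ 𝔫 ∧
        s * x ∈ ssm_tp_P (fc_chart ↥O ({hs_muE h3 (N' * q * q) - 1} : Set ↥(hs_E L h3 (N' * q * q))))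
          (s36ih_VB h3 O h3O hπ N' q hq3 hqN') ⊔ Ideal.span {t}) ∧
    (∀ 𝔫 : Ideal (fc_chart ↥O ({(hs_muE h3 (N' * q * q) - 1)⁻¹} : Set ↥(hs_E L h3 (N' * q * q)))),
      𝔫.IsMaximal → ∃ t ∈ 𝔫, ∀ x ∈ 𝔫,
        ∃ s : fc_chart ↥O ({(hs_muE h3 (N' * q * q) - 1)⁻¹} : Set ↥(hs_E L h3 (N' * q * q))), s ∉ 𝔫 ∧
        s * x ∈ ssm_tp_P (fc_chart ↥O ({(hs_muE h3 (N' * q * q) - 1)⁻¹} : Set ↥(hs_E L h3 (N' * q * q))))
          (s36ih_VA h3 O h3O hπ (N' * q) q) ⊔ Ideal.span {t}) ∧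
    (∀ 𝔫 : Ideal (fc_chart ↥O ({(hs_muE h3 (N' * q * q) - 1)⁻¹} : Set ↥(hs_E L h3 (N' * q * q)))),
      𝔫.IsMaximal → ∃ t ∈ 𝔫, ∀ x ∈ 𝔫,
        ∃ s : fc_chart ↥O ({(hs_muE h3 (N' * q * q) - 1)⁻¹} : Set ↥(hs_E L h3 (N' * q * q))), s ∉ 𝔫 ∧
        s * x ∈ ssm_tp_P (fc_chart ↥O ({(hs_muE h3 (N' * q * q) - 1)⁻¹} : Set ↥(hs_E L h3 (N' * q * q))))
          (s36ih_VB h3 O h3O hπ N' q hq3 hqN') ⊔ Ideal.span {t}) := by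
  obtain ⟨hprime1, hprime2, hic1, hic2, hreg1, hreg2⟩ :=
    s36cph_nf_pkg L h3 O N' q hq3 hqN' hπ ζ hζ
  exact s36cph_hes_comp h3 O h3O hπ N' q hq3 hqN' (s36cph_ra_hes h3 O h3O hπ N' q hq3 hqN')
    hprime1 hprime2 hic1 hic2 hreg1 hreg2 hWB1 hWB2

include hζ in
set_option synthInstance.maxHeartbeats 200000 in
set_option maxHeartbeats 1600000 in
/-- **[L3a]-Hes, [NF2H-CTX], RING-LEVEL form**: every closed point `𝔫 ∋ q` of `B_x`, `B_{x⁻¹}`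
lying on `A` only or on `B` only is a ONE-BRANCH point (`s36cp_PtOne q (q ^ 2) B 𝔫`; `u = ϖ`,
`e = 1`). -/
theorem s36cph_nf_one {VC : ValuationSubring ↥(hs_E L h3 (N' * q * q))} {e : Fin 3 → ℕ}
    (H : s36tp_Hyp
      (algebraMap ↥O (Algebra.adjoin ↥O
        ({hs_muE h3 (N' * q * q) - 1} : Set ↥(hs_E L h3 (N' * q * q)))) ((q : ℕ) : ↥O))
      ![s36ih_VA h3 O h3O hπ (N' * q) q, s36ih_VB h3 O h3O hπ N' q hq3 hqN', VC] e)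
    (he0 : e 0 = 1) (he1 : e 1 = 1)
    (hWB1 : ∀ b ∈ fc_chart ↥O ({hs_muE h3 (N' * q * q) - 1} : Set ↥(hs_E L h3 (N' * q * q))),
      s36ih_W2 h3 N' q hq3 hqN' b ∈
        fc_chart ↥O ({hs_muE h3 (N' * q * q) - 1} : Set ↥(hs_E L h3 (N' * q * q))))
    (hWB2 : ∀ b ∈ fc_chart ↥O ({(hs_muE h3 (N' * q * q) - 1)⁻¹} : Set ↥(hs_E L h3 (N' * q * q))),
      s36ih_W2 h3 N' q hq3 hqN' b ∈
        fc_chart ↥O ({(hs_muE h3 (N' * q * q) - 1)⁻¹} : Set ↥(hs_E L h3 (N' * q * q)))) :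
    (∀ (𝔫 : Ideal (fc_chart ↥O ({hs_muE h3 (N' * q * q) - 1} : Set ↥(hs_E L h3 (N' * q * q)))))
      (h𝔫 : 𝔫.IsMaximal),
      algebraMap ↥O (fc_chart ↥O ({hs_muE h3 (N' * q * q) - 1} : Set ↥(hs_E L h3 (N' * q * q)))) ((q : ℕ) : ↥O) ∈ 𝔫 →
      ¬ ssm_tp_P (fc_chart ↥O ({hs_muE h3 (N' * q * q) - 1} : Set ↥(hs_E L h3 (N' * q * q))))
        (s36ih_VB h3 O h3O hπ N' q hq3 hqN') ≤ 𝔫 →
      ¬ ssm_tp_P (fc_chart ↥O ({hs_muE h3 (N' * q * q) - 1} : Set ↥(hs_E L h3 (N' * q * q))))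
        VC ≤ 𝔫 →
      haveI := s36cph_chart_isFractionRing h3 O (N' * q * q)
      haveI : 𝔫.IsPrime := h𝔫.isPrime
      s36cp_PtOne ((q : ℕ) : ↥O) (q ^ 2)
        (fc_chart ↥O ({hs_muE h3 (N' * q * q) - 1} : Set ↥(hs_E L h3 (N' * q * q)))) 𝔫) ∧
    (∀ (𝔫 : Ideal (fc_chart ↥O ({hs_muE h3 (N' * q * q) - 1} : Set ↥(hs_E L h3 (N' * q * q)))))
      (h𝔫 : 𝔫.IsMaximal),
      algebraMap ↥O (fc_chart ↥O ({hs_muE h3 (N' * q * q) - 1} : Set ↥(hs_E L h3 (N' * q * q)))) ((q : ℕ) : ↥O) ∈ 𝔫 →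
      ¬ ssm_tp_P (fc_chart ↥O ({hs_muE h3 (N' * q * q) - 1} : Set ↥(hs_E L h3 (N' * q * q))))
        (s36ih_VA h3 O h3O hπ (N' * q) q) ≤ 𝔫 →
      ¬ ssm_tp_P (fc_chart ↥O ({hs_muE h3 (N' * q * q) - 1} : Set ↥(hs_E L h3 (N' * q * q))))
        VC ≤ 𝔫 →
      haveI := s36cph_chart_isFractionRing h3 O (N' * q * q)
      haveI : 𝔫.IsPrime := h𝔫.isPrime
      s36cp_PtOne ((q : ℕ) : ↥O) (q ^ 2)
        (fc_chart ↥O ({hs_muE h3 (N' * q * q) - 1} : Set ↥(hs_E L h3 (N' * q * q)))) 𝔫) ∧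
    (∀ (𝔫 : Ideal (fc_chart ↥O ({(hs_muE h3 (N' * q * q) - 1)⁻¹} : Set ↥(hs_E L h3 (N' * q * q)))))
      (h𝔫 : 𝔫.IsMaximal),
      algebraMap ↥O (fc_chart ↥O ({(hs_muE h3 (N' * q * q) - 1)⁻¹} : Set ↥(hs_E L h3 (N' * q * q)))) ((q : ℕ) : ↥O) ∈ 𝔫 →
      ¬ ssm_tp_P (fc_chart ↥O ({(hs_muE h3 (N' * q * q) - 1)⁻¹} : Set ↥(hs_E L h3 (N' * q * q))))
        (s36ih_VB h3 O h3O hπ N' q hq3 hqN') ≤ 𝔫 →
      ¬ ssm_tp_P (fc_chart ↥O ({(hs_muE h3 (N' * q * q) - 1)⁻¹} : Set ↥(hs_E L h3 (N' * q * q))))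
        VC ≤ 𝔫 →
      haveI := s36cph_chart_inv_isFractionRing h3 O (N' * q * q)
      haveI : 𝔫.IsPrime := h𝔫.isPrime
      s36cp_PtOne ((q : ℕ) : ↥O) (q ^ 2)
        (fc_chart ↥O ({(hs_muE h3 (N' * q * q) - 1)⁻¹} : Set ↥(hs_E L h3 (N' * q * q)))) 𝔫) ∧
    (∀ (𝔫 : Ideal (fc_chart ↥O ({(hs_muE h3 (N' * q * q) - 1)⁻¹} : Set ↥(hs_E L h3 (N' * q * q)))))
      (h𝔫 : 𝔫.IsMaximal),
      algebraMap ↥O (fc_chart ↥O ({(hs_muE h3 (N' * q * q) - 1)⁻¹} : Set ↥(hs_E L h3 (N' * q * q)))) ((q : ℕ) : ↥O) ∈ 𝔫 →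
      ¬ ssm_tp_P (fc_chart ↥O ({(hs_muE h3 (N' * q * q) - 1)⁻¹} : Set ↥(hs_E L h3 (N' * q * q))))
        (s36ih_VA h3 O h3O hπ (N' * q) q) ≤ 𝔫 →
      ¬ ssm_tp_P (fc_chart ↥O ({(hs_muE h3 (N' * q * q) - 1)⁻¹} : Set ↥(hs_E L h3 (N' * q * q))))
        VC ≤ 𝔫 →
      haveI := s36cph_chart_inv_isFractionRing h3 O (N' * q * q)
      haveI : 𝔫.IsPrime := h𝔫.isPrime
      s36cp_PtOne ((q : ℕ) : ↥O) (q ^ 2)
        (fc_chart ↥O ({(hs_muE h3 (N' * q * q) - 1)⁻¹} : Set ↥(hs_E L h3 (N' * q * q)))) 𝔫) := by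
  obtain ⟨c1, c2, c3, c4⟩ :=
    s36cph_nf_smooth L h3 O h3O N' q hq3 hqN' hπ ζ hζ H he0 he1 hWB1 hWB2
  have hn : 1 ≤ q ^ 2 := Nat.one_le_pow _ _ hq.out.pos
  exact ⟨fun 𝔫 h𝔫 h1 h2 h3' =>
      s36cph_hes_one_of_smooth h3 O (N' * q * q) hπ (q ^ 2) hn 𝔫 h𝔫 h1 (c1 𝔫 h𝔫 h1 h2 h3'),
    fun 𝔫 h𝔫 h1 h2 h3' =>
      s36cph_hes_one_of_smooth h3 O (N' * q * q) hπ (q ^ 2) hn 𝔫 h𝔫 h1 (c2 𝔫 h𝔫 h1 h2 h3'),
    fun 𝔫 h𝔫 h1 h2 h3' =>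
      s36cph_hes_one_of_smooth_inv h3 O (N' * q * q) hπ (q ^ 2) hn 𝔫 h𝔫 h1 (c3 𝔫 h𝔫 h1 h2 h3'),
    fun 𝔫 h𝔫 h1 h2 h3' =>
      s36cph_hes_one_of_smooth_inv h3 O (N' * q * q) hπ (q ^ 2) hn 𝔫 h𝔫 h1 (c4 𝔫 h𝔫 h1 h2 h3')⟩

include hζ in
set_option synthInstance.maxHeartbeats 200000 in
set_option maxHeartbeats 1600000 in
/-- **[L3a]-Hes, [NF2H-CTX], RING-LEVEL form, component `C` reduced** (`e 2 = 1`): every closed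
point `𝔫 ∋ q` of `B_x`, `B_{x⁻¹}` lying on `C` only is a ONE-BRANCH point. -/
theorem s36cph_nf_oneC {VC : ValuationSubring ↥(hs_E L h3 (N' * q * q))} {e : Fin 3 → ℕ}
    (H : s36tp_Hyp
      (algebraMap ↥O (Algebra.adjoin ↥O
        ({hs_muE h3 (N' * q * q) - 1} : Set ↥(hs_E L h3 (N' * q * q)))) ((q : ℕ) : ↥O))
      ![s36ih_VA h3 O h3O hπ (N' * q) q, s36ih_VB h3 O h3O hπ N' q hq3 hqN', VC] e)
    (he0 : e 0 = 1) (he1 : e 1 = 1) (he2 : e 2 = 1)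
    (hVC : ∀ z : ↥(hs_E L h3 N'), IntermediateField.inclusion (s36cph_E_le2 h3 N' q) z ∈ VC ↔
      z ∈ gq_valSubOf ((q : ℕ) : ↥O) hπ.ne_zero hπ.maximalIdeal_eq (hs_E L h3 N')
          ((s36cph_E_le2 h3 N' q).trans (hsa_E_le_quotField h3 O (N' * q * q) h3O)))
    (hresC : ∀ a ∈ VC,
      ∃ r : ↥(gq_valSubOf ((q : ℕ) : ↥O) hπ.ne_zero hπ.maximalIdeal_eq (hs_E L h3 N')
          ((s36cph_E_le2 h3 N' q).trans (hsa_E_le_quotField h3 O (N' * q * q) h3O))),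
        a - IntermediateField.inclusion (s36cph_E_le2 h3 N' q) (r : ↥(hs_E L h3 N')) ∈
          VC.nonunits) :
    (∀ (𝔫 : Ideal (fc_chart ↥O ({hs_muE h3 (N' * q * q) - 1} : Set ↥(hs_E L h3 (N' * q * q)))))
      (h𝔫 : 𝔫.IsMaximal),
      algebraMap ↥O (fc_chart ↥O ({hs_muE h3 (N' * q * q) - 1} : Set ↥(hs_E L h3 (N' * q * q)))) ((q : ℕ) : ↥O) ∈ 𝔫 →
      ¬ ssm_tp_P (fc_chart ↥O ({hs_muE h3 (N' * q * q) - 1} : Set ↥(hs_E L h3 (N' * q * q))))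
        (s36ih_VA h3 O h3O hπ (N' * q) q) ≤ 𝔫 →
      ¬ ssm_tp_P (fc_chart ↥O ({hs_muE h3 (N' * q * q) - 1} : Set ↥(hs_E L h3 (N' * q * q))))
        (s36ih_VB h3 O h3O hπ N' q hq3 hqN') ≤ 𝔫 →
      haveI := s36cph_chart_isFractionRing h3 O (N' * q * q)
      haveI : 𝔫.IsPrime := h𝔫.isPrime
      s36cp_PtOne ((q : ℕ) : ↥O) (q ^ 2)
        (fc_chart ↥O ({hs_muE h3 (N' * q * q) - 1} : Set ↥(hs_E L h3 (N' * q * q)))) 𝔫) ∧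
    (∀ (𝔫 : Ideal (fc_chart ↥O ({(hs_muE h3 (N' * q * q) - 1)⁻¹} : Set ↥(hs_E L h3 (N' * q * q)))))
      (h𝔫 : 𝔫.IsMaximal),
      algebraMap ↥O (fc_chart ↥O ({(hs_muE h3 (N' * q * q) - 1)⁻¹} : Set ↥(hs_E L h3 (N' * q * q)))) ((q : ℕ) : ↥O) ∈ 𝔫 →
      ¬ ssm_tp_P (fc_chart ↥O ({(hs_muE h3 (N' * q * q) - 1)⁻¹} : Set ↥(hs_E L h3 (N' * q * q))))
        (s36ih_VA h3 O h3O hπ (N' * q) q) ≤ 𝔫 →
      ¬ ssm_tp_P (fc_chart ↥O ({(hs_muE h3 (N' * q * q) - 1)⁻¹} : Set ↥(hs_E L h3 (N' * q * q))))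
        (s36ih_VB h3 O h3O hπ N' q hq3 hqN') ≤ 𝔫 →
      haveI := s36cph_chart_inv_isFractionRing h3 O (N' * q * q)
      haveI : 𝔫.IsPrime := h𝔫.isPrime
      s36cp_PtOne ((q : ℕ) : ↥O) (q ^ 2)
        (fc_chart ↥O ({(hs_muE h3 (N' * q * q) - 1)⁻¹} : Set ↥(hs_E L h3 (N' * q * q)))) 𝔫) := by
  obtain ⟨c1, c2⟩ :=
    s36cph_nf_smoothC L h3 O h3O N' q hq3 hqN' hπ ζ hζ H he0 he1 he2 hVC hresC
  have hn : 1 ≤ q ^ 2 := Nat.one_le_pow _ _ hq.out.pos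
  exact ⟨fun 𝔫 h𝔫 h1 h2 h3' =>
      s36cph_hes_one_of_smooth h3 O (N' * q * q) hπ (q ^ 2) hn 𝔫 h𝔫 h1 (c1 𝔫 h𝔫 h1 h2 h3'),
    fun 𝔫 h𝔫 h1 h2 h3' =>
      s36cph_hes_one_of_smooth_inv h3 O (N' * q * q) hπ (q ^ 2) hn 𝔫 h𝔫 h1 (c2 𝔫 h𝔫 h1 h2 h3')⟩

end NF

end Fermat.Agent.S36
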