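/-
Project S36 (Carayol), cell [M2], leaf [V3-ASM]-Hes (helper8; prefix `s36t3h_`): THE THREE VERTICAL
VALUATIONS `VA, VB, VC` OF THE TOP LEVEL OF THE HESSE TOWER — the Hesse instance of helper29's
`S36/Model/ThreeAbs.lean` (`s36t3_third`, `s36t3_hyp`, `s36t3_comap_W_eq`).

Context [HES-CTX] (`q ≠ 3` prime, `q ∤ N'`, `O` a DVR of residue characteristic `q`, `3 ∈ Oˣ`),
`E₀ = hs_E L h3 N' ≤ E₁ = hs_E L h3 (N' q) ≤ E₂ = hs_E L h3 (N' q q)`, coordinate `x = μ - 1`,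
named objects of helper26's `S36/Ins1/Hes.lean`, `HesB.lean`:
`VF = ssm_fh_V1` (Gauss of `E₁`), `VA = s36ih_VA` (Gauss of `E₂`), `VB = s36ih_VB = W₂(VA)`,
`W₂ = s36ih_W2`, `x₂ = s36ih_x2 = (μ - 1)(X^{q q})`, `z = x₂ - x`.

* `s36t3h_integral_of_forall` (abstract) : an element lying in every valuation subring of `E` over
  the DVR `R` is integral over `R`;
* `s36t3h_gen_nonunits_iff`, `s36t3h_gen_mem_iff`, `s36t3h_gen_res` (generic tower `E0 ≤ E1 ≤ E2`):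
  restriction of a valuation subring over `VF` to `E₁`, `E₀`; composition of residue fields;
* `s36t3h_resA_mid`, `s36t3h_resA` : `κ(VA) = κ(VF) = κ(Gauss E₀)`, element form (Hesse twin of
  helper17's `s36cp_ra_leg_mid`, `s36cp_ra_leg`; `hresA` of `s36cph_hes_smooth` VERBATIM);
* `s36t3h_piF`, `s36t3h_z`, `s36t3h_Third VC` : the uniformiser `π` of `VF`, `z = x₂ - x`, and THE
  PACKAGE `s36t3_Third ↥E₁ ↥VF q π_F z VA VC` (helper29) with the tower instances of `S36/Ins1`;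
* `s36t3h_third` : **`∃ VC, s36t3h_Third VC`** over an unramified base (`q = π u`, `u ∈ Oˣ`):
  `e(VA|VF) = f(VA|VF) = 1` (helper15's `s36vh_*` + `s36t3h_resA_mid`), `hz := s36ih_hes_third`
  (helper26), `hN` from [THETA] (`s36th_hes_hN`);
* accessors (no instance arguments): `s36t3h_overC`, `s36t3h_ne`, `s36t3h_only`, `s36t3h_z_mem`,
  `s36t3h_unifC`, `s36t3h_z_unitA`, `s36t3h_ramC`, `s36t3h_resC_mid`;
* `s36t3h_hyp` : **[TP3]** `s36tp_Hyp π ![VA, VB, VC] ![1, 1, q - 1]` over `O[x]` at level `N' q q`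
  (from `hprime` at level `N'`: S34's `ssm_fh_hyp`, and helper26's `s36ih_hes_dataB`);
* `s36t3h_comap_W2` : `W₂ VC = VC`;
* `s36t3h_VC_iff`, `s36t3h_resC` : `VC ∩ E₀ = Gauss E₀`, `κ(VC) = κ(Gauss E₀)` (`hVC`, `hresC` of
  helper12's `s36cph_hes_smoothC` VERBATIM).
The integrality package `s36ig_Facts` is in `S36/Model/ThreeHesB.lean`.
-/
import Mathlib
import Fermat.Agent.S36.Model.ThreeAbs
import Fermat.Agent.S36.Model.ResAInst
import Fermat.Agent.S36.Model.Smooth3InstHes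
import Fermat.Agent.S36.Ins1.RestrHes
import Fermat.Agent.S36.Theta.HN

set_option autoImplicit false
set_option linter.unusedSectionVars false
set_option linter.unusedVariables false
set_option linter.style.haveILetI false

noncomputable section

open ModularCurve IntermediateField IsLocalRing
open Fermat.Agent.JT3 Fermat.Agent.SS

namespace Fermat.Agent.S36

section Abstract

variable (K : Type*) {E : Type*} [Field K] [Field E] [Algebra K E] [FiniteDimensional K E]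
  [Algebra.IsSeparable K E]
  (R : Type*) [CommRing R] [IsDomain R] [IsDiscreteValuationRing R] [Algebra R K]
  [IsFractionRing R K] [Algebra R E] [IsScalarTower R K E]

variable {K R}

include K in
/-- an element lying in every valuation subring of `E` over the DVR `R` is integral over `R`. -/
theorem s36t3h_integral_of_forall (a : E)
    (h : ∀ V : ValuationSubring E, ssm_tw_Over K R V → a ∈ V) : IsIntegral R a := by
  let I : Ideal ↥(integralClosure R E) :=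
    { carrier := {d | (d : E) * a ∈ integralClosure R E}
      add_mem' := by
        intro d e hd he
        show ((d + e : ↥(integralClosure R E)) : E) * a ∈ integralClosure R E
        push_cast
        rw [add_mul]
        exact (integralClosure R E).add_mem hd he
      zero_mem' := by
        show ((0 : ↥(integralClosure R E)) : E) * a ∈ integralClosure R E
        push_cast
        rw [zero_mul]
        exact (integralClosure R E).zero_mem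
      smul_mem' := by
        intro c d hd
        show ((c * d : ↥(integralClosure R E)) : E) * a ∈ integralClosure R E
        push_cast
        rw [mul_assoc]
        exact (integralClosure R E).mul_mem c.2 hd }
  have hItop : I = ⊤ := by
    by_contra hne
    obtain ⟨M, hM, hIM⟩ := Ideal.exists_le_maximal I hne
    haveI := hM
    have hMc : M.comap (algebraMap R ↥(integralClosure R E)) = maximalIdeal R :=
      IsLocalRing.eq_maximalIdeal (Ideal.isMaximal_comap_of_isIntegral_of_isMaximal M)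
    obtain ⟨V, hV, hVM⟩ := s36i_exists_val_of_prime K R M hMc
    obtain ⟨x1, t1, ht1, h1⟩ := (ssm_tw_bridge hV a).1 (h V hV)
    have hI1 : t1 ∈ I := by
      show (t1 : E) * a ∈ integralClosure R E
      rw [mul_comm, h1]; exact x1.2
    exact ht1 (hVM ▸ hIM hI1)
  have h1I : (1 : ↥(integralClosure R E)) ∈ I := by rw [hItop]; exact Submodule.mem_top
  have : ((1 : ↥(integralClosure R E)) : E) * a ∈ integralClosure R E := h1I
  rw [OneMemClass.coe_one, one_mul] at this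
  exact this

end Abstract

section Gen

variable {L : Type*} [Field L] {E0 E1 E2 : IntermediateField L (LaurentSeries L)}

/-- `VC ∩ E₁ = VF` ⟹ `𝔪(VC) ∩ E₁ = 𝔪(VF)`. -/
theorem s36t3h_gen_nonunits_iff (h12 : E1 ≤ E2) (VF : ValuationSubring ↥E1)
    (VC : ValuationSubring ↥E2)
    (hover :
      letI := ssm_gi_algebra h12
      letI := ssm_gi_algebraV h12 VF
      ssm_tw_Over ↥E1 ↥VF VC) (y : ↥E1) :
    IntermediateField.inclusion h12 y ∈ VC.nonunits ↔ y ∈ VF.nonunits := by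
  letI := ssm_gi_algebra h12
  letI := ssm_gi_algebraV h12 VF
  have h : ∀ w : ↥E1, IntermediateField.inclusion h12 w ∈ VC ↔ w ∈ VF := by
    intro w
    have h1 := hover w
    rw [ssm_gi_mem_range] at h1
    exact h1
  rw [ssm_tw_nonunits_iff, ssm_tw_nonunits_iff, ← map_inv₀, h, h, map_eq_zero]

/-- `VC ∩ E₁ = VF` ⟹ `VC ∩ E₀ = VF ∩ E₀`. -/
theorem s36t3h_gen_mem_iff (h01 : E0 ≤ E1) (h12 : E1 ≤ E2) (VF : ValuationSubring ↥E1)
    (VC : ValuationSubring ↥E2)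
    (hover :
      letI := ssm_gi_algebra h12
      letI := ssm_gi_algebraV h12 VF
      ssm_tw_Over ↥E1 ↥VF VC) (z : ↥E0) :
    IntermediateField.inclusion (h01.trans h12) z ∈ VC ↔
      IntermediateField.inclusion h01 z ∈ VF := by
  letI := ssm_gi_algebra h12
  letI := ssm_gi_algebraV h12 VF
  have h := hover (IntermediateField.inclusion h01 z)
  rw [ssm_gi_mem_range] at h
  exact h

/-- residue fields: `κ(VC) = κ(VF)` and `κ(VF) = κ(V0)` ⟹ `κ(VC) = κ(V0)`, element form. -/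
theorem s36t3h_gen_res (h01 : E0 ≤ E1) (h12 : E1 ≤ E2) (V0 : ValuationSubring ↥E0)
    (VF : ValuationSubring ↥E1) (VC : ValuationSubring ↥E2)
    (hover :
      letI := ssm_gi_algebra h12
      letI := ssm_gi_algebraV h12 VF
      ssm_tw_Over ↥E1 ↥VF VC)
    (hres01 : ∀ y ∈ VF, ∃ r0 : ↥V0,
      y - IntermediateField.inclusion h01 (r0 : ↥E0) ∈ VF.nonunits)
    (a : ↥E2) (y : ↥VF)
    (hy : a - IntermediateField.inclusion h12 (y : ↥E1) ∈ VC.nonunits) :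
    ∃ r0 : ↥V0, a - IntermediateField.inclusion (h01.trans h12) (r0 : ↥E0) ∈ VC.nonunits := by
  obtain ⟨r0, hr0⟩ := hres01 (y : ↥E1) y.2
  refine ⟨r0, ?_⟩
  have hup := (s36t3h_gen_nonunits_iff h12 VF VC hover _).2 hr0
  have e : a - IntermediateField.inclusion (h01.trans h12) (r0 : ↥E0) =
      (a - IntermediateField.inclusion h12 (y : ↥E1)) +
        IntermediateField.inclusion h12
          ((y : ↥E1) - IntermediateField.inclusion h01 (r0 : ↥E0)) := by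
    have e1 : IntermediateField.inclusion (h01.trans h12) (r0 : ↥E0) =
        IntermediateField.inclusion h12 (IntermediateField.inclusion h01 (r0 : ↥E0)) :=
      Subtype.ext rfl
    rw [e1, map_sub]
    ring
  rw [e]
  exact ssm_tw_nonunits_add _ hy hup

end Gen

section ThreeHes

variable {L : Type*} [Field L] [CharZero L] [Algebra L (AlgebraicClosure ℚ)] (h3 : (3 : L) ≠ 0)
  (O : ValuationSubring L) [IsDiscreteValuationRing O] (h3O : IsUnit (3 : O)) {π : O}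
  (hπ : Irreducible π)
variable (N' q : ℕ) [NeZero N'] [NeZero q] [hq : Fact q.Prime] [CharP (ResidueField O) q]
  (hq3 : ¬ 3 ∣ q) (hqN' : ¬ q ∣ N')

/-- the coordinate of `E₁` maps to the coordinate of `E₂`. -/
theorem s36t3h_incl_x :
    IntermediateField.inclusion (ssm_alh_E_le L h3 (ssm_fh_hF9 h3) (N' * q) q)
      (hs_muE h3 (N' * q) - 1) = hs_muE h3 (N' * q * q) - 1 :=
  Subtype.ext ((IntermediateField.coe_inclusion _ _).trans
    ((s36ih_coe_sub h3 (N' * q)).trans (s36ih_coe_sub h3 (N' * q * q)).symm))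

include hq3 hqN' in
set_option synthInstance.maxHeartbeats 200000 in
set_option maxHeartbeats 800000 in
/-- **`f(VA | VF) = 1`, Hesse tower**, element form. -/
theorem s36t3h_resA_mid (a : ↥(hs_E L h3 (N' * q * q)))
    (ha : a ∈ s36ih_VA h3 O h3O hπ (N' * q) q) :
    ∃ y : ↥(ssm_fh_V1 h3 O h3O hπ N' q),
      a - IntermediateField.inclusion (ssm_alh_E_le L h3 (ssm_fh_hF9 h3) (N' * q) q)
        (y : ↥(hs_E L h3 (N' * q))) ∈ (s36ih_VA h3 O h3O hπ (N' * q) q).nonunits :=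
  s36cp_ra_gauss_mid O hπ q (hs_E L h3 N') (hs_E L h3 (N' * q)) (hs_E L h3 (N' * q * q))
    (ssm_alh_E_le L h3 (ssm_fh_hF9 h3) N' q) (ssm_alh_E_le L h3 (ssm_fh_hF9 h3) (N' * q) q)
    (hsa_E_le_quotField h3 O (N' * q * q) h3O)
    (ssm_alh_E_beta_le L h3 (ssm_fh_hF9 h3) N' q hq3)
    (ssm_alh_E_beta_le L h3 (ssm_fh_hF9 h3) (N' * q) q hq3)
    (ssm_fh_W h3 N' q hq3 hqN')
    (ssm_glh_x h3 O h3O hπ N' (N' * q) (ssm_alh_E_le L h3 (ssm_fh_hF9 h3) N' q))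
    (ssm_fh_data h3 O h3O hπ N' q hq3 hqN')
    (s36ih_hes_dataA h3 O h3O hπ (N' * q) q hq3 (Dvd.intro_left N' rfl))
    ⟨hs_muE h3 (N' * q) - 1, s36t3h_incl_x h3 N' q⟩ a ha

include hq3 hqN' in
set_option synthInstance.maxHeartbeats 200000 in
set_option maxHeartbeats 800000 in
/-- **`hresA`, Hesse tower** (`κ(VA) = κ(Gauss E₀)`): the hypothesis `hresA` of
`s36cph_hes_smooth` VERBATIM. -/
theorem s36t3h_resA :
    ∀ a ∈ s36ih_VA h3 O h3O hπ (N' * q) q,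
      ∃ r : ↥(gq_valSubOf π hπ.ne_zero hπ.maximalIdeal_eq (hs_E L h3 N')
          ((s36cph_E_le2 h3 N' q).trans (hsa_E_le_quotField h3 O (N' * q * q) h3O))),
        a - IntermediateField.inclusion (s36cph_E_le2 h3 N' q) (r : ↥(hs_E L h3 N')) ∈
          (s36ih_VA h3 O h3O hπ (N' * q) q).nonunits := fun a ha =>
  s36cp_ra_gauss O hπ q (hs_E L h3 N') (hs_E L h3 (N' * q)) (hs_E L h3 (N' * q * q))
    (ssm_alh_E_le L h3 (ssm_fh_hF9 h3) N' q) (ssm_alh_E_le L h3 (ssm_fh_hF9 h3) (N' * q) q)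
    (hsa_E_le_quotField h3 O (N' * q * q) h3O)
    (ssm_alh_E_beta_le L h3 (ssm_fh_hF9 h3) N' q hq3)
    (ssm_alh_E_beta_le L h3 (ssm_fh_hF9 h3) (N' * q) q hq3)
    (ssm_fh_W h3 N' q hq3 hqN')
    (ssm_glh_x h3 O h3O hπ N' (N' * q) (ssm_alh_E_le L h3 (ssm_fh_hF9 h3) N' q))
    (ssm_fh_data h3 O h3O hπ N' q hq3 hqN')
    (s36ih_hes_dataA h3 O h3O hπ (N' * q) q hq3 (Dvd.intro_left N' rfl))
    ⟨hs_muE h3 (N' * q) - 1, s36t3h_incl_x h3 N' q⟩ a ha

include hq3 in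
/-- `[E₂ : E₁] = q`. -/
theorem s36t3h_finrank :
    letI := ssm_gi_algebra (ssm_alh_E_le L h3 (ssm_fh_hF9 h3) (N' * q) q)
    Module.finrank ↥(hs_E L h3 (N' * q)) ↥(hs_E L h3 (N' * q * q)) = q :=
  (ssm_gt_finrank_eq (ssm_alh_E_le L h3 (ssm_fh_hF9 h3) (N' * q) q)).trans
    (s36pe_relfinrank_EH L h3 (N' * q) q hq.out hq3 (Dvd.intro_left N' rfl))

include hq3 in
/-- `E₂ / E₁` is finite. -/
theorem s36t3h_finite :
    letI := ssm_gi_algebra (ssm_alh_E_le L h3 (ssm_fh_hF9 h3) (N' * q) q)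
    FiniteDimensional ↥(hs_E L h3 (N' * q)) ↥(hs_E L h3 (N' * q * q)) :=
  letI := ssm_gi_algebra (ssm_alh_E_le L h3 (ssm_fh_hF9 h3) (N' * q) q)
  Module.finite_of_finrank_pos (by rw [s36t3h_finrank h3 N' q hq3]; exact hq.out.pos)

/-- the uniformiser `π` of `VF`. -/
abbrev s36t3h_piF : ↥(ssm_fh_V1 h3 O h3O hπ N' q) :=
  gq_unif π hπ.ne_zero hπ.maximalIdeal_eq (hs_E L h3 (N' * q))
    (hsa_E_le_quotField h3 O (N' * q) h3O)

/-- `z = x₂ - x = (μ - 1)(X^{q q}) - (μ - 1)`, the uniformiser of the third valuation. -/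
abbrev s36t3h_z : ↥(hs_E L h3 (N' * q * q)) :=
  s36ih_x2 h3 N' q hq3 - (hs_muE h3 (N' * q * q) - 1)

/-- **the third-valuation package of the Hesse tower** for a valuation subring `VC` of `E₂`:
helper29's `s36t3_Third ↥E₁ ↥VF q π_F z VA VC` with the tower instances of `S36/Ins1`. -/
def s36t3h_Third (VC : ValuationSubring ↥(hs_E L h3 (N' * q * q))) : Prop :=
  letI := ssm_gi_algebra (ssm_alh_E_le L h3 (ssm_fh_hF9 h3) (N' * q) q)
  letI := ssm_gi_algebraV (ssm_alh_E_le L h3 (ssm_fh_hF9 h3) (N' * q) q)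
    (ssm_fh_V1 h3 O h3O hπ N' q)
  haveI := ssm_gi_isScalarTower (ssm_alh_E_le L h3 (ssm_fh_hF9 h3) (N' * q) q)
    (ssm_fh_V1 h3 O h3O hπ N' q)
  haveI := s36t3h_finite h3 N' q hq3
  haveI : Algebra.IsSeparable ↥(hs_E L h3 (N' * q)) ↥(hs_E L h3 (N' * q * q)) :=
    ssm_gi_isSeparable
  s36t3_Third ↥(hs_E L h3 (N' * q)) ↥(ssm_fh_V1 h3 O h3O hπ N' q) q
    (s36t3h_piF h3 O h3O hπ N' q) (s36t3h_z h3 N' q hq3) (s36ih_VA h3 O h3O hπ (N' * q) q) VC

include hqN' in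
set_option synthInstance.maxHeartbeats 200000 in
set_option maxHeartbeats 800000 in
/-- **[V3-ASM]-Hes, the third valuation**: over an unramified base (`q = π u`, `u ∈ Oˣ`) there is a
valuation subring `VC` of `E₂` with the third-valuation package. -/
theorem s36t3h_third (u : ↥O) (hu : IsUnit u) (hqu : ((q : ℕ) : ↥O) = π * u) :
    ∃ VC : ValuationSubring ↥(hs_E L h3 (N' * q * q)), s36t3h_Third h3 O h3O hπ N' q hq3 VC := by
  unfold s36t3h_Third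
  letI := ssm_gi_algebra (ssm_alh_E_le L h3 (ssm_fh_hF9 h3) (N' * q) q)
  letI := ssm_gi_algebraV (ssm_alh_E_le L h3 (ssm_fh_hF9 h3) (N' * q) q)
    (ssm_fh_V1 h3 O h3O hπ N' q)
  haveI := ssm_gi_isScalarTower (ssm_alh_E_le L h3 (ssm_fh_hF9 h3) (N' * q) q)
    (ssm_fh_V1 h3 O h3O hπ N' q)
  haveI := s36t3h_finite h3 N' q hq3
  haveI : Algebra.IsSeparable ↥(hs_E L h3 (N' * q)) ↥(hs_E L h3 (N' * q * q)) :=
    ssm_gi_isSeparable
  haveI : CharZero ↥(hs_E L h3 (N' * q)) :=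
    charZero_of_injective_algebraMap (algebraMap L ↥(hs_E L h3 (N' * q))).injective
  have hVA := s36ih_hes_overA h3 O h3O hπ N' q
  have hπF : Irreducible (s36t3h_piF h3 O h3O hπ N' q) :=
    ssm_ga_unif_irreducible π hπ.ne_zero hπ.maximalIdeal_eq _ _
  -- `f(VA | VF) = 1`
  have hfA := s36vh_inertiaDeg_one hVA (fun a ha => by
    obtain ⟨y, hy⟩ := s36t3h_resA_mid h3 O h3O hπ N' q hq3 hqN' a ha
    exact ⟨y, hy⟩)
  -- `e(VA | VF) = 1`
  have heA := s36vh_ramificationIdx_one hVA (s36t3h_piF h3 O h3O hπ N' q) hπF (fun a ha => by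
    have h1 : (⟨a, ssm_tw_nonunits_le _ ha⟩ : ↥(s36ih_VA h3 O h3O hπ (N' * q) q)) ∈
        maximalIdeal ↥(s36ih_VA h3 O h3O hπ (N' * q) q) := by
      rw [← ValuationSubring.coe_mem_nonunits_iff]
      exact ha
    rw [gq_maximalIdeal_eq, Ideal.mem_span_singleton] at h1
    obtain ⟨b, hb⟩ := h1
    exact ⟨b, b.2, congrArg Subtype.val hb⟩)
  -- `z ∈ 𝔪(V)` for `V ≠ VA`
  have hz : ∀ V : ValuationSubring ↥(hs_E L h3 (N' * q * q)),
      ssm_tw_Over ↥(hs_E L h3 (N' * q)) ↥(ssm_fh_V1 h3 O h3O hπ N' q) V →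
      V ≠ s36ih_VA h3 O h3O hπ (N' * q) q → s36t3h_z h3 N' q hq3 ∈ V.nonunits :=
    fun V hV hne => s36ih_hes_third h3 O h3O hπ N' q hq3 hqN' V hV hne
  -- `z ∈ VA`
  have hzA : s36t3h_z h3 N' q hq3 ∈ s36ih_VA h3 O h3O hπ (N' * q) q := by
    refine sub_mem ?_ ?_
    · rw [gq_mem_valSubOf]
      have h0 : gq_IsBdd (↥O) L (hs_mu L h3 - 1) := by
        rw [← s36ih_coe_sub h3 N', ssm_glh_coe_x h3 O h3O N']
        exact gq_isBdd_iota _
      exact ssm_ga_beta_isBdd q (ssm_ga_beta_isBdd q h0)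
    · rw [gq_mem_valSubOf, ssm_glh_coe_x h3 O h3O (N' * q * q)]
      exact gq_isBdd_iota _
  have hzi : IsIntegral ↥(ssm_fh_V1 h3 O h3O hπ N' q) (s36t3h_z h3 N' q hq3) := by
    refine s36t3h_integral_of_forall (K := ↥(hs_E L h3 (N' * q))) _ (fun V hV => ?_)
    by_cases hne : V = s36ih_VA h3 O h3O hπ (N' * q) q
    · rw [hne]; exact hzA
    · exact ssm_tw_nonunits_le V (hz V hV hne)
  -- the norm hypothesis, from [THETA]
  have hzz : s36th_h_x2 h3 (ssm_fh_hF9 h3) N' q hq3 hqN' -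
      algebraMap ↥(hs_E L h3 (N' * q)) ↥(hs_E L h3 (N' * q * q))
        (IntermediateField.inclusion (ssm_alh_E_le L h3 (ssm_fh_hF9 h3) N' q)
          (hs_muE h3 N' - 1)) = s36t3h_z h3 N' q hq3 := by
    apply Subtype.ext
    rw [AddSubgroupClass.coe_sub, AddSubgroupClass.coe_sub, ssm_gi_coe_algebraMap,
      IntermediateField.coe_inclusion, s36ih_coe_sub h3 N', s36ih_coe_sub h3 (N' * q * q)]
    rfl
  have hN : ∀ c : ↥(ssm_fh_V1 h3 O h3O hπ N' q),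
      Algebra.norm ↥(hs_E L h3 (N' * q)) (s36t3h_z h3 N' q hq3) ≠
        algebraMap ↥(ssm_fh_V1 h3 O h3O hπ N' q) ↥(hs_E L h3 (N' * q))
          (s36t3h_piF h3 O h3O hπ N' q ^ 2 * c) := by
    obtain ⟨c', w, hc', hcw⟩ :=
      s36th_hes_hN h3 (ssm_fh_hF9 h3) O h3O hπ N' q hq3 hqN' u hu hqu
    rw [hzz] at hcw
    intro c hc
    apply hc'
    rw [hc] at hcw
    have e : c' = s36t3h_piF h3 O h3O hπ N' q ^ 2 * c * w := Subtype.ext hcw.symm
    rw [e, hπF.maximalIdeal_eq, Ideal.span_singleton_pow, Ideal.mem_span_singleton]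
    exact ⟨c * w, by ring⟩
  exact s36t3_third hq.out.two_le (s36t3h_finrank h3 N' q hq3) (s36t3h_piF h3 O h3O hπ N' q) hπF
    hVA heA hfA (s36t3h_z h3 N' q hq3) hzi hz hN

/-! ### the package: accessors (no instance arguments in the statements) -/

variable {VC : ValuationSubring ↥(hs_E L h3 (N' * q * q))}

/-- `VC` lies over `VF`. -/
theorem s36t3h_overC (T : s36t3h_Third h3 O h3O hπ N' q hq3 VC) :
    letI := ssm_gi_algebra (ssm_alh_E_le L h3 (ssm_fh_hF9 h3) (N' * q) q)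
    letI := ssm_gi_algebraV (ssm_alh_E_le L h3 (ssm_fh_hF9 h3) (N' * q) q)
      (ssm_fh_V1 h3 O h3O hπ N' q)
    ssm_tw_Over ↥(hs_E L h3 (N' * q)) ↥(ssm_fh_V1 h3 O h3O hπ N' q) VC := by
  letI := ssm_gi_algebra (ssm_alh_E_le L h3 (ssm_fh_hF9 h3) (N' * q) q)
  letI := ssm_gi_algebraV (ssm_alh_E_le L h3 (ssm_fh_hF9 h3) (N' * q) q)
    (ssm_fh_V1 h3 O h3O hπ N' q)
  haveI := ssm_gi_isScalarTower (ssm_alh_E_le L h3 (ssm_fh_hF9 h3) (N' * q) q)
    (ssm_fh_V1 h3 O h3O hπ N' q)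
  haveI := s36t3h_finite h3 N' q hq3
  haveI : Algebra.IsSeparable ↥(hs_E L h3 (N' * q)) ↥(hs_E L h3 (N' * q * q)) :=
    ssm_gi_isSeparable
  exact s36t3_Third.overC T

/-- `VC ≠ VA`. -/
theorem s36t3h_ne (T : s36t3h_Third h3 O h3O hπ N' q hq3 VC) :
    VC ≠ s36ih_VA h3 O h3O hπ (N' * q) q := by
  letI := ssm_gi_algebra (ssm_alh_E_le L h3 (ssm_fh_hF9 h3) (N' * q) q)
  letI := ssm_gi_algebraV (ssm_alh_E_le L h3 (ssm_fh_hF9 h3) (N' * q) q)
    (ssm_fh_V1 h3 O h3O hπ N' q)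
  haveI := ssm_gi_isScalarTower (ssm_alh_E_le L h3 (ssm_fh_hF9 h3) (N' * q) q)
    (ssm_fh_V1 h3 O h3O hπ N' q)
  haveI := s36t3h_finite h3 N' q hq3
  haveI : Algebra.IsSeparable ↥(hs_E L h3 (N' * q)) ↥(hs_E L h3 (N' * q * q)) :=
    ssm_gi_isSeparable
  exact s36t3_Third.ne T

/-- `VA`, `VC` are the only valuation subrings of `E₂` over `VF`. -/
theorem s36t3h_only (T : s36t3h_Third h3 O h3O hπ N' q hq3 VC)
    (V : ValuationSubring ↥(hs_E L h3 (N' * q * q)))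
    (hV :
      letI := ssm_gi_algebra (ssm_alh_E_le L h3 (ssm_fh_hF9 h3) (N' * q) q)
      letI := ssm_gi_algebraV (ssm_alh_E_le L h3 (ssm_fh_hF9 h3) (N' * q) q)
        (ssm_fh_V1 h3 O h3O hπ N' q)
      ssm_tw_Over ↥(hs_E L h3 (N' * q)) ↥(ssm_fh_V1 h3 O h3O hπ N' q) V) :
    V = s36ih_VA h3 O h3O hπ (N' * q) q ∨ V = VC := by
  letI := ssm_gi_algebra (ssm_alh_E_le L h3 (ssm_fh_hF9 h3) (N' * q) q)
  letI := ssm_gi_algebraV (ssm_alh_E_le L h3 (ssm_fh_hF9 h3) (N' * q) q)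
    (ssm_fh_V1 h3 O h3O hπ N' q)
  haveI := ssm_gi_isScalarTower (ssm_alh_E_le L h3 (ssm_fh_hF9 h3) (N' * q) q)
    (ssm_fh_V1 h3 O h3O hπ N' q)
  haveI := s36t3h_finite h3 N' q hq3
  haveI : Algebra.IsSeparable ↥(hs_E L h3 (N' * q)) ↥(hs_E L h3 (N' * q * q)) :=
    ssm_gi_isSeparable
  exact s36t3_Third.only T V hV

/-- `z = x₂ - x ∈ 𝔪(VC)`. -/
theorem s36t3h_z_mem (T : s36t3h_Third h3 O h3O hπ N' q hq3 VC) :
    s36t3h_z h3 N' q hq3 ∈ VC.nonunits := by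
  letI := ssm_gi_algebra (ssm_alh_E_le L h3 (ssm_fh_hF9 h3) (N' * q) q)
  letI := ssm_gi_algebraV (ssm_alh_E_le L h3 (ssm_fh_hF9 h3) (N' * q) q)
    (ssm_fh_V1 h3 O h3O hπ N' q)
  haveI := ssm_gi_isScalarTower (ssm_alh_E_le L h3 (ssm_fh_hF9 h3) (N' * q) q)
    (ssm_fh_V1 h3 O h3O hπ N' q)
  haveI := s36t3h_finite h3 N' q hq3
  haveI : Algebra.IsSeparable ↥(hs_E L h3 (N' * q)) ↥(hs_E L h3 (N' * q * q)) :=
    ssm_gi_isSeparable
  exact s36t3_Third.z_mem T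

/-- `z` is a uniformiser of `VC`. -/
theorem s36t3h_unifC (T : s36t3h_Third h3 O h3O hπ N' q hq3 VC)
    (a : ↥(hs_E L h3 (N' * q * q))) :
    a ∈ VC.nonunits ↔ ∃ b ∈ VC, a = s36t3h_z h3 N' q hq3 * b := by
  letI := ssm_gi_algebra (ssm_alh_E_le L h3 (ssm_fh_hF9 h3) (N' * q) q)
  letI := ssm_gi_algebraV (ssm_alh_E_le L h3 (ssm_fh_hF9 h3) (N' * q) q)
    (ssm_fh_V1 h3 O h3O hπ N' q)
  haveI := ssm_gi_isScalarTower (ssm_alh_E_le L h3 (ssm_fh_hF9 h3) (N' * q) q)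
    (ssm_fh_V1 h3 O h3O hπ N' q)
  haveI := s36t3h_finite h3 N' q hq3
  haveI : Algebra.IsSeparable ↥(hs_E L h3 (N' * q)) ↥(hs_E L h3 (N' * q * q)) :=
    ssm_gi_isSeparable
  exact s36t3_Third.unifC T a

/-- `z` is a unit of `VA`. -/
theorem s36t3h_z_unitA (T : s36t3h_Third h3 O h3O hπ N' q hq3 VC) :
    s36t3h_z h3 N' q hq3 ∈ s36ih_VA h3 O h3O hπ (N' * q) q ∧
      s36t3h_z h3 N' q hq3 ∉ (s36ih_VA h3 O h3O hπ (N' * q) q).nonunits := by
  letI := ssm_gi_algebra (ssm_alh_E_le L h3 (ssm_fh_hF9 h3) (N' * q) q)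
  letI := ssm_gi_algebraV (ssm_alh_E_le L h3 (ssm_fh_hF9 h3) (N' * q) q)
    (ssm_fh_V1 h3 O h3O hπ N' q)
  haveI := ssm_gi_isScalarTower (ssm_alh_E_le L h3 (ssm_fh_hF9 h3) (N' * q) q)
    (ssm_fh_V1 h3 O h3O hπ N' q)
  haveI := s36t3h_finite h3 N' q hq3
  haveI : Algebra.IsSeparable ↥(hs_E L h3 (N' * q)) ↥(hs_E L h3 (N' * q * q)) :=
    ssm_gi_isSeparable
  exact s36t3_Third.z_unitA T

/-- `π = u z^(q-1)` with `u` a unit of `VC`. -/
theorem s36t3h_ramC (T : s36t3h_Third h3 O h3O hπ N' q hq3 VC) :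
    ∃ u : ↥(hs_E L h3 (N' * q * q)), u ∈ VC ∧ u⁻¹ ∈ VC ∧
      algebraMap ↥O ↥(hs_E L h3 (N' * q * q)) π = u * s36t3h_z h3 N' q hq3 ^ (q - 1) := by
  letI := ssm_gi_algebra (ssm_alh_E_le L h3 (ssm_fh_hF9 h3) (N' * q) q)
  letI := ssm_gi_algebraV (ssm_alh_E_le L h3 (ssm_fh_hF9 h3) (N' * q) q)
    (ssm_fh_V1 h3 O h3O hπ N' q)
  haveI := ssm_gi_isScalarTower (ssm_alh_E_le L h3 (ssm_fh_hF9 h3) (N' * q) q)
    (ssm_fh_V1 h3 O h3O hπ N' q)
  haveI := s36t3h_finite h3 N' q hq3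
  haveI : Algebra.IsSeparable ↥(hs_E L h3 (N' * q)) ↥(hs_E L h3 (N' * q * q)) :=
    ssm_gi_isSeparable
  obtain ⟨u, hu, hu', h⟩ := s36t3_Third.ramC (K := ↥(hs_E L h3 (N' * q)))
    (R := ↥(ssm_fh_V1 h3 O h3O hπ N' q)) T
  exact ⟨u, hu, hu', h⟩

/-- `κ(VC) = κ(VF)`, element form. -/
theorem s36t3h_resC_mid (T : s36t3h_Third h3 O h3O hπ N' q hq3 VC)
    (a : ↥(hs_E L h3 (N' * q * q))) (ha : a ∈ VC) :
    ∃ y : ↥(ssm_fh_V1 h3 O h3O hπ N' q),
      a - IntermediateField.inclusion (ssm_alh_E_le L h3 (ssm_fh_hF9 h3) (N' * q) q)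
        (y : ↥(hs_E L h3 (N' * q))) ∈ VC.nonunits := by
  letI := ssm_gi_algebra (ssm_alh_E_le L h3 (ssm_fh_hF9 h3) (N' * q) q)
  letI := ssm_gi_algebraV (ssm_alh_E_le L h3 (ssm_fh_hF9 h3) (N' * q) q)
    (ssm_fh_V1 h3 O h3O hπ N' q)
  haveI := ssm_gi_isScalarTower (ssm_alh_E_le L h3 (ssm_fh_hF9 h3) (N' * q) q)
    (ssm_fh_V1 h3 O h3O hπ N' q)
  haveI := s36t3h_finite h3 N' q hq3
  haveI : Algebra.IsSeparable ↥(hs_E L h3 (N' * q)) ↥(hs_E L h3 (N' * q * q)) :=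
    ssm_gi_isSeparable
  exact s36t3_Third.resC T a ha

/-! ### the three valuations: [TP3], `W₂ VC = VC`, restriction to `E₀`, residue field -/

/-- `W₁` fixes the constants. -/
theorem s36t3h_W1_algebraMap (a : ↥O) :
    ssm_fh_W h3 N' q hq3 hqN' (algebraMap ↥O ↥(hs_E L h3 (N' * q)) a) =
      algebraMap ↥O ↥(hs_E L h3 (N' * q)) a :=
  (ssm_alh_WE L h3 (ssm_fh_hF9 h3) N' q hq.out hq3 hqN').commutes (a : L)

/-- the constant `π` as an element of `VV = W₁(VF)`. -/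
def s36t3h_piV : ↥(s36ih_VV h3 O h3O hπ N' q hq3 hqN') :=
  ⟨algebraMap ↥O ↥(hs_E L h3 (N' * q)) π, by
    rw [ValuationSubring.mem_comap]
    show ssm_fh_W h3 N' q hq3 hqN' (algebraMap ↥O ↥(hs_E L h3 (N' * q)) π) ∈ _
    rw [s36t3h_W1_algebraMap]
    exact (s36t3h_piF h3 O h3O hπ N' q).2⟩

/-- `π` is a uniformiser of `VV`. -/
theorem s36t3h_piV_irreducible : Irreducible (s36t3h_piV h3 O h3O hπ N' q hq3 hqN') := by
  refine (MulEquiv.irreducible_iff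
    (s36i_comapEquiv (ssm_fh_V1 h3 O h3O hπ N' q) (ssm_fh_W h3 N' q hq3 hqN'))).1 ?_
  have e : s36i_comapEquiv (ssm_fh_V1 h3 O h3O hπ N' q) (ssm_fh_W h3 N' q hq3 hqN')
      (s36t3h_piV h3 O h3O hπ N' q hq3 hqN') = s36t3h_piF h3 O h3O hπ N' q :=
    Subtype.ext (s36t3h_W1_algebraMap h3 O N' q hq3 hqN' π)
  rw [e]
  exact ssm_ga_unif_irreducible π hπ.ne_zero hπ.maximalIdeal_eq _ _

set_option synthInstance.maxHeartbeats 200000 in
set_option maxHeartbeats 800000 in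
/-- **[V3-ASM]-Hes, [TP3]**: the hypotheses of the three-primes lemma for `VA, VB, VC` over
`O[x]`, `x = μ - 1` at level `N' q q`, exponents `(1, 1, q - 1)`. -/
theorem s36t3h_hyp
    (hprime : Prime (algebraMap ↥O
      (fc_chart ↥O ({hs_muE h3 N' - 1} : Set ↥(hs_E L h3 N'))) π))
    (T : s36t3h_Third h3 O h3O hπ N' q hq3 VC) :
    s36tp_Hyp
      (algebraMap ↥O (Algebra.adjoin ↥O
        ({hs_muE h3 (N' * q * q) - 1} : Set ↥(hs_E L h3 (N' * q * q)))) π)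
      ![s36ih_VA h3 O h3O hπ (N' * q) q, s36ih_VB h3 O h3O hπ N' q hq3 hqN', VC]
      ![1, 1, q - 1] := by
  letI := ssm_gi_algebra (ssm_alh_E_le L h3 (ssm_fh_hF9 h3) (N' * q) q)
  letI := ssm_gi_algebraV (ssm_alh_E_le L h3 (ssm_fh_hF9 h3) (N' * q) q)
    (ssm_fh_V1 h3 O h3O hπ N' q)
  haveI := ssm_gi_isScalarTower (ssm_alh_E_le L h3 (ssm_fh_hF9 h3) (N' * q) q)
    (ssm_fh_V1 h3 O h3O hπ N' q)
  letI := ssm_gi_algebraV (ssm_alh_E_le L h3 (ssm_fh_hF9 h3) (N' * q) q)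
    (s36ih_VV h3 O h3O hπ N' q hq3 hqN')
  haveI := ssm_gi_isScalarTower (ssm_alh_E_le L h3 (ssm_fh_hF9 h3) (N' * q) q)
    (s36ih_VV h3 O h3O hπ N' q hq3 hqN')
  haveI := s36t3h_finite h3 N' q hq3
  haveI : Algebra.IsSeparable ↥(hs_E L h3 (N' * q)) ↥(hs_E L h3 (N' * q * q)) :=
    ssm_gi_isSeparable
  haveI := ssm_go_isScalarTower O (hs_E L h3 (N' * q * q))
  haveI := ssm_go_isScalarTower O (hs_E L h3 (N' * q))
  haveI := ssm_gt_isScalarTower O (ssm_alh_E_le L h3 (ssm_fh_hF9 h3) (N' * q) q)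
  have e : algebraMap ↥(hs_E L h3 (N' * q)) ↥(hs_E L h3 (N' * q * q))
      (hs_muE h3 (N' * q) - 1) = hs_muE h3 (N' * q * q) - 1 := s36t3h_incl_x h3 N' q
  have hxE : Transcendental L (algebraMap ↥(hs_E L h3 (N' * q)) ↥(hs_E L h3 (N' * q * q))
      (hs_muE h3 (N' * q) - 1)) := by
    rw [e]; exact ssm_sgm_transcendental h3 (N' * q * q)
  haveI : FiniteDimensional
      L⟮algebraMap ↥(hs_E L h3 (N' * q)) ↥(hs_E L h3 (N' * q * q)) (hs_muE h3 (N' * q) - 1)⟯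
      ↥(hs_E L h3 (N' * q * q)) := by
    rw [e]; exact ssm_glh_finite h3 (N' * q * q)
  have H := s36t3_hyp (L := L) (RF := ↥(ssm_fh_V1 h3 O h3O hπ N' q))
    (RV := ↥(s36ih_VV h3 O h3O hπ N' q hq3 hqN')) hπ hxE
    (ssm_fh_hyp h3 O h3O hπ N' q hq3 hqN' hprime)
    (fun y => (ssm_gi_mem_range _ y).symm) (fun y => (ssm_gi_mem_range _ y).symm)
    (s36t3h_piF h3 O h3O hπ N' q) rfl
    (s36t3h_piV h3 O h3O hπ N' q hq3 hqN') (s36t3h_piV_irreducible h3 O h3O hπ N' q hq3 hqN') rfl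
    hq.out.two_le T (s36ih_hes_dataB h3 O h3O hπ N' q hq3 hqN')
  rw [e] at H
  exact H

/-- `W₂ x = x₂`. -/
theorem s36t3h_W2_x :
    s36ih_W2 h3 N' q hq3 hqN' (hs_muE h3 (N' * q * q) - 1) = s36ih_x2 h3 N' q hq3 := by
  rw [← s36ih_W2_x2 h3 N' q hq3 hqN']
  exact s36w_h_WE_WE L h3 (ssm_fh_hF9 h3) N' q hq.out hq3 hqN' _

set_option synthInstance.maxHeartbeats 200000 in
/-- **`W₂` fixes `VC`.** -/
theorem s36t3h_comap_W2
    (hprime : Prime (algebraMap ↥O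
      (fc_chart ↥O ({hs_muE h3 N' - 1} : Set ↥(hs_E L h3 N'))) π))
    (T : s36t3h_Third h3 O h3O hπ N' q hq3 VC) :
    VC.comap (s36ih_W2 h3 N' q hq3 hqN' :
      ↥(hs_E L h3 (N' * q * q)) →+* ↥(hs_E L h3 (N' * q * q))) = VC := by
  haveI := ssm_go_isScalarTower O (hs_E L h3 (N' * q * q))
  refine s36t3_comap_W_eq (L := L) (ssm_sgm_transcendental h3 (N' * q * q))
    (s36t3h_hyp h3 O h3O hπ N' q hq3 hqN' hprime T) (s36ih_W2 h3 N' q hq3 hqN')
    (s36w_h_WE_WE L h3 (ssm_fh_hF9 h3) N' q hq.out hq3 hqN')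
    (s36cph_W2_algebraMap h3 O N' q hq3 hqN') rfl ?_
  rw [s36t3h_W2_x]
  exact s36t3h_z_mem h3 O h3O hπ N' q hq3 T

/-- **`VC ∩ E₀` is the Gauss ring of `E₀`** (`hVC` of `s36cph_hes_smoothC` VERBATIM). -/
theorem s36t3h_VC_iff (T : s36t3h_Third h3 O h3O hπ N' q hq3 VC) (z : ↥(hs_E L h3 N')) :
    IntermediateField.inclusion (s36cph_E_le2 h3 N' q) z ∈ VC ↔
      z ∈ gq_valSubOf π hπ.ne_zero hπ.maximalIdeal_eq (hs_E L h3 N')
        ((s36cph_E_le2 h3 N' q).trans (hsa_E_le_quotField h3 O (N' * q * q) h3O)) :=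
  (s36t3h_gen_mem_iff (ssm_alh_E_le L h3 (ssm_fh_hF9 h3) N' q)
    (ssm_alh_E_le L h3 (ssm_fh_hF9 h3) (N' * q) q) (ssm_fh_V1 h3 O h3O hπ N' q) VC
    (s36t3h_overC h3 O h3O hπ N' q hq3 T) z).trans
    (ssm_ga_valSubOf_mono π hπ.ne_zero hπ.maximalIdeal_eq (hs_E L h3 (N' * q))
      (hsa_E_le_quotField h3 O (N' * q) h3O) (hs_E L h3 N')
      (ssm_alh_E_le L h3 (ssm_fh_hF9 h3) N' q) z).symm

include hqN' in
set_option synthInstance.maxHeartbeats 200000 in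
set_option maxHeartbeats 800000 in
/-- **`κ(VC) = κ(Gauss E₀)`** (`hresC` of `s36cph_hes_smoothC` VERBATIM). -/
theorem s36t3h_resC (T : s36t3h_Third h3 O h3O hπ N' q hq3 VC) :
    ∀ a ∈ VC,
      ∃ r : ↥(gq_valSubOf π hπ.ne_zero hπ.maximalIdeal_eq (hs_E L h3 N')
          ((s36cph_E_le2 h3 N' q).trans (hsa_E_le_quotField h3 O (N' * q * q) h3O))),
        a - IntermediateField.inclusion (s36cph_E_le2 h3 N' q) (r : ↥(hs_E L h3 N')) ∈
          VC.nonunits := by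
  intro a ha
  obtain ⟨y, hy⟩ := s36t3h_resC_mid h3 O h3O hπ N' q hq3 T a ha
  letI a01 := ssm_gi_algebra (ssm_alh_E_le L h3 (ssm_fh_hF9 h3) N' q)
  letI aV01 := ssm_gi_algebraV (ssm_alh_E_le L h3 (ssm_fh_hF9 h3) N' q)
    (gq_valSubOf π hπ.ne_zero hπ.maximalIdeal_eq (hs_E L h3 N')
      ((ssm_alh_E_le L h3 (ssm_fh_hF9 h3) N' q).trans (hsa_E_le_quotField h3 O (N' * q) h3O)))
  haveI t01 := ssm_gi_isScalarTower (ssm_alh_E_le L h3 (ssm_fh_hF9 h3) N' q)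
    (gq_valSubOf π hπ.ne_zero hπ.maximalIdeal_eq (hs_E L h3 N')
      ((ssm_alh_E_le L h3 (ssm_fh_hF9 h3) N' q).trans (hsa_E_le_quotField h3 O (N' * q) h3O)))
  have D01 := ssm_fh_data h3 O h3O hπ N' q hq3 hqN'
  haveI : FiniteDimensional ↥(hs_E L h3 N') ↥(hs_E L h3 (N' * q)) :=
    ssm_gi_finiteDimensional D01.finrank_eq
  haveI : Algebra.IsSeparable ↥(hs_E L h3 N') ↥(hs_E L h3 (N' * q)) := ssm_gi_isSeparable
  exact s36t3h_gen_res (ssm_alh_E_le L h3 (ssm_fh_hF9 h3) N' q)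
    (ssm_alh_E_le L h3 (ssm_fh_hF9 h3) (N' * q) q)
    (gq_valSubOf π hπ.ne_zero hπ.maximalIdeal_eq (hs_E L h3 N')
      ((ssm_alh_E_le L h3 (ssm_fh_hF9 h3) N' q).trans (hsa_E_le_quotField h3 O (N' * q) h3O)))
    (ssm_fh_V1 h3 O h3O hπ N' q) VC (s36t3h_overC h3 O h3O hπ N' q hq3 T)
    (fun y hy => ssm_tw_res1 D01 y hy) a y hy

end ThreeHes

end Fermat.Agent.S36
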