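/-
Project S36 (Carayol), cell [M2], layer [L4], HESSE: (C-H) CLOSED (helper12, Hesse coordinator).
Prefix `s36mhf_`.

The last leaf (TRI-H) is a closed term: helper22's `s36tph_ptTri` (`Tri/PtTriHes.lean`).

* `s36mhf_leaves4`    : `s36mhf_Leaves4 N' q hq3 hqN'` for every prime `q ∤ 3 N'`;
* `s36mhf_coreNF_two` : **`s36h_CoreNF N' 2 s36_not_three_dvd_two` for every odd `N'`** = the input
  (C-H) `hCoreHes` of `s36_result_of_cores_two` (`S36/FinalTwo.lean`).
-/
import Mathlib
import Fermat.Agent.S36.Model.AsmHesFinalT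
import Fermat.Agent.S36.Tri.PtTriHes

set_option autoImplicit false
set_option linter.unusedSectionVars false
set_option linter.unusedVariables false
set_option linter.style.haveILetI false
set_option maxHeartbeats 1000000

noncomputable section

open ModularCurve AlgebraicCurve IntermediateField IsLocalRing
open Fermat.Agent.JT3 Fermat.Agent.SS Fermat.Agent.S35

namespace Fermat.Agent.S36

section NF

variable (N' q : ℕ) [NeZero N'] [NeZero q] [hq : Fact q.Prime] (hq3 : ¬ 3 ∣ q) (hqN' : ¬ q ∣ N')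

set_option synthInstance.maxHeartbeats 200000 in
set_option maxHeartbeats 1600000 in
/-- (TRI-H), helper22: the two-component clause on the chart `B_x`, closed. -/
theorem s36mhf_leaves4 : s36mhf_Leaves4 N' q hq3 hqN' := by
  intro L _ _ _ h3 O _ h3O _ hπ ζ hζ VC T
  have hprime := (s36cph_nf_pkg L h3 O N' q hq3 hqN' hπ ζ hζ).1
  obtain ⟨hWB1, hWB2, -⟩ := s36t3h_W_charts h3 O h3O hπ N' q hq3 hqN' hprime T
  intro 𝔫 h𝔫 _ htwo
  exact s36tph_ptTri L h3 O h3O N' q hq3 hqN' hπ ζ hζ T hWB1 hWB2 𝔫 h𝔫 htwo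

end NF

section Two

/-- **(C-H): the Hesse core at `q = 2`**, for every odd `N'`. -/
theorem s36mhf_coreNF_two (N' : ℕ) [NeZero N'] (h2N' : ¬ 2 ∣ N') :
    s36h_CoreNF N' 2 s36_not_three_dvd_two :=
  haveI : Fact (Nat.Prime 2) := ⟨Nat.prime_two⟩
  s36mhf_coreNF_two_of4 N' h2N' (s36mhf_leaves4 N' 2 s36_not_three_dvd_two h2N')

end Two

end Fermat.Agent.S36
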