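/-
Project S36 (Carayol), cell [M2], layer [L4], THE POINT DISPATCH, ABSTRACT FORM (helper12; written
for the Hesse assembly at `q = 2`, tower independent).  Prefix `s36dh_`.

Context of helper3's `s36g_glue`: `O` a discrete valuation subring of `L` with uniformiser `π`,
`F0 / L(x)` a function field, `VA VB VC` the three vertical valuations
(`H : s36tp_Hyp (π in O[x]) ![VA, VB, VC] e`), `P_i = 𝔪(V_i) ∩ B` on the two charts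
`B = fc_chart O {x}`, `fc_chart O {x⁻¹}`.

* `s36dh_pts` : the clause `hpts` of `s36g_glue` from: the points on `A` only and on `B` only are
  ONE-BRANCH points, the points on `C` only are ONE-BRANCH or WEAK points, the points on two of the
  three components are TRIPLE points;
* `s36dh_inf` : the clause `hinf` of `s36g_glue` (points at infinity, `x⁻¹ ∈ 𝔫`) from the same three
  one-component clauses on the chart `x⁻¹` and helper29's `s36ig_Facts` (no two components meet at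
  infinity: `s36ig_noCusp_inf`).
-/
import Mathlib
import Fermat.Agent.S36.Glue.Main
import Fermat.Agent.S36.Model.Integral2
import Fermat.Agent.S36.Model.Primes3Inst

set_option autoImplicit false
set_option linter.unusedSectionVars false
set_option linter.unusedVariables false
set_option linter.style.haveILetI false

namespace Fermat.Agent.S36

open Fermat.Agent.SS Fermat.Agent.JT3 Fermat.Agent.S35 AlgebraicCurve IntermediateField Polynomial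

universe v

section Dispatch

variable {L : Type*} [Field L] [CharZero L] {F0 : Type v} [Field F0] [Algebra L F0]

set_option synthInstance.maxHeartbeats 200000 in
set_option maxHeartbeats 800000 in
/-- **the point dispatch on the chart `x`**: the clause `hpts` of `s36g_glue`. -/
theorem s36dh_pts (O : ValuationSubring L) [IsDiscreteValuationRing ↥O] [Algebra ↥O F0]
    [IsScalarTower ↥O L F0] {π : ↥O} (hπ : Irreducible π) {x : F0} (hx : Transcendental L x)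
    [FiniteDimensional L⟮x⟯ F0] [IsFractionRing ↥(fc_chart ↥O ({x} : Set F0)) F0]
    {q : ℕ} {VA VB VC : ValuationSubring F0} {e : Fin 3 → ℕ}
    (H : s36tp_Hyp (algebraMap ↥O (Algebra.adjoin ↥O ({x} : Set F0)) π) ![VA, VB, VC] e)
    {N1 N2 : F0 →* F0} {K1 K2 : Subfield F0} (p D1 : ℕ)
    (hA : ∀ (𝔫 : Ideal (fc_chart ↥O ({x} : Set F0))) (h𝔫 : 𝔫.IsMaximal),
      algebraMap ↥O (fc_chart ↥O ({x} : Set F0)) π ∈ 𝔫 →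
      ¬ ssm_tp_P (fc_chart ↥O ({x} : Set F0)) VB ≤ 𝔫 →
      ¬ ssm_tp_P (fc_chart ↥O ({x} : Set F0)) VC ≤ 𝔫 →
      (haveI := h𝔫.isPrime
       s36g_PtOne π q (fc_chart ↥O ({x} : Set F0)) 𝔫))
    (hB : ∀ (𝔫 : Ideal (fc_chart ↥O ({x} : Set F0))) (h𝔫 : 𝔫.IsMaximal),
      algebraMap ↥O (fc_chart ↥O ({x} : Set F0)) π ∈ 𝔫 →
      ¬ ssm_tp_P (fc_chart ↥O ({x} : Set F0)) VA ≤ 𝔫 →
      ¬ ssm_tp_P (fc_chart ↥O ({x} : Set F0)) VC ≤ 𝔫 →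
      (haveI := h𝔫.isPrime
       s36g_PtOne π q (fc_chart ↥O ({x} : Set F0)) 𝔫))
    (hC : ∀ (𝔫 : Ideal (fc_chart ↥O ({x} : Set F0))) (h𝔫 : 𝔫.IsMaximal),
      algebraMap ↥O (fc_chart ↥O ({x} : Set F0)) π ∈ 𝔫 →
      ¬ ssm_tp_P (fc_chart ↥O ({x} : Set F0)) VA ≤ 𝔫 →
      ¬ ssm_tp_P (fc_chart ↥O ({x} : Set F0)) VB ≤ 𝔫 →
      (haveI := h𝔫.isPrime
       s36g_PtOne π q (fc_chart ↥O ({x} : Set F0)) 𝔫 ∨
       s36g_PtWeak π q D1 (fc_chart ↥O ({x} : Set F0)) 𝔫))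
    (htri : ∀ (𝔫 : Ideal (fc_chart ↥O ({x} : Set F0))) (h𝔫 : 𝔫.IsMaximal),
      algebraMap ↥O (fc_chart ↥O ({x} : Set F0)) π ∈ 𝔫 →
      ((ssm_tp_P (fc_chart ↥O ({x} : Set F0)) VA ≤ 𝔫 ∧
          ssm_tp_P (fc_chart ↥O ({x} : Set F0)) VB ≤ 𝔫) ∨
        (ssm_tp_P (fc_chart ↥O ({x} : Set F0)) VA ≤ 𝔫 ∧
          ssm_tp_P (fc_chart ↥O ({x} : Set F0)) VC ≤ 𝔫) ∨
        (ssm_tp_P (fc_chart ↥O ({x} : Set F0)) VB ≤ 𝔫 ∧
          ssm_tp_P (fc_chart ↥O ({x} : Set F0)) VC ≤ 𝔫)) →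
      (haveI := h𝔫.isPrime
       s36g_PtTri π p N1 N2 K1 K2 (fc_chart ↥O ({x} : Set F0))
        (ssm_tp_P (fc_chart ↥O ({x} : Set F0)) VA) (ssm_tp_P (fc_chart ↥O ({x} : Set F0)) VB)
        (ssm_tp_P (fc_chart ↥O ({x} : Set F0)) VC) 𝔫)) :
    ∀ (𝔫 : Ideal (fc_chart ↥O ({x} : Set F0))) (h𝔫 : 𝔫.IsMaximal),
      algebraMap ↥O (fc_chart ↥O ({x} : Set F0)) π ∈ 𝔫 →
      (haveI := h𝔫.isPrime
       s36g_PtOne π q (fc_chart ↥O ({x} : Set F0)) 𝔫 ∨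
       s36g_PtWeak π q D1 (fc_chart ↥O ({x} : Set F0)) 𝔫 ∨
       s36g_PtTri π p N1 N2 K1 K2 (fc_chart ↥O ({x} : Set F0))
        (ssm_tp_P (fc_chart ↥O ({x} : Set F0)) VA) (ssm_tp_P (fc_chart ↥O ({x} : Set F0)) VB)
        (ssm_tp_P (fc_chart ↥O ({x} : Set F0)) VC) 𝔫) := by
  intro 𝔫 h𝔫 hπ𝔫
  haveI := h𝔫.isPrime
  have hxA : Transcendental ↥O x := fc_ff_transcendental (L := L) hx
  haveI : IsIntegrallyClosed (Algebra.adjoin ↥O ({x} : Set F0)) := fc_ff_isIntegrallyClosed hxA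
  haveI : FaithfulSMul (Algebra.adjoin ↥O ({x} : Set F0)) F0 :=
    (faithfulSMul_iff_algebraMap_injective _ _).2 Subtype.val_injective
  have hCh : ssm_tp_Chart (algebraMap ↥O (Algebra.adjoin ↥O ({x} : Set F0)) π)
      (fc_chart ↥O ({x} : Set F0)) := ssm_tp_ff_chart (L := L) hπ hx
  have hvert := s36tp_three_P_le_of_mem H hCh (algebraMap ↥O (fc_chart ↥O ({x} : Set F0)) π) rfl
    𝔫 hπ𝔫
  by_cases h2 : (ssm_tp_P (fc_chart ↥O ({x} : Set F0)) VA ≤ 𝔫 ∧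
        ssm_tp_P (fc_chart ↥O ({x} : Set F0)) VB ≤ 𝔫) ∨
      (ssm_tp_P (fc_chart ↥O ({x} : Set F0)) VA ≤ 𝔫 ∧
        ssm_tp_P (fc_chart ↥O ({x} : Set F0)) VC ≤ 𝔫) ∨
      (ssm_tp_P (fc_chart ↥O ({x} : Set F0)) VB ≤ 𝔫 ∧
        ssm_tp_P (fc_chart ↥O ({x} : Set F0)) VC ≤ 𝔫)
  · exact Or.inr (Or.inr (htri 𝔫 h𝔫 hπ𝔫 h2))
  · rcases hvert with h | h | h
    · exact Or.inl (hA 𝔫 h𝔫 hπ𝔫 (fun hb => h2 (Or.inl ⟨h, hb⟩))
        (fun hc => h2 (Or.inr (Or.inl ⟨h, hc⟩))))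
    · exact Or.inl (hB 𝔫 h𝔫 hπ𝔫 (fun ha => h2 (Or.inl ⟨ha, h⟩))
        (fun hc => h2 (Or.inr (Or.inr ⟨h, hc⟩))))
    · rcases hC 𝔫 h𝔫 hπ𝔫 (fun ha => h2 (Or.inr (Or.inl ⟨ha, h⟩)))
        (fun hb => h2 (Or.inr (Or.inr ⟨hb, h⟩))) with h1 | h1
      · exact Or.inl h1
      · exact Or.inr (Or.inl h1)

set_option synthInstance.maxHeartbeats 200000 in
set_option maxHeartbeats 800000 in
/-- **the point dispatch at infinity** (chart `x⁻¹`, points with `x⁻¹ ∈ 𝔫`): the clause `hinf` of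
`s36g_glue`; no two components meet there (`s36ig_noCusp_inf`). -/
theorem s36dh_inf (O : ValuationSubring L) [IsDiscreteValuationRing ↥O] [Algebra ↥O F0]
    [IsScalarTower ↥O L F0] {π : ↥O} (hπ : Irreducible π) {x : F0} (hx : Transcendental L x)
    [FiniteDimensional L⟮x⟯ F0] [IsFractionRing ↥(fc_chart ↥O ({x⁻¹} : Set F0)) F0]
    {q : ℕ} [hq : Fact q.Prime] {VA VB VC : ValuationSubring F0} {e : Fin 3 → ℕ}
    (H : s36tp_Hyp (algebraMap ↥O (Algebra.adjoin ↥O ({x} : Set F0)) π) ![VA, VB, VC] e)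
    {x1 x2 : F0} {c : ℤ[X]} (F : s36ig_Facts ↥O q x x1 x2 c VA VB VC)
    {N1 N2 : F0 →* F0} {K1 K2 : Subfield F0} (p D1 : ℕ)
    (hA : ∀ (𝔫 : Ideal (fc_chart ↥O ({x⁻¹} : Set F0))) (h𝔫 : 𝔫.IsMaximal),
      algebraMap ↥O (fc_chart ↥O ({x⁻¹} : Set F0)) π ∈ 𝔫 →
      ¬ ssm_tp_P (fc_chart ↥O ({x⁻¹} : Set F0)) VB ≤ 𝔫 →
      ¬ ssm_tp_P (fc_chart ↥O ({x⁻¹} : Set F0)) VC ≤ 𝔫 →
      (haveI := h𝔫.isPrime
       s36g_PtOne π q (fc_chart ↥O ({x⁻¹} : Set F0)) 𝔫))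
    (hB : ∀ (𝔫 : Ideal (fc_chart ↥O ({x⁻¹} : Set F0))) (h𝔫 : 𝔫.IsMaximal),
      algebraMap ↥O (fc_chart ↥O ({x⁻¹} : Set F0)) π ∈ 𝔫 →
      ¬ ssm_tp_P (fc_chart ↥O ({x⁻¹} : Set F0)) VA ≤ 𝔫 →
      ¬ ssm_tp_P (fc_chart ↥O ({x⁻¹} : Set F0)) VC ≤ 𝔫 →
      (haveI := h𝔫.isPrime
       s36g_PtOne π q (fc_chart ↥O ({x⁻¹} : Set F0)) 𝔫))
    (hC : ∀ (𝔫 : Ideal (fc_chart ↥O ({x⁻¹} : Set F0))) (h𝔫 : 𝔫.IsMaximal),
      algebraMap ↥O (fc_chart ↥O ({x⁻¹} : Set F0)) π ∈ 𝔫 →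
      ¬ ssm_tp_P (fc_chart ↥O ({x⁻¹} : Set F0)) VA ≤ 𝔫 →
      ¬ ssm_tp_P (fc_chart ↥O ({x⁻¹} : Set F0)) VB ≤ 𝔫 →
      (haveI := h𝔫.isPrime
       s36g_PtOne π q (fc_chart ↥O ({x⁻¹} : Set F0)) 𝔫 ∨
       s36g_PtWeak π q D1 (fc_chart ↥O ({x⁻¹} : Set F0)) 𝔫)) :
    ∀ (𝔫 : Ideal (fc_chart ↥O ({x⁻¹} : Set F0))) (h𝔫 : 𝔫.IsMaximal),
      algebraMap ↥O (fc_chart ↥O ({x⁻¹} : Set F0)) π ∈ 𝔫 →
      (⟨x⁻¹, fc_x_mem_chart x⁻¹⟩ : fc_chart ↥O ({x⁻¹} : Set F0)) ∈ 𝔫 →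
      (haveI := h𝔫.isPrime
       s36g_PtOne π q (fc_chart ↥O ({x⁻¹} : Set F0)) 𝔫 ∨
       s36g_PtWeak π q D1 (fc_chart ↥O ({x⁻¹} : Set F0)) 𝔫 ∨
       s36g_PtTri π p N1 N2 K1 K2 (fc_chart ↥O ({x⁻¹} : Set F0))
        (ssm_tp_P (fc_chart ↥O ({x⁻¹} : Set F0)) VA) (ssm_tp_P (fc_chart ↥O ({x⁻¹} : Set F0)) VB)
        (ssm_tp_P (fc_chart ↥O ({x⁻¹} : Set F0)) VC) 𝔫) := by
  intro 𝔫 h𝔫 hπ𝔫 hx𝔫
  haveI := h𝔫.isPrime
  have hxi : Transcendental L x⁻¹ := fun h => hx (IsAlgebraic.inv_iff.mp h)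
  have hxiA : Transcendental ↥O x⁻¹ := fc_ff_transcendental (L := L) hxi
  haveI : FiniteDimensional L⟮x⁻¹⟯ F0 := by
    rw [rt_adjoin_inv]; infer_instance
  haveI : IsIntegrallyClosed (Algebra.adjoin ↥O ({x⁻¹} : Set F0)) :=
    fc_ff_isIntegrallyClosed hxiA
  haveI : FaithfulSMul (Algebra.adjoin ↥O ({x⁻¹} : Set F0)) F0 :=
    (faithfulSMul_iff_algebraMap_injective _ _).2 Subtype.val_injective
  have H' := s36tp_ff_hyp_inv (L := L) hπ hx H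
  have hCh : ssm_tp_Chart (algebraMap ↥O (Algebra.adjoin ↥O ({x⁻¹} : Set F0)) π)
      (fc_chart ↥O ({x⁻¹} : Set F0)) := ssm_tp_ff_chart (L := L) hπ hxi
  have hvert := s36tp_three_P_le_of_mem H' hCh
    (algebraMap ↥O (fc_chart ↥O ({x⁻¹} : Set F0)) π) rfl 𝔫 hπ𝔫
  have h2 : ¬ ((ssm_tp_P (fc_chart ↥O ({x⁻¹} : Set F0)) VA ≤ 𝔫 ∧
        ssm_tp_P (fc_chart ↥O ({x⁻¹} : Set F0)) VB ≤ 𝔫) ∨
      (ssm_tp_P (fc_chart ↥O ({x⁻¹} : Set F0)) VA ≤ 𝔫 ∧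
        ssm_tp_P (fc_chart ↥O ({x⁻¹} : Set F0)) VC ≤ 𝔫) ∨
      (ssm_tp_P (fc_chart ↥O ({x⁻¹} : Set F0)) VB ≤ 𝔫 ∧
        ssm_tp_P (fc_chart ↥O ({x⁻¹} : Set F0)) VC ≤ 𝔫)) := fun h2 =>
    s36ig_noCusp_inf F (fc_chart ↥O ({x⁻¹} : Set F0)) le_rfl
      (fun b hb => H'.chart_le hCh 0 hb) (fun b hb => H'.chart_le hCh 1 hb)
      (fun b hb => H'.chart_le hCh 2 hb) 𝔫 h𝔫.ne_top h2 hx𝔫
  rcases hvert with h | h | h
  · exact Or.inl (hA 𝔫 h𝔫 hπ𝔫 (fun hb => h2 (Or.inl ⟨h, hb⟩))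
      (fun hc => h2 (Or.inr (Or.inl ⟨h, hc⟩))))
  · exact Or.inl (hB 𝔫 h𝔫 hπ𝔫 (fun ha => h2 (Or.inl ⟨ha, h⟩))
      (fun hc => h2 (Or.inr (Or.inr ⟨h, hc⟩))))
  · rcases hC 𝔫 h𝔫 hπ𝔫 (fun ha => h2 (Or.inr (Or.inl ⟨ha, h⟩)))
      (fun hb => h2 (Or.inr (Or.inr ⟨hb, h⟩))) with h1 | h1
    · exact Or.inl h1
    · exact Or.inr (Or.inl h1)

end Dispatch

end Fermat.Agent.S36
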