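/-
Project S36 (Carayol), cell [M2], layer [L4], LEGENDRE, last mile (helper1).  Prefix `s36asm_`.

Three small plugs for the final Legendre fill `s36asm_Leaves3`, all from closed terms on main plus
helper29's integrality package `F : s36ig_Facts ↥O q λ λ₁ λ₂ c VA VB VC` (taken as a HYPOTHESIS here,
so that the final file only has to name the closed term):

* `s36asm_hyp_of_third` : (H) `s36asm_Third … VC → s36tp_Hyp … ![VA, VB, VC] ![1, 1, q - 1]`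
  (helper29's `s36t3_leg_hyp_of`; the two spellings of `z = λ₂ - λ` are crossed by `exact`);
* `s36asm_W_of_facts` : (W) the `W₂`-stability of the two charts `{λ}`, `{λ⁻¹}` from `F` and
  `W₂ λ = λ₂` (`s36ig_W_charts`);
* `s36asm_no_two_inf` / `s36asm_ptsT_of_facts` : the SECOND conjunct of `s36asm_PtsT` (chart `{λ⁻¹}`,
  `λ⁻¹ ∈ 𝔫`, two vertical components through `𝔫`) is VACUOUS (`s36ig_noCusp_inf`: no two components
  meet at infinity), so `s36asm_PtsT` follows from its FIRST conjunct (chart `{λ}`) alone.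
-/
import Mathlib
import Fermat.Agent.S36.Model.AsmLegFinal
import Fermat.Agent.S36.Model.ThreeLeg
import Fermat.Agent.S36.Model.DispatchAbs

set_option autoImplicit false
set_option linter.unusedSectionVars false
set_option linter.unusedVariables false
set_option linter.style.haveILetI false
set_option maxHeartbeats 1000000

noncomputable section

open ModularCurve AlgebraicCurve IntermediateField IsLocalRing Polynomial
open Fermat.Agent.JT3 Fermat.Agent.SS Fermat.Agent.S35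

namespace Fermat.Agent.S36

universe v

section Gen

variable {L : Type*} [Field L] [CharZero L] {F0 : Type v} [Field F0] [Algebra L F0]

set_option synthInstance.maxHeartbeats 200000 in
/-- **no two vertical components meet at infinity** (generic form, extracted from helper12's
`s36dh_inf`): on the chart `{x⁻¹}`, a maximal ideal containing `x⁻¹` does not contain two of the
three vertical primes. -/
theorem s36asm_no_two_inf_gen (O : ValuationSubring L) [IsDiscreteValuationRing ↥O] [Algebra ↥O F0]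
    [IsScalarTower ↥O L F0] {π : ↥O} (hπ : Irreducible π) {x : F0} (hx : Transcendental L x)
    [FiniteDimensional L⟮x⟯ F0]
    {q : ℕ} [hq : Fact q.Prime] {VA VB VC : ValuationSubring F0} {e : Fin 3 → ℕ}
    (H : s36tp_Hyp (algebraMap ↥O (Algebra.adjoin ↥O ({x} : Set F0)) π) ![VA, VB, VC] e)
    {x1 x2 : F0} {c : ℤ[X]} (F : s36ig_Facts ↥O q x x1 x2 c VA VB VC)
    (𝔫 : Ideal (fc_chart ↥O ({x⁻¹} : Set F0))) (h𝔫 : 𝔫 ≠ ⊤)
    (hx𝔫 : (⟨x⁻¹, fc_x_mem_chart x⁻¹⟩ : fc_chart ↥O ({x⁻¹} : Set F0)) ∈ 𝔫) :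
    ¬ ((ssm_tp_P (fc_chart ↥O ({x⁻¹} : Set F0)) VA ≤ 𝔫 ∧
        ssm_tp_P (fc_chart ↥O ({x⁻¹} : Set F0)) VB ≤ 𝔫) ∨
      (ssm_tp_P (fc_chart ↥O ({x⁻¹} : Set F0)) VA ≤ 𝔫 ∧
        ssm_tp_P (fc_chart ↥O ({x⁻¹} : Set F0)) VC ≤ 𝔫) ∨
      (ssm_tp_P (fc_chart ↥O ({x⁻¹} : Set F0)) VB ≤ 𝔫 ∧
        ssm_tp_P (fc_chart ↥O ({x⁻¹} : Set F0)) VC ≤ 𝔫)) := by
  have hxi : Transcendental L x⁻¹ := fun h => hx (IsAlgebraic.inv_iff.mp h)
  have hxiA : Transcendental ↥O x⁻¹ := fc_ff_transcendental (L := L) hxi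
  haveI : FiniteDimensional L⟮x⁻¹⟯ F0 := by
    rw [rt_adjoin_inv]; infer_instance
  haveI : IsIntegrallyClosed (Algebra.adjoin ↥O ({x⁻¹} : Set F0)) :=
    fc_ff_isIntegrallyClosed hxiA
  haveI : FaithfulSMul (Algebra.adjoin ↥O ({x⁻¹} : Set F0)) F0 :=
    (faithfulSMul_iff_algebraMap_injective _ _).2 Subtype.val_injective
  have H' := s36tp_ff_hyp_inv (L := L) hπ hx H
  have hCh : ssm_tp_Chart (algebraMap ↥O (Algebra.adjoin ↥O ({x⁻¹} : Set F0)) π)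
      (fc_chart ↥O ({x⁻¹} : Set F0)) := ssm_tp_ff_chart (L := L) hπ hxi
  exact fun h2 =>
    s36ig_noCusp_inf F (fc_chart ↥O ({x⁻¹} : Set F0)) le_rfl
      (fun b hb => H'.chart_le hCh 0 hb) (fun b hb => H'.chart_le hCh 1 hb)
      (fun b hb => H'.chart_le hCh 2 hb) 𝔫 h𝔫 h2 hx𝔫

end Gen

section Legendre

variable {L : Type*} [Field L] [CharZero L] [Algebra L (AlgebraicClosure ℚ)]
  (O : ValuationSubring L) [IsDiscreteValuationRing O] {π : O} (hπ : Irreducible π)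
variable (N' q : ℕ) [NeZero N'] [NeZero q] [hq : Fact q.Prime] [CharP (ResidueField O) q]
  (hq2 : ¬ 2 ∣ q) (hqN' : ¬ q ∣ N')

/-- **(H)**, helper29: [TP3] with `e = ![1, 1, q - 1]` from the third-valuation package. -/
theorem s36asm_hyp_of_third
    (hprime : Prime (algebraMap ↥O (fc_chart ↥O ({lg_lamE N'} : Set ↥(lg_E L N'))) π))
    {VC : ValuationSubring ↥(lg_E L (N' * q * q))} (T3 : s36asm_Third O hπ N' q hq2 hqN' VC) :
    s36tp_Hyp (algebraMap ↥O (Algebra.adjoin ↥O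
          ({lg_lamE (N' * q * q)} : Set ↥(lg_E L (N' * q * q)))) π)
        ![s36i_VA O hπ (N' * q) q, s36i_VB O hπ N' q hq2 hqN', VC] ![1, 1, q - 1] :=
  s36t3_leg_hyp_of O hπ N' q hq2 hqN' hprime VC T3

set_option synthInstance.maxHeartbeats 200000 in
/-- **(W)**: `W₂` preserves the two charts `{λ}`, `{λ⁻¹}` of `E₂`, from the integrality package. -/
theorem s36asm_W_of_facts {VC : ValuationSubring ↥(lg_E L (N' * q * q))}
    {x1 : ↥(lg_E L (N' * q * q))} {c : ℤ[X]}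
    (F : s36ig_Facts ↥O q (lg_lamE (N' * q * q)) x1 (s36i_lam2 L N' q hq2) c
      (s36i_VA O hπ (N' * q) q) (s36i_VB O hπ N' q hq2 hqN') VC) :
    (∀ b ∈ fc_chart ↥O ({lg_lamE (N' * q * q)} : Set ↥(lg_E L (N' * q * q))),
        s36i_W2 L N' q hq2 hqN' b ∈
          fc_chart ↥O ({lg_lamE (N' * q * q)} : Set ↥(lg_E L (N' * q * q)))) ∧
      (∀ b ∈ fc_chart ↥O ({(lg_lamE (N' * q * q))⁻¹} : Set ↥(lg_E L (N' * q * q))),
        s36i_W2 L N' q hq2 hqN' b ∈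
          fc_chart ↥O ({(lg_lamE (N' * q * q))⁻¹} : Set ↥(lg_E L (N' * q * q)))) := by
  have h := s36ig_W_charts (s36i_W2 L N' q hq2 hqN')
    (fun a => s36cp_W2_algebraMap O N' q hq2 hqN' a) (s36t3_W2_lam N' q hq2 hqN') F
  exact ⟨h.1, h.2.1⟩

set_option synthInstance.maxHeartbeats 200000 in
/-- **no two vertical components meet at infinity**, Legendre tower. -/
theorem s36asm_no_two_inf {VC : ValuationSubring ↥(lg_E L (N' * q * q))} {e : Fin 3 → ℕ}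
    (H : s36tp_Hyp (algebraMap ↥O (Algebra.adjoin ↥O
          ({lg_lamE (N' * q * q)} : Set ↥(lg_E L (N' * q * q)))) π)
        ![s36i_VA O hπ (N' * q) q, s36i_VB O hπ N' q hq2 hqN', VC] e)
    {x1 x2 : ↥(lg_E L (N' * q * q))} {c : ℤ[X]}
    (F : s36ig_Facts ↥O q (lg_lamE (N' * q * q)) x1 x2 c
      (s36i_VA O hπ (N' * q) q) (s36i_VB O hπ N' q hq2 hqN') VC)
    (𝔫 : Ideal (fc_chart ↥O ({(lg_lamE (N' * q * q))⁻¹} : Set ↥(lg_E L (N' * q * q)))))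
    (h𝔫 : 𝔫 ≠ ⊤)
    (hx𝔫 : (⟨(lg_lamE (N' * q * q))⁻¹, fc_x_mem_chart (lg_lamE (N' * q * q))⁻¹⟩ :
      fc_chart ↥O ({(lg_lamE (N' * q * q))⁻¹} : Set ↥(lg_E L (N' * q * q)))) ∈ 𝔫) :
    ¬ ((ssm_tp_P (fc_chart ↥O ({(lg_lamE (N' * q * q))⁻¹} : Set ↥(lg_E L (N' * q * q)))) (s36i_VA O hπ (N' * q) q) ≤ 𝔫 ∧
          ssm_tp_P (fc_chart ↥O ({(lg_lamE (N' * q * q))⁻¹} : Set ↥(lg_E L (N' * q * q)))) (s36i_VB O hπ N' q hq2 hqN') ≤ 𝔫) ∨
        (ssm_tp_P (fc_chart ↥O ({(lg_lamE (N' * q * q))⁻¹} : Set ↥(lg_E L (N' * q * q)))) (s36i_VA O hπ (N' * q) q) ≤ 𝔫 ∧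
          ssm_tp_P (fc_chart ↥O ({(lg_lamE (N' * q * q))⁻¹} : Set ↥(lg_E L (N' * q * q)))) VC ≤ 𝔫) ∨
        (ssm_tp_P (fc_chart ↥O ({(lg_lamE (N' * q * q))⁻¹} : Set ↥(lg_E L (N' * q * q)))) (s36i_VB O hπ N' q hq2 hqN') ≤ 𝔫 ∧
          ssm_tp_P (fc_chart ↥O ({(lg_lamE (N' * q * q))⁻¹} : Set ↥(lg_E L (N' * q * q)))) VC ≤ 𝔫)) := by
  haveI := ssm_go_isScalarTower O (lg_E L (N' * q * q))
  haveI := lgf_finite L (N' * q * q)
  have hx : Transcendental L (lg_lamE (L := L) (N' * q * q)) :=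
    lgf_lam_transcendental L (N' * q * q) two_ne_zero
  exact s36asm_no_two_inf_gen (L := L) O hπ hx H F 𝔫 h𝔫 hx𝔫

/-- **(T) from its first conjunct**: the two-component clause on the chart `{λ⁻¹}` is vacuous. -/
theorem s36asm_ptsT_of_facts {VC : ValuationSubring ↥(lg_E L (N' * q * q))} {e : Fin 3 → ℕ}
    (H : s36tp_Hyp (algebraMap ↥O (Algebra.adjoin ↥O
          ({lg_lamE (N' * q * q)} : Set ↥(lg_E L (N' * q * q)))) π)
        ![s36i_VA O hπ (N' * q) q, s36i_VB O hπ N' q hq2 hqN', VC] e)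
    {x1 x2 : ↥(lg_E L (N' * q * q))} {c : ℤ[X]}
    (F : s36ig_Facts ↥O q (lg_lamE (N' * q * q)) x1 x2 c
      (s36i_VA O hπ (N' * q) q) (s36i_VB O hπ N' q hq2 hqN') VC)
    (hT1 :
      letI := ssm_gi_algebra (ssm_al_E_le L (N' * q) q)
      letI := ssm_gi_algebra (ssm_al_E_beta_le L (N' * q) q hq2)
      ∀ (𝔫 : Ideal (fc_chart ↥O ({lg_lamE (N' * q * q)} : Set ↥(lg_E L (N' * q * q))))) (h𝔫 : 𝔫.IsMaximal),
        algebraMap ↥O (fc_chart ↥O ({lg_lamE (N' * q * q)} : Set ↥(lg_E L (N' * q * q)))) π ∈ 𝔫 →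
        ((ssm_tp_P (fc_chart ↥O ({lg_lamE (N' * q * q)} : Set ↥(lg_E L (N' * q * q)))) (s36i_VA O hπ (N' * q) q) ≤ 𝔫 ∧
              ssm_tp_P (fc_chart ↥O ({lg_lamE (N' * q * q)} : Set ↥(lg_E L (N' * q * q)))) (s36i_VB O hπ N' q hq2 hqN') ≤ 𝔫) ∨
            (ssm_tp_P (fc_chart ↥O ({lg_lamE (N' * q * q)} : Set ↥(lg_E L (N' * q * q)))) (s36i_VA O hπ (N' * q) q) ≤ 𝔫 ∧
              ssm_tp_P (fc_chart ↥O ({lg_lamE (N' * q * q)} : Set ↥(lg_E L (N' * q * q)))) VC ≤ 𝔫) ∨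
            (ssm_tp_P (fc_chart ↥O ({lg_lamE (N' * q * q)} : Set ↥(lg_E L (N' * q * q)))) (s36i_VB O hπ N' q hq2 hqN') ≤ 𝔫 ∧
              ssm_tp_P (fc_chart ↥O ({lg_lamE (N' * q * q)} : Set ↥(lg_E L (N' * q * q)))) VC ≤ 𝔫)) →
        (haveI := s36cp_chart_isFractionRing O (N' * q * q)
         haveI := h𝔫.isPrime
         s36g_PtTri π (q - 1) (s36at_N ↥(lg_E L (N' * q)))
            (s36at_N ↥((lg_E L (N' * q)).map (qExpandAlgHomC L q)))
            (algebraMap ↥(lg_E L (N' * q)) ↥(lg_E L (N' * q * q))).fieldRange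
            (algebraMap ↥((lg_E L (N' * q)).map (qExpandAlgHomC L q))
              ↥(lg_E L (N' * q * q))).fieldRange
            (fc_chart ↥O ({lg_lamE (N' * q * q)} : Set ↥(lg_E L (N' * q * q))))
            (ssm_tp_P (fc_chart ↥O ({lg_lamE (N' * q * q)} : Set ↥(lg_E L (N' * q * q)))) (s36i_VA O hπ (N' * q) q))
            (ssm_tp_P (fc_chart ↥O ({lg_lamE (N' * q * q)} : Set ↥(lg_E L (N' * q * q)))) (s36i_VB O hπ N' q hq2 hqN'))
            (ssm_tp_P (fc_chart ↥O ({lg_lamE (N' * q * q)} : Set ↥(lg_E L (N' * q * q)))) VC) 𝔫)) :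
    s36asm_PtsT O hπ N' q hq2 hqN' VC := by
  refine ⟨hT1, ?_⟩
  intro 𝔫 h𝔫 _ hx𝔫 h2
  exact absurd h2 (s36asm_no_two_inf O hπ N' q hq2 hqN' H F 𝔫 h𝔫.ne_top hx𝔫)

end Legendre

end Fermat.Agent.S36
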