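/-
Project S36 (Carayol), cell [M2], layer [L4], LEGENDRE, THE LAST MILE, second cut (helper1, owner of
the final Legendre fill).  Prefix `s36asm_`.

(H), (W), (F) [helper29's `s36t3_leg_all_of`: [TP3], the `W₂`-stability of the charts, the
integrality package `s36ig_Facts`, all from the third-valuation package] and the vacuity of the
two-component clause at infinity (`s36asm_ptsT_of_facts`) are plugged here.  What is left of
`s36asm_Leaves3` is

* (C)  the C-only points, in helper24's split (`Model/AsmLegPtsCSplit.lean`):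
       `s36asm_cOrd` ([L3b]), `s36asm_cCusp0`, `s36asm_cCusp1`, `s36asm_cCuspInf` ([L3c]);
* (T1) `s36asm_PtsT1` : the two-component clause on the chart `{λ}` ([L3d]),

each for every third valuation `VC` with its package `s36asm_Third`, at `D1 = 1`, `π = q`:
`s36asm_Leaves4`.  `s36asm_coreNF_of4 : s36asm_Leaves4 N' q hq2 hqN' → s36_CoreNF N' q hq2` (= (C-L)).
-/
import Mathlib
import Fermat.Agent.S36.Model.AsmLegInf
import Fermat.Agent.S36.Model.ThreeLegB
import Fermat.Agent.S36.Model.AsmLegPtsCSplit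

set_option autoImplicit false
set_option linter.unusedSectionVars false
set_option linter.unusedVariables false
set_option linter.style.haveILetI false
set_option maxHeartbeats 1000000

noncomputable section

open ModularCurve AlgebraicCurve IntermediateField IsLocalRing Polynomial
open Fermat.Agent.JT3 Fermat.Agent.SS Fermat.Agent.S35

namespace Fermat.Agent.S36

section Legendre

variable {L : Type*} [Field L] [CharZero L] [Algebra L (AlgebraicClosure ℚ)]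
  (O : ValuationSubring L) [IsDiscreteValuationRing O] {π : O} (hπ : Irreducible π)
variable (N' q : ℕ) [NeZero N'] [NeZero q] [hq : Fact q.Prime] [CharP (ResidueField O) q]
  (hq2 : ¬ 2 ∣ q) (hqN' : ¬ q ∣ N')

/-- **(T1), the two-component clause on the chart `{λ}`** ([L3d]) = the FIRST conjunct of
`s36asm_PtsT` = `hT1` of helper24's `s36gd_asm_pts`, VERBATIM. -/
def s36asm_PtsT1 (VC : ValuationSubring ↥(lg_E L (N' * q * q))) : Prop :=
  letI := ssm_gi_algebra (ssm_al_E_le L (N' * q) q)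
  letI := ssm_gi_algebra (ssm_al_E_beta_le L (N' * q) q hq2)
  ∀ (𝔫 : Ideal (fc_chart ↥O ({lg_lamE (N' * q * q)} : Set ↥(lg_E L (N' * q * q))))) (h𝔫 : 𝔫.IsMaximal),
    algebraMap ↥O (fc_chart ↥O ({lg_lamE (N' * q * q)} : Set ↥(lg_E L (N' * q * q)))) π ∈ 𝔫 →
    ((ssm_tp_P (fc_chart ↥O ({lg_lamE (N' * q * q)} : Set ↥(lg_E L (N' * q * q)))) (s36i_VA O hπ (N' * q) q) ≤ 𝔫 ∧
          ssm_tp_P (fc_chart ↥O ({lg_lamE (N' * q * q)} : Set ↥(lg_E L (N' * q * q)))) (s36i_VB O hπ N' q hq2 hqN') ≤ 𝔫) ∨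
        (ssm_tp_P (fc_chart ↥O ({lg_lamE (N' * q * q)} : Set ↥(lg_E L (N' * q * q)))) (s36i_VA O hπ (N' * q) q) ≤ 𝔫 ∧
          ssm_tp_P (fc_chart ↥O ({lg_lamE (N' * q * q)} : Set ↥(lg_E L (N' * q * q)))) VC ≤ 𝔫) ∨
        (ssm_tp_P (fc_chart ↥O ({lg_lamE (N' * q * q)} : Set ↥(lg_E L (N' * q * q)))) (s36i_VB O hπ N' q hq2 hqN') ≤ 𝔫 ∧
          ssm_tp_P (fc_chart ↥O ({lg_lamE (N' * q * q)} : Set ↥(lg_E L (N' * q * q)))) VC ≤ 𝔫)) →
    (haveI := s36cp_chart_isFractionRing O (N' * q * q)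
     haveI := h𝔫.isPrime
     s36g_PtTri π (q - 1) (s36at_N ↥(lg_E L (N' * q)))
        (s36at_N ↥((lg_E L (N' * q)).map (qExpandAlgHomC L q)))
        (algebraMap ↥(lg_E L (N' * q)) ↥(lg_E L (N' * q * q))).fieldRange
        (algebraMap ↥((lg_E L (N' * q)).map (qExpandAlgHomC L q))
          ↥(lg_E L (N' * q * q))).fieldRange
        (fc_chart ↥O ({lg_lamE (N' * q * q)} : Set ↥(lg_E L (N' * q * q))))
        (ssm_tp_P (fc_chart ↥O ({lg_lamE (N' * q * q)} : Set ↥(lg_E L (N' * q * q)))) (s36i_VA O hπ (N' * q) q))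
        (ssm_tp_P (fc_chart ↥O ({lg_lamE (N' * q * q)} : Set ↥(lg_E L (N' * q * q)))) (s36i_VB O hπ N' q hq2 hqN'))
        (ssm_tp_P (fc_chart ↥O ({lg_lamE (N' * q * q)} : Set ↥(lg_E L (N' * q * q)))) VC) 𝔫)

include hqN' in
set_option synthInstance.maxHeartbeats 200000 in
/-- **everything but (C) and (T1) from the third-valuation package** (helper29's
`s36t3_leg_all_of` in the `s36asm_Third` spelling): (W) ∧ (H) ∧ ((T1) → (T)). -/
theorem s36asm_all_of_third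
    (hprime : Prime (algebraMap ↥O (fc_chart ↥O ({lg_lamE N'} : Set ↥(lg_E L N'))) π))
    {VC : ValuationSubring ↥(lg_E L (N' * q * q))} (T3 : s36asm_Third O hπ N' q hq2 hqN' VC) :
    ((∀ b ∈ fc_chart ↥O ({lg_lamE (N' * q * q)} : Set ↥(lg_E L (N' * q * q))),
        s36i_W2 L N' q hq2 hqN' b ∈
          fc_chart ↥O ({lg_lamE (N' * q * q)} : Set ↥(lg_E L (N' * q * q)))) ∧
      (∀ b ∈ fc_chart ↥O ({(lg_lamE (N' * q * q))⁻¹} : Set ↥(lg_E L (N' * q * q))),
        s36i_W2 L N' q hq2 hqN' b ∈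
          fc_chart ↥O ({(lg_lamE (N' * q * q))⁻¹} : Set ↥(lg_E L (N' * q * q))))) ∧
    s36tp_Hyp (algebraMap ↥O (Algebra.adjoin ↥O
          ({lg_lamE (N' * q * q)} : Set ↥(lg_E L (N' * q * q)))) π)
        ![s36i_VA O hπ (N' * q) q, s36i_VB O hπ N' q hq2 hqN', VC] ![1, 1, q - 1] ∧
    (s36asm_PtsT1 O hπ N' q hq2 hqN' VC → s36asm_PtsT O hπ N' q hq2 hqN' VC) := by
  have T := s36t3_leg_third_conv O hπ N' q hq2 hqN' T3
  obtain ⟨H, -, F, -, hW1, hW2⟩ := s36t3_leg_all_of O hπ N' q hq2 hqN' hprime T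
  exact ⟨⟨hW1, hW2⟩, H, fun hT1 => s36asm_ptsT_of_facts O hπ N' q hq2 hqN' H F hT1⟩

end Legendre

section NF

variable (N' q : ℕ) [NeZero N'] [NeZero q] [hq : Fact q.Prime] (hq2 : ¬ 2 ∣ q) (hqN' : ¬ q ∣ N')

/-- **WHAT IS STILL MISSING FOR (C-L)**, per base `(L, O)` of [NF2-CTX] and per third valuation `VC`
with its package: the C-only points in helper24's split ([L3b] ordinary, [L3c] the three cusps) and
the two-component clause on the chart `{λ}` ([L3d]). -/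
def s36asm_Leaves4 : Prop :=
  ∀ (L : Type) [Field L] [NumberField L] [Algebra L (AlgebraicClosure ℚ)]
    (O : ValuationSubring L) [IsDiscreteValuationRing O]
    [CharP (ResidueField O) q] (hπ : Irreducible ((q : ℕ) : ↥O))
    (ζ : L) (hζ : IsPrimitiveRoot ζ N')
    (VC : ValuationSubring ↥(lg_E L (N' * q * q))), s36asm_Third O hπ N' q hq2 hqN' VC →
      s36asm_cOrd O hπ N' q hq2 hqN' VC 1 ∧ s36asm_cCusp0 O hπ N' q hq2 hqN' VC 1 ∧
      s36asm_cCusp1 O hπ N' q hq2 hqN' VC 1 ∧ s36asm_cCuspInf O hπ N' q hq2 hqN' VC 1 ∧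
      s36asm_PtsT1 O hπ N' q hq2 hqN' VC

/-- `s36asm_Leaves4 → s36asm_Leaves3` at `D1 = 1`. -/
theorem s36asm_leaves3_of4 (H : s36asm_Leaves4 N' q hq2 hqN') :
    s36asm_Leaves3 N' q hq2 hqN' 1 := by
  intro L _ _ _ O _ _ hπ ζ hζ
  have hqO := ssm_fln_q_mem L O q
  have hq2' : q ≠ 2 := ssm_fl_ne_two q hq2
  have hp := ssm_ll_prime L N' hπ q hqO hq2' hqN' ζ hζ
  have hqu : ((q : ℕ) : ↥O) = ((q : ℕ) : ↥O) * 1 := (mul_one _).symm
  obtain ⟨VC0, T30⟩ := s36asm_third_exists O hπ N' q hq2 hqN' 1 isUnit_one hqu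
  refine ⟨(s36asm_all_of_third O hπ N' q hq2 hqN' hp.1 T30).1, fun VC T3 => ?_⟩
  obtain ⟨-, H3, hT⟩ := s36asm_all_of_third O hπ N' q hq2 hqN' hp.1 T3
  obtain ⟨hord, h0, h1, hinf, hT1⟩ := H L O hπ ζ hζ VC T3
  exact ⟨H3, s36asm_cSplit O hπ N' q hq2 hqN' hord h0 h1 hinf, hT hT1⟩

/-- **[L4]-Leg, the last mile, second cut**: `s36asm_Leaves4` ⟹ `s36_CoreNF N' q hq2` (= (C-L)). -/
theorem s36asm_coreNF_of4 (H : s36asm_Leaves4 N' q hq2 hqN') : s36_CoreNF N' q hq2 :=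
  s36asm_coreNF_of3 N' q hq2 hqN' 1 one_ne_zero (s36asm_leaves3_of4 N' q hq2 hqN' H)

end NF

end Fermat.Agent.S36
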