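/-
Project S36 (Carayol), cell [M2], layer [L4], LEGENDRE, THE LAST MILE, third cut (helper1, owner of
the final Legendre fill).  Prefix `s36asm_`.

(T1) is plugged: helper20's `s36tpl_hT1` (`Tri/PtTriLeg.lean`) is the two-component clause on the
chart `{λ}`.  What is left of (C-L) is (C), the C-only points in helper24's split:
`s36asm_Leaves5` = `s36asm_cOrd` ([L3b]) ∧ `s36asm_cCusp0` ∧ `s36asm_cCusp1` ∧ `s36asm_cCuspInf`
([L3c]), for every third valuation `VC` with its package `s36asm_Third`, at `D1 = 1`, `π = q`.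
`s36asm_coreNF_of5 : s36asm_Leaves5 N' q hq2 hqN' → s36_CoreNF N' q hq2` (= (C-L)).
-/
import Mathlib
import Fermat.Agent.S36.Model.AsmLegLast
import Fermat.Agent.S36.Tri.PtTriLeg

set_option autoImplicit false
set_option linter.unusedSectionVars false
set_option linter.unusedVariables false
set_option linter.style.haveILetI false
set_option maxHeartbeats 1000000

noncomputable section

open ModularCurve AlgebraicCurve IntermediateField IsLocalRing Polynomial
open Fermat.Agent.JT3 Fermat.Agent.SS Fermat.Agent.S35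

namespace Fermat.Agent.S36

section NFpts

variable (L : Type) [Field L] [NumberField L] [Algebra L (AlgebraicClosure ℚ)]
  (O : ValuationSubring L) [IsDiscreteValuationRing O]
variable (N' q : ℕ) [NeZero N'] [NeZero q] [hq : Fact q.Prime] [CharP (ResidueField O) q]
  (hq2 : ¬ 2 ∣ q) (hqN' : ¬ q ∣ N') (hπ : Irreducible ((q : ℕ) : ↥O))
  (ζ : L) (hζ : IsPrimitiveRoot ζ N')

include hζ in
set_option synthInstance.maxHeartbeats 200000 in
/-- **(T1), closed** (helper20's `s36tpl_hT1`): the two-component clause on the chart `{λ}`. -/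
theorem s36asm_ptsT1_leg {VC : ValuationSubring ↥(lg_E L (N' * q * q))}
    (T3 : s36asm_Third O hπ N' q hq2 hqN' VC) : s36asm_PtsT1 O hπ N' q hq2 hqN' VC := by
  have hqO := ssm_fln_q_mem L O q
  have hq2' : q ≠ 2 := ssm_fl_ne_two q hq2
  have hp := ssm_ll_prime L N' hπ q hqO hq2' hqN' ζ hζ
  obtain ⟨⟨hWB1, hWB2⟩, H3, -⟩ := s36asm_all_of_third O hπ N' q hq2 hqN' hp.1 T3
  exact fun 𝔫 h𝔫 _ htwo =>
    s36tpl_hT1 L O N' q hq2 hqN' hπ ζ hζ T3 H3 hWB1 hWB2 𝔫 h𝔫 htwo

end NFpts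

section NF

variable (N' q : ℕ) [NeZero N'] [NeZero q] [hq : Fact q.Prime] (hq2 : ¬ 2 ∣ q) (hqN' : ¬ q ∣ N')

/-- **WHAT IS STILL MISSING FOR (C-L)**: the C-only points in helper24's split ([L3b] ordinary,
[L3c] the three cusps), per base `(L, O)` of [NF2-CTX] and per third valuation `VC` with its
package. -/
def s36asm_Leaves5 : Prop :=
  ∀ (L : Type) [Field L] [NumberField L] [Algebra L (AlgebraicClosure ℚ)]
    (O : ValuationSubring L) [IsDiscreteValuationRing O]
    [CharP (ResidueField O) q] (hπ : Irreducible ((q : ℕ) : ↥O))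
    (ζ : L) (hζ : IsPrimitiveRoot ζ N')
    (VC : ValuationSubring ↥(lg_E L (N' * q * q))), s36asm_Third O hπ N' q hq2 hqN' VC →
      s36asm_cOrd O hπ N' q hq2 hqN' VC 1 ∧ s36asm_cCusp0 O hπ N' q hq2 hqN' VC 1 ∧
      s36asm_cCusp1 O hπ N' q hq2 hqN' VC 1 ∧ s36asm_cCuspInf O hπ N' q hq2 hqN' VC 1

/-- `s36asm_Leaves5 → s36asm_Leaves4`. -/
theorem s36asm_leaves4_of5 (H : s36asm_Leaves5 N' q hq2 hqN') : s36asm_Leaves4 N' q hq2 hqN' := by
  intro L _ _ _ O _ _ hπ ζ hζ VC T3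
  obtain ⟨hord, h0, h1, hinf⟩ := H L O hπ ζ hζ VC T3
  exact ⟨hord, h0, h1, hinf, s36asm_ptsT1_leg L O N' q hq2 hqN' hπ ζ hζ T3⟩

/-- **[L4]-Leg, the last mile, third cut**: `s36asm_Leaves5` ⟹ `s36_CoreNF N' q hq2` (= (C-L)). -/
theorem s36asm_coreNF_of5 (H : s36asm_Leaves5 N' q hq2 hqN') : s36_CoreNF N' q hq2 :=
  s36asm_coreNF_of4 N' q hq2 hqN' (s36asm_leaves4_of5 N' q hq2 hqN' H)

end NF

end Fermat.Agent.S36
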