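/-
Project S36 (Carayol), cell [M2], layer [L4], LEGENDRE, THE LAST MILE, fourth cut (helper1, owner of
the final Legendre fill).  Prefix `s36asm_`.

[L3c] is plugged: helper15's closed terms `s36cfl_cusp0_q`, `s36cfl_cusp1_q`
(`CReg/CuspEisLegNF.lean`) and `s36cfl_cuspInf_q` (`CReg/CuspEisLegInfNF.lean`) are the C-only cusp
points `s36asm_cCusp0`, `s36asm_cCusp1`, `s36asm_cCuspInf`.  What is left of (C-L) is [L3b] alone:
`s36asm_Leaves6` = `s36asm_cOrd … VC 1` (the ordinary C-only points of the chart `{λ}`), for every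
third valuation `VC` with its package `s36asm_Third`, at `π = q`.
`s36asm_coreNF_of6 : s36asm_Leaves6 N' q hq2 hqN' → s36_CoreNF N' q hq2` (= (C-L)).
-/
import Mathlib
import Fermat.Agent.S36.Model.AsmLegLastT
import Fermat.Agent.S36.CReg.CuspEisLegNF
import Fermat.Agent.S36.CReg.CuspEisLegInfNF

set_option autoImplicit false
set_option linter.unusedSectionVars false
set_option linter.unusedVariables false
set_option linter.style.haveILetI false
set_option maxHeartbeats 1000000

noncomputable section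

open ModularCurve AlgebraicCurve IntermediateField IsLocalRing Polynomial
open Fermat.Agent.JT3 Fermat.Agent.SS Fermat.Agent.S35

namespace Fermat.Agent.S36

section NF

variable (N' q : ℕ) [NeZero N'] [NeZero q] [hq : Fact q.Prime] (hq2 : ¬ 2 ∣ q) (hqN' : ¬ q ∣ N')

/-- **WHAT IS STILL MISSING FOR (C-L)**: [L3b], the ordinary C-only points of the chart `{λ}`, per
base `(L, O)` of [NF2-CTX] and per third valuation `VC` with its package. -/
def s36asm_Leaves6 : Prop :=
  ∀ (L : Type) [Field L] [NumberField L] [Algebra L (AlgebraicClosure ℚ)]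
    (O : ValuationSubring L) [IsDiscreteValuationRing O]
    [CharP (ResidueField O) q] (hπ : Irreducible ((q : ℕ) : ↥O))
    (ζ : L) (hζ : IsPrimitiveRoot ζ N')
    (VC : ValuationSubring ↥(lg_E L (N' * q * q))), s36asm_Third O hπ N' q hq2 hqN' VC →
      s36asm_cOrd O hπ N' q hq2 hqN' VC 1

/-- `s36asm_Leaves6 → s36asm_Leaves5` ([L3c] plugged). -/
theorem s36asm_leaves5_of6 (H : s36asm_Leaves6 N' q hq2 hqN') : s36asm_Leaves5 N' q hq2 hqN' := by
  intro L _ _ _ O _ _ hπ ζ hζ VC T3
  exact ⟨H L O hπ ζ hζ VC T3, s36cfl_cusp0_q L O N' q hq2 hqN' hπ ζ hζ T3,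
    s36cfl_cusp1_q L O N' q hq2 hqN' hπ ζ hζ T3, s36cfl_cuspInf_q L O N' q hq2 hqN' hπ ζ hζ T3⟩

/-- **[L4]-Leg, the last mile, fourth cut**: `s36asm_Leaves6` ⟹ `s36_CoreNF N' q hq2` (= (C-L)). -/
theorem s36asm_coreNF_of6 (H : s36asm_Leaves6 N' q hq2 hqN') : s36_CoreNF N' q hq2 :=
  s36asm_coreNF_of5 N' q hq2 hqN' (s36asm_leaves5_of6 N' q hq2 hqN' H)

end NF

end Fermat.Agent.S36
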