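/-
Project S36 (Carayol), cell [M2], layer [L4], LEGENDRE: **(C-L) CLOSED** (helper1, owner of the
final Legendre fill).  Prefix `s36m_` / `s36asm_`.

`s36m_coreNF_leg N' q hq2 hqN' : s36_CoreNF N' q hq2` — the Legendre core over all unramified number
field bases, for every `N'`, every odd prime `q ∤ N'`.

The chain (all closed terms on main):
* the third valuation `VC` with its package (helper15, helper29, helper25: `s36asm_third_exists`),
  the tower (helper11, helper26, helper8: `s36asm_tower_of_third`), [TP3] + `W₂`-stability + the
  integrality package (helper29: `s36t3_leg_all_of`), the glue seam (helper3: `s36g_glue`; helper24: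
  point dispatch `s36gd_leg`; helper17: A-only / B-only points);
* [L3b] the ordinary C-only points: helper2's `s36cn_cOrd` (with helper16, helper29, helper27,
  helper8, helper10, helper17);
* [L3c] the cusp C-only points: helper15's `s36cfl_cusp0_q`, `s36cfl_cusp1_q`, `s36cfl_cuspInf_q`
  (with helper5, helper23, helper6, helper27, helper24, helper26, helper8);
* [L3d] the points on two components: helper20's `s36tpl_hT1` (with helper22, helper10, helper3);
  nothing at infinity (`s36asm_no_two_inf`).
-/
import Mathlib
import Fermat.Agent.S36.Model.AsmLegLastC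
import Fermat.Agent.S36.CReg.PointNFClosed

set_option autoImplicit false
set_option linter.unusedSectionVars false
set_option linter.unusedVariables false
set_option linter.style.haveILetI false
set_option maxHeartbeats 1000000

noncomputable section

open ModularCurve AlgebraicCurve IntermediateField IsLocalRing Polynomial
open Fermat.Agent.JT3 Fermat.Agent.SS Fermat.Agent.S35

namespace Fermat.Agent.S36

section NF

variable (N' q : ℕ) [NeZero N'] [NeZero q] [hq : Fact q.Prime] (hq2 : ¬ 2 ∣ q) (hqN' : ¬ q ∣ N')

/-- the last leaf: [L3b] (helper2's `s36cn_cOrd`). -/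
theorem s36asm_leaves6 : s36asm_Leaves6 N' q hq2 hqN' := by
  intro L _ _ _ O _ _ hπ ζ hζ VC T3
  exact s36cn_cOrd L O N' q hq2 hqN' hπ ζ hζ T3

include hqN' in
/-- **(C-L): the Legendre core `s36_CoreNF N' q hq2`**, for every `N'` and every odd prime
`q ∤ N'`. -/
theorem s36m_coreNF_leg : s36_CoreNF N' q hq2 :=
  s36asm_coreNF_of6 N' q hq2 hqN' (s36asm_leaves6 N' q hq2 hqN')

end NF

end Fermat.Agent.S36
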