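/-
Project S36 (Carayol), cell [M2], layer [NF-TOP], HESSE cover (helper12, Hesse coordinator):
THE NUMBER-FIELD SHELL.  Twin of `ss_nf_coreAt` / `ssm_fhn_modelNF` (S34) and of
`s35fh_toricNF1` (S35).  Prefix `s36mh_`.

* `s36mh_CoreCtx N' q hq3 hqN' d` : the OUTPUT SHAPE of the Hesse assembly of [M2] + [ACORE]: over
  every number field `L ⊆ Q̄` containing `ζ_{3N'}` and every discrete valuation ring `O` of `L` with
  uniformiser `q` (context [NF2H-CTX] = the binder list of `ssm_nht_thick_nf`), for every `m` prime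
  to `q` with `ζ_m ∈ L`: `s36h_CoreAt h3 N' q hq3 m d`;
* `s36mh_coreNF_of` : `d ≠ 0`, `s36mh_CoreCtx N' q hq3 hqN' d` ⟹ `s36h_CoreNF N' q hq3`
  (`T := {ζ_{3N'}}`, fixed by the inertia group since `q ∤ 3N'`).
-/
import Mathlib
import Fermat.Agent.S36.Seams
import Fermat.Agent.SS.CoreNFLeg
import Fermat.Agent.SS.Model.FinalHesNF
import Fermat.Agent.S35.DescU.InertiaField

set_option autoImplicit false
set_option linter.style.haveILetI false
set_option linter.unusedSectionVars false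
set_option linter.unusedVariables false

noncomputable section

namespace Fermat.Agent.S36

open Fermat.Agent.SS Fermat.Agent.JT3 Fermat.Agent.S35 IntermediateField ModularCurve IsLocalRing
  AlgebraicCurve

local notation "GQ" => (AlgebraicClosure ℚ ≃ₐ[ℚ] AlgebraicClosure ℚ)
local notation "Qb" => AlgebraicClosure ℚ

section NFH

variable (N' q : ℕ) [NeZero N'] [NeZero q] [hq : Fact q.Prime] (hq3 : ¬ 3 ∣ q) (hqN' : ¬ q ∣ N')

/-- **The output shape of the Hesse assembly** ([M2] + [ACORE], context [NF2H-CTX]). -/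
def s36mh_CoreCtx (d : ℕ) : Prop :=
  ∀ (L : Type) [Field L] [NumberField L] [Algebra L (AlgebraicClosure ℚ)] (h3 : (3 : L) ≠ 0)
    (O : ValuationSubring L) [IsDiscreteValuationRing O] (h3O : IsUnit (3 : O))
    [CharP (ResidueField O) q] (hπ : Irreducible ((q : ℕ) : ↥O))
    (ζ : L) (hζ : IsPrimitiveRoot ζ (3 * N')) (m : ℕ), ¬ q ∣ m →
    (∃ ζm : L, IsPrimitiveRoot ζm m) → s36h_CoreAt (L := L) h3 N' q hq3 m d

set_option synthInstance.maxHeartbeats 200000 in
set_option maxHeartbeats 1600000 in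
include hqN' in
/-- **[NF-TOP]-Hes**: the number-field seam `s36h_CoreNF` from the Hesse assembly. -/
theorem s36mh_coreNF_of (d : ℕ) (hd : d ≠ 0) (H : s36mh_CoreCtx N' q hq3 d) :
    s36h_CoreNF N' q hq3 := by
  classical
  intro A hAq
  haveI : NeZero (3 * N') := ⟨Nat.mul_ne_zero (by norm_num) (NeZero.ne N')⟩
  obtain ⟨ζ', hζ'⟩ := HasEnoughRootsOfUnity.exists_primitiveRoot Qb (3 * N')
  have hq3N : ¬ q ∣ 3 * N' := by
    intro h
    rcases (Nat.Prime.dvd_mul hq.out).1 h with h | h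
    · have : q = 3 := (Nat.prime_dvd_prime_iff_eq hq.out Nat.prime_three).1 h
      exact hq3 (this ▸ dvd_rfl)
    · exact hqN' h
  refine ⟨d, hd, {ζ'}, ?_, fun L1 hfd hsub hπ m hqm hζm => ?_⟩
  · intro t ht s hs
    rw [Finset.mem_singleton] at ht
    rw [ht]
    exact s35d_root_fixed A q hAq hq3N hζ'.pow_eq_one hs
  have hζmem : ζ' ∈ L1 := hsub (by simp)
  haveI : NumberField ↥L1 := { to_charZero := inferInstance, to_finiteDimensional := hfd }
  haveI hdvr : IsDiscreteValuationRing ↥(A.comap (algebraMap ↥L1 Qb)) :=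
    dsc_isDVR_comap_numberField A q hAq hq.out.ne_zero ↥L1
  have hmem := lg_natCast_mem_maximalIdeal A hAq ↥L1
  haveI : CharP (IsLocalRing.ResidueField ↥(A.comap (algebraMap ↥L1 Qb))) q :=
    ss_nfl_charP_residue hmem
  have hζ : IsPrimitiveRoot (⟨ζ', hζmem⟩ : ↥L1) (3 * N') :=
    (IsPrimitiveRoot.map_iff_of_injective (f := algebraMap ↥L1 Qb)
      (FaithfulSMul.algebraMap_injective ↥L1 Qb)).1 hζ'
  have h3O : IsUnit (3 : ↥(A.comap (algebraMap ↥L1 Qb))) :=
    ssm_fhn_isUnit_three ↥L1 (A.comap (algebraMap ↥L1 Qb)) q hq3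
  exact H ↥L1 three_ne_zero (A.comap (algebraMap ↥L1 Qb)) h3O hπ ⟨ζ', hζmem⟩ hζ m hqm hζm

end NFH

end Fermat.Agent.S36
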