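/-
Project S36 (Carayol), cell [M2], layer [L4], HESSE SKELETON, TOWER FORM (helper1; twin of `Model/AsmLeg.lean`;
complements helper12's `Model/AsmHes.lean`, which takes the (G)-list `s36c_G` instead of the tower;
ruling (E6) of NOTE 5 of the S36 architect helper25).  Prefix `s36asmh_`.

The Hesse assembly `s36h_CoreAt` / `s36mh_CoreCtx` / `s36h_CoreNF` with the NOT-YET-LANDED LEAVES AS
EXPLICIT HYPOTHESES; everything that is on main is discharged here: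

* `s36asmh_Tower` (def) : helper11's `s36at_Tower` on the concrete Hesse tower
  `E₁ = hs_E L h3 (N' q)`, `β E₁`, `E₂ = hs_E L h3 (N' q q)` (inclusion algebras), `RF = ssm_fh_V1`,
  `RV = s36ih_VV`, `RU = s36ih_RU`, `RG = s36ih_RG`, `VA = s36ih_VA`, `VB = s36ih_VB`, `VC` free;
* `s36asmh_Glue`  (def) : helper1's seam `s36c_Glue` on the same objects with `ordH := Place.ord`;
* `s36asmh_coreAt_of_tower` : tower + seam ⟹ `s36h_CoreAt h3 N' q hq3 m (s36c_exp q Eg)` (the three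
  (root) properties are helper24's `s36rt_hes_VA / _VB / _VC`);
* `s36asmh_Leaves`, `s36asmh_coreCtx_of`, `s36asmh_coreNF_of` : ⟹ helper12's `s36mh_CoreCtx` ⟹
  `s36h_CoreNF N' q hq3`.
-/
import Mathlib
import Fermat.Agent.S36.ATower.Main
import Fermat.Agent.S36.ACore.AtTower
import Fermat.Agent.S36.ACore.Pack
import Fermat.Agent.S36.Root.Hes
import Fermat.Agent.S36.Ins1.RestrHes
import Fermat.Agent.S36.Model.TopHes
import Fermat.Agent.SS.Kummer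

set_option autoImplicit false
set_option linter.unusedSectionVars false
set_option linter.unusedVariables false
set_option linter.style.haveILetI false
set_option maxHeartbeats 1000000

noncomputable section

open ModularCurve AlgebraicCurve IntermediateField IsLocalRing
open Fermat.Agent.JT3 Fermat.Agent.SS Fermat.Agent.S35

namespace Fermat.Agent.S36

section Hesse

variable {L : Type*} [Field L] [CharZero L] [Algebra L (AlgebraicClosure ℚ)] (h3 : (3 : L) ≠ 0)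
  (O : ValuationSubring L) [IsDiscreteValuationRing O] (h3O : IsUnit (3 : O)) {π : O}
  (hπ : Irreducible π)
variable (N' q : ℕ) [NeZero N'] [NeZero q] [hq : Fact q.Prime] [CharP (ResidueField O) q]
  (hq3 : ¬ 3 ∣ q) (hqN' : ¬ q ∣ N')

/-- **helper11's tower package on the concrete Hesse tower** (`VC` and the uniformisers free). -/
def s36asmh_Tower (VC : ValuationSubring ↥(hs_E L h3 (N' * q * q)))
    (πF : ↥(ssm_fh_V1 h3 O h3O hπ N' q)) (πV : ↥(s36ih_VV h3 O h3O hπ N' q hq3 hqN'))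
    (πU : ↥(s36ih_RU h3 O h3O hπ N' q hq3 hqN')) (πG : ↥(s36ih_RG h3 O h3O hπ (N' * q) q hq3))
    (zC zC' tB tA : ↥(hs_E L h3 (N' * q * q))) (rB : ↥(s36ih_VV h3 O h3O hπ N' q hq3 hqN'))
    (rA : ↥(s36ih_RG h3 O h3O hπ (N' * q) q hq3)) : Prop :=
  letI := ssm_gi_algebra (ssm_alh_E_le L h3 (ssm_fh_hF9 h3) (N' * q) q)
  letI := ssm_gi_algebra (ssm_alh_E_beta_le L h3 (ssm_fh_hF9 h3) (N' * q) q hq3)
  letI := ssm_gi_algebraV (ssm_alh_E_le L h3 (ssm_fh_hF9 h3) (N' * q) q)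
    (ssm_fh_V1 h3 O h3O hπ N' q)
  letI := ssm_gi_algebraV (ssm_alh_E_le L h3 (ssm_fh_hF9 h3) (N' * q) q)
    (s36ih_VV h3 O h3O hπ N' q hq3 hqN')
  letI := ssm_gi_algebraV (ssm_alh_E_beta_le L h3 (ssm_fh_hF9 h3) (N' * q) q hq3)
    (s36ih_RU h3 O h3O hπ N' q hq3 hqN')
  letI := ssm_gi_algebraV (ssm_alh_E_beta_le L h3 (ssm_fh_hF9 h3) (N' * q) q hq3)
    (s36ih_RG h3 O h3O hπ (N' * q) q hq3)
  haveI := ssm_gi_isScalarTower (ssm_alh_E_le L h3 (ssm_fh_hF9 h3) (N' * q) q)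
    (ssm_fh_V1 h3 O h3O hπ N' q)
  haveI := ssm_gi_isScalarTower (ssm_alh_E_beta_le L h3 (ssm_fh_hF9 h3) (N' * q) q hq3)
    (s36ih_RU h3 O h3O hπ N' q hq3 hqN')
  s36at_Tower (K1 := ↥(hs_E L h3 (N' * q)))
    (K2 := ↥((hs_E L h3 (N' * q)).map (qExpandAlgHomC L q)))
    O (π : L) q (s36ih_VA h3 O h3O hπ (N' * q) q) (s36ih_VB h3 O h3O hπ N' q hq3 hqN') VC
    πF πV πU πG zC zC' tB tA rB rA

/-- **helper1's seam `s36c_Glue` on the concrete Hesse tower**, `ordH := Place.ord`. -/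
def s36asmh_Glue (VC : ValuationSubring ↥(hs_E L h3 (N' * q * q))) (m Eg : ℕ) : Prop :=
  letI := ssm_gi_algebra (ssm_alh_E_le L h3 (ssm_fh_hF9 h3) (N' * q) q)
  letI := ssm_gi_algebra (ssm_alh_E_beta_le L h3 (ssm_fh_hF9 h3) (N' * q) q hq3)
  s36c_Glue O (s36ih_VA h3 O h3O hπ (N' * q) q) (s36ih_VB h3 O h3O hπ N' q hq3 hqN') VC
    (s36at_N ↥(hs_E L h3 (N' * q))) (s36at_N ↥((hs_E L h3 (N' * q)).map (qExpandAlgHomC L q)))
    q m Eg
    (fun (v : Place L ↥(hs_E L h3 (N' * q * q))) (x : ↥(hs_E L h3 (N' * q * q))) => v.ord x)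

include hqN' in
/-- **[L4]-Hes, layer 1**: the tower package + the seam ⟹ `s36h_CoreAt` with the exponent
`s36c_exp q Eg`. -/
theorem s36asmh_coreAt_of_tower (m Eg : ℕ) (hqm : ¬ q ∣ m)
    {VC : ValuationSubring ↥(hs_E L h3 (N' * q * q))}
    {πF : ↥(ssm_fh_V1 h3 O h3O hπ N' q)} {πV : ↥(s36ih_VV h3 O h3O hπ N' q hq3 hqN')}
    {πU : ↥(s36ih_RU h3 O h3O hπ N' q hq3 hqN')}
    {πG : ↥(s36ih_RG h3 O h3O hπ (N' * q) q hq3)}
    {zC zC' tB tA : ↥(hs_E L h3 (N' * q * q))} {rB : ↥(s36ih_VV h3 O h3O hπ N' q hq3 hqN')}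
    {rA : ↥(s36ih_RG h3 O h3O hπ (N' * q) q hq3)}
    (T : s36asmh_Tower h3 O h3O hπ N' q hq3 hqN' VC πF πV πU πG zC zC' tB tA rB rA)
    (hglue : s36asmh_Glue h3 O h3O hπ N' q hq3 hqN' VC m Eg) :
    s36h_CoreAt (L := L) h3 N' q hq3 m (s36c_exp q Eg) := by
  letI := ssm_gi_algebra (ssm_alh_E_le L h3 (ssm_fh_hF9 h3) (N' * q) q)
  letI := ssm_gi_algebra (ssm_alh_E_beta_le L h3 (ssm_fh_hF9 h3) (N' * q) q hq3)
  letI := ssm_gi_algebraV (ssm_alh_E_le L h3 (ssm_fh_hF9 h3) (N' * q) q)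
    (ssm_fh_V1 h3 O h3O hπ N' q)
  letI := ssm_gi_algebraV (ssm_alh_E_le L h3 (ssm_fh_hF9 h3) (N' * q) q)
    (s36ih_VV h3 O h3O hπ N' q hq3 hqN')
  letI := ssm_gi_algebraV (ssm_alh_E_beta_le L h3 (ssm_fh_hF9 h3) (N' * q) q hq3)
    (s36ih_RU h3 O h3O hπ N' q hq3 hqN')
  letI := ssm_gi_algebraV (ssm_alh_E_beta_le L h3 (ssm_fh_hF9 h3) (N' * q) q hq3)
    (s36ih_RG h3 O h3O hπ (N' * q) q hq3)
  haveI := ssm_gi_isScalarTower (ssm_alh_E_le L h3 (ssm_fh_hF9 h3) (N' * q) q)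
    (ssm_fh_V1 h3 O h3O hπ N' q)
  haveI := ssm_gi_isScalarTower (ssm_alh_E_le L h3 (ssm_fh_hF9 h3) (N' * q) q)
    (s36ih_VV h3 O h3O hπ N' q hq3 hqN')
  haveI := ssm_gi_isScalarTower (ssm_alh_E_beta_le L h3 (ssm_fh_hF9 h3) (N' * q) q hq3)
    (s36ih_RU h3 O h3O hπ N' q hq3 hqN')
  haveI := ssm_gi_isScalarTower (ssm_alh_E_beta_le L h3 (ssm_fh_hF9 h3) (N' * q) q hq3)
    (s36ih_RG h3 O h3O hπ (N' * q) q hq3)
  haveI := ssm_gi_isScalarTower_base (ssm_alh_E_le L h3 (ssm_fh_hF9 h3) (N' * q) q)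
  haveI := ssm_gi_isScalarTower_base (ssm_alh_E_beta_le L h3 (ssm_fh_hF9 h3) (N' * q) q hq3)
  have hT : s36at_Tower (K1 := ↥(hs_E L h3 (N' * q)))
      (K2 := ↥((hs_E L h3 (N' * q)).map (qExpandAlgHomC L q)))
      O (π : L) q (s36ih_VA h3 O h3O hπ (N' * q) q) (s36ih_VB h3 O h3O hπ N' q hq3 hqN') VC
      πF πV πU πG zC zC' tB tA rB rA := T
  have hq1 : q - 1 + 1 = q := Nat.sub_add_cancel hq.out.one_le
  haveI : FiniteDimensional ↥(hs_E L h3 (N' * q)) ↥(hs_E L h3 (N' * q * q)) :=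
    ssm_gi_finiteDimensional (n := q - 1) (by rw [hq1]; exact hT.side1.finrank_eq)
  haveI : FiniteDimensional ↥((hs_E L h3 (N' * q)).map (qExpandAlgHomC L q))
      ↥(hs_E L h3 (N' * q * q)) :=
    ssm_gi_finiteDimensional (n := q - 1) (by rw [hq1]; exact hT.side2.finrank_eq)
  haveI : Algebra.IsSeparable ↥(hs_E L h3 (N' * q)) ↥(hs_E L h3 (N' * q * q)) :=
    ssm_gi_isSeparable
  haveI : Algebra.IsSeparable ↥((hs_E L h3 (N' * q)).map (qExpandAlgHomC L q))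
      ↥(hs_E L h3 (N' * q * q)) := ssm_gi_isSeparable
  have hm1 : 1 ≤ m := by
    rcases Nat.eq_zero_or_pos m with h | h
    · exact absurd (h ▸ dvd_zero q) hqm
    · exact h
  have hcop : Nat.Coprime q m := (Nat.Prime.coprime_iff_not_dvd hq.out).2 hqm
  have hmres : ((m : ℕ) : ResidueField O) ≠ 0 := fun h =>
    hqm ((CharP.cast_eq_zero_iff (ResidueField O) q m).1 h)
  -- the (root) property at `VC`
  have hrootC : s36rt_Root O VC m := by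
    refine s36rt_hes_VC h3 O h3O hπ N' q m hmres VC ?_ ?_
    · intro z
      have h := hT.side1.overC z
      rw [ssm_gi_mem_range] at h
      exact h
    · intro a ha
      obtain ⟨r0, hr0⟩ := hT.side1.resC a ha
      exact ⟨(r0 : ↥(hs_E L h3 (N' * q))), hr0⟩
  refine s36c_h_coreAt_of_tower h3 N' q hq3 m (s36c_exp q Eg) ?_
  intro g hg hord c1 c2 hc1 hc2 r1 r2 hr1 hr2 h1 h2
  exact s36at_core hT m Eg hm1 hcop (fun y hy c hc h => hrootC y hy c hc h)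
    (fun y hy c hc h => s36rt_hes_VA h3 O h3O hπ N' q m hmres y hy c hc h)
    (fun y hy c hc h => s36rt_hes_VB h3 O h3O hπ N' q hq3 hqN' m hmres y hy c hc h)
    (fun (v : Place L ↥(hs_E L h3 (N' * q * q))) (x : ↥(hs_E L h3 (N' * q * q))) => v.ord x)
    (fun v x y hx hy => v.ord_mul hx hy) (fun v c hc => ssk_ord_algebraMap v hc)
    hglue g hg hord c1 c2 hc1 hc2 r1 r2 hr1 hr2 h1 h2

end Hesse

section NFH

variable (N' q : ℕ) [NeZero N'] [NeZero q] [hq : Fact q.Prime] (hq3 : ¬ 3 ∣ q) (hqN' : ¬ q ∣ N')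

/-- **THE REMAINING LEAVES of the Hesse assembly**, context [NF2H-CTX]. -/
def s36asmh_Leaves (Eg : ℕ) : Prop :=
  ∀ (L : Type) [Field L] [NumberField L] [Algebra L (AlgebraicClosure ℚ)] (h3 : (3 : L) ≠ 0)
    (O : ValuationSubring L) [IsDiscreteValuationRing O] (h3O : IsUnit (3 : O))
    [CharP (ResidueField O) q] (hπ : Irreducible ((q : ℕ) : ↥O))
    (ζ : L) (hζ : IsPrimitiveRoot ζ (3 * N')) (m : ℕ), ¬ q ∣ m →
    (∃ ζm : L, IsPrimitiveRoot ζm m) →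
    ∃ (VC : ValuationSubring ↥(hs_E L h3 (N' * q * q)))
      (πF : ↥(ssm_fh_V1 h3 O h3O hπ N' q)) (πV : ↥(s36ih_VV h3 O h3O hπ N' q hq3 hqN'))
      (πU : ↥(s36ih_RU h3 O h3O hπ N' q hq3 hqN'))
      (πG : ↥(s36ih_RG h3 O h3O hπ (N' * q) q hq3))
      (zC zC' tB tA : ↥(hs_E L h3 (N' * q * q))) (rB : ↥(s36ih_VV h3 O h3O hπ N' q hq3 hqN'))
      (rA : ↥(s36ih_RG h3 O h3O hπ (N' * q) q hq3)),
      s36asmh_Tower h3 O h3O hπ N' q hq3 hqN' VC πF πV πU πG zC zC' tB tA rB rA ∧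
      s36asmh_Glue h3 O h3O hπ N' q hq3 hqN' VC m Eg

/-- **[L4]-Hes, layer 2**: the leaves ⟹ helper12's `s36mh_CoreCtx` with the exponent
`s36c_exp q Eg`. -/
theorem s36asmh_coreCtx_of (Eg : ℕ) (H : s36asmh_Leaves N' q hq3 hqN' Eg) :
    s36mh_CoreCtx N' q hq3 (s36c_exp q Eg) := by
  intro L _ _ _ h3 O _ h3O _ hπ ζ hζ m hqm hζm
  obtain ⟨VC, πF, πV, πU, πG, zC, zC', tB, tA, rB, rA, T, hglue⟩ :=
    H L h3 O h3O hπ ζ hζ m hqm hζm
  exact s36asmh_coreAt_of_tower h3 O h3O hπ N' q hq3 hqN' m Eg hqm T hglue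

/-- **[L4]-Hes, layer 2'**: the leaves with a nonzero seam exponent ⟹ `s36h_CoreNF N' q hq3`
(= (C-H) of the S36 architecture). -/
theorem s36asmh_coreNF_of (Eg : ℕ) (hEg : Eg ≠ 0) (H : s36asmh_Leaves N' q hq3 hqN' Eg) :
    s36h_CoreNF N' q hq3 :=
  s36mh_coreNF_of N' q hq3 hqN' (s36c_exp q Eg) (s36c_exp_ne_zero hq.out.two_le hEg)
    (s36asmh_coreCtx_of N' q hq3 hqN' Eg H)

end NFH

end Fermat.Agent.S36
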