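/-
Project S36 (Carayol), cell [M2], leaf [V3-ASM]-Hes, part N (helper8; prefix `s36t3h_`): THE NORM
HYPOTHESIS `hN` IN THE SPELLING OF THE PACKAGE `s36t3h_Third` (`z = s36t3h_z = s36ih_x2 - x`), for
the consumers of `s36at_side_of_third` / `s36at_*_tower` (helper11's [L2]-FINAL, Hesse twin).

* `s36t3h_z_eq` : `s36th_h_x2 - algebraMap (inclusion (μ_{N'} - 1)) = s36t3h_z` (the `z` of [THETA]
  `s36th_hes_hN` is the `z` of the package);
* `s36t3h_hN`   : `∃ c w : ↥VF, c ∉ 𝔪(VF) ^ 2 ∧ N_{E₂/E₁}(s36t3h_z) * w = c` over an unramified base.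
-/
import Mathlib
import Fermat.Agent.S36.Model.ThreeHes

set_option autoImplicit false
set_option linter.unusedSectionVars false
set_option linter.unusedVariables false
set_option linter.style.haveILetI false

noncomputable section

open ModularCurve IntermediateField IsLocalRing
open Fermat.Agent.JT3 Fermat.Agent.SS

namespace Fermat.Agent.S36

section ThreeHesN

variable {L : Type*} [Field L] [CharZero L] [Algebra L (AlgebraicClosure ℚ)] (h3 : (3 : L) ≠ 0)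
  (O : ValuationSubring L) [IsDiscreteValuationRing O] (h3O : IsUnit (3 : O)) {π : O}
  (hπ : Irreducible π)
variable (N' q : ℕ) [NeZero N'] [NeZero q] [hq : Fact q.Prime] [CharP (ResidueField O) q]
  (hq3 : ¬ 3 ∣ q) (hqN' : ¬ q ∣ N')

/-- the `z` of [THETA] (`s36th_hes_hN`) is the `z` of the package. -/
theorem s36t3h_z_eq :
    letI := ssm_gi_algebra (ssm_alh_E_le L h3 (ssm_fh_hF9 h3) (N' * q) q)
    s36th_h_x2 h3 (ssm_fh_hF9 h3) N' q hq3 hqN' -
      algebraMap ↥(hs_E L h3 (N' * q)) ↥(hs_E L h3 (N' * q * q))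
        (IntermediateField.inclusion (ssm_alh_E_le L h3 (ssm_fh_hF9 h3) N' q)
          (hs_muE h3 N' - 1)) = s36t3h_z h3 N' q hq3 := by
  letI := ssm_gi_algebra (ssm_alh_E_le L h3 (ssm_fh_hF9 h3) (N' * q) q)
  apply Subtype.ext
  rw [AddSubgroupClass.coe_sub, AddSubgroupClass.coe_sub, ssm_gi_coe_algebraMap,
    IntermediateField.coe_inclusion, s36ih_coe_sub h3 N', s36ih_coe_sub h3 (N' * q * q)]
  rfl

include hqN' in
/-- **`hN` for the Hesse tower in the spelling of the package**: `z = x₂ - x`. -/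
theorem s36t3h_hN (u : ↥O) (hu : IsUnit u) (hqu : ((q : ℕ) : ↥O) = π * u) :
    letI := ssm_gi_algebra (ssm_alh_E_le L h3 (ssm_fh_hF9 h3) (N' * q) q)
    ∃ c w : ↥(ssm_fh_V1 h3 O h3O hπ N' q),
      c ∉ maximalIdeal ↥(ssm_fh_V1 h3 O h3O hπ N' q) ^ 2 ∧
      Algebra.norm ↥(hs_E L h3 (N' * q)) (s36t3h_z h3 N' q hq3) * (w : ↥(hs_E L h3 (N' * q))) =
        (c : ↥(hs_E L h3 (N' * q))) := by
  letI := ssm_gi_algebra (ssm_alh_E_le L h3 (ssm_fh_hF9 h3) (N' * q) q)
  obtain ⟨c, w, hc, hcw⟩ := s36th_hes_hN h3 (ssm_fh_hF9 h3) O h3O hπ N' q hq3 hqN' u hu hqu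
  rw [s36t3h_z_eq h3 N' q hq3 hqN'] at hcw
  exact ⟨c, w, hc, hcw⟩

end ThreeHesN

end Fermat.Agent.S36
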