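/-
Project S36 (Carayol), cell [M2], layer [L4]-Hes, HESSE cover (helper12, Hesse coordinator):
THE PLUMBING OF THE HESSE ASSEMBLY.  Prefix `s36mh_`.

* `s36mh_GG h3 N' q hq3 O m Eg` : the per-context target of the Hesse assembly: there are three
  valuation subrings `VA VB VC` of `E₂ = hs_E L h3 (N' q q)` and the data `ordA ordB ordC ϖ ε zC`
  with helper1's (G)-list `s36c_G` AND helper3's glue statement `s36c_Glue` for the two norms
  `E₂ → E₁`, `E₂ → β E₁`;
* `s36mh_coreAt_of_GG` : `s36mh_GG … ⟹ s36h_CoreAt h3 N' q hq3 m (s36c_exp q Eg)` (`q` prime,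
  `q ∤ m`);
* `s36mh_coreCtx_of`  : `s36mh_GG` over every context [NF2H-CTX] ⟹ `s36mh_CoreCtx N' q hq3 _`;
* `s36mh_coreNF_two_of` : at `q = 2`: `s36mh_GG` over every context ⟹ the seam
  `s36h_CoreNF N' 2 s36_not_three_dvd_two` (= (C-H) of `S36/FinalTwo.lean`).
-/
import Mathlib
import Fermat.Agent.S36.Model.TopHes
import Fermat.Agent.S36.ACore.At
import Fermat.Agent.S36.FinalTwo

set_option autoImplicit false
set_option linter.style.haveILetI false
set_option linter.unusedSectionVars false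
set_option linter.unusedVariables false

noncomputable section

namespace Fermat.Agent.S36

open Fermat.Agent.SS Fermat.Agent.JT3 Fermat.Agent.S35 IntermediateField ModularCurve IsLocalRing
  AlgebraicCurve

section Ctx

variable {L : Type*} [Field L] [CharZero L] [Algebra L (AlgebraicClosure ℚ)] (h3 : (3 : L) ≠ 0)
  (N' q : ℕ) [NeZero N'] [NeZero q] (hq3 : ¬ 3 ∣ q)

/-- **The per-context target of the Hesse assembly**: the (G)-list of [ACORE] and the glue
statement of [GLUE-MAIN] on `E₂ = hs_E L h3 (N' q q)`. -/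
def s36mh_GG (O : ValuationSubring L) (m Eg : ℕ) : Prop :=
  ∃ (VA VB VC : ValuationSubring ↥(hs_E L h3 (N' * q * q)))
    (ordA ordB ordC : ↥(hs_E L h3 (N' * q * q)) → ℤ) (ϖ : L) (ε : ℤ)
    (zC : ↥(hs_E L h3 (N' * q * q))),
    s36c_G O VA VB VC (s36c_normIncl (ssm_alh_E_le L h3 (ssm_fh_hF9 h3) (N' * q) q))
      (s36c_normIncl (ssm_alh_E_beta_le L h3 (ssm_fh_hF9 h3) (N' * q) q hq3))
      (s36c_sub (ssm_alh_E_le L h3 (ssm_fh_hF9 h3) (N' * q) q))
      (s36c_sub (ssm_alh_E_beta_le L h3 (ssm_fh_hF9 h3) (N' * q) q hq3)) q m ordA ordB ordC ϖ ε zC ∧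
    s36c_Glue O VA VB VC (s36c_normIncl (ssm_alh_E_le L h3 (ssm_fh_hF9 h3) (N' * q) q))
      (s36c_normIncl (ssm_alh_E_beta_le L h3 (ssm_fh_hF9 h3) (N' * q) q hq3)) q m Eg
      (fun (v : Place L ↥(hs_E L h3 (N' * q * q))) => v.ord)

/-- the core over one context from the (G)-list and the glue statement. -/
theorem s36mh_coreAt_of_GG (hq : q.Prime) (O : ValuationSubring L) (m Eg : ℕ) (hqm : ¬ q ∣ m)
    (H : s36mh_GG h3 N' q hq3 O m Eg) : s36h_CoreAt (L := L) h3 N' q hq3 m (s36c_exp q Eg) := by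
  obtain ⟨VA, VB, VC, ordA, ordB, ordC, ϖ, ε, zC, G, hglue⟩ := H
  have hm : 1 ≤ m := by
    rcases Nat.eq_zero_or_pos m with h | h
    · exact absurd (h ▸ dvd_zero q) hqm
    · exact h
  exact s36c_h_coreAt_of h3 N' q hq3 G hq.one_lt.le hm ((Nat.Prime.coprime_iff_not_dvd hq).2 hqm)
    Eg hglue

end Ctx

section NFH

variable (N' q : ℕ) [NeZero N'] [NeZero q] [hq : Fact q.Prime] (hq3 : ¬ 3 ∣ q) (hqN' : ¬ q ∣ N')

/-- **[L4]-Hes, plumbing**: the (G)-list and the glue statement over every context [NF2H-CTX]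
give the output shape `s36mh_CoreCtx`. -/
theorem s36mh_coreCtx_of (Eg : ℕ)
    (H : ∀ (L : Type) [Field L] [NumberField L] [Algebra L (AlgebraicClosure ℚ)] (h3 : (3 : L) ≠ 0)
      (O : ValuationSubring L) [IsDiscreteValuationRing O] (h3O : IsUnit (3 : O))
      [CharP (ResidueField O) q] (hπ : Irreducible ((q : ℕ) : ↥O))
      (ζ : L) (hζ : IsPrimitiveRoot ζ (3 * N')) (m : ℕ), ¬ q ∣ m →
      (∃ ζm : L, IsPrimitiveRoot ζm m) → s36mh_GG (L := L) h3 N' q hq3 O m Eg) :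
    s36mh_CoreCtx N' q hq3 (s36c_exp q Eg) := by
  intro L _ _ _ h3 O _ h3O _ hπ ζ hζ m hqm hζm
  exact s36mh_coreAt_of_GG h3 N' q hq3 hq.out O m Eg hqm (H L h3 O h3O hπ ζ hζ m hqm hζm)

end NFH

section Two

/-- **[L4]-Hes at `q = 2`**: the seam (C-H) `s36h_CoreNF N' 2 _` of `S36/FinalTwo.lean` from the
(G)-list and the glue statement over every context [NF2H-CTX] at `q = 2`. -/
theorem s36mh_coreNF_two_of (N' : ℕ) [NeZero N'] (h2N' : ¬ 2 ∣ N') (Eg : ℕ) (hEg : Eg ≠ 0)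
    (H : ∀ (L : Type) [Field L] [NumberField L] [Algebra L (AlgebraicClosure ℚ)] (h3 : (3 : L) ≠ 0)
      (O : ValuationSubring L) [IsDiscreteValuationRing O] (h3O : IsUnit (3 : O))
      [CharP (ResidueField O) 2] (hπ : Irreducible ((2 : ℕ) : ↥O))
      (ζ : L) (hζ : IsPrimitiveRoot ζ (3 * N')) (m : ℕ), ¬ 2 ∣ m →
      (∃ ζm : L, IsPrimitiveRoot ζm m) →
      s36mh_GG (L := L) h3 N' 2 s36_not_three_dvd_two O m Eg) :
    s36h_CoreNF N' 2 s36_not_three_dvd_two := by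
  haveI : Fact (Nat.Prime 2) := ⟨Nat.prime_two⟩
  exact s36mh_coreNF_of N' 2 s36_not_three_dvd_two h2N' (s36c_exp 2 Eg)
    (s36c_exp_ne_zero le_rfl hEg) (s36mh_coreCtx_of N' 2 s36_not_three_dvd_two Eg H)

end Two

end Fermat.Agent.S36
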