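/-
Project S36 (Carayol), cell [M2], layer [L4], HESSE SKELETON, TOWER FORM, part 2 (helper1; twin of
`Model/AsmLegGlue.lean`; prefix `s36asmh_`): THE SEAM `s36asmh_Glue` FROM THE TOWER, [TP3] AND THE
POINT CLAUSES.

* `s36asmh_Pts` (def) : the point clauses `hpts`, `hinf` of helper3's `s36g_glue` on the two charts
  of `x = μ - 1 ∈ E₂ = hs_E L h3 (N' q q)`, `N_i := s36at_N`, `K_i' := fieldRange`;
* `s36asmh_glue_of` : `s36asmh_Tower` + helper24's `s36tp_Hyp … ![VA, VB, VC] ![1, 1, q - 1]` +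
  `s36asmh_Pts` ⟹ `s36asmh_Glue … VC m (q ^ 2 * D1 * q)`;
* `s36asmh_Leaves2`, `s36asmh_leaves_of`, `s36asmh_coreNF_of2`, `s36asmh_coreNF_two_of2` : the refined
  list of leaves (tower, [TP3], points) ⟹ `s36h_CoreNF N' q hq3`, and the form at `q = 2` consumed
  by `S36/FinalTwo.lean`.
-/
import Mathlib
import Fermat.Agent.S36.Model.AsmHesTower
import Fermat.Agent.S36.Model.AsmLegGlue
import Fermat.Agent.S36.FinalTwo
import Fermat.Agent.SS.Model.HesLevel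

set_option autoImplicit false
set_option linter.unusedSectionVars false
set_option linter.unusedVariables false
set_option linter.style.haveILetI false
set_option maxHeartbeats 1000000

noncomputable section

open ModularCurve AlgebraicCurve IntermediateField IsLocalRing
open Fermat.Agent.JT3 Fermat.Agent.SS Fermat.Agent.S35

namespace Fermat.Agent.S36

section Charts

variable {L : Type*} [Field L] [CharZero L] (h3 : (3 : L) ≠ 0)
  (O : ValuationSubring L) [IsDiscreteValuationRing O] (M : ℕ) [NeZero M]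

/-- the chart `B_x` (`x = μ - 1`) of `hs_E L h3 M` has fraction field `hs_E L h3 M`. -/
theorem s36asmh_chart_isFractionRing :
    IsFractionRing ↥(fc_chart ↥O ({hs_muE h3 M - 1} : Set ↥(hs_E L h3 M))) ↥(hs_E L h3 M) := by
  haveI := ssm_go_isScalarTower O (hs_E L h3 M)
  haveI := ssm_hl_finite L h3 M
  exact ssm_ths_chart_isFractionRing (A0 := ↥O) (L := L) _

/-- the chart `B_{x⁻¹}` of `hs_E L h3 M` has fraction field `hs_E L h3 M`. -/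
theorem s36asmh_chart_inv_isFractionRing :
    IsFractionRing ↥(fc_chart ↥O ({(hs_muE h3 M - 1)⁻¹} : Set ↥(hs_E L h3 M)))
      ↥(hs_E L h3 M) := by
  haveI := ssm_go_isScalarTower O (hs_E L h3 M)
  haveI := ssm_hl_finite_inv L h3 M
  exact ssm_ths_chart_isFractionRing (A0 := ↥O) (L := L) _

end Charts

section Hesse

variable {L : Type*} [Field L] [CharZero L] [Algebra L (AlgebraicClosure ℚ)] (h3 : (3 : L) ≠ 0)
  (O : ValuationSubring L) [IsDiscreteValuationRing O] (h3O : IsUnit (3 : O)) {π : O}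
  (hπ : Irreducible π)
variable (N' q : ℕ) [NeZero N'] [NeZero q] [hq : Fact q.Prime] [CharP (ResidueField O) q]
  (hq3 : ¬ 3 ∣ q) (hqN' : ¬ q ∣ N')

/-- **the point clauses** of helper3's `s36g_glue` on the two charts of `x = μ - 1 ∈ E₂`, with
`N_i := s36at_N`, `K_i' := fieldRange` (= the target of the Hesse point dispatch). -/
def s36asmh_Pts (VC : ValuationSubring ↥(hs_E L h3 (N' * q * q))) (D1 : ℕ) : Prop :=
  letI := ssm_gi_algebra (ssm_alh_E_le L h3 (ssm_fh_hF9 h3) (N' * q) q)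
  letI := ssm_gi_algebra (ssm_alh_E_beta_le L h3 (ssm_fh_hF9 h3) (N' * q) q hq3)
  haveI := s36asmh_chart_isFractionRing h3 O (N' * q * q)
  haveI := s36asmh_chart_inv_isFractionRing h3 O (N' * q * q)
  (∀ (𝔫 : Ideal (fc_chart ↥O ({hs_muE h3 (N' * q * q) - 1} : Set ↥(hs_E L h3 (N' * q * q)))))
    (h𝔫 : 𝔫.IsMaximal),
    algebraMap ↥O (fc_chart ↥O ({hs_muE h3 (N' * q * q) - 1} :
      Set ↥(hs_E L h3 (N' * q * q)))) π ∈ 𝔫 →
    (haveI := h𝔫.isPrime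
     s36g_PtOne π q (fc_chart ↥O ({hs_muE h3 (N' * q * q) - 1} :
      Set ↥(hs_E L h3 (N' * q * q)))) 𝔫 ∨
     s36g_PtWeak π q D1 (fc_chart ↥O ({hs_muE h3 (N' * q * q) - 1} :
      Set ↥(hs_E L h3 (N' * q * q)))) 𝔫 ∨
     s36g_PtTri π (q - 1) (s36at_N ↥(hs_E L h3 (N' * q)))
      (s36at_N ↥((hs_E L h3 (N' * q)).map (qExpandAlgHomC L q)))
      (algebraMap ↥(hs_E L h3 (N' * q)) ↥(hs_E L h3 (N' * q * q))).fieldRange
      (algebraMap ↥((hs_E L h3 (N' * q)).map (qExpandAlgHomC L q))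
        ↥(hs_E L h3 (N' * q * q))).fieldRange
      (fc_chart ↥O ({hs_muE h3 (N' * q * q) - 1} : Set ↥(hs_E L h3 (N' * q * q))))
      (ssm_tp_P (fc_chart ↥O ({hs_muE h3 (N' * q * q) - 1} : Set ↥(hs_E L h3 (N' * q * q))))
        (s36ih_VA h3 O h3O hπ (N' * q) q))
      (ssm_tp_P (fc_chart ↥O ({hs_muE h3 (N' * q * q) - 1} : Set ↥(hs_E L h3 (N' * q * q))))
        (s36ih_VB h3 O h3O hπ N' q hq3 hqN'))
      (ssm_tp_P (fc_chart ↥O ({hs_muE h3 (N' * q * q) - 1} : Set ↥(hs_E L h3 (N' * q * q))))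
        VC) 𝔫)) ∧
  (∀ (𝔫 : Ideal (fc_chart ↥O ({(hs_muE h3 (N' * q * q) - 1)⁻¹} :
      Set ↥(hs_E L h3 (N' * q * q)))))
    (h𝔫 : 𝔫.IsMaximal),
    algebraMap ↥O (fc_chart ↥O ({(hs_muE h3 (N' * q * q) - 1)⁻¹} :
      Set ↥(hs_E L h3 (N' * q * q)))) π ∈ 𝔫 →
    (⟨(hs_muE h3 (N' * q * q) - 1)⁻¹, fc_x_mem_chart (hs_muE h3 (N' * q * q) - 1)⁻¹⟩ :
      fc_chart ↥O ({(hs_muE h3 (N' * q * q) - 1)⁻¹} : Set ↥(hs_E L h3 (N' * q * q)))) ∈ 𝔫 →
    (haveI := h𝔫.isPrime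
     s36g_PtOne π q (fc_chart ↥O ({(hs_muE h3 (N' * q * q) - 1)⁻¹} :
      Set ↥(hs_E L h3 (N' * q * q)))) 𝔫 ∨
     s36g_PtWeak π q D1 (fc_chart ↥O ({(hs_muE h3 (N' * q * q) - 1)⁻¹} :
      Set ↥(hs_E L h3 (N' * q * q)))) 𝔫 ∨
     s36g_PtTri π (q - 1) (s36at_N ↥(hs_E L h3 (N' * q)))
      (s36at_N ↥((hs_E L h3 (N' * q)).map (qExpandAlgHomC L q)))
      (algebraMap ↥(hs_E L h3 (N' * q)) ↥(hs_E L h3 (N' * q * q))).fieldRange
      (algebraMap ↥((hs_E L h3 (N' * q)).map (qExpandAlgHomC L q))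
        ↥(hs_E L h3 (N' * q * q))).fieldRange
      (fc_chart ↥O ({(hs_muE h3 (N' * q * q) - 1)⁻¹} : Set ↥(hs_E L h3 (N' * q * q))))
      (ssm_tp_P (fc_chart ↥O ({(hs_muE h3 (N' * q * q) - 1)⁻¹} :
        Set ↥(hs_E L h3 (N' * q * q)))) (s36ih_VA h3 O h3O hπ (N' * q) q))
      (ssm_tp_P (fc_chart ↥O ({(hs_muE h3 (N' * q * q) - 1)⁻¹} :
        Set ↥(hs_E L h3 (N' * q * q)))) (s36ih_VB h3 O h3O hπ N' q hq3 hqN'))
      (ssm_tp_P (fc_chart ↥O ({(hs_muE h3 (N' * q * q) - 1)⁻¹} :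
        Set ↥(hs_E L h3 (N' * q * q)))) VC) 𝔫))

include hqN' in
/-- **[L4]-Hes, layer 3**: the seam from the tower, [TP3] and the point clauses
(one call of helper3's `s36g_glue`; `ND := s36asm_normData_of_tower T`). -/
theorem s36asmh_glue_of (m D1 : ℕ) (hqm : ¬ q ∣ m)
    {VC : ValuationSubring ↥(hs_E L h3 (N' * q * q))}
    {πF : ↥(ssm_fh_V1 h3 O h3O hπ N' q)} {πV : ↥(s36ih_VV h3 O h3O hπ N' q hq3 hqN')}
    {πU : ↥(s36ih_RU h3 O h3O hπ N' q hq3 hqN')}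
    {πG : ↥(s36ih_RG h3 O h3O hπ (N' * q) q hq3)}
    {zC zC' tB tA : ↥(hs_E L h3 (N' * q * q))} {rB : ↥(s36ih_VV h3 O h3O hπ N' q hq3 hqN')}
    {rA : ↥(s36ih_RG h3 O h3O hπ (N' * q) q hq3)}
    (T : s36asmh_Tower h3 O h3O hπ N' q hq3 hqN' VC πF πV πU πG zC zC' tB tA rB rA)
    (H : s36tp_Hyp (algebraMap ↥O (Algebra.adjoin ↥O
        ({hs_muE h3 (N' * q * q) - 1} : Set ↥(hs_E L h3 (N' * q * q)))) π)
      ![s36ih_VA h3 O h3O hπ (N' * q) q, s36ih_VB h3 O h3O hπ N' q hq3 hqN', VC]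
      ![1, 1, q - 1])
    (P : s36asmh_Pts h3 O h3O hπ N' q hq3 hqN' VC D1) :
    s36asmh_Glue h3 O h3O hπ N' q hq3 hqN' VC m (q ^ 2 * D1 * q) := by
  letI := ssm_gi_algebra (ssm_alh_E_le L h3 (ssm_fh_hF9 h3) (N' * q) q)
  letI := ssm_gi_algebra (ssm_alh_E_beta_le L h3 (ssm_fh_hF9 h3) (N' * q) q hq3)
  letI := ssm_gi_algebraV (ssm_alh_E_le L h3 (ssm_fh_hF9 h3) (N' * q) q)
    (ssm_fh_V1 h3 O h3O hπ N' q)
  letI := ssm_gi_algebraV (ssm_alh_E_le L h3 (ssm_fh_hF9 h3) (N' * q) q)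
    (s36ih_VV h3 O h3O hπ N' q hq3 hqN')
  letI := ssm_gi_algebraV (ssm_alh_E_beta_le L h3 (ssm_fh_hF9 h3) (N' * q) q hq3)
    (s36ih_RU h3 O h3O hπ N' q hq3 hqN')
  letI := ssm_gi_algebraV (ssm_alh_E_beta_le L h3 (ssm_fh_hF9 h3) (N' * q) q hq3)
    (s36ih_RG h3 O h3O hπ (N' * q) q hq3)
  haveI := ssm_gi_isScalarTower (ssm_alh_E_le L h3 (ssm_fh_hF9 h3) (N' * q) q)
    (ssm_fh_V1 h3 O h3O hπ N' q)
  haveI := ssm_gi_isScalarTower (ssm_alh_E_le L h3 (ssm_fh_hF9 h3) (N' * q) q)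
    (s36ih_VV h3 O h3O hπ N' q hq3 hqN')
  haveI := ssm_gi_isScalarTower (ssm_alh_E_beta_le L h3 (ssm_fh_hF9 h3) (N' * q) q hq3)
    (s36ih_RU h3 O h3O hπ N' q hq3 hqN')
  haveI := ssm_gi_isScalarTower (ssm_alh_E_beta_le L h3 (ssm_fh_hF9 h3) (N' * q) q hq3)
    (s36ih_RG h3 O h3O hπ (N' * q) q hq3)
  haveI := ssm_gi_isScalarTower_base (ssm_alh_E_le L h3 (ssm_fh_hF9 h3) (N' * q) q)
  haveI := ssm_gi_isScalarTower_base (ssm_alh_E_beta_le L h3 (ssm_fh_hF9 h3) (N' * q) q hq3)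
  have hT : s36at_Tower (K1 := ↥(hs_E L h3 (N' * q)))
      (K2 := ↥((hs_E L h3 (N' * q)).map (qExpandAlgHomC L q)))
      O (π : L) q (s36ih_VA h3 O h3O hπ (N' * q) q) (s36ih_VB h3 O h3O hπ N' q hq3 hqN') VC
      πF πV πU πG zC zC' tB tA rB rA := T
  have hq1 : q - 1 + 1 = q := Nat.sub_add_cancel hq.out.one_le
  haveI : FiniteDimensional ↥(hs_E L h3 (N' * q)) ↥(hs_E L h3 (N' * q * q)) :=
    ssm_gi_finiteDimensional (n := q - 1) (by rw [hq1]; exact hT.side1.finrank_eq)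
  haveI : FiniteDimensional ↥((hs_E L h3 (N' * q)).map (qExpandAlgHomC L q))
      ↥(hs_E L h3 (N' * q * q)) :=
    ssm_gi_finiteDimensional (n := q - 1) (by rw [hq1]; exact hT.side2.finrank_eq)
  haveI : Algebra.IsSeparable ↥(hs_E L h3 (N' * q)) ↥(hs_E L h3 (N' * q * q)) :=
    ssm_gi_isSeparable
  haveI : Algebra.IsSeparable ↥((hs_E L h3 (N' * q)).map (qExpandAlgHomC L q))
      ↥(hs_E L h3 (N' * q * q)) := ssm_gi_isSeparable
  haveI := ssm_go_isScalarTower O (hs_E L h3 (N' * q * q))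
  haveI : FiniteDimensional L⟮(hs_muE h3 (N' * q * q) - 1 : hs_E L h3 (N' * q * q))⟯
      ↥(hs_E L h3 (N' * q * q)) := ssm_hl_finite L h3 (N' * q * q)
  haveI := s36asmh_chart_isFractionRing h3 O (N' * q * q)
  haveI := s36asmh_chart_inv_isFractionRing h3 O (N' * q * q)
  have hx : Transcendental L (hs_muE h3 (N' * q * q) - 1 : hs_E L h3 (N' * q * q)) :=
    ssm_hl_transcendental L h3 (N' * q * q)
  have he : ∀ i : Fin 3, (![1, 1, q - 1] : Fin 3 → ℕ) i ≤ q := by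
    intro i
    have := hq.out.one_le
    fin_cases i
    · exact this
    · exact this
    · exact Nat.sub_le q 1
  exact s36g_glue O hπ hx (ssm_hl_hconst L h3 (N' * q * q)) hq.out (s36asm_pi_dvd_q O hπ q) H he
    (s36asm_normData_of_tower hT) D1 P.1 P.2 (s36asm_isUnit_of_not_dvd O q m hqm)

end Hesse

section NFH

variable (N' q : ℕ) [NeZero N'] [NeZero q] [hq : Fact q.Prime] (hq3 : ¬ 3 ∣ q) (hqN' : ¬ q ∣ N')

/-- **THE REFINED LIST OF LEAVES, Hesse** (independent of `m`), context [NF2H-CTX]. -/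
def s36asmh_Leaves2 (D1 : ℕ) : Prop :=
  ∀ (L : Type) [Field L] [NumberField L] [Algebra L (AlgebraicClosure ℚ)] (h3 : (3 : L) ≠ 0)
    (O : ValuationSubring L) [IsDiscreteValuationRing O] (h3O : IsUnit (3 : O))
    [CharP (ResidueField O) q] (hπ : Irreducible ((q : ℕ) : ↥O))
    (ζ : L) (hζ : IsPrimitiveRoot ζ (3 * N')),
    ∃ (VC : ValuationSubring ↥(hs_E L h3 (N' * q * q)))
      (πF : ↥(ssm_fh_V1 h3 O h3O hπ N' q)) (πV : ↥(s36ih_VV h3 O h3O hπ N' q hq3 hqN'))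
      (πU : ↥(s36ih_RU h3 O h3O hπ N' q hq3 hqN'))
      (πG : ↥(s36ih_RG h3 O h3O hπ (N' * q) q hq3))
      (zC zC' tB tA : ↥(hs_E L h3 (N' * q * q))) (rB : ↥(s36ih_VV h3 O h3O hπ N' q hq3 hqN'))
      (rA : ↥(s36ih_RG h3 O h3O hπ (N' * q) q hq3)),
      s36asmh_Tower h3 O h3O hπ N' q hq3 hqN' VC πF πV πU πG zC zC' tB tA rB rA ∧
      s36tp_Hyp (algebraMap ↥O (Algebra.adjoin ↥O
          ({hs_muE h3 (N' * q * q) - 1} : Set ↥(hs_E L h3 (N' * q * q)))) ((q : ℕ) : ↥O))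
        ![s36ih_VA h3 O h3O hπ (N' * q) q, s36ih_VB h3 O h3O hπ N' q hq3 hqN', VC]
        ![1, 1, q - 1] ∧
      s36asmh_Pts h3 O h3O hπ N' q hq3 hqN' VC D1

/-- the refined leaves give the leaves of `AsmHesTower.lean` with the seam exponent `q² · D1 · q`. -/
theorem s36asmh_leaves_of (D1 : ℕ) (H : s36asmh_Leaves2 N' q hq3 hqN' D1) :
    s36asmh_Leaves N' q hq3 hqN' (q ^ 2 * D1 * q) := by
  intro L _ _ _ h3 O _ h3O _ hπ ζ hζ m hqm hζm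
  obtain ⟨VC, πF, πV, πU, πG, zC, zC', tB, tA, rB, rA, T, H3, P⟩ := H L h3 O h3O hπ ζ hζ
  exact ⟨VC, πF, πV, πU, πG, zC, zC', tB, tA, rB, rA, T,
    s36asmh_glue_of h3 O h3O hπ N' q hq3 hqN' m D1 hqm T H3 P⟩

/-- **[L4]-Hes**: the refined leaves ⟹ `s36h_CoreNF N' q hq3`. -/
theorem s36asmh_coreNF_of2 (D1 : ℕ) (hD1 : D1 ≠ 0) (H : s36asmh_Leaves2 N' q hq3 hqN' D1) :
    s36h_CoreNF N' q hq3 :=
  s36asmh_coreNF_of N' q hq3 hqN' (q ^ 2 * D1 * q)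
    (mul_ne_zero (mul_ne_zero (pow_ne_zero 2 hq.out.ne_zero) hD1) hq.out.ne_zero)
    (s36asmh_leaves_of N' q hq3 hqN' D1 H)

end NFH

section Two

/-- **[L4]-Hes at `q = 2`** (= (C-H) of `S36/FinalTwo.lean`). -/
theorem s36asmh_coreNF_two_of2 (N' : ℕ) [NeZero N'] (h2N' : ¬ 2 ∣ N') (D1 : ℕ) (hD1 : D1 ≠ 0)
    (H : haveI : Fact (Nat.Prime 2) := ⟨Nat.prime_two⟩
      s36asmh_Leaves2 N' 2 s36_not_three_dvd_two h2N' D1) :
    s36h_CoreNF N' 2 s36_not_three_dvd_two :=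
  haveI : Fact (Nat.Prime 2) := ⟨Nat.prime_two⟩
  s36asmh_coreNF_of2 N' 2 s36_not_three_dvd_two h2N' D1 hD1 H

end Two

end Fermat.Agent.S36
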