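/-
Project S36 (Carayol), cell [M2], layer [L4]-Hes, THE POINT SIDE OF THE HESSE LAST MILE (helper12,
Hesse coordinator).  Prefix `s36mhf_`.

Context [NF2H-CTX] (number field `L ∋ ζ_{3N'}`, `O` a DVR of `L` with uniformiser `q`), AT `q = 2`
(hypothesis `he : q - 1 = 1`): the middle component `C` is reduced, so every closed point of the
special fibre of the charts `B_x`, `B_{x⁻¹}` (`x = hs_muE h3 (N' q q) - 1`) lying on ONE component
only is a smooth point (`s36cph_nf_one`, `s36cph_nf_oneC`), no two components meet at infinity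
(`s36ig_noCusp_inf`), and the points on two components are the triple points ([L3d]-Hes).

* `s36mhf_PtsT`   : the two-component clause on the chart `B_x` (= the target of [L3d]-Hes; the first
  half of the Hesse twin of helper1's `s36asm_PtsT`);
* `s36mhf_pts_of` : helper8's third-valuation package `s36t3h_Third`, helper29's integrality package
  `s36ig_Facts`, the `W₂`-stability of the two charts and `s36mhf_PtsT` ⟹ helper1's
  `s36asmh_Pts … VC D1` (any `D1`: there is no weak point).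
-/
import Mathlib
import Fermat.Agent.S36.Model.AsmHesTowerGlue
import Fermat.Agent.S36.Model.DispatchAbs
import Fermat.Agent.S36.Model.PtsABHes
import Fermat.Agent.S36.Model.ThreeHes

set_option autoImplicit false
set_option linter.unusedSectionVars false
set_option linter.unusedVariables false
set_option linter.style.haveILetI false
set_option maxHeartbeats 1000000

noncomputable section

open ModularCurve AlgebraicCurve IntermediateField IsLocalRing Polynomial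
open Fermat.Agent.JT3 Fermat.Agent.SS Fermat.Agent.S35

namespace Fermat.Agent.S36

section Hesse

variable {L : Type*} [Field L] [CharZero L] [Algebra L (AlgebraicClosure ℚ)] (h3 : (3 : L) ≠ 0)
  (O : ValuationSubring L) [IsDiscreteValuationRing O] (h3O : IsUnit (3 : O)) {π : O}
  (hπ : Irreducible π)
variable (N' q : ℕ) [NeZero N'] [NeZero q] [hq : Fact q.Prime] [CharP (ResidueField O) q]
  (hq3 : ¬ 3 ∣ q) (hqN' : ¬ q ∣ N')

/-- **the two-component clause on the chart `B_x`** ([L3d]-Hes): every closed point of the special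
fibre lying on two of the three components is a TRIPLE point (`N_i := s36at_N`,
`K_i' := fieldRange`, as in helper1's `s36asmh_Pts`). -/
def s36mhf_PtsT (VC : ValuationSubring ↥(hs_E L h3 (N' * q * q))) : Prop :=
  letI := ssm_gi_algebra (ssm_alh_E_le L h3 (ssm_fh_hF9 h3) (N' * q) q)
  letI := ssm_gi_algebra (ssm_alh_E_beta_le L h3 (ssm_fh_hF9 h3) (N' * q) q hq3)
  ∀ (𝔫 : Ideal (fc_chart ↥O ({hs_muE h3 (N' * q * q) - 1} : Set ↥(hs_E L h3 (N' * q * q)))))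
    (h𝔫 : 𝔫.IsMaximal),
    algebraMap ↥O (fc_chart ↥O ({hs_muE h3 (N' * q * q) - 1} : Set ↥(hs_E L h3 (N' * q * q)))) π ∈ 𝔫 →
    ((ssm_tp_P (fc_chart ↥O ({hs_muE h3 (N' * q * q) - 1} : Set ↥(hs_E L h3 (N' * q * q)))) (s36ih_VA h3 O h3O hπ (N' * q) q) ≤ 𝔫 ∧
          ssm_tp_P (fc_chart ↥O ({hs_muE h3 (N' * q * q) - 1} : Set ↥(hs_E L h3 (N' * q * q)))) (s36ih_VB h3 O h3O hπ N' q hq3 hqN') ≤ 𝔫) ∨
        (ssm_tp_P (fc_chart ↥O ({hs_muE h3 (N' * q * q) - 1} : Set ↥(hs_E L h3 (N' * q * q)))) (s36ih_VA h3 O h3O hπ (N' * q) q) ≤ 𝔫 ∧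
          ssm_tp_P (fc_chart ↥O ({hs_muE h3 (N' * q * q) - 1} : Set ↥(hs_E L h3 (N' * q * q)))) VC ≤ 𝔫) ∨
        (ssm_tp_P (fc_chart ↥O ({hs_muE h3 (N' * q * q) - 1} : Set ↥(hs_E L h3 (N' * q * q)))) (s36ih_VB h3 O h3O hπ N' q hq3 hqN') ≤ 𝔫 ∧
          ssm_tp_P (fc_chart ↥O ({hs_muE h3 (N' * q * q) - 1} : Set ↥(hs_E L h3 (N' * q * q)))) VC ≤ 𝔫)) →
    (haveI := s36asmh_chart_isFractionRing h3 O (N' * q * q)
     haveI := h𝔫.isPrime
     s36g_PtTri π (q - 1) (s36at_N ↥(hs_E L h3 (N' * q)))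
        (s36at_N ↥((hs_E L h3 (N' * q)).map (qExpandAlgHomC L q)))
        (algebraMap ↥(hs_E L h3 (N' * q)) ↥(hs_E L h3 (N' * q * q))).fieldRange
        (algebraMap ↥((hs_E L h3 (N' * q)).map (qExpandAlgHomC L q))
          ↥(hs_E L h3 (N' * q * q))).fieldRange
        (fc_chart ↥O ({hs_muE h3 (N' * q * q) - 1} : Set ↥(hs_E L h3 (N' * q * q))))
        (ssm_tp_P (fc_chart ↥O ({hs_muE h3 (N' * q * q) - 1} : Set ↥(hs_E L h3 (N' * q * q)))) (s36ih_VA h3 O h3O hπ (N' * q) q))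
        (ssm_tp_P (fc_chart ↥O ({hs_muE h3 (N' * q * q) - 1} : Set ↥(hs_E L h3 (N' * q * q)))) (s36ih_VB h3 O h3O hπ N' q hq3 hqN'))
        (ssm_tp_P (fc_chart ↥O ({hs_muE h3 (N' * q * q) - 1} : Set ↥(hs_E L h3 (N' * q * q)))) VC) 𝔫)

end Hesse

section NF

variable (L : Type) [Field L] [NumberField L] [Algebra L (AlgebraicClosure ℚ)]
  (h3 : (3 : L) ≠ 0) (O : ValuationSubring L) [IsDiscreteValuationRing O]
  (h3O : IsUnit (3 : O))
variable (N' q : ℕ) [NeZero N'] [NeZero q] [hq : Fact q.Prime] [CharP (ResidueField O) q]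
  (hq3 : ¬ 3 ∣ q) (hqN' : ¬ q ∣ N') (hπ : Irreducible ((q : ℕ) : ↥O))
  (ζ : L) (hζ : IsPrimitiveRoot ζ (3 * N'))

include hζ in
set_option synthInstance.maxHeartbeats 200000 in
set_option maxHeartbeats 3200000 in
/-- **(P-H), the Hesse point dispatch at `q = 2`**: helper1's `s36asmh_Pts`. -/
theorem s36mhf_pts_of (he : q - 1 = 1) {VC : ValuationSubring ↥(hs_E L h3 (N' * q * q))}
    (T : s36t3h_Third h3 O h3O hπ N' q hq3 VC)
    {x1 x2 : ↥(hs_E L h3 (N' * q * q))} {c : ℤ[X]}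
    (F : s36ig_Facts ↥O q (hs_muE h3 (N' * q * q) - 1) x1 x2 c
      (s36ih_VA h3 O h3O hπ (N' * q) q) (s36ih_VB h3 O h3O hπ N' q hq3 hqN') VC)
    (hWB1 : ∀ b ∈ fc_chart ↥O ({hs_muE h3 (N' * q * q) - 1} : Set ↥(hs_E L h3 (N' * q * q))),
      s36ih_W2 h3 N' q hq3 hqN' b ∈
        fc_chart ↥O ({hs_muE h3 (N' * q * q) - 1} : Set ↥(hs_E L h3 (N' * q * q))))
    (hWB2 : ∀ b ∈ fc_chart ↥O ({(hs_muE h3 (N' * q * q) - 1)⁻¹} : Set ↥(hs_E L h3 (N' * q * q))),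
      s36ih_W2 h3 N' q hq3 hqN' b ∈
        fc_chart ↥O ({(hs_muE h3 (N' * q * q) - 1)⁻¹} : Set ↥(hs_E L h3 (N' * q * q))))
    (PT : s36mhf_PtsT h3 O h3O hπ N' q hq3 hqN' VC) (D1 : ℕ) :
    s36asmh_Pts h3 O h3O hπ N' q hq3 hqN' VC D1 := by
  obtain ⟨hprime1, -, -, -, -, -⟩ := s36cph_nf_pkg L h3 O N' q hq3 hqN' hπ ζ hζ
  have H := s36t3h_hyp h3 O h3O hπ N' q hq3 hqN' hprime1 T
  have he2 : (![1, 1, q - 1] : Fin 3 → ℕ) 2 = 1 := he
  obtain ⟨a1, a2, a3, a4⟩ :=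
    s36cph_nf_one L h3 O h3O N' q hq3 hqN' hπ ζ hζ H rfl rfl hWB1 hWB2
  obtain ⟨c1, c2⟩ := s36cph_nf_oneC L h3 O h3O N' q hq3 hqN' hπ ζ hζ H rfl rfl he2
    (s36t3h_VC_iff h3 O h3O hπ N' q hq3 T) (s36t3h_resC h3 O h3O hπ N' q hq3 hqN' T)
  letI := ssm_gi_algebra (ssm_alh_E_le L h3 (ssm_fh_hF9 h3) (N' * q) q)
  letI := ssm_gi_algebra (ssm_alh_E_beta_le L h3 (ssm_fh_hF9 h3) (N' * q) q hq3)
  haveI := ssm_go_isScalarTower O (hs_E L h3 (N' * q * q))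
  haveI : FiniteDimensional L⟮(hs_muE h3 (N' * q * q) - 1 : ↥(hs_E L h3 (N' * q * q)))⟯
      ↥(hs_E L h3 (N' * q * q)) := ssm_glh_finite h3 (N' * q * q)
  haveI := s36asmh_chart_isFractionRing h3 O (N' * q * q)
  haveI := s36asmh_chart_inv_isFractionRing h3 O (N' * q * q)
  have hx : Transcendental L (hs_muE h3 (N' * q * q) - 1 : ↥(hs_E L h3 (N' * q * q))) :=
    ssm_sgm_transcendental h3 (N' * q * q)
  refine ⟨?_, ?_⟩
  · exact s36dh_pts O hπ hx H (q - 1) D1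
      (fun 𝔫 h𝔫 h1 h2 h3' => a1 𝔫 h𝔫 h1 h2 h3') (fun 𝔫 h𝔫 h1 h2 h3' => a2 𝔫 h𝔫 h1 h2 h3')
      (fun 𝔫 h𝔫 h1 h2 h3' => Or.inl (c1 𝔫 h𝔫 h1 h2 h3')) PT
  · exact s36dh_inf O hπ hx H F (q - 1) D1
      (fun 𝔫 h𝔫 h1 h2 h3' => a3 𝔫 h𝔫 h1 h2 h3') (fun 𝔫 h𝔫 h1 h2 h3' => a4 𝔫 h𝔫 h1 h2 h3')
      (fun 𝔫 h𝔫 h1 h2 h3' => Or.inl (c2 𝔫 h𝔫 h1 h2 h3'))

end NF

end Fermat.Agent.S36
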