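/-
Project S36, cell [M2] (the three-component model at level `N' q²`), leaf **[CF2]-Hes** (helper12):
CUSP FACTS AT LEVEL `M q` WITH `q ∣ M` FOR THE HESSE TOWER (Hesse twin of helper23's
`S36/Model/Cusps2.lean`, itself the twin of `SS/Model/CuspsHesse.lean`).  Prefix `s36mch_`.

`E₂ = hs_E L h3 (M q) ⊆ L((X))`, `q ∣ M` a prime `≠ 3` (in the application `q = 2`), `m₀ = μ`,
`m₁ = μ(X^q)`, `m₂ = μ(X^(q²))`.  For every place `c` of `E₂ / L` and
`u ∈ {μ - 1, μ² + μ + 1, μ⁻¹}` the zeros of `u(m₀)`, `u(m₁)`, `u(m₂)` are the same places, with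
order ratios in `[1/q, q]` for neighbours and `[1/q², q²]` for `(m₀, m₂)`.

Proof: `(m₀, m₁)` is `ssm_cfh_final` at level `M q`; `(m₁, m₂)` is `ssm_cfh_final` at level `M`
transported along `β : hs_E L h3 M → hs_E L h3 (M q)`, `f(X) ↦ f(X^q)` (restriction of places).

* `s36mch_cuspFacts_map`, `s36mch_cuspFacts_trans` : transport / composition of
  `ssm_cfh_CuspFacts`;
* `s36mch_beta`, `s36mch_beta_isIntegral` : `β : hs_E L h3 M →ₐ[L] hs_E L h3 (M q)`;
* `s36mch_cuspFacts01`, `s36mch_cuspFacts12`, `s36mch_cuspFacts02`.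
-/
import Mathlib
import Fermat.Agent.S36.Model.Cusps2
import Fermat.Agent.SS.Model.FactsHesse

set_option autoImplicit false
set_option linter.unusedSectionVars false
set_option linter.style.haveILetI false

noncomputable section

open AlgebraicCurve IntermediateField ModularCurve
open Fermat.Agent.SS Fermat.Agent.JT3 Fermat.Agent.S24

namespace Fermat.Agent.S36

section Abstract

variable {L : Type*} {E : Type*} {K1 : Type*} [Field L] [Field E] [Field K1] [Algebra L E]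
  [Algebra L K1] [Algebra K1 E] [IsScalarTower L K1 E] [Algebra.IsIntegral K1 E]

/-- Transport of the Hesse package along an integral extension. -/
theorem s36mch_cuspFacts_map (q : ℕ) {mu muq : K1} (h : ssm_cfh_CuspFacts L q mu muq) :
    ssm_cfh_CuspFacts L q (algebraMap K1 E mu) (algebraMap K1 E muq) where
  one := by
    have := s36mc_zeroPair_map (E := E) q h.one
    rwa [map_sub, map_sub, map_one] at this
  one' := by
    have := s36mc_zeroPair_map (E := E) q h.one'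
    rwa [map_sub, map_sub, map_one] at this
  cyc := by
    have := s36mc_zeroPair_map (E := E) q h.cyc
    rwa [map_add, map_add, map_add, map_add, map_pow, map_pow, map_one] at this
  cyc' := by
    have := s36mc_zeroPair_map (E := E) q h.cyc'
    rwa [map_add, map_add, map_add, map_add, map_pow, map_pow, map_one] at this
  inf := by
    have := s36mc_zeroPair_map (E := E) q h.inf
    rwa [map_inv₀, map_inv₀] at this
  inf' := by
    have := s36mc_zeroPair_map (E := E) q h.inf'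
    rwa [map_inv₀, map_inv₀] at this

omit [Field K1] [Algebra L K1] [Algebra K1 E] [IsScalarTower L K1 E] [Algebra.IsIntegral K1 E] in
/-- Composition of the Hesse packages. -/
theorem s36mch_cuspFacts_trans (q q' : ℕ) {m0 m1 m2 : E} (h : ssm_cfh_CuspFacts L q m0 m1)
    (h' : ssm_cfh_CuspFacts L q' m1 m2) : ssm_cfh_CuspFacts L (q * q') m0 m2 where
  one := s36mc_zeroPair_trans q q' h.one h'.one
  one' := by
    have := s36mc_zeroPair_trans q' q h'.one' h.one'
    rwa [mul_comm] at this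
  cyc := s36mc_zeroPair_trans q q' h.cyc h'.cyc
  cyc' := by
    have := s36mc_zeroPair_trans q' q h'.cyc' h.cyc'
    rwa [mul_comm] at this
  inf := s36mc_zeroPair_trans q q' h.inf h'.inf
  inf' := by
    have := s36mc_zeroPair_trans q' q h'.inf' h.inf'
    rwa [mul_comm] at this

end Abstract

section Inst

variable (L : Type*) [Field L] [CharZero L] [Algebra L (AlgebraicClosure ℚ)] (h3 : (3 : L) ≠ 0)
  (M q : ℕ) [NeZero M] [NeZero q]

/-- `β : hs_E L h3 M → hs_E L h3 (M q)`, `f(X) ↦ f(X^q)` (`q` prime to `3`). -/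
def s36mch_beta (hq3 : ¬ 3 ∣ q) : ↥(hs_E L h3 M) →ₐ[L] ↥(hs_E L h3 (M * q)) where
  toFun x := ⟨qExpand L q (x : LaurentSeries L),
    ssm_f9_E_map_le L h3 (M * q) dvd_rfl hq3 ⟨(x : LaurentSeries L), x.2, rfl⟩⟩
  map_one' := Subtype.ext (by simp)
  map_mul' x y := Subtype.ext (by simp)
  map_zero' := Subtype.ext (by simp)
  map_add' x y := Subtype.ext (by simp)
  commutes' c := Subtype.ext ((qExpandAlgHomC L q).commutes c)

theorem s36mch_coe_beta (hq3 : ¬ 3 ∣ q) (x : ↥(hs_E L h3 M)) :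
    ((s36mch_beta L h3 M q hq3 x : ↥(hs_E L h3 (M * q))) : LaurentSeries L) =
      qExpand L q (x : LaurentSeries L) := rfl

/-- `hs_E L h3 (M q)` is integral over `β (hs_E L h3 M)`: the algebra structure is `β`. -/
theorem s36mch_beta_isIntegral (hq3 : ¬ 3 ∣ q) :
    letI := (s36mch_beta L h3 M q hq3).toRingHom.toAlgebra
    Algebra.IsIntegral ↥(hs_E L h3 M) ↥(hs_E L h3 (M * q)) := by
  haveI : FiniteDimensional L⟮(hs_muE h3 (M * q) - 1 : hs_E L h3 (M * q))⟯
      ↥(hs_E L h3 (M * q)) := ssm_glh_finite h3 (M * q)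
  have halgx : Algebra.IsAlgebraic L⟮(hs_muE h3 (M * q) - 1 : hs_E L h3 (M * q))⟯
      ↥(hs_E L h3 (M * q)) := Algebra.IsAlgebraic.of_finite _ _
  letI : Algebra ↥(hs_E L h3 M) ↥(hs_E L h3 (M * q)) :=
    (s36mch_beta L h3 M q hq3).toRingHom.toAlgebra
  haveI : IsScalarTower L ↥(hs_E L h3 M) ↥(hs_E L h3 (M * q)) :=
    IsScalarTower.of_algebraMap_eq fun c => ((s36mch_beta L h3 M q hq3).commutes c).symm
  exact @s36mc_isIntegral_of_transcendental L _ _ _ _ _ _ _ _ _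
    (hs_muE h3 (M * q) - 1 : hs_E L h3 (M * q)) halgx (hs_muE h3 M - 1 : hs_E L h3 M)
    (ssm_sgm_transcendental h3 M)

/-- the three cusp functions at level `M q`, `q ∣ M` prime to `3` -/
theorem s36mch_mu1_mem (hq3 : ¬ 3 ∣ q) :
    qExpand L q (hs_mu L h3) ∈ hs_E L h3 (M * q) :=
  ssm_f9_mu_expand_mem L h3 (M * q) (dvd_mul_left q M) hq3

theorem s36mch_mu2_mem (hq3 : ¬ 3 ∣ q) (hqM : q ∣ M) :
    qExpand L q (qExpand L q (hs_mu L h3)) ∈ hs_E L h3 (M * q) :=
  (s36mch_beta L h3 M q hq3 ⟨qExpand L q (hs_mu L h3), ssm_f9_mu_expand_mem L h3 M hqM hq3⟩).2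

/-- **[CF2]-Hes (0,1)**: the pair `(μ, μ(X^q))` at level `M q`. -/
theorem s36mch_cuspFacts01 (hq : q.Prime) (hq3 : ¬ 3 ∣ q) :
    ssm_cfh_CuspFacts L q (hs_muE h3 (M * q) : hs_E L h3 (M * q))
      ⟨qExpand L q (hs_mu L h3), s36mch_mu1_mem L h3 M q hq3⟩ := by
  have hq3' : q ≠ 3 := by
    rintro rfl
    exact hq3 dvd_rfl
  exact ssm_cfh_final L (M * q) q hq hq3' (dvd_mul_left q M) h3 (hm3_t3 L) (ssm_f9_level3 L h3)
    (ssm_f9' L h3 (M * q)) (hs_mu_mem_E L h3 (M * q)) (s36mch_mu1_mem L h3 M q hq3)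

/-- **[CF2]-Hes (1,2)**: the pair `(μ(X^q), μ(X^(q²)))` at level `M q`, `q ∣ M`. -/
theorem s36mch_cuspFacts12 (hq : q.Prime) (hq3 : ¬ 3 ∣ q) (hqM : q ∣ M) :
    ssm_cfh_CuspFacts L q
      (⟨qExpand L q (hs_mu L h3), s36mch_mu1_mem L h3 M q hq3⟩ : hs_E L h3 (M * q))
      ⟨qExpand L q (qExpand L q (hs_mu L h3)), s36mch_mu2_mem L h3 M q hq3 hqM⟩ := by
  have hq3' : q ≠ 3 := by
    rintro rfl
    exact hq3 dvd_rfl
  letI := (s36mch_beta L h3 M q hq3).toRingHom.toAlgebra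
  haveI : IsScalarTower L ↥(hs_E L h3 M) ↥(hs_E L h3 (M * q)) :=
    IsScalarTower.of_algebraMap_eq fun c => ((s36mch_beta L h3 M q hq3).commutes c).symm
  haveI := s36mch_beta_isIntegral L h3 M q hq3
  have h := ssm_cfh_final L M q hq hq3' hqM h3 (hm3_t3 L) (ssm_f9_level3 L h3)
    (ssm_f9' L h3 M) (hs_mu_mem_E L h3 M) (ssm_f9_mu_expand_mem L h3 M hqM hq3)
  exact s36mch_cuspFacts_map (E := ↥(hs_E L h3 (M * q))) q h

/-- **[CF2]-Hes (0,2)**: the pair `(μ, μ(X^(q²)))` at level `M q`, `q ∣ M`, with ratio `q²`. -/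
theorem s36mch_cuspFacts02 (hq : q.Prime) (hq3 : ¬ 3 ∣ q) (hqM : q ∣ M) :
    ssm_cfh_CuspFacts L (q * q) (hs_muE h3 (M * q) : hs_E L h3 (M * q))
      ⟨qExpand L q (qExpand L q (hs_mu L h3)), s36mch_mu2_mem L h3 M q hq3 hqM⟩ :=
  s36mch_cuspFacts_trans q q (s36mch_cuspFacts01 L h3 M q hq hq3)
    (s36mch_cuspFacts12 L h3 M q hq hq3 hqM)

end Inst

end Fermat.Agent.S36
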