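/-
Project S36 (Carayol), cell [M2] (the three-component model at level `N' q²`), leaf **[I2]-Hes**
(helper12): the HESSE FORM of helper29's `s36ig_main` (`S36/Model/Integral2.lean`), twin of
`s36ig_main_leg` and of S34's `ssm_i1g_hesseM`.  Prefix `s36igh_`.

Coordinate `x = μ - 1`, `x₁ = μ(X^q) - 1`, `x₂ = μ(X^(q²)) - 1`, middle cusp polynomial
`c = X² + 3X + 3` (`c(μ - 1) = μ² + μ + 1`).  Inputs: the BASIC Frobenius congruences for
`(μ, μ₁, μ₂)` on the three components and the two Hesse cusp packages of [CF2]-Hes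
(`s36mch_cuspFacts01`, `s36mch_cuspFacts02`).

* `s36igh_aeval` : `aeval (y - 1) (X² + 3X + 3) = y² + y + 1`;
* `s36igh_main`  : `s36ig_Facts A0 q (μ - 1) (μ₁ - 1) (μ₂ - 1) (X² + 3X + 3) VA VB VC`.
-/
import Mathlib
import Fermat.Agent.S36.Model.Integral2
import Fermat.Agent.SS.Model.CuspsMu

set_option autoImplicit false
set_option linter.unusedSectionVars false
set_option linter.unusedVariables false
set_option linter.style.haveILetI false

namespace Fermat.Agent.S36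

open Polynomial IntermediateField Fermat.Agent.JT3 AlgebraicCurve Fermat.Agent.SS
open scoped IntermediateField.algebraAdjoinAdjoin

universe v

section Chart

variable {A0 L : Type*} {F0 : Type v} [CommRing A0] [IsDomain A0] [IsDiscreteValuationRing A0]
  [Field L] [Field F0] [Algebra A0 L] [IsFractionRing A0 L] [Algebra L F0] [Algebra A0 F0]
  [IsScalarTower A0 L F0]

omit [CommRing A0] [IsDomain A0] [IsDiscreteValuationRing A0] [Field L] [Algebra A0 L]
  [IsFractionRing A0 L] [Algebra L F0] [Algebra A0 F0] [IsScalarTower A0 L F0] in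
/-- `c(y - 1) = y² + y + 1` for `c = X² + 3X + 3`. -/
theorem s36igh_aeval (y : F0) :
    aeval (y - 1) (X ^ 2 + 3 * X + 3 : ℤ[X]) = y ^ 2 + y + 1 := by
  simp only [map_add, map_mul, map_pow, aeval_X, map_ofNat]
  ring

/-- **[I2], Hesse form** (`x = μ - 1`, `c = X² + 3X + 3`): from the BASIC Frobenius congruences for
`(μ, μ₁, μ₂)` and the two `ssm_cfh_CuspFacts` of [CF2]-Hes. -/
theorem s36igh_main [CharZero L] {π : A0} (hπ : Irreducible π) {mu mu1 mu2 : F0}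
    (hx : Transcendental L (mu - 1)) [FiniteDimensional L⟮mu - 1⟯ F0]
    {VA VB VC : ValuationSubring F0}
    (oA : ssm_tp_Over (algebraMap A0 (Algebra.adjoin A0 ({mu - 1} : Set F0)) π) VA)
    (oB : ssm_tp_Over (algebraMap A0 (Algebra.adjoin A0 ({mu - 1} : Set F0)) π) VB)
    (oC : ssm_tp_Over (algebraMap A0 (Algebra.adjoin A0 ({mu - 1} : Set F0)) π) VC)
    (hsemi : s36ig_Semi (algebraMap A0 (Algebra.adjoin A0 ({mu - 1} : Set F0)) π) VA VB VC)
    (hsemi' : s36ig_Semi (algebraMap A0 (Algebra.adjoin A0 ({(mu - 1)⁻¹} : Set F0)) π) VA VB VC)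
    (q : ℕ) [hq : Fact q.Prime]
    (hqA : (q : F0) ∈ VA.nonunits) (hqB : (q : F0) ∈ VB.nonunits) (hqC : (q : F0) ∈ VC.nonunits)
    (hA1 : mu1 - mu ^ q ∈ VA.nonunits) (hA2 : mu2 - mu1 ^ q ∈ VA.nonunits)
    (hB1 : mu - mu1 ^ q ∈ VB.nonunits) (hB2 : mu1 - mu2 ^ q ∈ VB.nonunits)
    (hC1 : mu1 - mu ^ q ∈ VC.nonunits) (hC2 : mu1 - mu2 ^ q ∈ VC.nonunits)
    (cf01 : ssm_cfh_CuspFacts L q mu mu1) (cf02 : ssm_cfh_CuspFacts L (q * q) mu mu2) :
    s36ig_Facts A0 q (mu - 1) (mu1 - 1) (mu2 - 1) (X ^ 2 + 3 * X + 3) VA VB VC := by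
  have hq0 : q ≠ 0 := hq.out.ne_zero
  have hxA : Transcendental A0 (mu - 1) := fc_ff_transcendental (L := L) hx
  have hmon : (X ^ 2 + 3 * X + 3 : ℤ[X]).Monic := by monicity!
  -- `μ ∈ V` for the three
  have hmu : ∀ {V : ValuationSubring F0},
      ssm_tp_Over (algebraMap A0 (Algebra.adjoin A0 ({mu - 1} : Set F0)) π) V → mu ∈ V := by
    intro V oV
    have hl := ssm_i1_linear_not_mem hπ hxA oV 0
    rw [map_zero, sub_zero] at hl
    have : mu = (mu - 1) + 1 := by ring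
    rw [this]; exact V.add_mem _ _ hl.1 V.one_mem
  -- `a - b^q ∈ 𝔪`, `b ∈ V` ⟹ `a ∈ V`
  have hup : ∀ (V : ValuationSubring F0) {a b : F0}, b ∈ V → a - b ^ q ∈ V.nonunits → a ∈ V := by
    intro V a b hb h
    have : a = b ^ q + (a - b ^ q) := by ring
    rw [this]
    exact V.add_mem _ _ (V.pow_mem hb q) (V.nonunits_subset h)
  -- `a - b^q ∈ 𝔪`, `a ∈ V` ⟹ `b ∈ V`
  have hdown : ∀ (V : ValuationSubring F0) {a b : F0}, a ∈ V → a - b ^ q ∈ V.nonunits → b ∈ V := by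
    intro V a b ha h
    refine s36ig_mem_of_pow_mem V hq0 ?_
    have : b ^ q = a - (a - b ^ q) := by ring
    rw [this]
    exact V.toSubring.sub_mem ha (V.nonunits_subset h)
  have hA0 := hmu oA
  have hB0 := hmu oB
  have hC0 := hmu oC
  have hA1m : mu1 ∈ VA := hup VA hA0 hA1
  have hA2m : mu2 ∈ VA := hup VA hA1m hA2
  have hB1m : mu1 ∈ VB := hdown VB hB0 hB1
  have hB2m : mu2 ∈ VB := hdown VB hB1m hB2
  have hC1m : mu1 ∈ VC := hup VC hC0 hC1
  have hC2m : mu2 ∈ VC := hdown VC hC1m hC2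
  refine s36ig_main hπ hx oA oB oC hsemi hsemi' q hqA hqB hqC
    (ssm_i1_frob_sub_one VA hq.out hqA hA1m hA0 hA1)
    (ssm_i1_frob_sub_one VA hq.out hqA hA2m hA1m hA2)
    (ssm_i1_frob_sub_one VB hq.out hqB hB0 hB1m hB1)
    (ssm_i1_frob_sub_one VB hq.out hqB hB1m hB2m hB2)
    (ssm_i1_frob_sub_one VC hq.out hqC hC1m hC0 hC1)
    (ssm_i1_frob_sub_one VC hq.out hqC hC1m hC2m hC2)
    (X ^ 2 + 3 * X + 3) hmon cf01.one' cf01.xinf' cf02.one cf02.one' ?_ ?_ cf02.xinf cf02.xinf'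
  · rw [s36igh_aeval, s36igh_aeval]; exact cf02.cyc
  · rw [s36igh_aeval, s36igh_aeval]; exact cf02.cyc'

end Chart

end Fermat.Agent.S36
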