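/-
Project S36 (Carayol), cell [M2], leaf [V3-ASM]-Hes, part B (helper8; prefix `s36t3h_`): THE
INTEGRALITY PACKAGE `s36ig_Facts` OF THE TOP LEVEL OF THE HESSE TOWER and the one-line package.

Context [HES-CTX]; `μ = hs_muE h3 (N' q q)`, `μ₁ = μ(X^q)`, `μ₂ = μ(X^{q q})` in
`E₂ = hs_E L h3 (N' q q)` (`s36t3h_mu1`, `s36t3h_mu2` = the second arguments of helper12's
`s36mch_cuspFacts01/02` at `M = N' q`), `x = μ - 1`, `VA`, `VB = W₂(VA)`, `VC` a third valuation with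
`T : s36t3h_Third … VC` (S36/Model/ThreeHes.lean).

* `s36t3h_W2_mu`, `s36t3h_W2_mu1`, `s36t3h_W2_mu2` : `W₂ μ = μ₂`, `W₂ μ₁ = μ₁`, `W₂ μ₂ = μ`;
* `s36t3h_frobA1`, `s36t3h_frobA2`, `s36t3h_frobB1`, `s36t3h_frobB2`, `s36t3h_frobC1`,
  `s36t3h_frobC2` : the six BASIC Frobenius congruences for `(μ, μ₁, μ₂)` on `A`, `B`, `C`;
* `s36t3h_facts` : **`s36ig_Facts ↥O q (μ - 1) (μ₁ - 1) (μ₂ - 1) (X² + 3X + 3) VA VB VC`**
  (helper12's `s36igh_main`);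
* `s36t3h_mu2_sub_one` : `μ₂ - 1 = s36ih_x2`;
* `s36t3h_main` : **the package** `∃ VC, Third ∧ [TP3] ∧ hVC ∧ hresC ∧ W₂ VC = VC ∧ Facts`.
-/
import Mathlib
import Fermat.Agent.S36.Model.ThreeHes
import Fermat.Agent.S36.Model.Integral2Hes
import Fermat.Agent.S36.Model.Cusps2Hes

set_option autoImplicit false
set_option linter.unusedSectionVars false
set_option linter.unusedVariables false
set_option linter.style.haveILetI false

noncomputable section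

open ModularCurve IntermediateField IsLocalRing Polynomial
open Fermat.Agent.JT3 Fermat.Agent.SS

namespace Fermat.Agent.S36

section ThreeHesB

variable {L : Type*} [Field L] [CharZero L] [Algebra L (AlgebraicClosure ℚ)] (h3 : (3 : L) ≠ 0)
  (O : ValuationSubring L) [IsDiscreteValuationRing O] (h3O : IsUnit (3 : O)) {π : O}
  (hπ : Irreducible π)
variable (N' q : ℕ) [NeZero N'] [NeZero q] [hq : Fact q.Prime] [CharP (ResidueField O) q]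
  (hq3 : ¬ 3 ∣ q) (hqN' : ¬ q ∣ N')

/-- `μ₁ = μ(X^q) ∈ E₂`. -/
def s36t3h_mu1 : ↥(hs_E L h3 (N' * q * q)) :=
  ⟨qExpand L q (hs_mu L h3), s36mch_mu1_mem L h3 (N' * q) q hq3⟩

/-- `μ₂ = μ(X^{q q}) ∈ E₂`. -/
def s36t3h_mu2 : ↥(hs_E L h3 (N' * q * q)) :=
  ⟨qExpand L q (qExpand L q (hs_mu L h3)),
    s36mch_mu2_mem L h3 (N' * q) q hq3 (dvd_mul_left q N')⟩

/-- `μ₂ - 1 = x₂`. -/
theorem s36t3h_mu2_sub_one : s36t3h_mu2 h3 N' q hq3 - 1 = s36ih_x2 h3 N' q hq3 := by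
  apply Subtype.ext
  show qExpand L q (qExpand L q (hs_mu L h3)) - 1 = qExpand L q (qExpand L q (hs_mu L h3 - 1))
  rw [map_sub, map_sub, map_one, map_one]

/-- `W₂ μ₂ = μ`. -/
theorem s36t3h_W2_mu2 :
    s36ih_W2 h3 N' q hq3 hqN' (s36t3h_mu2 h3 N' q hq3) = hs_muE h3 (N' * q * q) :=
  Subtype.ext (s36w_h_coe_WE_mu_top L h3 (ssm_fh_hF9 h3) N' q hq.out hq3 hqN' _)

/-- `W₂ μ = μ₂`. -/
theorem s36t3h_W2_mu :
    s36ih_W2 h3 N' q hq3 hqN' (hs_muE h3 (N' * q * q)) = s36t3h_mu2 h3 N' q hq3 := by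
  rw [← s36t3h_W2_mu2 h3 N' q hq3 hqN']
  exact s36w_h_WE_WE L h3 (ssm_fh_hF9 h3) N' q hq.out hq3 hqN' _

/-- `W₂ μ₁ = μ₁`. -/
theorem s36t3h_W2_mu1 :
    s36ih_W2 h3 N' q hq3 hqN' (s36t3h_mu1 h3 N' q hq3) = s36t3h_mu1 h3 N' q hq3 :=
  Subtype.ext (s36w_h_coe_WE_mu_mid L h3 (ssm_fh_hF9 h3) N' q hq.out hq3 hqN' _)

/-- `μ(X^q)` over `O` is Frobenius-fixed. -/
theorem s36t3h_frobFixed_expand : ssm_ga_FrobFixed q (qExpand ↥O q (hm_mu O h3O)) := by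
  have h := ssm_gh_mu_frobFixed O h3O q
  unfold ssm_ga_FrobFixed at h ⊢
  rw [coeffMap_qExpand, coeffMap_qExpand, h]

/-- **Frobenius on `A`, first step**: `μ₁ - μ^q ∈ 𝔪(VA)`. -/
theorem s36t3h_frobA1 :
    s36t3h_mu1 h3 N' q hq3 - hs_muE h3 (N' * q * q) ^ q ∈
      (s36ih_VA h3 O h3O hπ (N' * q) q).nonunits := by
  refine ssm_ga_frob_mem_nonunits q π hπ.ne_zero hπ.maximalIdeal_eq (hs_E L h3 (N' * q * q))
    (hsa_E_le_quotField h3 O (N' * q * q) h3O) (hm_mu O h3O) (ssm_gh_mu_frobFixed O h3O q) _ ?_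
  push_cast
  rw [← hsa_mu_eq_iota h3 O h3O]
  rfl

/-- **Frobenius on `A`, second step**: `μ₂ - μ₁^q ∈ 𝔪(VA)`. -/
theorem s36t3h_frobA2 :
    s36t3h_mu2 h3 N' q hq3 - s36t3h_mu1 h3 N' q hq3 ^ q ∈
      (s36ih_VA h3 O h3O hπ (N' * q) q).nonunits := by
  refine ssm_ga_frob_mem_nonunits q π hπ.ne_zero hπ.maximalIdeal_eq (hs_E L h3 (N' * q * q))
    (hsa_E_le_quotField h3 O (N' * q * q) h3O) (qExpand ↥O q (hm_mu O h3O))
    (s36t3h_frobFixed_expand O h3O q) _ ?_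
  push_cast
  rw [coeffMap_qExpand, ← hsa_mu_eq_iota h3 O h3O]
  rfl

/-- **Frobenius on `B`, first step**: `μ - μ₁^q ∈ 𝔪(VB)`. -/
theorem s36t3h_frobB1 :
    hs_muE h3 (N' * q * q) - s36t3h_mu1 h3 N' q hq3 ^ q ∈
      (s36ih_VB h3 O h3O hπ N' q hq3 hqN').nonunits := by
  rw [s36i_nonunits_comap', map_sub, map_pow, s36t3h_W2_mu, s36t3h_W2_mu1]
  exact s36t3h_frobA2 h3 O h3O hπ N' q hq3

/-- **Frobenius on `B`, second step**: `μ₁ - μ₂^q ∈ 𝔪(VB)`. -/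
theorem s36t3h_frobB2 :
    s36t3h_mu1 h3 N' q hq3 - s36t3h_mu2 h3 N' q hq3 ^ q ∈
      (s36ih_VB h3 O h3O hπ N' q hq3 hqN').nonunits := by
  rw [s36i_nonunits_comap', map_sub, map_pow, s36t3h_W2_mu2, s36t3h_W2_mu1]
  exact s36t3h_frobA1 h3 O h3O hπ N' q hq3

variable {VC : ValuationSubring ↥(hs_E L h3 (N' * q * q))}

include hqN' in
/-- **Frobenius on `C`, first step**: `μ₁ - μ^q ∈ 𝔪(VC)` (from `VC ∩ E₁ = VF`). -/
theorem s36t3h_frobC1 (T : s36t3h_Third h3 O h3O hπ N' q hq3 VC) :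
    s36t3h_mu1 h3 N' q hq3 - hs_muE h3 (N' * q * q) ^ q ∈ VC.nonunits := by
  have h := (s36t3h_gen_nonunits_iff (ssm_alh_E_le L h3 (ssm_fh_hF9 h3) (N' * q) q)
    (ssm_fh_V1 h3 O h3O hπ N' q) VC (s36t3h_overC h3 O h3O hπ N' q hq3 T) _).2
    (ssm_fh_frob h3 O h3O hπ N' q hq3 hqN')
  have e : IntermediateField.inclusion (ssm_alh_E_le L h3 (ssm_fh_hF9 h3) (N' * q) q)
      (ssm_fh_W h3 N' q hq3 hqN' (hs_muE h3 (N' * q)) - hs_muE h3 (N' * q) ^ q) =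
      s36t3h_mu1 h3 N' q hq3 - hs_muE h3 (N' * q * q) ^ q := by
    apply Subtype.ext
    rw [IntermediateField.coe_inclusion]
    push_cast
    rw [ssm_fh_coe_W_mu]
    rfl
  rw [e] at h
  exact h

/-- **Frobenius on `C`, second step**: `μ₁ - μ₂^q ∈ 𝔪(VC)` (from `W₂ VC = VC`). -/
theorem s36t3h_frobC2 (T : s36t3h_Third h3 O h3O hπ N' q hq3 VC)
    (hW : VC.comap (s36ih_W2 h3 N' q hq3 hqN' :
      ↥(hs_E L h3 (N' * q * q)) →+* ↥(hs_E L h3 (N' * q * q))) = VC) :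
    s36t3h_mu1 h3 N' q hq3 - s36t3h_mu2 h3 N' q hq3 ^ q ∈ VC.nonunits := by
  rw [← hW, s36i_nonunits_comap', map_sub, map_pow, s36t3h_W2_mu2, s36t3h_W2_mu1]
  exact s36t3h_frobC1 h3 O h3O hπ N' q hq3 hqN' T

/-- `q ∈ 𝔪(VA)`. -/
theorem s36t3h_qA :
    ((q : ℕ) : ↥(hs_E L h3 (N' * q * q))) ∈ (s36ih_VA h3 O h3O hπ (N' * q) q).nonunits :=
  ssm_fh_q_mem h3 O h3O hπ (N' * q) q

/-- `q ∈ 𝔪(VB)`. -/
theorem s36t3h_qB :
    ((q : ℕ) : ↥(hs_E L h3 (N' * q * q))) ∈ (s36ih_VB h3 O h3O hπ N' q hq3 hqN').nonunits := by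
  rw [s36i_nonunits_comap', map_natCast]
  exact s36t3h_qA h3 O h3O hπ N' q

/-- `q ∈ 𝔪(VC)`. -/
theorem s36t3h_qC (T : s36t3h_Third h3 O h3O hπ N' q hq3 VC) :
    ((q : ℕ) : ↥(hs_E L h3 (N' * q * q))) ∈ VC.nonunits := by
  have h := (s36t3h_gen_nonunits_iff (ssm_alh_E_le L h3 (ssm_fh_hF9 h3) (N' * q) q)
    (ssm_fh_V1 h3 O h3O hπ N' q) VC (s36t3h_overC h3 O h3O hπ N' q hq3 T) _).2
    (ssm_fh_q_mem h3 O h3O hπ N' q)
  rw [map_natCast] at h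
  exact h

set_option synthInstance.maxHeartbeats 200000 in
set_option maxHeartbeats 800000 in
/-- **[V3-ASM]-Hes (f): the integrality package** of the Hesse tower at level `N' q q`,
coordinate `x = μ - 1`, middle cusp polynomial `X² + 3X + 3`. -/
theorem s36t3h_facts
    (hprime : Prime (algebraMap ↥O
      (fc_chart ↥O ({hs_muE h3 N' - 1} : Set ↥(hs_E L h3 N'))) π))
    (T : s36t3h_Third h3 O h3O hπ N' q hq3 VC) :
    s36ig_Facts ↥O q (hs_muE h3 (N' * q * q) - 1) (s36t3h_mu1 h3 N' q hq3 - 1)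
      (s36t3h_mu2 h3 N' q hq3 - 1) (X ^ 2 + 3 * X + 3)
      (s36ih_VA h3 O h3O hπ (N' * q) q) (s36ih_VB h3 O h3O hπ N' q hq3 hqN') VC := by
  haveI := ssm_go_isScalarTower O (hs_E L h3 (N' * q * q))
  haveI := ssm_glh_finite h3 (N' * q * q)
  have hx := ssm_sgm_transcendental h3 (N' * q * q)
  have H := s36t3h_hyp h3 O h3O hπ N' q hq3 hqN' hprime T
  have H' := s36tp_ff_hyp_inv (L := L) hπ hx H
  have hW := s36t3h_comap_W2 h3 O h3O hπ N' q hq3 hqN' hprime T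
  haveI : IsIntegrallyClosed (Algebra.adjoin ↥O
      ({hs_muE h3 (N' * q * q) - 1} : Set ↥(hs_E L h3 (N' * q * q)))) :=
    fc_ff_isIntegrallyClosed (fc_ff_transcendental (L := L) hx)
  haveI : IsIntegrallyClosed (Algebra.adjoin ↥O
      ({(hs_muE h3 (N' * q * q) - 1)⁻¹} : Set ↥(hs_E L h3 (N' * q * q)))) :=
    fc_ff_isIntegrallyClosed (fc_ff_transcendental (L := L)
      (ssm_sgm_transcendental_inv h3 (N' * q * q)))
  exact s36igh_main (L := L) hπ hx (s36tp_three_overA H) (s36tp_three_overB H)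
    (s36tp_three_overC H) (s36tp_three_semilocal H) (s36tp_three_semilocal H') q
    (s36t3h_qA h3 O h3O hπ N' q) (s36t3h_qB h3 O h3O hπ N' q hq3 hqN')
    (s36t3h_qC h3 O h3O hπ N' q hq3 T)
    (s36t3h_frobA1 h3 O h3O hπ N' q hq3) (s36t3h_frobA2 h3 O h3O hπ N' q hq3)
    (s36t3h_frobB1 h3 O h3O hπ N' q hq3 hqN') (s36t3h_frobB2 h3 O h3O hπ N' q hq3 hqN')
    (s36t3h_frobC1 h3 O h3O hπ N' q hq3 hqN' T) (s36t3h_frobC2 h3 O h3O hπ N' q hq3 hqN' T hW)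
    (s36mch_cuspFacts01 L h3 (N' * q) q hq.out hq3)
    (s36mch_cuspFacts02 L h3 (N' * q) q hq.out hq3 (dvd_mul_left q N'))

set_option synthInstance.maxHeartbeats 200000 in
set_option maxHeartbeats 800000 in
/-- **[V3-ASM]-Hes, THE PACKAGE**: over an unramified base (`q = π u`, `u ∈ Oˣ`) and with `π`
prime on the `(μ - 1)`-chart at level `N'`, there is a third valuation subring `VC` of
`E₂ = hs_E L h3 (N' q q)` with: the third-valuation package, [TP3] for `![VA, VB, VC]` with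
exponents `![1, 1, q - 1]`, `VC ∩ E₀ = Gauss E₀`, `κ(VC) = κ(Gauss E₀)`, `W₂ VC = VC`, and the
integrality package. -/
theorem s36t3h_main
    (hprime : Prime (algebraMap ↥O
      (fc_chart ↥O ({hs_muE h3 N' - 1} : Set ↥(hs_E L h3 N'))) π))
    (u : ↥O) (hu : IsUnit u) (hqu : ((q : ℕ) : ↥O) = π * u) :
    ∃ VC : ValuationSubring ↥(hs_E L h3 (N' * q * q)),
      s36t3h_Third h3 O h3O hπ N' q hq3 VC ∧
      s36tp_Hyp
        (algebraMap ↥O (Algebra.adjoin ↥O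
          ({hs_muE h3 (N' * q * q) - 1} : Set ↥(hs_E L h3 (N' * q * q)))) π)
        ![s36ih_VA h3 O h3O hπ (N' * q) q, s36ih_VB h3 O h3O hπ N' q hq3 hqN', VC]
        ![1, 1, q - 1] ∧
      (∀ z : ↥(hs_E L h3 N'), IntermediateField.inclusion (s36cph_E_le2 h3 N' q) z ∈ VC ↔
        z ∈ gq_valSubOf π hπ.ne_zero hπ.maximalIdeal_eq (hs_E L h3 N')
          ((s36cph_E_le2 h3 N' q).trans (hsa_E_le_quotField h3 O (N' * q * q) h3O))) ∧
      (∀ a ∈ VC,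
        ∃ r : ↥(gq_valSubOf π hπ.ne_zero hπ.maximalIdeal_eq (hs_E L h3 N')
            ((s36cph_E_le2 h3 N' q).trans (hsa_E_le_quotField h3 O (N' * q * q) h3O))),
          a - IntermediateField.inclusion (s36cph_E_le2 h3 N' q) (r : ↥(hs_E L h3 N')) ∈
            VC.nonunits) ∧
      VC.comap (s36ih_W2 h3 N' q hq3 hqN' :
        ↥(hs_E L h3 (N' * q * q)) →+* ↥(hs_E L h3 (N' * q * q))) = VC ∧
      s36ig_Facts ↥O q (hs_muE h3 (N' * q * q) - 1) (s36t3h_mu1 h3 N' q hq3 - 1)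
        (s36t3h_mu2 h3 N' q hq3 - 1) (X ^ 2 + 3 * X + 3)
        (s36ih_VA h3 O h3O hπ (N' * q) q) (s36ih_VB h3 O h3O hπ N' q hq3 hqN') VC := by
  obtain ⟨VC, T⟩ := s36t3h_third h3 O h3O hπ N' q hq3 hqN' u hu hqu
  exact ⟨VC, T, s36t3h_hyp h3 O h3O hπ N' q hq3 hqN' hprime T,
    s36t3h_VC_iff h3 O h3O hπ N' q hq3 T, s36t3h_resC h3 O h3O hπ N' q hq3 hqN' T,
    s36t3h_comap_W2 h3 O h3O hπ N' q hq3 hqN' hprime T,
    s36t3h_facts h3 O h3O hπ N' q hq3 hqN' hprime T⟩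

end ThreeHesB

end Fermat.Agent.S36
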