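/-
Project S36 (Carayol), cell [M2], leaf [V3-ASM]-Hes, part C (helper8; prefix `s36t3h_`):
`W₂` PRESERVES THE CHARTS of the top level of the Hesse tower — the hypotheses `hWB1`, `hWB2` of
helper12's `s36cph_hes_smooth` (S36/Model/Smooth3InstHes.lean) VERBATIM, as closed terms.

* `s36t3h_W2_x'`   : `W₂ (μ - 1) = μ₂ - 1`;
* `s36t3h_W_charts_of` : from any `F : s36ig_Facts ↥O q (μ - 1) (μ₁ - 1) (μ₂ - 1) c VA VB VC`
  (helper29's `s36ig_W_charts`);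
* `s36t3h_W_charts` : from `hprime` (level `N'`) and `T : s36t3h_Third … VC`: `W₂` preserves
  `fc_chart ↥O {x}`, `fc_chart ↥O {x⁻¹}`, `fc_chart ↥O {x, x⁻¹}`, `x = hs_muE h3 (N' q q) - 1`.
-/
import Mathlib
import Fermat.Agent.S36.Model.ThreeHesB

set_option autoImplicit false
set_option linter.unusedSectionVars false
set_option linter.unusedVariables false
set_option linter.style.haveILetI false

noncomputable section

open ModularCurve IntermediateField IsLocalRing Polynomial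
open Fermat.Agent.JT3 Fermat.Agent.SS

namespace Fermat.Agent.S36

section ThreeHesC

variable {L : Type*} [Field L] [CharZero L] [Algebra L (AlgebraicClosure ℚ)] (h3 : (3 : L) ≠ 0)
  (O : ValuationSubring L) [IsDiscreteValuationRing O] (h3O : IsUnit (3 : O)) {π : O}
  (hπ : Irreducible π)
variable (N' q : ℕ) [NeZero N'] [NeZero q] [hq : Fact q.Prime] [CharP (ResidueField O) q]
  (hq3 : ¬ 3 ∣ q) (hqN' : ¬ q ∣ N')

/-- `W₂ (μ - 1) = μ₂ - 1`. -/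
theorem s36t3h_W2_x' :
    s36ih_W2 h3 N' q hq3 hqN' (hs_muE h3 (N' * q * q) - 1) = s36t3h_mu2 h3 N' q hq3 - 1 := by
  rw [map_sub, map_one, s36t3h_W2_mu]

variable {VC : ValuationSubring ↥(hs_E L h3 (N' * q * q))}

set_option synthInstance.maxHeartbeats 200000 in
/-- `W₂` preserves the three charts, from the integrality package. -/
theorem s36t3h_W_charts_of {c : ℤ[X]}
    (F : s36ig_Facts ↥O q (hs_muE h3 (N' * q * q) - 1) (s36t3h_mu1 h3 N' q hq3 - 1)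
      (s36t3h_mu2 h3 N' q hq3 - 1) c
      (s36ih_VA h3 O h3O hπ (N' * q) q) (s36ih_VB h3 O h3O hπ N' q hq3 hqN') VC) :
    (∀ b ∈ fc_chart ↥O ({hs_muE h3 (N' * q * q) - 1} : Set ↥(hs_E L h3 (N' * q * q))),
      s36ih_W2 h3 N' q hq3 hqN' b ∈
        fc_chart ↥O ({hs_muE h3 (N' * q * q) - 1} : Set ↥(hs_E L h3 (N' * q * q)))) ∧
    (∀ b ∈ fc_chart ↥O ({(hs_muE h3 (N' * q * q) - 1)⁻¹} : Set ↥(hs_E L h3 (N' * q * q))),
      s36ih_W2 h3 N' q hq3 hqN' b ∈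
        fc_chart ↥O ({(hs_muE h3 (N' * q * q) - 1)⁻¹} : Set ↥(hs_E L h3 (N' * q * q)))) ∧
    (∀ b ∈ fc_chart ↥O ({hs_muE h3 (N' * q * q) - 1, (hs_muE h3 (N' * q * q) - 1)⁻¹} :
        Set ↥(hs_E L h3 (N' * q * q))),
      s36ih_W2 h3 N' q hq3 hqN' b ∈
        fc_chart ↥O ({hs_muE h3 (N' * q * q) - 1, (hs_muE h3 (N' * q * q) - 1)⁻¹} :
          Set ↥(hs_E L h3 (N' * q * q)))) :=
  s36ig_W_charts (s36ih_W2 h3 N' q hq3 hqN') (s36cph_W2_algebraMap h3 O N' q hq3 hqN')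
    (s36t3h_W2_x' h3 N' q hq3 hqN') F

set_option synthInstance.maxHeartbeats 200000 in
/-- **`hWB1`, `hWB2` (and the chart `{x, x⁻¹}`) of `s36cph_hes_smooth`, closed**: `W₂` preserves the
charts of the top level. -/
theorem s36t3h_W_charts
    (hprime : Prime (algebraMap ↥O
      (fc_chart ↥O ({hs_muE h3 N' - 1} : Set ↥(hs_E L h3 N'))) π))
    (T : s36t3h_Third h3 O h3O hπ N' q hq3 VC) :
    (∀ b ∈ fc_chart ↥O ({hs_muE h3 (N' * q * q) - 1} : Set ↥(hs_E L h3 (N' * q * q))),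
      s36ih_W2 h3 N' q hq3 hqN' b ∈
        fc_chart ↥O ({hs_muE h3 (N' * q * q) - 1} : Set ↥(hs_E L h3 (N' * q * q)))) ∧
    (∀ b ∈ fc_chart ↥O ({(hs_muE h3 (N' * q * q) - 1)⁻¹} : Set ↥(hs_E L h3 (N' * q * q))),
      s36ih_W2 h3 N' q hq3 hqN' b ∈
        fc_chart ↥O ({(hs_muE h3 (N' * q * q) - 1)⁻¹} : Set ↥(hs_E L h3 (N' * q * q)))) ∧
    (∀ b ∈ fc_chart ↥O ({hs_muE h3 (N' * q * q) - 1, (hs_muE h3 (N' * q * q) - 1)⁻¹} :
        Set ↥(hs_E L h3 (N' * q * q))),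
      s36ih_W2 h3 N' q hq3 hqN' b ∈
        fc_chart ↥O ({hs_muE h3 (N' * q * q) - 1, (hs_muE h3 (N' * q * q) - 1)⁻¹} :
          Set ↥(hs_E L h3 (N' * q * q)))) :=
  s36t3h_W_charts_of h3 O h3O hπ N' q hq3 hqN'
    (s36t3h_facts h3 O h3O hπ N' q hq3 hqN' hprime T)

end ThreeHesC

end Fermat.Agent.S36
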