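/-
Project S36 (Carayol), cell [M2], layer [L4], HESSE: THE LAST MILE (helper12, Hesse coordinator;
twin of helper1's `Model/AsmLegFinal.lean`).  Prefix `s36mhf_`.

Everything that is a closed term on main is plugged in here, per base `(L, O)` of [NF2H-CTX]:
* (T3), (H), (F), `hVC`, `hresC` : helper8's `s36t3h_main` (third valuation over an unramified base,
  [TP3] with `e = ![1, 1, q - 1]`, the integrality package);
* (W) : helper8's `s36t3h_W_charts_of` (`W₂` preserves the two charts);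
* (P) : `s36mhf_pts_of` (`Model/AsmHesPts.lean`): the point clauses at `q - 1 = 1` from the above and
  the two-component clause `s36mhf_PtsT` on the chart `B_x`.

`s36mhf_Leaves3 N' q hq3 hqN'` = WHAT IS STILL MISSING, per base and per third valuation `VC` with
its package `s36t3h_Third`: (TOWER) helper11's `s36at_Tower` on the Hesse tower, (TRI) the
two-component clause.  `s36mhf_coreNF_two_of3 : s36mhf_Leaves3 N' 2 … → s36h_CoreNF N' 2 …` (= (C-H)
of `S36/FinalTwo.lean`).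
-/
import Mathlib
import Fermat.Agent.S36.Model.AsmHesPts
import Fermat.Agent.S36.Model.ThreeHesC

set_option autoImplicit false
set_option linter.unusedSectionVars false
set_option linter.unusedVariables false
set_option linter.style.haveILetI false
set_option maxHeartbeats 1000000

noncomputable section

open ModularCurve AlgebraicCurve IntermediateField IsLocalRing
open Fermat.Agent.JT3 Fermat.Agent.SS Fermat.Agent.S35

namespace Fermat.Agent.S36

section NF

variable (N' q : ℕ) [NeZero N'] [NeZero q] [hq : Fact q.Prime] (hq3 : ¬ 3 ∣ q) (hqN' : ¬ q ∣ N')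

/-- **WHAT IS STILL MISSING FOR (C-H)**, per base `(L, O)` of [NF2H-CTX] and per third valuation
`VC` with its package `s36t3h_Third`: (TOWER) the tower package, (TRI) the points on two
components (chart `B_x` only). -/
def s36mhf_Leaves3 : Prop :=
  ∀ (L : Type) [Field L] [NumberField L] [Algebra L (AlgebraicClosure ℚ)] (h3 : (3 : L) ≠ 0)
    (O : ValuationSubring L) [IsDiscreteValuationRing O] (h3O : IsUnit (3 : O))
    [CharP (ResidueField O) q] (hπ : Irreducible ((q : ℕ) : ↥O))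
    (ζ : L) (hζ : IsPrimitiveRoot ζ (3 * N')),
    ∀ VC : ValuationSubring ↥(hs_E L h3 (N' * q * q)), s36t3h_Third h3 O h3O hπ N' q hq3 VC →
      (∃ (πF : ↥(ssm_fh_V1 h3 O h3O hπ N' q)) (πV : ↥(s36ih_VV h3 O h3O hπ N' q hq3 hqN'))
        (πU : ↥(s36ih_RU h3 O h3O hπ N' q hq3 hqN'))
        (πG : ↥(s36ih_RG h3 O h3O hπ (N' * q) q hq3))
        (zC zC' tB tA : ↥(hs_E L h3 (N' * q * q)))
        (rB : ↥(s36ih_VV h3 O h3O hπ N' q hq3 hqN'))
        (rA : ↥(s36ih_RG h3 O h3O hπ (N' * q) q hq3)),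
        s36asmh_Tower h3 O h3O hπ N' q hq3 hqN' VC πF πV πU πG zC zC' tB tA rB rA) ∧
      s36mhf_PtsT h3 O h3O hπ N' q hq3 hqN' VC

set_option synthInstance.maxHeartbeats 200000 in
set_option maxHeartbeats 1600000 in
/-- the last mile at `q - 1 = 1`: `s36mhf_Leaves3 → s36asmh_Leaves2 … 1` (helper8's package and
the point dispatch plugged). -/
theorem s36mhf_leaves2_of3 (he : q - 1 = 1) (H : s36mhf_Leaves3 N' q hq3 hqN') :
    s36asmh_Leaves2 N' q hq3 hqN' 1 := by
  intro L _ _ _ h3 O _ h3O _ hπ ζ hζ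
  have hprime := (s36cph_nf_pkg L h3 O N' q hq3 hqN' hπ ζ hζ).1
  have hqu : ((q : ℕ) : ↥O) = ((q : ℕ) : ↥O) * 1 := (mul_one _).symm
  obtain ⟨VC, T, H3, -, -, -, F⟩ :=
    s36t3h_main h3 O h3O hπ N' q hq3 hqN' hprime 1 isUnit_one hqu
  obtain ⟨hWB1, hWB2, -⟩ := s36t3h_W_charts_of h3 O h3O hπ N' q hq3 hqN' F
  obtain ⟨⟨πF, πV, πU, πG, zC, zC', tB, tA, rB, rA, Tw⟩, PT⟩ := H L h3 O h3O hπ ζ hζ VC T
  exact ⟨VC, πF, πV, πU, πG, zC, zC', tB, tA, rB, rA, Tw, H3,
    s36mhf_pts_of L h3 O h3O N' q hq3 hqN' hπ ζ hζ he T F hWB1 hWB2 PT 1⟩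

end NF

section Two

/-- **[L4]-Hes at `q = 2`, the last mile**: `s36mhf_Leaves3 N' 2 …` ⟹
`s36h_CoreNF N' 2 s36_not_three_dvd_two` (= (C-H) of `S36/FinalTwo.lean`). -/
theorem s36mhf_coreNF_two_of3 (N' : ℕ) [NeZero N'] (h2N' : ¬ 2 ∣ N')
    (H : haveI : Fact (Nat.Prime 2) := ⟨Nat.prime_two⟩
      s36mhf_Leaves3 N' 2 s36_not_three_dvd_two h2N') :
    s36h_CoreNF N' 2 s36_not_three_dvd_two :=
  haveI : Fact (Nat.Prime 2) := ⟨Nat.prime_two⟩
  s36asmh_coreNF_two_of2 N' h2N' 1 one_ne_zero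
    (s36mhf_leaves2_of3 N' 2 s36_not_three_dvd_two h2N' rfl H)

end Two

end Fermat.Agent.S36
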