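/-
Project S36 (Carayol), cell [M2], layer [L4], HESSE: THE LAST MILE, part 2 (helper12).
Prefix `s36mhf_`.

The tower package (TOWER-H) is now a closed term: helper11's `s36at_hes_tower` (`ATower/Hes.lean`)
on helper8's third-valuation package `s36t3h_Third` and norm hypothesis `s36t3h_hN`.

* `s36mhf_tower_of_third` : `s36t3h_Third … VC → s36asmh_Tower … VC …` over an unramified base;
* `s36mhf_Leaves4` : WHAT IS STILL MISSING for (C-H): the two-component clause `s36mhf_PtsT` on the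
  chart `B_x`, per base of [NF2H-CTX] and per third valuation `VC` with its package;
* `s36mhf_coreNF_two_of4 : s36mhf_Leaves4 N' 2 … → s36h_CoreNF N' 2 s36_not_three_dvd_two`.
-/
import Mathlib
import Fermat.Agent.S36.Model.AsmHesFinal
import Fermat.Agent.S36.Model.ThreeHesN
import Fermat.Agent.S36.ATower.Hes

set_option autoImplicit false
set_option linter.unusedSectionVars false
set_option linter.unusedVariables false
set_option linter.style.haveILetI false
set_option maxHeartbeats 1000000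

noncomputable section

open ModularCurve AlgebraicCurve IntermediateField IsLocalRing
open Fermat.Agent.JT3 Fermat.Agent.SS Fermat.Agent.S35

namespace Fermat.Agent.S36

section Hesse

variable {L : Type*} [Field L] [CharZero L] [Algebra L (AlgebraicClosure ℚ)] (h3 : (3 : L) ≠ 0)
  (O : ValuationSubring L) [IsDiscreteValuationRing O] (h3O : IsUnit (3 : O)) {π : O}
  (hπ : Irreducible π)
variable (N' q : ℕ) [NeZero N'] [NeZero q] [hq : Fact q.Prime] [CharP (ResidueField O) q]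
  (hq3 : ¬ 3 ∣ q) (hqN' : ¬ q ∣ N')

set_option synthInstance.maxHeartbeats 200000 in
set_option maxHeartbeats 1600000 in
/-- (TOWER-H), helper11 + helper8: the tower package from the third-valuation package, over an
unramified base. -/
theorem s36mhf_tower_of_third (u : ↥O) (hu : IsUnit u) (hqu : ((q : ℕ) : ↥O) = π * u)
    {VC : ValuationSubring ↥(hs_E L h3 (N' * q * q))}
    (T : s36t3h_Third h3 O h3O hπ N' q hq3 VC) :
    s36asmh_Tower h3 O h3O hπ N' q hq3 hqN' VC (s36at_hes_piF h3 O h3O hπ N' q)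
      (s36at_hes_piV h3 O h3O hπ N' q hq3 hqN')
      (s36ih_wRF h3 O h3O hπ N' q hq3 hqN' (s36at_hes_piF h3 O h3O hπ N' q))
      (s36ih_wR h3 O h3O hπ N' q hq3 hqN' (s36at_hes_piV h3 O h3O hπ N' q hq3 hqN'))
      (s36t3h_z h3 N' q hq3) (s36ih_W2 h3 N' q hq3 hqN' (s36t3h_z h3 N' q hq3))
      (s36ih_x2 h3 N' q hq3) (s36ih_W2 h3 N' q hq3 hqN' (s36ih_x2 h3 N' q hq3))
      (s36ih_x1V h3 O h3O hπ N' q hq3 hqN')
      (s36ih_wR h3 O h3O hπ N' q hq3 hqN' (s36ih_x1V h3 O h3O hπ N' q hq3 hqN')) :=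
  s36at_hes_tower h3 O h3O hπ N' q hq3 hqN' T (s36t3h_hN h3 O h3O hπ N' q hq3 hqN' u hu hqu)

end Hesse

section NF

variable (N' q : ℕ) [NeZero N'] [NeZero q] [hq : Fact q.Prime] (hq3 : ¬ 3 ∣ q) (hqN' : ¬ q ∣ N')

/-- **WHAT IS STILL MISSING FOR (C-H)**, per base `(L, O)` of [NF2H-CTX] and per third valuation
`VC` with its package `s36t3h_Third`: (TRI) the points on two components (chart `B_x` only). -/
def s36mhf_Leaves4 : Prop :=
  ∀ (L : Type) [Field L] [NumberField L] [Algebra L (AlgebraicClosure ℚ)] (h3 : (3 : L) ≠ 0)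
    (O : ValuationSubring L) [IsDiscreteValuationRing O] (h3O : IsUnit (3 : O))
    [CharP (ResidueField O) q] (hπ : Irreducible ((q : ℕ) : ↥O))
    (ζ : L) (hζ : IsPrimitiveRoot ζ (3 * N')),
    ∀ VC : ValuationSubring ↥(hs_E L h3 (N' * q * q)), s36t3h_Third h3 O h3O hπ N' q hq3 VC →
      s36mhf_PtsT h3 O h3O hπ N' q hq3 hqN' VC

/-- the tower plugged: `s36mhf_Leaves4 → s36mhf_Leaves3`. -/
theorem s36mhf_leaves3_of4 (H : s36mhf_Leaves4 N' q hq3 hqN') : s36mhf_Leaves3 N' q hq3 hqN' := by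
  intro L _ _ _ h3 O _ h3O _ hπ ζ hζ VC T
  exact ⟨⟨_, _, _, _, _, _, _, _, _, _,
    s36mhf_tower_of_third h3 O h3O hπ N' q hq3 hqN' 1 isUnit_one (mul_one _).symm T⟩,
    H L h3 O h3O hπ ζ hζ VC T⟩

end NF

section Two

/-- **[L4]-Hes at `q = 2`**: the two-component clause ⟹ `s36h_CoreNF N' 2 s36_not_three_dvd_two`
(= (C-H) of `S36/FinalTwo.lean`). -/
theorem s36mhf_coreNF_two_of4 (N' : ℕ) [NeZero N'] (h2N' : ¬ 2 ∣ N')
    (H : haveI : Fact (Nat.Prime 2) := ⟨Nat.prime_two⟩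
      s36mhf_Leaves4 N' 2 s36_not_three_dvd_two h2N') :
    s36h_CoreNF N' 2 s36_not_three_dvd_two :=
  haveI : Fact (Nat.Prime 2) := ⟨Nat.prime_two⟩
  s36mhf_coreNF_two_of3 N' h2N' (s36mhf_leaves3_of4 N' 2 s36_not_three_dvd_two h2N' H)

end Two

end Fermat.Agent.S36
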