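/-
Project S36 (Carayol), cell [M2], layer [L4], THE TOWER SIDE OF THE LAST MILE (helper26, cut of
helper1 #2494 (4), ruling (E3) of the S36 architect helper25).  Prefix `s36i_`.

* `s36i_side_of_third` (abstract): helper29's third-valuation package `s36t3_Third` over `R`, my
  one-valuation data `s36i_Data` over `R'` and helper8's norm clause give helper11's `s36at_Side`;
* `s36i_piV` : the constant `π` as an element of `VV`, irreducible (`s36i_piV_irreducible`);
* `s36i_leg_tower` : on the Legendre tower, `T3 : s36t3_Third ↥E₁ ↥VF q πF z VA VC`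
  (`z = λ₂ - λ`, helper8's spelling) ⟹ helper1's `s36asm_Tower` (= helper11's `s36at_Tower`);
* `s36i_leg_towerPack` : `∃ VC, T3 ∧ ∃ πV πU πG zC' tB tA rB rA, s36asm_Tower …` as a closed
  term (from helper15's `s36t3l_leg_third`).
-/
import Mathlib
import Fermat.Agent.S36.Model.AsmLeg
import Fermat.Agent.S36.Model.ThreeLegAlt
import Fermat.Agent.S36.Ins1.MirrorLeg
import Fermat.Agent.S36.Ins1.Consts

set_option autoImplicit false
set_option linter.unusedSectionVars false
set_option linter.unusedVariables false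
set_option linter.style.haveILetI false

noncomputable section

open ModularCurve AlgebraicCurve IntermediateField IsLocalRing
open Fermat.Agent.JT3 Fermat.Agent.SS Fermat.Agent.S35

namespace Fermat.Agent.S36

section Abstract

variable {K : Type*} {E : Type*} [Field K] [Field E] [Algebra K E] [FiniteDimensional K E]
  [Algebra.IsSeparable K E]
  {R : Type*} [CommRing R] [IsDomain R] [IsDiscreteValuationRing R] [Algebra R K]
  [IsFractionRing R K] [Algebra R E] [IsScalarTower R K E]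
  {R' : Type*} [CommRing R'] [IsDomain R'] [IsDiscreteValuationRing R'] [Algebra R' K]
  [IsFractionRing R' K] [Algebra R' E] [IsScalarTower R' K E]

/-- **one side of the tower from the third-valuation package**: `T3` over `R`, the one-valuation
data over `R'`, the norm clause. -/
theorem s36i_side_of_third {q : ℕ} {VX VY VC : ValuationSubring E} {π : R} {π' : R'} {z t : E}
    {r : R'} (hq : 2 ≤ q) (hπ : Irreducible π) (hπ' : Irreducible π')
    (T3 : s36t3_Third K R q π z VX VC) (D : s36i_Data K R' q VY t r)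
    (hN : ∃ c w : R, c ∉ maximalIdeal R ^ 2 ∧
      Algebra.norm K z * algebraMap R K w = algebraMap R K c) :
    s36at_Side K R R' q VX VY VC π π' z t r where
  two_le := hq
  finrank_eq := D.finrank_eq
  irr := hπ
  irr' := hπ'
  overX := T3.overA
  overC := T3.overC
  ne := T3.centre_ne
  map_eq := T3.map_eq
  fX := T3.fA
  fC := T3.fC
  dataY := D
  unifC :=
    { ne_zero := by
        rintro rfl
        exact T3.z_unitA.2 (by
          rw [ValuationSubring.mem_nonunits_iff, map_zero]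
          exact zero_lt_one)
      mem := T3.z_mem
      gen := fun a ha => by
        obtain ⟨b, hb, hab⟩ := (T3.unifC a).1 ha
        exact ⟨b, hb, hab⟩ }
  zX := s36at_val_eq_one T3.z_unitA.1 T3.z_unitA.2
  ram := by
    obtain ⟨u, hu, hu', hπu⟩ := T3.ramC
    refine ⟨u, s36at_val_one_of_inv_mem ?_ hu hu', hπu⟩
    rintro rfl
    rw [zero_mul] at hπu
    have hinj : Function.Injective (algebraMap R E) := by
      rw [IsScalarTower.algebraMap_eq R K E]
      exact (algebraMap K E).injective.comp (IsFractionRing.injective R K)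
    exact hπ.ne_zero (hinj (by rw [hπu, map_zero]))
  normz := hN

end Abstract

section Legendre

variable {L : Type*} [Field L] [CharZero L] [Algebra L (AlgebraicClosure ℚ)]
  (O : ValuationSubring L) [IsDiscreteValuationRing O] {π : O} (hπ : Irreducible π)
variable (N' q : ℕ) [NeZero N'] [NeZero q] [hq : Fact q.Prime] [CharP (ResidueField O) q]
  (hq2 : ¬ 2 ∣ q) (hqN' : ¬ q ∣ N')

/-- the constant `π` as an element of `VV = W₁(Gauss)`. -/
def s36i_piV : ↥(s36i_VV O hπ N' q hq2 hqN') :=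
  ⟨algebraMap L ↥(lg_E L (N' * q)) ((π : ↥O) : L), by
    rw [ValuationSubring.mem_comap]
    show ssm_gl_W L N' q hq2 hqN' (algebraMap L ↥(lg_E L (N' * q)) ((π : ↥O) : L)) ∈ _
    rw [ssm_gl_W_apply, AlgEquiv.commutes]
    exact (gq_unif π hπ.ne_zero hπ.maximalIdeal_eq (lg_E L (N' * q))
      (ssm_ga_E_le_quotField O (N' * q))).2⟩

theorem s36i_coe_piV :
    ((s36i_piV O hπ N' q hq2 hqN' : ↥(s36i_VV O hπ N' q hq2 hqN')) : ↥(lg_E L (N' * q))) =
      algebraMap L ↥(lg_E L (N' * q)) ((π : ↥O) : L) := rfl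

/-- `π` is a uniformiser of `VV`. -/
theorem s36i_piV_irreducible : Irreducible (s36i_piV O hπ N' q hq2 hqN') := by
  have h : s36i_comapEquiv (ssm_gl_V1 O hπ N' q) (ssm_gl_W L N' q hq2 hqN')
      (s36i_piV O hπ N' q hq2 hqN') =
      gq_unif π hπ.ne_zero hπ.maximalIdeal_eq (lg_E L (N' * q))
        (ssm_ga_E_le_quotField O (N' * q)) := by
    apply Subtype.ext
    rw [s36i_coe_comapEquiv]
    show ssm_gl_W L N' q hq2 hqN' (algebraMap L ↥(lg_E L (N' * q)) ((π : ↥O) : L)) = _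
    rw [ssm_gl_W_apply, AlgEquiv.commutes]
    rfl
  have h2 := ssm_ga_unif_irreducible π hπ.ne_zero hπ.maximalIdeal_eq (lg_E L (N' * q))
    (ssm_ga_E_le_quotField O (N' * q))
  rw [← h] at h2
  exact (MulEquiv.irreducible_iff
    (s36i_comapEquiv (ssm_gl_V1 O hπ N' q) (ssm_gl_W L N' q hq2 hqN'))).1 h2

include hqN' in
set_option synthInstance.maxHeartbeats 200000 in
set_option maxHeartbeats 1000000 in
/-- **[L2]-FINAL, Legendre tower**: helper1's `s36asm_Tower` (= helper11's `s36at_Tower` on the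
Legendre tower) from the third-valuation package `T3` over `VF` (`z = λ₂ - λ`, helper8's spelling,
`πF` = the constant `π` in `VF`). -/
theorem s36i_leg_tower (u : ↥O) (hu : IsUnit u) (hqu : ((q : ℕ) : ↥O) = π * u)
    {VC : ValuationSubring ↥(lg_E L (N' * q * q))}
    (T3 :
      letI := ssm_gi_algebra (ssm_al_E_le L (N' * q) q)
      letI := ssm_gi_algebraV (ssm_al_E_le L (N' * q) q) (ssm_gl_V1 O hπ N' q)
      haveI := ssm_gi_isScalarTower (ssm_al_E_le L (N' * q) q) (ssm_gl_V1 O hπ N' q)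
      s36t3_Third ↥(lg_E L (N' * q)) ↥(ssm_gl_V1 O hπ N' q) q
        (gq_unif π hπ.ne_zero hπ.maximalIdeal_eq (lg_E L (N' * q))
          (ssm_ga_E_le_quotField O (N' * q)))
        (s36th_lam2 L N' q hq2 hqN' -
          algebraMap ↥(lg_E L (N' * q)) ↥(lg_E L (N' * q * q)) (lg_lamE (N' * q)))
        (s36i_VA O hπ (N' * q) q) VC) :
    letI := ssm_gi_algebra (ssm_al_E_le L (N' * q) q)
    s36asm_Tower O hπ N' q hq2 hqN' VC
      (gq_unif π hπ.ne_zero hπ.maximalIdeal_eq (lg_E L (N' * q))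
        (ssm_ga_E_le_quotField O (N' * q)))
      (s36i_piV O hπ N' q hq2 hqN')
      (s36i_wRF O hπ N' q hq2 hqN'
        (gq_unif π hπ.ne_zero hπ.maximalIdeal_eq (lg_E L (N' * q))
          (ssm_ga_E_le_quotField O (N' * q))))
      (s36i_wR O hπ N' q hq2 hqN' (s36i_piV O hπ N' q hq2 hqN'))
      (s36th_lam2 L N' q hq2 hqN' -
        algebraMap ↥(lg_E L (N' * q)) ↥(lg_E L (N' * q * q)) (lg_lamE (N' * q)))
      (s36i_W2 L N' q hq2 hqN' (s36th_lam2 L N' q hq2 hqN' -
        algebraMap ↥(lg_E L (N' * q)) ↥(lg_E L (N' * q * q)) (lg_lamE (N' * q))))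
      (s36i_lam2 L N' q hq2) (s36i_W2 L N' q hq2 hqN' (s36i_lam2 L N' q hq2))
      (s36i_lam1V O hπ N' q hq2 hqN')
      (s36i_wR O hπ N' q hq2 hqN' (s36i_lam1V O hπ N' q hq2 hqN')) := by
  letI := ssm_gi_algebra (ssm_al_E_le L (N' * q) q)
  letI := ssm_gi_algebra (ssm_al_E_beta_le L (N' * q) q hq2)
  letI := ssm_gi_algebraV (ssm_al_E_le L (N' * q) q) (ssm_gl_V1 O hπ N' q)
  letI := ssm_gi_algebraV (ssm_al_E_le L (N' * q) q) (s36i_VV O hπ N' q hq2 hqN')
  letI := ssm_gi_algebraV (ssm_al_E_beta_le L (N' * q) q hq2) (s36i_RU O hπ N' q hq2 hqN')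
  letI := ssm_gi_algebraV (ssm_al_E_beta_le L (N' * q) q hq2) (s36i_RG O hπ (N' * q) q hq2)
  haveI := ssm_gi_isScalarTower (ssm_al_E_le L (N' * q) q) (ssm_gl_V1 O hπ N' q)
  haveI := ssm_gi_isScalarTower (ssm_al_E_le L (N' * q) q) (s36i_VV O hπ N' q hq2 hqN')
  haveI := ssm_gi_isScalarTower (ssm_al_E_beta_le L (N' * q) q hq2) (s36i_RU O hπ N' q hq2 hqN')
  haveI := ssm_gi_isScalarTower (ssm_al_E_beta_le L (N' * q) q hq2)
    (s36i_RG O hπ (N' * q) q hq2)
  have hq1 : q - 1 + 1 = q := Nat.sub_add_cancel hq.out.one_le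
  have DB := s36i_leg_dataB O hπ N' q hq2 hqN'
  have DA := s36i_leg_dataA O hπ (N' * q) q hq2 (Dvd.intro_left N' rfl)
  haveI : FiniteDimensional ↥(lg_E L (N' * q)) ↥(lg_E L (N' * q * q)) :=
    ssm_gi_finiteDimensional (n := q - 1) (by rw [hq1]; exact DB.finrank_eq)
  haveI : FiniteDimensional ↥((lg_E L (N' * q)).map (qExpandAlgHomC L q))
      ↥(lg_E L (N' * q * q)) :=
    ssm_gi_finiteDimensional (n := q - 1) (by rw [hq1]; exact DA.finrank_eq)
  haveI : Algebra.IsSeparable ↥(lg_E L (N' * q)) ↥(lg_E L (N' * q * q)) := ssm_gi_isSeparable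
  haveI : Algebra.IsSeparable ↥((lg_E L (N' * q)).map (qExpandAlgHomC L q))
      ↥(lg_E L (N' * q * q)) := ssm_gi_isSeparable
  have side1 : s36at_Side ↥(lg_E L (N' * q)) ↥(ssm_gl_V1 O hπ N' q)
      ↥(s36i_VV O hπ N' q hq2 hqN') q (s36i_VA O hπ (N' * q) q) (s36i_VB O hπ N' q hq2 hqN') VC
      (gq_unif π hπ.ne_zero hπ.maximalIdeal_eq (lg_E L (N' * q))
        (ssm_ga_E_le_quotField O (N' * q)))
      (s36i_piV O hπ N' q hq2 hqN')
      (s36th_lam2 L N' q hq2 hqN' -
        algebraMap ↥(lg_E L (N' * q)) ↥(lg_E L (N' * q * q)) (lg_lamE (N' * q)))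
      (s36i_lam2 L N' q hq2) (s36i_lam1V O hπ N' q hq2 hqN') :=
    s36i_side_of_third hq.out.two_le
      (ssm_ga_unif_irreducible π hπ.ne_zero hπ.maximalIdeal_eq (lg_E L (N' * q))
        (ssm_ga_E_le_quotField O (N' * q)))
      (s36i_piV_irreducible O hπ N' q hq2 hqN') T3 DB
      (s36th_leg_hN O hπ N' q hq2 hqN' u hu hqu)
  have side2 := s36i_leg_side2 O hπ N' q hq2 hqN' side1 T3.only
  have hW2c : ∀ c : L, s36i_W2 L N' q hq2 hqN' (algebraMap L ↥(lg_E L (N' * q * q)) c) =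
      algebraMap L ↥(lg_E L (N' * q * q)) c :=
    fun c => (s36w_WE L N' q hq.out hq2 hqN').commutes c
  have hπF : algebraMap ↥(ssm_gl_V1 O hπ N' q) ↥(lg_E L (N' * q * q))
      (gq_unif π hπ.ne_zero hπ.maximalIdeal_eq (lg_E L (N' * q))
        (ssm_ga_E_le_quotField O (N' * q))) =
      algebraMap L ↥(lg_E L (N' * q * q)) ((π : ↥O) : L) :=
    s36vh_gauss_pi O hπ (lg_E L (N' * q)) (lg_E L (N' * q * q)) (ssm_al_E_le L (N' * q) q)
      (ssm_ga_E_le_quotField O (N' * q * q))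
  have hπV : algebraMap ↥(s36i_VV O hπ N' q hq2 hqN') ↥(lg_E L (N' * q * q))
      (s36i_piV O hπ N' q hq2 hqN') =
      algebraMap L ↥(lg_E L (N' * q * q)) ((π : ↥O) : L) := rfl
  refine ⟨side1, side2, s36i_leg_hVA O hπ N' q, s36i_leg_hVB O hπ N' q hq2 hqN', hπF, hπV, ?_, ?_⟩
  · rw [s36i_algebraMap_wRF, hπF, hW2c]
  · rw [s36i_algebraMap_wR, hπV, hW2c]

include hqN' in
set_option synthInstance.maxHeartbeats 200000 in
set_option maxHeartbeats 1000000 in
/-- **the tower side of the last mile, closed term**: a third valuation `VC` with helper29's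
package `T3` over `VF` (every further leaf — (H), the points — is a function of `T3`) AND helper1's
tower package `s36asm_Tower`, all other parameters explicit. -/
theorem s36i_leg_towerPack (u : ↥O) (hu : IsUnit u) (hqu : ((q : ℕ) : ↥O) = π * u) :
    letI := ssm_gi_algebra (ssm_al_E_le L (N' * q) q)
    letI := ssm_gi_algebraV (ssm_al_E_le L (N' * q) q) (ssm_gl_V1 O hπ N' q)
    haveI := ssm_gi_isScalarTower (ssm_al_E_le L (N' * q) q) (ssm_gl_V1 O hπ N' q)
    ∃ VC : ValuationSubring ↥(lg_E L (N' * q * q)),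
      s36t3_Third ↥(lg_E L (N' * q)) ↥(ssm_gl_V1 O hπ N' q) q
        (gq_unif π hπ.ne_zero hπ.maximalIdeal_eq (lg_E L (N' * q))
          (ssm_ga_E_le_quotField O (N' * q)))
        (s36th_lam2 L N' q hq2 hqN' -
          algebraMap ↥(lg_E L (N' * q)) ↥(lg_E L (N' * q * q)) (lg_lamE (N' * q)))
        (s36i_VA O hπ (N' * q) q) VC ∧
      s36asm_Tower O hπ N' q hq2 hqN' VC
        (gq_unif π hπ.ne_zero hπ.maximalIdeal_eq (lg_E L (N' * q))
          (ssm_ga_E_le_quotField O (N' * q)))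
        (s36i_piV O hπ N' q hq2 hqN')
        (s36i_wRF O hπ N' q hq2 hqN'
          (gq_unif π hπ.ne_zero hπ.maximalIdeal_eq (lg_E L (N' * q))
            (ssm_ga_E_le_quotField O (N' * q))))
        (s36i_wR O hπ N' q hq2 hqN' (s36i_piV O hπ N' q hq2 hqN'))
        (s36th_lam2 L N' q hq2 hqN' -
          algebraMap ↥(lg_E L (N' * q)) ↥(lg_E L (N' * q * q)) (lg_lamE (N' * q)))
        (s36i_W2 L N' q hq2 hqN' (s36th_lam2 L N' q hq2 hqN' -
          algebraMap ↥(lg_E L (N' * q)) ↥(lg_E L (N' * q * q)) (lg_lamE (N' * q))))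
        (s36i_lam2 L N' q hq2) (s36i_W2 L N' q hq2 hqN' (s36i_lam2 L N' q hq2))
        (s36i_lam1V O hπ N' q hq2 hqN')
        (s36i_wR O hπ N' q hq2 hqN' (s36i_lam1V O hπ N' q hq2 hqN')) := by
  obtain ⟨VC, T3⟩ := s36t3l_leg_third O hπ N' q hq2 hqN' u hu hqu
  exact ⟨VC, T3, s36i_leg_tower O hπ N' q hq2 hqN' u hu hqu T3⟩

include hqN' in
set_option synthInstance.maxHeartbeats 200000 in
set_option maxHeartbeats 1000000 in
/-- the same in the existential shape of helper1's `s36asm_Leaves2` (`T3` kept). -/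
theorem s36i_leg_towerPack' (u : ↥O) (hu : IsUnit u) (hqu : ((q : ℕ) : ↥O) = π * u) :
    letI := ssm_gi_algebra (ssm_al_E_le L (N' * q) q)
    letI := ssm_gi_algebraV (ssm_al_E_le L (N' * q) q) (ssm_gl_V1 O hπ N' q)
    haveI := ssm_gi_isScalarTower (ssm_al_E_le L (N' * q) q) (ssm_gl_V1 O hπ N' q)
    ∃ VC : ValuationSubring ↥(lg_E L (N' * q * q)),
      s36t3_Third ↥(lg_E L (N' * q)) ↥(ssm_gl_V1 O hπ N' q) q
        (gq_unif π hπ.ne_zero hπ.maximalIdeal_eq (lg_E L (N' * q))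
          (ssm_ga_E_le_quotField O (N' * q)))
        (s36th_lam2 L N' q hq2 hqN' -
          algebraMap ↥(lg_E L (N' * q)) ↥(lg_E L (N' * q * q)) (lg_lamE (N' * q)))
        (s36i_VA O hπ (N' * q) q) VC ∧
      ∃ (πV : ↥(s36i_VV O hπ N' q hq2 hqN'))
        (πU : ↥(s36i_RU O hπ N' q hq2 hqN')) (πG : ↥(s36i_RG O hπ (N' * q) q hq2))
        (zC' tB tA : ↥(lg_E L (N' * q * q))) (rB : ↥(s36i_VV O hπ N' q hq2 hqN'))
        (rA : ↥(s36i_RG O hπ (N' * q) q hq2)),
        s36asm_Tower O hπ N' q hq2 hqN' VC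
          (gq_unif π hπ.ne_zero hπ.maximalIdeal_eq (lg_E L (N' * q))
            (ssm_ga_E_le_quotField O (N' * q)))
          πV πU πG
          (s36th_lam2 L N' q hq2 hqN' -
            algebraMap ↥(lg_E L (N' * q)) ↥(lg_E L (N' * q * q)) (lg_lamE (N' * q)))
          zC' tB tA rB rA := by
  obtain ⟨VC, T3, T⟩ := s36i_leg_towerPack O hπ N' q hq2 hqN' u hu hqu
  exact ⟨VC, T3, _, _, _, _, _, _, _, _, T⟩

end Legendre

section NF2

variable {L : Type*} [Field L] [CharZero L] [Algebra L (AlgebraicClosure ℚ)]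
  (O : ValuationSubring L) [IsDiscreteValuationRing O]
variable (N' q : ℕ) [NeZero N'] [NeZero q] [hq : Fact q.Prime] [CharP (ResidueField O) q]
  (hq2 : ¬ 2 ∣ q) (hqN' : ¬ q ∣ N') (hπ : Irreducible ((q : ℕ) : ↥O))

include hqN' in
set_option synthInstance.maxHeartbeats 200000 in
set_option maxHeartbeats 1000000 in
/-- **[NF2-CTX] form** (`π = q`, `u = 1`): the tower side of helper1's `s36asm_Leaves2`. -/
theorem s36i_leg_towerPack_q :
    letI := ssm_gi_algebra (ssm_al_E_le L (N' * q) q)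
    letI := ssm_gi_algebraV (ssm_al_E_le L (N' * q) q) (ssm_gl_V1 O hπ N' q)
    haveI := ssm_gi_isScalarTower (ssm_al_E_le L (N' * q) q) (ssm_gl_V1 O hπ N' q)
    ∃ VC : ValuationSubring ↥(lg_E L (N' * q * q)),
      s36t3_Third ↥(lg_E L (N' * q)) ↥(ssm_gl_V1 O hπ N' q) q
        (gq_unif ((q : ℕ) : ↥O) hπ.ne_zero hπ.maximalIdeal_eq (lg_E L (N' * q))
          (ssm_ga_E_le_quotField O (N' * q)))
        (s36th_lam2 L N' q hq2 hqN' -
          algebraMap ↥(lg_E L (N' * q)) ↥(lg_E L (N' * q * q)) (lg_lamE (N' * q)))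
        (s36i_VA O hπ (N' * q) q) VC ∧
      ∃ (πV : ↥(s36i_VV O hπ N' q hq2 hqN'))
        (πU : ↥(s36i_RU O hπ N' q hq2 hqN')) (πG : ↥(s36i_RG O hπ (N' * q) q hq2))
        (zC' tB tA : ↥(lg_E L (N' * q * q))) (rB : ↥(s36i_VV O hπ N' q hq2 hqN'))
        (rA : ↥(s36i_RG O hπ (N' * q) q hq2)),
        s36asm_Tower O hπ N' q hq2 hqN' VC
          (gq_unif ((q : ℕ) : ↥O) hπ.ne_zero hπ.maximalIdeal_eq (lg_E L (N' * q))
            (ssm_ga_E_le_quotField O (N' * q)))
          πV πU πG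
          (s36th_lam2 L N' q hq2 hqN' -
            algebraMap ↥(lg_E L (N' * q)) ↥(lg_E L (N' * q * q)) (lg_lamE (N' * q)))
          zC' tB tA rB rA :=
  s36i_leg_towerPack' O hπ N' q hq2 hqN' 1 isUnit_one (mul_one _).symm

end NF2

end Fermat.Agent.S36
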