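/-
Project S36 (Carayol), cell [M2], leaf [L3a] (helper17): THE REDUCED COMPONENT `C_red` (vertical
prime `P_VC`) IS SMOOTH AT EVERY CLOSED POINT — the `C`-twin of `S36/Model/CompSmoothInst.lean`
(request of helper25, NOTE 4 (C5): the input `hgen` of `s36wk_tp_hloc` at the `C`-only points,
cusps included):

  `∀ 𝔫 maximal of B, ∃ t ∈ 𝔫, ∀ x ∈ 𝔫, ∃ s ∉ 𝔫, s * x ∈ P_V ⊔ span {t}`

for ANY valuation subring `V` of `E` over the Gauss ring of `O[y]` with `V ∩ E' = Gauss(E')` and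
`κ(V) = κ(Gauss E')` (`V = VC`: [V3-ASM] `hVC`, `hresC`; any multiplicity `e 2`).

* `s36cp_si_compV_chart` : one chart of a tower `E' ≤ E ≤ Quot(O((X)))`;
* `s36cp_si_compV_gen`   : both charts `lam`, `lam⁻¹`;
* `s36cp_leg_compC`      : the Legendre tower `lg_E L N' ≤ lg_E L (N' q q)`;
* `s36cp_nf_compC`       : [NF2-CTX], level-`N'` package discharged.
Prefix `s36cp_`.
-/
import Mathlib
import Fermat.Agent.S36.Model.PtsAB

set_option autoImplicit false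
set_option linter.unusedSectionVars false
set_option linter.unusedVariables false
set_option linter.style.haveILetI false

noncomputable section

open ModularCurve IntermediateField IsLocalRing
open Fermat.Agent.JT3 Fermat.Agent.SS

namespace Fermat.Agent.S36

section Generic

variable {L : Type*} [Field L] [CharZero L] (O : ValuationSubring L)
  [IsDiscreteValuationRing O] {π : O} (hπ : Irreducible π)
variable (E' E : IntermediateField L (LaurentSeries L)) (hle : E' ≤ E)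
  (hE : E ≤ gq_quotField O L)

set_option synthInstance.maxHeartbeats 200000 in
set_option maxHeartbeats 400000 in
/-- **the component of `V` is smooth at every closed point of one chart** `fc_chart O {yE}`, for a
valuation subring `V` of `E` over the Gauss ring of `O[yE]` with `V ∩ E' = Gauss(E')` and
`κ(V) = κ(Gauss E')`. -/
theorem s36cp_si_compV_chart (V : ValuationSubring ↥E)
    (y : ↥E') (yE : ↥E) (hyE : IntermediateField.inclusion hle y = yE)
    (hy : Transcendental L y) [FiniteDimensional L⟮y⟯ ↥E'] (hyEt : Transcendental L yE)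
    (hover : ssm_tp_Over (algebraMap ↥O (Algebra.adjoin ↥O ({y} : Set ↥E')) π)
      (gq_valSubOf π hπ.ne_zero hπ.maximalIdeal_eq E' (hle.trans hE)))
    (hV : ssm_tp_Over (algebraMap ↥O (Algebra.adjoin ↥O ({yE} : Set ↥E)) π) V)
    (hVov : ∀ z : ↥E', IntermediateField.inclusion hle z ∈ V ↔
      z ∈ gq_valSubOf π hπ.ne_zero hπ.maximalIdeal_eq E' (hle.trans hE))
    (hres : ∀ a ∈ V,
      ∃ r : ↥(gq_valSubOf π hπ.ne_zero hπ.maximalIdeal_eq E' (hle.trans hE)),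
        a - IntermediateField.inclusion hle (r : ↥E') ∈ V.nonunits)
    (hprime : Prime (algebraMap ↥O (fc_chart ↥O ({y} : Set ↥E')) π))
    (hic : IsIntegrallyClosed (fc_chart ↥O ({y} : Set ↥E') ⧸
      (Ideal.span {algebraMap ↥O (fc_chart ↥O ({y} : Set ↥E')) π} :
        Ideal (fc_chart ↥O ({y} : Set ↥E')))))
    (hreg : jt_RegAt (fc_chart ↥O ({y} : Set ↥E'))
      (algebraMap ↥O (fc_chart ↥O ({y} : Set ↥E')) π)) :
    ∀ 𝔫 : Ideal (fc_chart ↥O ({yE} : Set ↥E)), 𝔫.IsMaximal →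
      ∃ t ∈ 𝔫, ∀ x ∈ 𝔫, ∃ s : fc_chart ↥O ({yE} : Set ↥E), s ∉ 𝔫 ∧
        s * x ∈ ssm_tp_P (fc_chart ↥O ({yE} : Set ↥E)) V ⊔ Ideal.span {t} := by
  subst hyE
  letI := ssm_gi_algebra hle
  letI := ssm_gi_algebraV hle (gq_valSubOf π hπ.ne_zero hπ.maximalIdeal_eq E' (hle.trans hE))
  haveI := ssm_gi_isScalarTower hle
    (gq_valSubOf π hπ.ne_zero hπ.maximalIdeal_eq E' (hle.trans hE))
  haveI := ssm_go_isScalarTower O E
  haveI := ssm_go_isScalarTower O E'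
  haveI := ssm_gt_isScalarTower O hle
  have hVK : ∀ z : ↥E', z ∈ gq_valSubOf π hπ.ne_zero hπ.maximalIdeal_eq E' (hle.trans hE) ↔
      z ∈ (algebraMap ↥(gq_valSubOf π hπ.ne_zero hπ.maximalIdeal_eq E' (hle.trans hE)) ↥E').range :=
    fun z => (ssm_gi_mem_range _ z).symm
  have hVover : ∀ z : ↥E', algebraMap ↥E' ↥E z ∈ V ↔
      z ∈ (algebraMap ↥(gq_valSubOf π hπ.ne_zero hπ.maximalIdeal_eq E' (hle.trans hE)) ↥E').range := by
    intro z
    rw [ssm_gi_mem_range]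
    exact hVov z
  have hres' : ∀ a ∈ V,
      ∃ r : ↥(gq_valSubOf π hπ.ne_zero hπ.maximalIdeal_eq E' (hle.trans hE)),
        a - algebraMap ↥(gq_valSubOf π hπ.ne_zero hπ.maximalIdeal_eq E' (hle.trans hE)) ↥E r ∈
          V.nonunits := hres
  intro 𝔫 h𝔫
  exact s36cp_ff_compA (L := L)
    (R' := ↥(gq_valSubOf π hπ.ne_zero hπ.maximalIdeal_eq E' (hle.trans hE)))
    hπ hy hyEt hprime hic
    (gq_valSubOf π hπ.ne_zero hπ.maximalIdeal_eq E' (hle.trans hE)) hVK hover hV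
    hVover hres' hreg 𝔫 h𝔫

set_option synthInstance.maxHeartbeats 200000 in
set_option maxHeartbeats 800000 in
/-- **the component of `V` is smooth at every closed point of the two charts** `lam`, `lam⁻¹`. -/
theorem s36cp_si_compV_gen (V : ValuationSubring ↥E)
    (ys : LaurentSeries O) (n : ℤ) (hn0 : n ≠ 0) (hyn : residue O (ys.coeff n) ≠ 0) (lam' : ↥E')
    (hlam : (lam' : LaurentSeries L) = coeffMap (algebraMap O L) ys)
    [FiniteDimensional L⟮lam'⟯ ↥E']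
    [FiniteDimensional L⟮IntermediateField.inclusion hle lam'⟯ ↥E]
    (hV : ssm_tp_Over
      (algebraMap ↥O (Algebra.adjoin ↥O ({IntermediateField.inclusion hle lam'} : Set ↥E)) π) V)
    (hVov : ∀ z : ↥E', IntermediateField.inclusion hle z ∈ V ↔
      z ∈ gq_valSubOf π hπ.ne_zero hπ.maximalIdeal_eq E' (hle.trans hE))
    (hres : ∀ a ∈ V,
      ∃ r : ↥(gq_valSubOf π hπ.ne_zero hπ.maximalIdeal_eq E' (hle.trans hE)),
        a - IntermediateField.inclusion hle (r : ↥E') ∈ V.nonunits)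
    (hprime1 : Prime (algebraMap ↥O (fc_chart ↥O ({lam'} : Set ↥E')) π))
    (hprime2 : Prime (algebraMap ↥O (fc_chart ↥O ({lam'⁻¹} : Set ↥E')) π))
    (hic1 : IsIntegrallyClosed (fc_chart ↥O ({lam'} : Set ↥E') ⧸
      (Ideal.span {algebraMap ↥O (fc_chart ↥O ({lam'} : Set ↥E')) π} :
        Ideal (fc_chart ↥O ({lam'} : Set ↥E')))))
    (hic2 : IsIntegrallyClosed (fc_chart ↥O ({lam'⁻¹} : Set ↥E') ⧸
      (Ideal.span {algebraMap ↥O (fc_chart ↥O ({lam'⁻¹} : Set ↥E')) π} :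
        Ideal (fc_chart ↥O ({lam'⁻¹} : Set ↥E')))))
    (hreg1 : jt_RegAt (fc_chart ↥O ({lam'} : Set ↥E'))
      (algebraMap ↥O (fc_chart ↥O ({lam'} : Set ↥E')) π))
    (hreg2 : jt_RegAt (fc_chart ↥O ({lam'⁻¹} : Set ↥E'))
      (algebraMap ↥O (fc_chart ↥O ({lam'⁻¹} : Set ↥E')) π)) :
    (∀ 𝔫 : Ideal (fc_chart ↥O ({IntermediateField.inclusion hle lam'} : Set ↥E)), 𝔫.IsMaximal →
      ∃ t ∈ 𝔫, ∀ x ∈ 𝔫,
        ∃ s : fc_chart ↥O ({IntermediateField.inclusion hle lam'} : Set ↥E), s ∉ 𝔫 ∧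
        s * x ∈ ssm_tp_P (fc_chart ↥O ({IntermediateField.inclusion hle lam'} : Set ↥E)) V ⊔
          Ideal.span {t}) ∧
    (∀ 𝔫 : Ideal (fc_chart ↥O ({(IntermediateField.inclusion hle lam')⁻¹} : Set ↥E)),
      𝔫.IsMaximal → ∃ t ∈ 𝔫, ∀ x ∈ 𝔫,
        ∃ s : fc_chart ↥O ({(IntermediateField.inclusion hle lam')⁻¹} : Set ↥E), s ∉ 𝔫 ∧
        s * x ∈ ssm_tp_P (fc_chart ↥O ({(IntermediateField.inclusion hle lam')⁻¹} : Set ↥E)) V ⊔
          Ideal.span {t}) := by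
  haveI := ssm_go_isScalarTower O E
  haveI := ssm_go_isScalarTower O E'
  have hx : Transcendental L lam' := ssm_go_transcendental O E' ys lam' hlam hn0 hyn
  have hxE : Transcendental L (IntermediateField.inclusion hle lam') :=
    ssm_go_transcendental O E ys (IntermediateField.inclusion hle lam') hlam hn0 hyn
  have hxi : Transcendental L lam'⁻¹ := fun h => hx (IsAlgebraic.inv_iff.mp h)
  have hxEi : Transcendental L (IntermediateField.inclusion hle lam')⁻¹ :=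
    fun h => hxE (IsAlgebraic.inv_iff.mp h)
  have hover := ssm_go_over O E' ys lam' hlam hπ (hle.trans hE) hn0 hyn
  have hover' := ssm_tp_over_inv (fc_ff_transcendental (L := L) hx)
    (fc_ff_transcendental (L := L) hxi) hπ.not_isUnit hover
  have hV' := ssm_tp_over_inv (fc_ff_transcendental (L := L) hxE)
    (fc_ff_transcendental (L := L) hxEi) hπ.not_isUnit hV
  haveI : FiniteDimensional L⟮lam'⁻¹⟯ ↥E' := by
    rw [rt_adjoin_inv]; infer_instance
  exact ⟨s36cp_si_compV_chart O hπ E' E hle hE V lam' (IntermediateField.inclusion hle lam') rfl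
      hx hxE hover hV hVov hres hprime1 hic1 hreg1,
    s36cp_si_compV_chart O hπ E' E hle hE V lam'⁻¹ (IntermediateField.inclusion hle lam')⁻¹
      (map_inv₀ (IntermediateField.inclusion hle) lam') hxi hxEi hover' hV' hVov hres hprime2 hic2
      hreg2⟩

end Generic

section Legendre

variable {L : Type*} [Field L] [CharZero L] [Algebra L (AlgebraicClosure ℚ)]
  (O : ValuationSubring L) [IsDiscreteValuationRing O] {π : O} (hπ : Irreducible π)
variable (N' q : ℕ) [NeZero N'] [NeZero q] [hq : Fact q.Prime] [CharP (ResidueField O) q]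
  (hq2 : ¬ 2 ∣ q) (hqN' : ¬ q ∣ N')

include hq2 in
set_option synthInstance.maxHeartbeats 200000 in
set_option maxHeartbeats 800000 in
/-- **[L3a], Legendre tower: the component `C_red` is smooth at every closed point** of the two
charts `x`, `x⁻¹` of level `N' q q`, for every third valuation `VC` over the Gauss ring of `O[x]`
with `VC ∩ E₀ = Gauss(E₀)` (`hVC`) and `κ(VC) = κ(Gauss E₀)` (`hresC`). -/
theorem s36cp_leg_compC (VC : ValuationSubring ↥(lg_E L (N' * q * q)))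
    (hV : ssm_tp_Over
      (algebraMap ↥O (Algebra.adjoin ↥O ({lg_lamE (N' * q * q)} : Set ↥(lg_E L (N' * q * q)))) π)
      VC)
    (hVC : ∀ z : ↥(lg_E L N'), IntermediateField.inclusion (s36cp_E_le2 L N' q) z ∈ VC ↔
      z ∈ gq_valSubOf π hπ.ne_zero hπ.maximalIdeal_eq (lg_E L N')
        ((s36cp_E_le2 L N' q).trans (ssm_ga_E_le_quotField O (N' * q * q))))
    (hresC : ∀ a ∈ VC,
      ∃ r : ↥(gq_valSubOf π hπ.ne_zero hπ.maximalIdeal_eq (lg_E L N')
          ((s36cp_E_le2 L N' q).trans (ssm_ga_E_le_quotField O (N' * q * q)))),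
        a - IntermediateField.inclusion (s36cp_E_le2 L N' q) (r : ↥(lg_E L N')) ∈ VC.nonunits)
    (hprime1 : Prime (algebraMap ↥O (fc_chart ↥O ({lg_lamE N'} : Set ↥(lg_E L N'))) π))
    (hprime2 : Prime (algebraMap ↥O (fc_chart ↥O ({(lg_lamE N')⁻¹} : Set ↥(lg_E L N'))) π))
    (hic1 : IsIntegrallyClosed (fc_chart ↥O ({lg_lamE N'} : Set ↥(lg_E L N')) ⧸
      (Ideal.span {algebraMap ↥O (fc_chart ↥O ({lg_lamE N'} : Set ↥(lg_E L N'))) π} :
        Ideal (fc_chart ↥O ({lg_lamE N'} : Set ↥(lg_E L N'))))))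
    (hic2 : IsIntegrallyClosed (fc_chart ↥O ({(lg_lamE N')⁻¹} : Set ↥(lg_E L N')) ⧸
      (Ideal.span {algebraMap ↥O (fc_chart ↥O ({(lg_lamE N')⁻¹} : Set ↥(lg_E L N'))) π} :
        Ideal (fc_chart ↥O ({(lg_lamE N')⁻¹} : Set ↥(lg_E L N'))))))
    (hreg1 : jt_RegAt (fc_chart ↥O ({lg_lamE N'} : Set ↥(lg_E L N')))
      (algebraMap ↥O (fc_chart ↥O ({lg_lamE N'} : Set ↥(lg_E L N'))) π))
    (hreg2 : jt_RegAt (fc_chart ↥O ({(lg_lamE N')⁻¹} : Set ↥(lg_E L N')))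
      (algebraMap ↥O (fc_chart ↥O ({(lg_lamE N')⁻¹} : Set ↥(lg_E L N'))) π)) :
    (∀ 𝔫 : Ideal (fc_chart ↥O ({lg_lamE (N' * q * q)} : Set ↥(lg_E L (N' * q * q)))),
      𝔫.IsMaximal → ∃ t ∈ 𝔫, ∀ x ∈ 𝔫,
        ∃ s : fc_chart ↥O ({lg_lamE (N' * q * q)} : Set ↥(lg_E L (N' * q * q))), s ∉ 𝔫 ∧
        s * x ∈ ssm_tp_P (fc_chart ↥O ({lg_lamE (N' * q * q)} : Set ↥(lg_E L (N' * q * q)))) VC ⊔
          Ideal.span {t}) ∧
    (∀ 𝔫 : Ideal (fc_chart ↥O ({(lg_lamE (N' * q * q))⁻¹} : Set ↥(lg_E L (N' * q * q)))),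
      𝔫.IsMaximal → ∃ t ∈ 𝔫, ∀ x ∈ 𝔫,
        ∃ s : fc_chart ↥O ({(lg_lamE (N' * q * q))⁻¹} : Set ↥(lg_E L (N' * q * q))), s ∉ 𝔫 ∧
        s * x ∈ ssm_tp_P
          (fc_chart ↥O ({(lg_lamE (N' * q * q))⁻¹} : Set ↥(lg_E L (N' * q * q)))) VC ⊔
          Ideal.span {t}) := by
  haveI := lgf_finite L N'
  haveI : FiniteDimensional
      L⟮IntermediateField.inclusion (s36cp_E_le2 L N' q) (lg_lamE N')⟯ ↥(lg_E L (N' * q * q)) :=
    lgf_finite L (N' * q * q)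
  have hn0 : (1 : ℤ) ≠ 0 := one_ne_zero
  exact s36cp_si_compV_gen O hπ (lg_E L N') (lg_E L (N' * q * q)) (s36cp_E_le2 L N' q)
    (ssm_ga_E_le_quotField O (N' * q * q)) VC (hm_lam O) 1 hn0
    (ssm_ga_lam_coeff_one O (ssm_gl_two_ne_zero O q hq2)) (lg_lamE N')
    (hm_coeffMap_lam _).symm hV hVC hresC hprime1 hprime2 hic1 hic2 hreg1 hreg2

end Legendre

section NF

variable (L : Type) [Field L] [NumberField L] [Algebra L (AlgebraicClosure ℚ)]
  (O : ValuationSubring L) [IsDiscreteValuationRing O] {π : O} (hπ : Irreducible π)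
variable (N' q : ℕ) [NeZero N'] [NeZero q] [hq : Fact q.Prime] [CharP (ResidueField O) q]
  (hq2 : ¬ 2 ∣ q) (hqN' : ¬ q ∣ N') (ζ : L) (hζ : IsPrimitiveRoot ζ N')

include hζ hqN' hq2 in
set_option synthInstance.maxHeartbeats 200000 in
set_option maxHeartbeats 800000 in
/-- **[L3a], [NF2-CTX]: `C_red` is smooth at every closed point** of `B_x`, `B_{x⁻¹}` (the input
`hgen` of helper25's `s36wk_tp_hloc` at the `C`-only points, cusps included). -/
theorem s36cp_nf_compC (VC : ValuationSubring ↥(lg_E L (N' * q * q)))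
    (hV : ssm_tp_Over
      (algebraMap ↥O (Algebra.adjoin ↥O ({lg_lamE (N' * q * q)} : Set ↥(lg_E L (N' * q * q)))) π)
      VC)
    (hVC : ∀ z : ↥(lg_E L N'), IntermediateField.inclusion (s36cp_E_le2 L N' q) z ∈ VC ↔
      z ∈ gq_valSubOf π hπ.ne_zero hπ.maximalIdeal_eq (lg_E L N')
        ((s36cp_E_le2 L N' q).trans (ssm_ga_E_le_quotField O (N' * q * q))))
    (hresC : ∀ a ∈ VC,
      ∃ r : ↥(gq_valSubOf π hπ.ne_zero hπ.maximalIdeal_eq (lg_E L N')
          ((s36cp_E_le2 L N' q).trans (ssm_ga_E_le_quotField O (N' * q * q)))),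
        a - IntermediateField.inclusion (s36cp_E_le2 L N' q) (r : ↥(lg_E L N')) ∈ VC.nonunits) :
    (∀ 𝔫 : Ideal (fc_chart ↥O ({lg_lamE (N' * q * q)} : Set ↥(lg_E L (N' * q * q)))),
      𝔫.IsMaximal → ∃ t ∈ 𝔫, ∀ x ∈ 𝔫,
        ∃ s : fc_chart ↥O ({lg_lamE (N' * q * q)} : Set ↥(lg_E L (N' * q * q))), s ∉ 𝔫 ∧
        s * x ∈ ssm_tp_P (fc_chart ↥O ({lg_lamE (N' * q * q)} : Set ↥(lg_E L (N' * q * q)))) VC ⊔
          Ideal.span {t}) ∧
    (∀ 𝔫 : Ideal (fc_chart ↥O ({(lg_lamE (N' * q * q))⁻¹} : Set ↥(lg_E L (N' * q * q)))),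
      𝔫.IsMaximal → ∃ t ∈ 𝔫, ∀ x ∈ 𝔫,
        ∃ s : fc_chart ↥O ({(lg_lamE (N' * q * q))⁻¹} : Set ↥(lg_E L (N' * q * q))), s ∉ 𝔫 ∧
        s * x ∈ ssm_tp_P
          (fc_chart ↥O ({(lg_lamE (N' * q * q))⁻¹} : Set ↥(lg_E L (N' * q * q)))) VC ⊔
          Ideal.span {t}) := by
  have hqO := ssm_fln_q_mem L O q
  have hq2' : q ≠ 2 := ssm_fl_ne_two q hq2
  have hp := ssm_ll_prime L N' hπ q hqO hq2' hqN' ζ hζ
  exact s36cp_leg_compC O hπ N' q hq2 VC hV hVC hresC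
    hp.1 hp.2.1 (ssm_ll_ic1 L N' hπ q hqO hq2' hqN' ζ hζ) (ssm_ll_ic2 L N' hπ q hqO hq2' hqN' ζ hζ)
    (ssm_ll_reg1 L N' hπ q hqO hq2' hqN' ζ hζ) (ssm_ll_reg2 L N' hπ q hqO hq2' hqN' ζ hζ)

end NF

end Fermat.Agent.S36
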