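/-
Project S36 (Carayol), cell [M2], leaf [L3a] (helper17): ADAPTOR from helper29's third-valuation
package (`s36t3_Third ↥E₁ ↥VF q π z VA VC`, S36/Model/ThreeAbs.lean: `overC`, `resC` over the
Gauss ring `VF` of the MIDDLE field `E₁`) to the inputs `hVC`, `hresC` of `s36cp_leg_compC` /
`s36cp_nf_compC` (S36/Model/CompSmoothC.lean), which are stated over the Gauss ring of the BOTTOM
field `E₀`:  `V ∩ E₀ = Gauss(E₀)` and `κ(V) = κ(Gauss E₀)`.

Generic Gauss form: `E0 ≤ E1 ≤ E2 ≤ Quot(O((X)))`, `D01` S34's two-valuations data of the lower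
step (`κ(Gauss E1) = κ(Gauss E0)`), `V` ANY valuation subring of `E2` over `Gauss(E1)` whose
residue field is that of `Gauss(E1)`.

* `s36cp_rc_over`, `s36cp_rc_res` : generic;
* `s36cp_rc_leg_over`, `s36cp_rc_leg_res` : the Legendre tower (`hVC`, `hresC` VERBATIM);
* `s36cp_nf_compC_of_over` : [NF2-CTX]: `C_red` is smooth at every closed point, from
  `ssm_tp_Over (π in O[x]) VC` (`H.ovr 2`), `ssm_tw_Over ↥E₁ ↥VF VC` (`T.overC`) and `T.resC`.
Prefix `s36cp_rc_`.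
-/
import Mathlib
import Fermat.Agent.S36.Model.CompSmoothC

set_option autoImplicit false
set_option linter.unusedSectionVars false
set_option linter.unusedVariables false
set_option linter.style.haveILetI false

noncomputable section

open ModularCurve IntermediateField IsLocalRing
open Fermat.Agent.JT3 Fermat.Agent.SS

namespace Fermat.Agent.S36

section Gauss

variable {L : Type*} [Field L] [CharZero L] (O : ValuationSubring L) [IsDiscreteValuationRing O]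
  {π : O} (hπ : Irreducible π)
variable (q : ℕ) [NeZero q] [hq : Fact q.Prime] [CharP (ResidueField O) q]
variable (E0 E1 E2 : IntermediateField L (LaurentSeries L))
variable (h01 : E0 ≤ E1) (h12 : E1 ≤ E2) (hE2 : E2 ≤ gq_quotField O L)

omit [CharZero L] [NeZero q] hq [CharP (ResidueField O) q] in
/-- `V ∩ E0 = Gauss(E0)` for a valuation subring `V` of `E2` over `Gauss(E1)`. -/
theorem s36cp_rc_over (V : ValuationSubring ↥E2)
    (hV :
      letI := ssm_gi_algebra h12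
      letI := ssm_gi_algebraV h12 (gq_valSubOf π hπ.ne_zero hπ.maximalIdeal_eq E1 (h12.trans hE2))
      ssm_tw_Over ↥E1 ↥(gq_valSubOf π hπ.ne_zero hπ.maximalIdeal_eq E1 (h12.trans hE2)) V)
    (z : ↥E0) :
    IntermediateField.inclusion (h01.trans h12) z ∈ V ↔
      z ∈ gq_valSubOf π hπ.ne_zero hπ.maximalIdeal_eq E0 (h01.trans (h12.trans hE2)) := by
  letI := ssm_gi_algebra h12
  letI := ssm_gi_algebraV h12 (gq_valSubOf π hπ.ne_zero hπ.maximalIdeal_eq E1 (h12.trans hE2))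
  have e : IntermediateField.inclusion (h01.trans h12) z =
      algebraMap ↥E1 ↥E2 (IntermediateField.inclusion h01 z) := Subtype.ext rfl
  rw [e, hV (IntermediateField.inclusion h01 z), ssm_gi_mem_range, gq_mem_valSubOf,
    gq_mem_valSubOf]
  rfl

set_option synthInstance.maxHeartbeats 200000 in
set_option maxHeartbeats 800000 in
/-- `κ(V) = κ(Gauss E0)` for a valuation subring `V` of `E2` over `Gauss(E1)` with
`κ(V) = κ(Gauss E1)`. -/
theorem s36cp_rc_res (W1 : ↥E1 ≃+* ↥E1)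
    (lam0 : ↥(gq_valSubOf π hπ.ne_zero hπ.maximalIdeal_eq E0 (h01.trans (h12.trans hE2))))
    (D01 :
      letI := ssm_gi_algebra h01
      letI := ssm_gi_algebraV h01
        (gq_valSubOf π hπ.ne_zero hπ.maximalIdeal_eq E0 (h01.trans (h12.trans hE2)))
      ssm_tw_Data ↥E0 ↥(gq_valSubOf π hπ.ne_zero hπ.maximalIdeal_eq E0 (h01.trans (h12.trans hE2)))
        q (gq_valSubOf π hπ.ne_zero hπ.maximalIdeal_eq E1 (h12.trans hE2)) W1 lam0)
    (V : ValuationSubring ↥E2)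
    (hV :
      letI := ssm_gi_algebra h12
      letI := ssm_gi_algebraV h12 (gq_valSubOf π hπ.ne_zero hπ.maximalIdeal_eq E1 (h12.trans hE2))
      ssm_tw_Over ↥E1 ↥(gq_valSubOf π hπ.ne_zero hπ.maximalIdeal_eq E1 (h12.trans hE2)) V)
    (hres1 :
      letI := ssm_gi_algebraV h12 (gq_valSubOf π hπ.ne_zero hπ.maximalIdeal_eq E1 (h12.trans hE2))
      ∀ a ∈ V, ∃ r : ↥(gq_valSubOf π hπ.ne_zero hπ.maximalIdeal_eq E1 (h12.trans hE2)),
        a - algebraMap ↥(gq_valSubOf π hπ.ne_zero hπ.maximalIdeal_eq E1 (h12.trans hE2)) ↥E2 r ∈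
          V.nonunits)
    (a : ↥E2) (ha : a ∈ V) :
    ∃ r0 : ↥(gq_valSubOf π hπ.ne_zero hπ.maximalIdeal_eq E0 (h01.trans (h12.trans hE2))),
      a - IntermediateField.inclusion (h01.trans h12) (r0 : ↥E0) ∈ V.nonunits := by
  letI a01 := ssm_gi_algebra h01
  letI aV01 := ssm_gi_algebraV h01
    (gq_valSubOf π hπ.ne_zero hπ.maximalIdeal_eq E0 (h01.trans (h12.trans hE2)))
  haveI t01 := ssm_gi_isScalarTower h01
    (gq_valSubOf π hπ.ne_zero hπ.maximalIdeal_eq E0 (h01.trans (h12.trans hE2)))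
  letI a12 := ssm_gi_algebra h12
  letI aV12 := ssm_gi_algebraV h12
    (gq_valSubOf π hπ.ne_zero hπ.maximalIdeal_eq E1 (h12.trans hE2))
  haveI t12 := ssm_gi_isScalarTower h12
    (gq_valSubOf π hπ.ne_zero hπ.maximalIdeal_eq E1 (h12.trans hE2))
  haveI : FiniteDimensional ↥E0 ↥E1 := ssm_gi_finiteDimensional D01.finrank_eq
  haveI : Algebra.IsSeparable ↥E0 ↥E1 := ssm_gi_isSeparable
  obtain ⟨r1, hr1⟩ := hres1 a ha
  obtain ⟨r0, hr0⟩ := ssm_tw_res1 D01 (r1 : ↥E1) r1.2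
  refine ⟨r0, ?_⟩
  -- `r1 - r0 ∈ 𝔪(Gauss E1)`, hence in `𝔪(V)`
  obtain ⟨hmem, hmax⟩ := ValuationSubring.mem_nonunits_iff_exists_mem_maximalIdeal.1 hr0
  have h2 := (ssm_tw_over_nonunits hV
    (⟨(r1 : ↥E1) - algebraMap ↥(gq_valSubOf π hπ.ne_zero hπ.maximalIdeal_eq E0
      (h01.trans (h12.trans hE2))) ↥E1 r0, hmem⟩ :
      ↥(gq_valSubOf π hπ.ne_zero hπ.maximalIdeal_eq E1 (h12.trans hE2)))).2 hmax
  have e : a - IntermediateField.inclusion (h01.trans h12) (r0 : ↥E0) =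
      (a - algebraMap ↥(gq_valSubOf π hπ.ne_zero hπ.maximalIdeal_eq E1 (h12.trans hE2)) ↥E2 r1) +
        algebraMap ↥(gq_valSubOf π hπ.ne_zero hπ.maximalIdeal_eq E1 (h12.trans hE2)) ↥E2
          (⟨(r1 : ↥E1) - algebraMap ↥(gq_valSubOf π hπ.ne_zero hπ.maximalIdeal_eq E0
            (h01.trans (h12.trans hE2))) ↥E1 r0, hmem⟩ :
            ↥(gq_valSubOf π hπ.ne_zero hπ.maximalIdeal_eq E1 (h12.trans hE2))) := by
    apply Subtype.ext
    show (a : LaurentSeries L) - ((r0 : ↥E0) : LaurentSeries L) =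
      ((a : LaurentSeries L) - ((r1 : ↥E1) : LaurentSeries L)) +
        (((r1 : ↥E1) : LaurentSeries L) - ((r0 : ↥E0) : LaurentSeries L))
    ring
  rw [e]
  exact ssm_tw_nonunits_add _ hr1 h2

end Gauss

section Legendre

variable {L : Type*} [Field L] [CharZero L] [Algebra L (AlgebraicClosure ℚ)]
  (O : ValuationSubring L) [IsDiscreteValuationRing O] {π : O} (hπ : Irreducible π)
variable (N' q : ℕ) [NeZero N'] [NeZero q] [hq : Fact q.Prime] [CharP (ResidueField O) q]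
  (hq2 : ¬ 2 ∣ q) (hqN' : ¬ q ∣ N')

/-- **`hVC`, Legendre tower**, from `VC` over `VF` (`T.overC` of helper29's package). -/
theorem s36cp_rc_leg_over (VC : ValuationSubring ↥(lg_E L (N' * q * q)))
    (hV :
      letI := ssm_gi_algebra (ssm_al_E_le L (N' * q) q)
      letI := ssm_gi_algebraV (ssm_al_E_le L (N' * q) q) (ssm_gl_V1 O hπ N' q)
      ssm_tw_Over ↥(lg_E L (N' * q)) ↥(ssm_gl_V1 O hπ N' q) VC) :
    ∀ z : ↥(lg_E L N'), IntermediateField.inclusion (s36cp_E_le2 L N' q) z ∈ VC ↔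
      z ∈ gq_valSubOf π hπ.ne_zero hπ.maximalIdeal_eq (lg_E L N')
        ((s36cp_E_le2 L N' q).trans (ssm_ga_E_le_quotField O (N' * q * q))) :=
  s36cp_rc_over O hπ (lg_E L N') (lg_E L (N' * q)) (lg_E L (N' * q * q))
    (ssm_al_E_le L N' q) (ssm_al_E_le L (N' * q) q) (ssm_ga_E_le_quotField O (N' * q * q)) VC hV

include hq2 hqN' in
set_option synthInstance.maxHeartbeats 200000 in
set_option maxHeartbeats 800000 in
/-- **`hresC`, Legendre tower**, from `VC` over `VF` and `κ(VC) = κ(VF)` (`T.overC`, `T.resC` of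
helper29's package). -/
theorem s36cp_rc_leg_res (VC : ValuationSubring ↥(lg_E L (N' * q * q)))
    (hV :
      letI := ssm_gi_algebra (ssm_al_E_le L (N' * q) q)
      letI := ssm_gi_algebraV (ssm_al_E_le L (N' * q) q) (ssm_gl_V1 O hπ N' q)
      ssm_tw_Over ↥(lg_E L (N' * q)) ↥(ssm_gl_V1 O hπ N' q) VC)
    (hres1 :
      letI := ssm_gi_algebraV (ssm_al_E_le L (N' * q) q) (ssm_gl_V1 O hπ N' q)
      ∀ a ∈ VC, ∃ r : ↥(ssm_gl_V1 O hπ N' q),
        a - algebraMap ↥(ssm_gl_V1 O hπ N' q) ↥(lg_E L (N' * q * q)) r ∈ VC.nonunits) :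
    ∀ a ∈ VC,
      ∃ r : ↥(gq_valSubOf π hπ.ne_zero hπ.maximalIdeal_eq (lg_E L N')
          ((s36cp_E_le2 L N' q).trans (ssm_ga_E_le_quotField O (N' * q * q)))),
        a - IntermediateField.inclusion (s36cp_E_le2 L N' q) (r : ↥(lg_E L N')) ∈ VC.nonunits :=
  fun a ha =>
  s36cp_rc_res O hπ q (lg_E L N') (lg_E L (N' * q)) (lg_E L (N' * q * q))
    (ssm_al_E_le L N' q) (ssm_al_E_le L (N' * q) q) (ssm_ga_E_le_quotField O (N' * q * q))
    (ssm_gl_W L N' q hq2 hqN') (ssm_gl_lam O hπ N' q) (ssm_gl_data O hπ N' q hq2 hqN')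
    VC hV hres1 a ha

end Legendre

section NF

variable (L : Type) [Field L] [NumberField L] [Algebra L (AlgebraicClosure ℚ)]
  (O : ValuationSubring L) [IsDiscreteValuationRing O] {π : O} (hπ : Irreducible π)
variable (N' q : ℕ) [NeZero N'] [NeZero q] [hq : Fact q.Prime] [CharP (ResidueField O) q]
  (hq2 : ¬ 2 ∣ q) (hqN' : ¬ q ∣ N') (ζ : L) (hζ : IsPrimitiveRoot ζ N')

include hζ hq2 hqN' in
set_option synthInstance.maxHeartbeats 200000 in
set_option maxHeartbeats 800000 in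
/-- **[L3a], [NF2-CTX]: `C_red` is smooth at every closed point** of `B_x`, `B_{x⁻¹}`, from
`H.ovr 2`, `T.overC`, `T.resC` (helper24's `s36tp_Hyp`, helper29's `s36t3_Third`). -/
theorem s36cp_nf_compC_of_over (VC : ValuationSubring ↥(lg_E L (N' * q * q)))
    (hVtp : ssm_tp_Over
      (algebraMap ↥O (Algebra.adjoin ↥O ({lg_lamE (N' * q * q)} : Set ↥(lg_E L (N' * q * q)))) π)
      VC)
    (hV :
      letI := ssm_gi_algebra (ssm_al_E_le L (N' * q) q)
      letI := ssm_gi_algebraV (ssm_al_E_le L (N' * q) q) (ssm_gl_V1 O hπ N' q)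
      ssm_tw_Over ↥(lg_E L (N' * q)) ↥(ssm_gl_V1 O hπ N' q) VC)
    (hres1 :
      letI := ssm_gi_algebraV (ssm_al_E_le L (N' * q) q) (ssm_gl_V1 O hπ N' q)
      ∀ a ∈ VC, ∃ r : ↥(ssm_gl_V1 O hπ N' q),
        a - algebraMap ↥(ssm_gl_V1 O hπ N' q) ↥(lg_E L (N' * q * q)) r ∈ VC.nonunits) :
    (∀ 𝔫 : Ideal (fc_chart ↥O ({lg_lamE (N' * q * q)} : Set ↥(lg_E L (N' * q * q)))),
      𝔫.IsMaximal → ∃ t ∈ 𝔫, ∀ x ∈ 𝔫,
        ∃ s : fc_chart ↥O ({lg_lamE (N' * q * q)} : Set ↥(lg_E L (N' * q * q))), s ∉ 𝔫 ∧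
        s * x ∈ ssm_tp_P (fc_chart ↥O ({lg_lamE (N' * q * q)} : Set ↥(lg_E L (N' * q * q)))) VC ⊔
          Ideal.span {t}) ∧
    (∀ 𝔫 : Ideal (fc_chart ↥O ({(lg_lamE (N' * q * q))⁻¹} : Set ↥(lg_E L (N' * q * q)))),
      𝔫.IsMaximal → ∃ t ∈ 𝔫, ∀ x ∈ 𝔫,
        ∃ s : fc_chart ↥O ({(lg_lamE (N' * q * q))⁻¹} : Set ↥(lg_E L (N' * q * q))), s ∉ 𝔫 ∧
        s * x ∈ ssm_tp_P
          (fc_chart ↥O ({(lg_lamE (N' * q * q))⁻¹} : Set ↥(lg_E L (N' * q * q)))) VC ⊔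
          Ideal.span {t}) :=
  s36cp_nf_compC L O hπ N' q hq2 hqN' ζ hζ VC hVtp
    (s36cp_rc_leg_over O hπ N' q VC hV)
    (s36cp_rc_leg_res O hπ N' q hq2 hqN' VC hV hres1)

end NF

end Fermat.Agent.S36
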