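/-
Project S36 (Carayol), cell [M2], leaf [V3-ASM]-Hes, [NF2H-CTX] closed form (helper8; prefix
`s36t3h_nf_`): THE THREE VALUATIONS OF THE TOP LEVEL OF THE HESSE TOWER OVER A NUMBER FIELD, `π = q`.

Context [NF2H-CTX] = the binders of helper1's `s36asmh_Leaves2` / helper12's `s36cph_nf_pkg`:
`(L : Type) [Field L] [NumberField L] [Algebra L Q̄] h3 O [DVR] h3O [CharP (ResidueField O) q]
(hπ : Irreducible ((q : ℕ) : ↥O)) (ζ : L) (hζ : IsPrimitiveRoot ζ (3 * N'))`.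

* `s36t3h_nf_main` : `∃ VC, Third ∧ [TP3] ∧ hVC ∧ hresC ∧ W₂ VC = VC ∧ Facts ∧ hWB1 ∧ hWB2 ∧ hWB12`
  — everything item (H-H) of the Hesse burn-down list asks for, with NO hypothesis left
  (`hprime := (s36cph_nf_pkg …).1`, unramified base `q = q · 1`).
-/
import Mathlib
import Fermat.Agent.S36.Model.ThreeHesC
import Fermat.Agent.S36.Model.PtsABHes

set_option autoImplicit false
set_option linter.unusedSectionVars false
set_option linter.unusedVariables false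
set_option linter.style.haveILetI false

noncomputable section

open ModularCurve IntermediateField IsLocalRing Polynomial
open Fermat.Agent.JT3 Fermat.Agent.SS

namespace Fermat.Agent.S36

section NF

variable (L : Type) [Field L] [NumberField L] [Algebra L (AlgebraicClosure ℚ)]
  (h3 : (3 : L) ≠ 0) (O : ValuationSubring L) [IsDiscreteValuationRing O]
  (h3O : IsUnit (3 : O))
variable (N' q : ℕ) [NeZero N'] [NeZero q] [hq : Fact q.Prime] [CharP (ResidueField O) q]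
  (hq3 : ¬ 3 ∣ q) (hqN' : ¬ q ∣ N') (hπ : Irreducible ((q : ℕ) : ↥O))
  (ζ : L) (hζ : IsPrimitiveRoot ζ (3 * N'))

include hζ in
set_option synthInstance.maxHeartbeats 200000 in
set_option maxHeartbeats 1600000 in
/-- **[V3-ASM]-Hes, [NF2H-CTX], closed**: the third valuation `VC` of `E₂ = hs_E L h3 (N' q q)` with
the third-valuation package, [TP3], `VC ∩ E₀`, `κ(VC)`, `W₂ VC = VC`, the integrality package and
the `W₂`-stability of the three charts. -/
theorem s36t3h_nf_main :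
    ∃ VC : ValuationSubring ↥(hs_E L h3 (N' * q * q)),
      s36t3h_Third h3 O h3O hπ N' q hq3 VC ∧
      s36tp_Hyp
        (algebraMap ↥O (Algebra.adjoin ↥O
          ({hs_muE h3 (N' * q * q) - 1} : Set ↥(hs_E L h3 (N' * q * q)))) ((q : ℕ) : ↥O))
        ![s36ih_VA h3 O h3O hπ (N' * q) q, s36ih_VB h3 O h3O hπ N' q hq3 hqN', VC]
        ![1, 1, q - 1] ∧
      (∀ z : ↥(hs_E L h3 N'), IntermediateField.inclusion (s36cph_E_le2 h3 N' q) z ∈ VC ↔
        z ∈ gq_valSubOf ((q : ℕ) : ↥O) hπ.ne_zero hπ.maximalIdeal_eq (hs_E L h3 N')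
          ((s36cph_E_le2 h3 N' q).trans (hsa_E_le_quotField h3 O (N' * q * q) h3O))) ∧
      (∀ a ∈ VC,
        ∃ r : ↥(gq_valSubOf ((q : ℕ) : ↥O) hπ.ne_zero hπ.maximalIdeal_eq (hs_E L h3 N')
            ((s36cph_E_le2 h3 N' q).trans (hsa_E_le_quotField h3 O (N' * q * q) h3O))),
          a - IntermediateField.inclusion (s36cph_E_le2 h3 N' q) (r : ↥(hs_E L h3 N')) ∈
            VC.nonunits) ∧
      VC.comap (s36ih_W2 h3 N' q hq3 hqN' :
        ↥(hs_E L h3 (N' * q * q)) →+* ↥(hs_E L h3 (N' * q * q))) = VC ∧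
      s36ig_Facts ↥O q (hs_muE h3 (N' * q * q) - 1) (s36t3h_mu1 h3 N' q hq3 - 1)
        (s36t3h_mu2 h3 N' q hq3 - 1) (X ^ 2 + 3 * X + 3)
        (s36ih_VA h3 O h3O hπ (N' * q) q) (s36ih_VB h3 O h3O hπ N' q hq3 hqN') VC ∧
      (∀ b ∈ fc_chart ↥O ({hs_muE h3 (N' * q * q) - 1} : Set ↥(hs_E L h3 (N' * q * q))),
        s36ih_W2 h3 N' q hq3 hqN' b ∈
          fc_chart ↥O ({hs_muE h3 (N' * q * q) - 1} : Set ↥(hs_E L h3 (N' * q * q)))) ∧
      (∀ b ∈ fc_chart ↥O ({(hs_muE h3 (N' * q * q) - 1)⁻¹} : Set ↥(hs_E L h3 (N' * q * q))),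
        s36ih_W2 h3 N' q hq3 hqN' b ∈
          fc_chart ↥O ({(hs_muE h3 (N' * q * q) - 1)⁻¹} : Set ↥(hs_E L h3 (N' * q * q)))) ∧
      (∀ b ∈ fc_chart ↥O ({hs_muE h3 (N' * q * q) - 1, (hs_muE h3 (N' * q * q) - 1)⁻¹} :
          Set ↥(hs_E L h3 (N' * q * q))),
        s36ih_W2 h3 N' q hq3 hqN' b ∈
          fc_chart ↥O ({hs_muE h3 (N' * q * q) - 1, (hs_muE h3 (N' * q * q) - 1)⁻¹} :
            Set ↥(hs_E L h3 (N' * q * q)))) := by
  have hprime := (s36cph_nf_pkg L h3 O N' q hq3 hqN' hπ ζ hζ).1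
  obtain ⟨VC, T, H, hVC, hresC, hW, F⟩ :=
    s36t3h_main h3 O h3O hπ N' q hq3 hqN' hprime 1 isUnit_one (mul_one _).symm
  obtain ⟨hWB1, hWB2, hWB12⟩ := s36t3h_W_charts h3 O h3O hπ N' q hq3 hqN' hprime T
  exact ⟨VC, T, H, hVC, hresC, hW, F, hWB1, hWB2, hWB12⟩

end NF

end Fermat.Agent.S36
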